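import Fermat.Agent.TW.Val
import Fermat.Agent.H12.Tame

/-!
# Residues, Teichmüller representatives, tame extensions of the inertia field
-/

set_option autoImplicit false
set_option linter.unusedSectionVars false

namespace Fermat.Agent.TW

open Fermat.Agent.CC
open scoped Pointwise

/-- `x` has valuation strictly bigger than `t` -/
def Bs (w : Qb → ℝ) (t : ℝ) (x : Qb) : Prop := x = 0 ∨ t < w x

/-- Teichmüller representatives -/
def Te (p : ℕ) (r : Qb) : Prop := r = 0 ∨ ∃ m : ℕ, ¬ p ∣ m ∧ r ^ m = 1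

/-- a place of `ℚbar` over the odd prime `p` with its normalised valuation -/
structure PL (p : ℕ) (A : ValuationSubring Qb) (w : Qb → ℝ) : Prop where
  prime : p.Prime
  lies : A.LiesOverPrime p
  nv : NVal A p w

namespace NVal

variable {A : ValuationSubring Qb} {p : ℕ} {w : Qb → ℝ}

theorem Bs_zero (t : ℝ) : Bs w t 0 := Or.inl rfl

theorem Bs_bl {t : ℝ} {x : Qb} (hx : Bs w t x) : Bl w t x := hx.imp id le_of_lt

theorem Bs_of {t s : ℝ} {x : Qb} (hx : Bl w t x) (hts : s < t) : Bs w s x :=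
  hx.imp id fun h => hts.trans_le h

theorem Bs_mono {t s : ℝ} {x : Qb} (hts : s ≤ t) (hx : Bs w t x) : Bs w s x :=
  hx.imp id fun h => hts.trans_lt h

theorem Bs_iff {t : ℝ} {x : Qb} : Bs w t x ↔ ∃ s, t < s ∧ Bl w s x := by
  constructor
  · rintro (h | h)
    · exact ⟨t + 1, by linarith, Or.inl h⟩
    · exact ⟨w x, h, Or.inr le_rfl⟩
  · rintro ⟨s, hs, h⟩
    exact Bs_of h hs

theorem Bs_add (h : NVal A p w) {t : ℝ} {x y : Qb} (hx : Bs w t x) (hy : Bs w t y) :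
    Bs w t (x + y) := by
  obtain ⟨s, hs, hx⟩ := Bs_iff.1 hx
  obtain ⟨s', hs', hy⟩ := Bs_iff.1 hy
  exact Bs_iff.2 ⟨min s s', lt_min hs hs', h.add (mono (min_le_left _ _) hx)
    (mono (min_le_right _ _) hy)⟩

theorem Bs_neg (h : NVal A p w) {t : ℝ} {x : Qb} (hx : Bs w t x) : Bs w t (-x) := by
  obtain ⟨s, hs, hx⟩ := Bs_iff.1 hx
  exact Bs_iff.2 ⟨s, hs, h.neg hx⟩

theorem Bs_sub (h : NVal A p w) {t : ℝ} {x y : Qb} (hx : Bs w t x) (hy : Bs w t y) :
    Bs w t (x - y) := by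
  rw [sub_eq_add_neg]
  exact h.Bs_add hx (h.Bs_neg hy)

theorem Bs_comm (h : NVal A p w) {t : ℝ} {x y : Qb} (hx : Bs w t (x - y)) :
    Bs w t (y - x) := by
  rw [← neg_sub]
  exact h.Bs_neg hx

theorem Bl_comm (h : NVal A p w) {t : ℝ} {x y : Qb} (hx : Bl w t (x - y)) :
    Bl w t (y - x) := by
  rw [← neg_sub]
  exact h.neg hx

theorem Bs_trans (h : NVal A p w) {t : ℝ} {x y z : Qb} (hx : Bs w t (x - y))
    (hy : Bs w t (y - z)) : Bs w t (x - z) := by
  have := h.Bs_add hx hy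
  rwa [sub_add_sub_cancel] at this

theorem Bl_trans (h : NVal A p w) {t : ℝ} {x y z : Qb} (hx : Bl w t (x - y))
    (hy : Bl w t (y - z)) : Bl w t (x - z) := by
  have := h.add hx hy
  rwa [sub_add_sub_cancel] at this

theorem Bs_mul (h : NVal A p w) {t s : ℝ} {x y : Qb} (hx : Bl w t x) (hy : Bs w s y) :
    Bs w (t + s) (x * y) := by
  obtain ⟨s', hs, hy⟩ := Bs_iff.1 hy
  exact Bs_iff.2 ⟨t + s', by linarith, h.mul hx hy⟩

theorem Bs_mul' (h : NVal A p w) {t s : ℝ} {x y : Qb} (hx : Bs w t x) (hy : Bl w s y) :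
    Bs w (t + s) (x * y) := by
  rw [mul_comm, add_comm]
  exact h.Bs_mul hy hx

theorem Bs_mul_left (h : NVal A p w) {t : ℝ} {x y : Qb} (hx : Bl w 0 x) (hy : Bs w t y) :
    Bs w t (x * y) := by
  have := h.Bs_mul hx hy
  rwa [zero_add] at this

theorem Bs_mul_right (h : NVal A p w) {t : ℝ} {x y : Qb} (hx : Bs w t x) (hy : Bl w 0 y) :
    Bs w t (x * y) := by
  have := h.Bs_mul' hx hy
  rwa [add_zero] at this

theorem Bs_sum (h : NVal A p w) {ι : Type*} (s : Finset ι) (f : ι → Qb) {t : ℝ}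
    (hf : ∀ i ∈ s, Bs w t (f i)) : Bs w t (∑ i ∈ s, f i) := by
  classical
  induction s using Finset.induction_on with
  | empty => rw [Finset.sum_empty]; exact Bs_zero t
  | insert a s ha ih =>
    rw [Finset.sum_insert ha]
    exact h.Bs_add (hf a (Finset.mem_insert_self _ _))
      (ih fun i hi => hf i (Finset.mem_insert_of_mem hi))

theorem Bs_smul (h : NVal A p w) {σ : GQ} (hσ : σ ∈ A.decompositionSubgroup ℚ) {t : ℝ} {x : Qb} :
    Bs w t (σ x) ↔ Bs w t x := by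
  unfold Bs
  rw [h.w_smul hσ, map_eq_zero]

theorem nonunits_iff (h : NVal A p w) {x : Qb} : x ∈ A.nonunits ↔ Bs w 0 x := by
  rw [ValuationSubring.mem_nonunits_iff]
  by_cases hx : x = 0
  · subst hx
    rw [map_zero]
    exact ⟨fun _ => Or.inl rfl, fun _ => zero_lt_one⟩
  · rw [h.log.pos_iff hx]
    exact ⟨fun h => Or.inr h, fun h => h.resolve_left hx⟩

/-- the valuation of `x` when `x` is congruent to `y` -/
theorem w_eq_of_Bs_sub (h : NVal A p w) {x y : Qb} (hy : y ≠ 0) (hxy : Bs w (w y) (x - y)) :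
    x ≠ 0 ∧ w x = w y := by
  rcases hxy with h0 | h0
  · rw [sub_eq_zero.1 h0]; exact ⟨hy, rfl⟩
  · by_cases hxy0 : x - y = 0
    · rw [sub_eq_zero.1 hxy0]; exact ⟨hy, rfl⟩
    · have := h.w_add_eq hy hxy0 h0
      rwa [add_sub_cancel] at this

theorem unit_of_Bs (h : NVal A p w) {x y : Qb} (hy : y ≠ 0) (hwy : w y = 0)
    (hxy : Bs w 0 (x - y)) : x ≠ 0 ∧ w x = 0 := by
  have := h.w_eq_of_Bs_sub hy (by rwa [hwy])
  rwa [hwy] at this

theorem w_div (h : NVal A p w) {x y : Qb} (hx : x ≠ 0) (hy : y ≠ 0) : w (x / y) = w x - w y := by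
  rw [div_eq_mul_inv, h.log.map_mul _ _ hx (inv_ne_zero hy), h.log.inv hy, sub_eq_add_neg]

theorem w_mul (h : NVal A p w) {x y : Qb} (hx : x ≠ 0) (hy : y ≠ 0) : w (x * y) = w x + w y :=
  h.log.map_mul _ _ hx hy

theorem w_pow (h : NVal A p w) {x : Qb} (hx : x ≠ 0) (n : ℕ) : w (x ^ n) = n * w x :=
  h.log.pow hx n

theorem w_zpow (h : NVal A p w) {x : Qb} (hx : x ≠ 0) (n : ℤ) : w (x ^ n) = n * w x :=
  h.log.zpow hx n

/-- division -/
theorem Bl_div (h : NVal A p w) {t : ℝ} {x y : Qb} (hy : y ≠ 0) (hx : Bl w t x) :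
    Bl w (t - w y) (x / y) := by
  rcases hx with rfl | hx
  · left; exact zero_div _
  · by_cases hx0 : x = 0
    · left; rw [hx0, zero_div]
    · right; rw [h.w_div hx0 hy]; linarith

theorem Bs_div (h : NVal A p w) {t : ℝ} {x y : Qb} (hy : y ≠ 0) (hx : Bs w t x) :
    Bs w (t - w y) (x / y) := by
  obtain ⟨s, hs, hx⟩ := Bs_iff.1 hx
  exact Bs_iff.2 ⟨s - w y, by linarith, h.Bl_div hy hx⟩

end NVal

namespace PL

open NVal

variable {A : ValuationSubring Qb} {p : ℕ} {w : Qb → ℝ} (P : PL p A w)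
include P

theorem p_ne_zero : (p : Qb) ≠ 0 := Nat.cast_ne_zero.2 P.prime.ne_zero

theorem w_p : w (p : Qb) = 1 := P.nv.norm

theorem Bl_p : Bl w 1 (p : Qb) := Or.inr P.w_p.ge

theorem Bs_p : Bs w 0 (p : Qb) := Bs_of P.Bl_p zero_lt_one

theorem inertia_sub {σ : GQ} (hσ : σ ∈ A.inertiaSubgroupIn ℚ) {x : Qb} (hx : Bl w 0 x) :
    Bs w 0 (σ x - x) := by
  rw [← P.nv.nonunits_iff, ValuationSubring.mem_nonunits_iff]
  apply H08.val_sub_lt_of_mem_inertia hσ
  rw [A.valuation_le_one_iff]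
  exact P.nv.mem_iff.2 hx

/-- valuations of inertia-invariant elements are integers -/
theorem int_of_fixed {x : Qb} (hx : x ≠ 0) (hfix : ∀ σ ∈ A.inertiaSubgroupIn ℚ, σ x = x) :
    ∃ n : ℤ, w x = n := by
  have hg := Fermat.Agent.H51.isGalois_Qbar
  obtain ⟨n, hn⟩ := H12.exists_valuation_eq_zpow P.prime P.lies x hx hfix
  refine ⟨n, ?_⟩
  rw [← map_zpow₀, P.nv.log.eq_iff hx (zpow_ne_zero _ P.p_ne_zero),
    P.nv.log.zpow P.p_ne_zero, P.nv.norm, mul_one] at hn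
  exact hn

theorem frob_sub {φ : GQ} (hφ : A.IsFrobeniusAt φ p) {x : Qb} (hx : Bl w 0 x) :
    Bs w 0 (φ x - x ^ p) := by
  rw [← P.nv.nonunits_iff]
  have hxA : x ∈ A := P.nv.mem_iff.2 hx
  obtain ⟨h1, h2⟩ := hφ
  have h3 := h2 (IsLocalRing.residue A ⟨x, hxA⟩)
  have hφx : φ x ∈ A := by
    rw [P.nv.mem_iff, Bl_smul P.nv (σ := φ) h1]
    exact hx
  have h4 : IsLocalRing.residue A ⟨φ x, hφx⟩ = IsLocalRing.residue A (⟨x, hxA⟩ ^ p) := by
    rw [map_pow]
    exact h3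
  rw [← sub_eq_zero, ← map_sub, IsLocalRing.residue_eq_zero_iff,
    ← ValuationSubring.coe_mem_nonunits_iff] at h4
  exact h4

theorem te_unique {m : ℕ} (hm : ¬ p ∣ m) {x y : Qb} (hx : x ^ m = 1) (hy : y ^ m = 1)
    (hxy : Bs w 0 (x - y)) : x = y :=
  H05.rootsOfUnity_eq_of_residue_eq P.prime P.lies hm hx hy (P.nv.nonunits_iff.2 hxy)

theorem te_w {r : Qb} (hr : Te p r) (hr0 : r ≠ 0) : w r = 0 := by
  rcases hr with h | ⟨m, hm, h⟩
  · exact absurd h hr0
  · exact P.nv.w_eq_zero_of_pow (by rintro rfl; exact hm (dvd_zero _)) h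

theorem te_Bl {r : Qb} (hr : Te p r) : Bl w 0 r := by
  by_cases hr0 : r = 0
  · exact Or.inl hr0
  · exact Or.inr (P.te_w hr hr0).ge

theorem te_fixed {r : Qb} (hr : Te p r) {σ : GQ} (hσ : σ ∈ A.inertiaSubgroupIn ℚ) : σ r = r := by
  rcases hr with rfl | ⟨m, hm, h⟩
  · exact map_zero σ
  · exact H05.inertia_apply_rootOfUnity P.prime P.lies hm hσ h

theorem te_frob {r : Qb} (hr : Te p r) {φ : GQ} (hφ : A.IsFrobeniusAt φ p) : φ r = r ^ p := by
  rcases hr with rfl | ⟨m, hm, h⟩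
  · rw [map_zero, zero_pow P.prime.ne_zero]
  · exact H05.IsFrobeniusAt.apply_rootOfUnity P.prime P.lies hm hφ h

theorem te_mul {r s : Qb} (hr : Te p r) (hs : Te p s) : Te p (r * s) := by
  rcases hr with rfl | ⟨m, hm, h⟩
  · left; exact zero_mul _
  rcases hs with rfl | ⟨m', hm', h'⟩
  · left; exact mul_zero _
  right
  refine ⟨m * m', fun hd => (P.prime.dvd_mul.1 hd).elim hm hm', ?_⟩
  rw [mul_pow, pow_mul, h, one_pow, one_mul, mul_comm, pow_mul, h', one_pow]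

theorem te_pow {r : Qb} (hr : Te p r) (n : ℕ) : Te p (r ^ n) := by
  rcases hr with rfl | ⟨m, hm, h⟩
  · rcases Nat.eq_zero_or_pos n with rfl | hn
    · right
      exact ⟨1, P.prime.not_dvd_one, by simp⟩
    · left; exact zero_pow hn.ne'
  · right
    exact ⟨m, hm, by rw [← pow_mul, mul_comm, pow_mul, h, one_pow]⟩

/-- `p`-th roots of Teichmüller representatives -/
theorem te_root {r : Qb} (hr : Te p r) : ∃ s, Te p s ∧ s ^ p = r := by
  rcases hr with rfl | ⟨m, hm, h⟩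
  · exact ⟨0, Or.inl rfl, zero_pow P.prime.ne_zero⟩
  · have hco : Nat.Coprime p m := (P.prime.coprime_iff_not_dvd).2 hm
    have hm0 : m ≠ 0 := by rintro rfl; exact hm (dvd_zero _)
    rcases Nat.eq_or_lt_of_le (Nat.one_le_iff_ne_zero.2 hm0) with h1 | h1
    · subst h1
      rw [pow_one] at h
      exact ⟨1, Or.inr ⟨1, hm, one_pow _⟩, by rw [one_pow, h]⟩
    · obtain ⟨b, -, hb'⟩ := Nat.exists_mul_mod_eq_one_of_coprime hco h1
      refine ⟨r ^ b, Or.inr ⟨m, hm, by rw [← pow_mul, mul_comm, pow_mul, h, one_pow]⟩, ?_⟩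
      have h2 : p * b = m * (p * b / m) + 1 := by
        have := Nat.div_add_mod (p * b) m
        rw [hb'] at this
        exact this.symm
      rw [← pow_mul, mul_comm b p, h2, pow_add, pow_mul, h, one_pow, one_mul, pow_one]

/-- Teichmüller representatives of residue classes -/
theorem te_exists {x : Qb} (hx : Bl w 0 x) : ∃ r, Te p r ∧ Bs w 0 (x - r) := by
  have hg := Fermat.Agent.H51.isGalois_Qbar
  by_cases hx1 : Bs w 0 x
  · exact ⟨0, Or.inl rfl, by rwa [sub_zero]⟩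
  have hx0 : x ≠ 0 := fun h => hx1 (Or.inl h)
  have hwx : w x = 0 := by
    refine le_antisymm ?_ (hx.resolve_left hx0)
    by_contra hcon
    exact hx1 (Or.inr (not_le.1 hcon))
  obtain ⟨φ, hφ⟩ := H05.exists_isFrobeniusAt P.prime P.lies
  have hφD : φ ∈ A.decompositionSubgroup ℚ := hφ.1
  have h1 : ∀ n : ℕ, Bs w 0 ((φ ^ n) x - x ^ p ^ n) := by
    intro n
    induction n with
    | zero => rw [pow_zero, pow_zero, pow_one, AlgEquiv.one_apply, sub_self]; exact Bs_zero 0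
    | succ n ih =>
      rw [pow_succ' φ, AlgEquiv.mul_apply, pow_succ p, pow_mul]
      have h2 : Bs w 0 (φ ((φ ^ n) x) - φ (x ^ p ^ n)) := by
        rw [← map_sub, Bs_smul P.nv hφD]
        exact ih
      refine P.nv.Bs_trans h2 (P.frob_sub hφ ?_)
      have := P.nv.pow hx (p ^ n)
      rwa [mul_zero] at this
  obtain ⟨n, hn, hfix⟩ := exists_pow_fix φ x
  have h2 := h1 n
  rw [hfix] at h2
  obtain ⟨m, hm⟩ : ∃ m, m + 1 = p ^ n :=
    ⟨p ^ n - 1, Nat.succ_pred_eq_of_pos (pow_pos P.prime.pos n)⟩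
  have hpm : ¬ p ∣ m := by
    intro hd
    have h3 : p ∣ m + 1 := by rw [hm]; exact dvd_pow_self p hn.ne'
    exact P.prime.not_dvd_one ((Nat.dvd_add_right hd).1 h3)
  have hm0 : 0 < m := Nat.pos_of_ne_zero (by rintro rfl; exact hpm (dvd_zero _))
  have h3 : Bs w 0 (1 - x ^ m) := by
    have h4 : (1 - x ^ m) = (x - x ^ p ^ n) / x := by
      rw [← hm, pow_succ]
      field_simp
    rw [h4]
    have := P.nv.Bs_div hx0 h2
    rwa [hwx, sub_zero] at this
  -- some `m`-th root of unity is congruent to `x`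
  have : NeZero (m : Qb) := ⟨Nat.cast_ne_zero.2 hm0.ne'⟩
  obtain ⟨ζ, hζ⟩ := HasEnoughRootsOfUnity.exists_primitiveRoot Qb m
  have h5 := hζ.pow_sub_pow_eq_prod_sub_mul x 1 hm0
  rw [one_pow] at h5
  by_contra hcon
  push Not at hcon
  have h6 : ∀ ξ ∈ Polynomial.nthRootsFinset m (1 : Qb), x - ξ * 1 ≠ 0 ∧ w (x - ξ * 1) ≤ 0 := by
    intro ξ hξ
    rw [Polynomial.mem_nthRootsFinset hm0] at hξ
    rw [mul_one]
    have h7 := hcon ξ (Or.inr ⟨m, hpm, hξ⟩)
    constructor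
    · intro h0
      exact h7 (Or.inl h0)
    · by_contra h8
      exact h7 (Or.inr (not_le.1 h8))
  have h7 := P.nv.w_prod _ _ (fun ξ hξ => (h6 ξ hξ).1)
  rw [← h5] at h7
  have h8 : w (x ^ m - 1) ≤ 0 := by
    rw [h7]
    exact Finset.sum_nonpos fun ξ hξ => (h6 ξ hξ).2
  have h9 : x ^ m - 1 ≠ 0 := by
    rw [h5]
    exact Finset.prod_ne_zero_iff.2 fun ξ hξ => (h6 ξ hξ).1
  have h10 := (P.nv.Bs_comm h3).resolve_left h9
  linarith

end PL

end Fermat.Agent.TW
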