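import Fermat.Agent.TW.Vanish2
set_option autoImplicit false

namespace Fermat.Agent.TW

open Matrix

variable {Γ : Type*} [Group Γ] {k : Type*} [Field k]

/-- extension of scalars -/
noncomputable def ext (K : Type*) [Field K] [Algebra k K] (r : Γ →* Mt k) : Γ →* Mt K :=
  ((algebraMap k K).mapMatrix : Mt k →+* Mt K).toMonoidHom.comp r

theorem ext_apply (K : Type*) [Field K] [Algebra k K] (r : Γ →* Mt k) (g : Γ) :
    ext K r g = (r g).map (algebraMap k K) := rfl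

/-- no stable line -/
def NoLine (r : Γ →* Mt k) (N : Subgroup Γ) : Prop :=
  ∀ v : Fin 2 → k, v ≠ 0 → ∃ γ ∈ N, ∀ a : k, r γ *ᵥ v ≠ a • v

theorem mulVec_inv (r : Γ →* Mt k) (g : Γ) (v : Fin 2 → k) : r g⁻¹ *ᵥ (r g *ᵥ v) = v := by
  rw [Matrix.mulVec_mulVec, r_inv_mul, Matrix.one_mulVec]

theorem mulVec_inv' (r : Γ →* Mt k) (g : Γ) (v : Fin 2 → k) : r g *ᵥ (r g⁻¹ *ᵥ v) = v := by
  rw [Matrix.mulVec_mulVec, r_mul_inv, Matrix.one_mulVec]

/-- two vectors, the second not a multiple of the first, form a basis -/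
theorem exists_comb {v w : Fin 2 → k} (hv : v ≠ 0) (h : ∀ a : k, w ≠ a • v) (u : Fin 2 → k) :
    ∃ a b : k, u = a • v + b • w := by
  have hdet : v 0 * w 1 - v 1 * w 0 ≠ 0 := by
    intro h0
    by_cases hv0 : v 0 = 0
    · have hv1 : v 1 ≠ 0 := by
        intro h1; apply hv; ext i; fin_cases i <;> simp [hv0, h1]
      apply h (w 1 / v 1)
      ext i
      fin_cases i
      · simp only [Fin.zero_eta, Pi.smul_apply, smul_eq_mul]
        rw [hv0, zero_mul, zero_sub, neg_eq_zero] at h0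
        have := (mul_eq_zero.1 h0).resolve_left hv1
        rw [hv0, this, mul_zero]
      · simp only [Fin.mk_one, Pi.smul_apply, smul_eq_mul]
        field_simp
    · apply h (w 0 / v 0)
      ext i
      fin_cases i
      · simp only [Fin.zero_eta, Pi.smul_apply, smul_eq_mul]
        field_simp
      · simp only [Fin.mk_one, Pi.smul_apply, smul_eq_mul]
        field_simp
        linear_combination h0
  refine ⟨(u 0 * w 1 - u 1 * w 0) / (v 0 * w 1 - v 1 * w 0),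
    (v 0 * u 1 - v 1 * u 0) / (v 0 * w 1 - v 1 * w 0), ?_⟩
  ext i
  fin_cases i
  · simp only [Fin.zero_eta, Pi.add_apply, Pi.smul_apply, smul_eq_mul]
    rw [div_mul_eq_mul_div, div_mul_eq_mul_div, ← add_div, eq_div_iff hdet]
    ring
  · simp only [Fin.mk_one, Pi.add_apply, Pi.smul_apply, smul_eq_mul]
    rw [div_mul_eq_mul_div, div_mul_eq_mul_div, ← add_div, eq_div_iff hdet]
    ring

theorem comb_inj {v w : Fin 2 → k} (hv : v ≠ 0) (h : ∀ a : k, w ≠ a • v) {a b : k}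
    (h0 : a • v + b • w = 0) : a = 0 ∧ b = 0 := by
  by_cases hb : b = 0
  · rw [hb, zero_smul, add_zero] at h0
    exact ⟨(smul_eq_zero.1 h0).resolve_right hv, hb⟩
  · exfalso
    apply h (-(b⁻¹ * a))
    have : b⁻¹ • (a • v + b • w) = 0 := by rw [h0, smul_zero]
    rw [smul_add, smul_smul, smul_smul, inv_mul_cancel₀ hb, one_smul] at this
    rw [neg_smul]
    exact eq_neg_of_add_eq_zero_right this

theorem eq_scalar {M : Mt k} {v w : Fin 2 → k} (hv : v ≠ 0) (h : ∀ a : k, w ≠ a • v) {l : k}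
    (h1 : M *ᵥ v = l • v) (h2 : M *ᵥ w = l • w) : M = l • (1 : Mt k) := by
  have : ∀ u, M *ᵥ u = (l • (1 : Mt k)) *ᵥ u := by
    intro u
    obtain ⟨a, b, rfl⟩ := exists_comb hv h u
    rw [Matrix.smul_mulVec, Matrix.one_mulVec, Matrix.mulVec_add, Matrix.mulVec_smul,
      Matrix.mulVec_smul, h1, h2, smul_add, smul_comm, smul_comm l b]
  exact Matrix.ext_of_mulVec_single (fun i => this _)

theorem exists_eigenvector [IsAlgClosed k] (M : Mt k) :
    ∃ (v : Fin 2 → k) (l : k), v ≠ 0 ∧ M *ᵥ v = l • v := by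
  obtain ⟨l, hl⟩ := Module.End.exists_eigenvalue (Matrix.toLin' M)
  obtain ⟨v, hv⟩ := hl.exists_hasEigenvector
  exact ⟨v, l, hv.2, by simpa using hv.apply_eq_smul⟩

/-- Clifford theory for cyclic quotients -/
theorem NoLine.of_cyclic [IsAlgClosed k] {r : Γ →* Mt k} (hall : NoLine r ⊤)
    (h2 : ∀ G' : Subgroup Γ, G'.index = 2 → NoLine r G') (N : Subgroup Γ) [hN : N.Normal]
    (γ₁ : Γ) (hcyc : ∀ γ : Γ, ∃ i : ℤ, ∃ x ∈ N, γ = γ₁ ^ i * x) : NoLine r N := by
  intro v hv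
  by_contra hcon
  push Not at hcon
  choose! ψ hψ using hcon
  obtain ⟨γ₀, -, hγ₀⟩ := hall v hv
  obtain ⟨w, hw⟩ : ∃ w, w = r γ₀ *ᵥ v := ⟨_, rfl⟩
  rw [← hw] at hγ₀
  have hw0 : w ≠ 0 := by
    intro h0; apply hγ₀ 0; rw [h0, zero_smul]
  obtain ⟨ψ', hψ'⟩ : ∃ ψ' : Γ → k, ∀ x ∈ N, r x *ᵥ w = ψ' x • w := by
    refine ⟨fun x => ψ (γ₀⁻¹ * x * γ₀), fun x hx => ?_⟩
    have h3 := hψ (γ₀⁻¹ * x * γ₀) (by simpa using hN.conj_mem x hx γ₀⁻¹)
    have h4 : r x *ᵥ w = r γ₀ *ᵥ (r (γ₀⁻¹ * x * γ₀) *ᵥ v) := by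
      rw [hw, Matrix.mulVec_mulVec, Matrix.mulVec_mulVec, ← map_mul, ← map_mul]
      congr 2; group
    rw [h4, h3, Matrix.mulVec_smul, ← hw]
  by_cases hd : ∀ x ∈ N, ψ x = ψ' x
  · -- scalars
    have hs : ∀ x ∈ N, r x = ψ x • (1 : Mt k) := by
      intro x hx
      exact eq_scalar hv hγ₀ (hψ x hx) (by rw [hψ' x hx, hd x hx])
    obtain ⟨u, l, hu, hl⟩ := exists_eigenvector (r γ₁)
    have hl0 : l ≠ 0 := by
      intro h0
      rw [h0, zero_smul] at hl
      apply hu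
      rw [← mulVec_inv r γ₁ u, hl, Matrix.mulVec_zero]
    have hz : ∀ i : ℤ, r (γ₁ ^ i) *ᵥ u = (l ^ i) • u := by
      intro i
      have hnat : ∀ n : ℕ, r (γ₁ ^ n) *ᵥ u = (l ^ n) • u := by
        intro n
        induction n with
        | zero => simp
        | succ n ih =>
          rw [pow_succ, map_mul, ← Matrix.mulVec_mulVec, hl, Matrix.mulVec_smul, ih, smul_smul,
            pow_succ, mul_comm]
      cases i with
      | ofNat n => simpa using hnat n
      | negSucc n =>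
        rw [zpow_negSucc, zpow_negSucc]
        have h5 := hnat (n + 1)
        have h6 : r (γ₁ ^ (n + 1))⁻¹ *ᵥ (l ^ (n + 1) • u) = u := by
          rw [← h5, mulVec_inv]
        rw [Matrix.mulVec_smul] at h6
        exact (eq_inv_smul_iff₀ (pow_ne_zero _ hl0)).2 h6
    obtain ⟨γ, -, hγ⟩ := hall u hu
    obtain ⟨i, x, hx, rfl⟩ := hcyc γ
    apply hγ (ψ x * l ^ i)
    rw [map_mul, hs x hx, mul_smul_comm, mul_one, Matrix.smul_mulVec, hz, smul_smul]
  · push Not at hd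
    obtain ⟨x₀, hx₀, hne⟩ := hd
    -- N-eigenvectors are on the two lines
    have hlines : ∀ u : Fin 2 → k, (∃ l : k, r x₀ *ᵥ u = l • u) →
        (∃ a : k, u = a • v) ∨ (∃ a : k, u = a • w) := by
      rintro u ⟨l, hl⟩
      obtain ⟨a, b, hu⟩ := exists_comb hv hγ₀ u
      rw [hu, Matrix.mulVec_add, Matrix.mulVec_smul, Matrix.mulVec_smul, hψ x₀ hx₀, hψ' x₀ hx₀,
        ← sub_eq_zero] at hl
      have h3 : (a * (ψ x₀ - l)) • v + (b * (ψ' x₀ - l)) • w = 0 := by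
        rw [← hl]
        module
      obtain ⟨h4, h5⟩ := comb_inj hv hγ₀ h3
      by_cases ha : a = 0
      · right; exact ⟨b, by rw [hu, ha, zero_smul, zero_add]⟩
      · have h6 : ψ x₀ = l := sub_eq_zero.1 ((mul_eq_zero.1 h4).resolve_left ha)
        have h7 : b = 0 := by
          refine (mul_eq_zero.1 h5).resolve_right ?_
          rw [← h6]
          exact sub_ne_zero.2 (Ne.symm hne)
        left; exact ⟨a, by rw [hu, h7, zero_smul, add_zero]⟩
    have heig : ∀ (γ : Γ), (∃ l : k, r x₀ *ᵥ (r γ *ᵥ v) = l • (r γ *ᵥ v)) := by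
      intro γ
      refine ⟨ψ (γ⁻¹ * x₀ * γ), ?_⟩
      have h3 := hψ (γ⁻¹ * x₀ * γ) (by simpa using hN.conj_mem x₀ hx₀ γ⁻¹)
      have h4 : r x₀ *ᵥ (r γ *ᵥ v) = r γ *ᵥ (r (γ⁻¹ * x₀ * γ) *ᵥ v) := by
        rw [Matrix.mulVec_mulVec, Matrix.mulVec_mulVec, ← map_mul, ← map_mul]
        congr 2; group
      rw [h4, h3, Matrix.mulVec_smul]
    -- the stabiliser of the line of v
    let H : Subgroup Γ :=
      { carrier := {γ | ∃ a : k, r γ *ᵥ v = a • v}
        one_mem' := ⟨1, by simp⟩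
        mul_mem' := by
          rintro x y ⟨a, ha⟩ ⟨b, hb⟩
          refine ⟨b * a, ?_⟩
          rw [map_mul, ← Matrix.mulVec_mulVec, hb, Matrix.mulVec_smul, ha, smul_smul]
        inv_mem' := by
          rintro x ⟨a, ha⟩
          have ha0 : a ≠ 0 := by
            intro h0
            rw [h0, zero_smul] at ha
            apply hv
            rw [← mulVec_inv r x v, ha, Matrix.mulVec_zero]
          refine ⟨a⁻¹, ?_⟩
          have : r x⁻¹ *ᵥ (a • v) = v := by rw [← ha, mulVec_inv]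
          rw [Matrix.mulVec_smul] at this
          conv_rhs => rw [← this, smul_smul, inv_mul_cancel₀ ha0, one_smul] }
    have hmem : ∀ γ, γ ∈ H ↔ ∃ a : k, r γ *ᵥ v = a • v := fun γ => Iff.rfl
    have hγ₀H : γ₀ ∉ H := by
      rintro ⟨a, ha⟩
      exact hγ₀ a (by rw [hw, ha])
    have hnot : ∀ γ, γ ∉ H → ∃ a : k, a ≠ 0 ∧ r γ *ᵥ v = a • w := by
      intro γ hγ
      rcases hlines _ (heig γ) with h | ⟨a, ha⟩
      · exact absurd h hγ
      · refine ⟨a, ?_, ha⟩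
        rintro rfl
        rw [zero_smul] at ha
        apply hv
        rw [← mulVec_inv r γ v, ha, Matrix.mulVec_zero]
    have hidx : H.index = 2 := by
      rw [Subgroup.index_eq_two_iff']
      refine ⟨γ₀⁻¹, fun b => ?_⟩
      obtain ⟨a₀, ha₀, hw'⟩ := hnot γ₀ hγ₀H
      have hγ₀w : ∀ γ, γ ∉ H → γ₀⁻¹ * γ ∈ H := by
        intro γ hγ
        obtain ⟨a, ha, h3⟩ := hnot γ hγ
        refine ⟨a * a₀⁻¹, ?_⟩
        rw [map_mul, ← Matrix.mulVec_mulVec, h3, Matrix.mulVec_smul]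
        have h4 : w = a₀⁻¹ • (r γ₀ *ᵥ v) := by
          rw [hw', smul_smul, inv_mul_cancel₀ ha₀, one_smul]
        conv_lhs => rw [h4]
        rw [Matrix.mulVec_smul, mulVec_inv, smul_smul]
      by_cases hb : b ∈ H
      · right
        refine ⟨hb, fun h3 => hγ₀H ?_⟩
        have := H.mul_mem h3 (H.inv_mem hb)
        rw [mul_assoc, mul_inv_cancel, mul_one] at this
        exact (H.inv_mem_iff).1 this
      · left
        exact ⟨hγ₀w b hb, hb⟩
    obtain ⟨γ, hγH, hγ⟩ := h2 H hidx v hv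
    obtain ⟨a, ha⟩ := hγH
    exact hγ a ha

end Fermat.Agent.TW
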