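import Fermat.Agent.TW.AdMod
set_option autoImplicit false

/-!
# Selection of sets of Taylor-Wiles primes killing a finite group of classes
-/

namespace Fermat.Agent.TW

open Matrix Fermat.Agent.CC
open scoped Pointwise

/-- continuity of the inclusion of a subgroup, for `S`-levels. -/
theorem cont_subtype_levS (S : Finset Nat.Primes) (D : Subgroup GQ) :
    Lev.Cont D.subtype (lev.sub D) (levS S) := by
  intro U hU
  exact lev.cont_subtype D U (lev_isOpen_of_levS hU)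

/-- restriction of `S`-classes to a subgroup -/
noncomputable def resD (S : Finset Nat.Primes) (D : Subgroup GQ) (A : Type*) [AddCommGroup A]
    [DistribMulAction GQ A] : H1 (levS S) A →+ H1 (lev.sub D) A :=
  H1map D.subtype (cont_subtype_levS S D) (AddMonoidHom.id A) (fun _ _ => rfl)

theorem resD_mk_eq_zero {S : Finset Nat.Primes} {D : Subgroup GQ} {A : Type*} [AddCommGroup A]
    [DistribMulAction GQ A] (f : Z1 (levS S) A) :
    resD S D A (H1.mk _ _ f) = 0 ↔ ∃ a : A, ∀ g ∈ D, f.1 g = g • a - a := by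
  unfold resD
  rw [H1map_mk, H1.mk_eq_zero]
  constructor
  · rintro ⟨a, ha⟩
    exact ⟨a, fun g hg => ha ⟨g, hg⟩⟩
  · rintro ⟨a, ha⟩
    exact ⟨a, fun g => ha g g.2⟩

theorem card_lt_of_lt {G : Type*} [AddGroup G] {A B : AddSubgroup G} [Finite B] (h : A < B) :
    Nat.card A < Nat.card B := by
  have h1 : (A : Set G) ⊂ (B : Set G) := h
  have h2 : (A : Set G).ncard < (B : Set G).ncard :=
    Set.ncard_lt_ncard h1 (Set.toFinite (B : Set G))
  exact h2

/-- values on inertia outside `S` -/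
theorem eq_zero_of_inertia {S : Finset Nat.Primes} {A : Type*} [AddCommGroup A]
    [DistribMulAction GQ A] (f : Z1 (levS S) A) {q : Nat.Primes} (hq : q ∉ S)
    {P : ValuationSubring Qb} (hP : P.LiesOverPrime q) {τ : GQ}
    (hτ : τ ∈ P.inertiaSubgroupIn ℚ) : f.1 τ = 0 := by
  obtain ⟨U, ⟨F, hF, hFU⟩, hU⟩ := f.2.1
  have := hU 1 τ (hFU (hF.2 q hq P hP hτ))
  rw [one_mul] at this
  rw [this, Z1.map_one]

variable {k : Type*} [Field k]

/-- Data for the selection of Taylor-Wiles primes. -/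
structure TWData (p : ℕ) (S : Finset Nat.Primes) (r : GQ →* Mt k) (χ : GQ →* k) : Prop where
  prime : p.Prime
  ne_two : p ≠ 2
  open_ker : (levS S).isOpen r.ker
  det : ∀ g, (r g).det = χ g
  chi : ∀ (σ : GQ) (a : ℕ), (∀ x : Qb, x ^ p = 1 → σ x = x ^ a) → χ σ = a
  noLine : NoLine (ext (AlgebraicClosure k) r) ⊤
  noLine2 : ∀ G' : Subgroup GQ, G'.index = 2 → NoLine (ext (AlgebraicClosure k) r) G'

namespace TWData

variable {p : ℕ} {S : Finset Nat.Primes} {r : GQ →* Mt k} {χ : GQ →* k}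

theorem chi_NN (h : TWData p S r χ) {n : ℕ} (hn : n ≠ 0) {σ : GQ} (hσ : σ ∈ NN (p ^ n)) :
    χ σ = 1 := by
  have := h.chi σ 1 (fun x hx => by
    rw [pow_one]
    apply hσ
    obtain ⟨m, rfl⟩ := Nat.exists_eq_succ_of_ne_zero hn
    rw [Nat.succ_eq_add_one, pow_succ', pow_mul, hx, one_pow])
  simpa using this

theorem noLine_NN (h : TWData p S r χ) (n : ℕ) :
    NoLine (ext (AlgebraicClosure k) r) (NN (p ^ n)) := by
  obtain ⟨γ₁, hγ₁⟩ := exists_generator h.prime h.ne_two n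
  exact NoLine.of_cyclic h.noLine h.noLine2 (NN (p ^ n)) γ₁ hγ₁

theorem hyp [CharP k p] (h : TWData p S r χ) : Hyp p r χ where
  det := h.det
  irr := by
    intro v hv
    obtain ⟨γ, -, hγ⟩ := h.noLine.descend v hv
    exact ⟨γ, hγ⟩
  h5 := by
    intro hp3
    have hg := Fermat.Agent.H51.isGalois_Qbar
    obtain ⟨A, hA⟩ := H05.exists_liesOverPrime Qb Nat.prime_two
    obtain ⟨φ, hφ⟩ := H05.exists_isFrobeniusAt Nat.prime_two hA
    have hchi : χ φ = (2 : ℕ) := by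
      apply h.chi
      intro x hx
      apply H05.IsFrobeniusAt.apply_rootOfUnity Nat.prime_two hA _ hφ hx
      intro h2
      exact h.ne_two ((Nat.prime_dvd_prime_iff_eq Nat.prime_two h.prime).1 h2).symm
    refine ⟨φ, fun h1 => ?_⟩
    rw [hchi] at h1
    have h3 : ((3 : ℕ) : k) = 0 := by
      push_cast at h1 ⊢
      linear_combination h1
    rw [CharP.cast_eq_zero_iff k p] at h3
    exact hp3 ((Nat.prime_dvd_prime_iff_eq h.prime Nat.prime_three).1 h3)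

theorem r_inertia (h : TWData p S r χ) {q : Nat.Primes} (hq : q ∉ S) {P : ValuationSubring Qb}
    (hP : P.LiesOverPrime q) {τ : GQ} (hτ : τ ∈ P.inertiaSubgroupIn ℚ) : r τ = 1 := by
  obtain ⟨F, hF, hFU⟩ := h.open_ker
  exact hFU (hF.2 q hq P hP hτ)

/-- `q` is a Taylor-Wiles prime of depth `n`. -/
def IsTW (p n : ℕ) (r : GQ →* Mt k) (χ : GQ →* k) (q : ℕ) : Prop :=
  q.Prime ∧ p ^ n ∣ q - 1 ∧ ∀ A : ValuationSubring Qb, A.LiesOverPrime q →
    ∀ φ : GQ, A.IsFrobeniusAt φ q → χ φ = 1 ∧ (r φ).trace ^ 2 ≠ 4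

/-- from one Frobenius to all -/
theorem isTW_of_exists (h : TWData p S r χ) {n q : ℕ} (hq : q.Prime) (hqS : (⟨q, hq⟩ : Nat.Primes) ∉ S)
    (hqn : p ^ n ∣ q - 1) {f : Z1 (levS S) (Ad0 r χ)}
    {A : ValuationSubring Qb} (hA : A.LiesOverPrime q) {φ : GQ}
    (hφ : A.IsFrobeniusAt φ q) (h1 : χ φ = 1) (h4 : (r φ).trace ^ 2 ≠ 4) :
    IsTW p n r χ q ∧ (tau r (fun g => (f.1 g).val) φ ≠ 0 → ∀ B : ValuationSubring Qb,
      B.LiesOverPrime q → ∀ ψ : GQ, B.IsFrobeniusAt ψ q → tau r (fun g => (f.1 g).val) ψ ≠ 0) := by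
  have hg := Fermat.Agent.H51.isGalois_Qbar
  have hc : IsCoc r χ (fun g => (f.1 g).val) := Ad0.isCoc f.2.2
  have key : ∀ B : ValuationSubring Qb, B.LiesOverPrime q → ∀ ψ : GQ, B.IsFrobeniusAt ψ q →
      ∃ (g τ : GQ), r τ = 1 ∧ f.1 τ = 0 ∧ ψ = g * φ * g⁻¹ * τ := by
    intro B hB ψ hψ
    obtain ⟨g, rfl⟩ := H05.exists_smul_eq hq hA hB
    have h2 := H05.IsFrobeniusAt.conj hq hA hφ g
    have h3 := H05.IsFrobeniusAt.inv_mul_mem h2 hψ
    refine ⟨g, (g * φ * g⁻¹)⁻¹ * ψ, h.r_inertia (q := ⟨q, hq⟩) hqS hB h3,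
      eq_zero_of_inertia (q := ⟨q, hq⟩) f hqS hB h3, by group⟩
  have hχτ : ∀ τ, r τ = 1 → χ τ = 1 := fun τ hτ => by rw [← h.det, hτ, Matrix.det_one]
  have hχg : ∀ g, χ g * χ g⁻¹ = 1 := fun g => by rw [← map_mul, mul_inv_cancel, map_one]
  refine ⟨⟨hq, hqn, fun B hB ψ hψ => ?_⟩, fun h5 B hB ψ hψ => ?_⟩
  · obtain ⟨g, τ, hτ, -, rfl⟩ := key B hB ψ hψ
    constructor
    · rw [map_mul, map_mul, map_mul, hχτ τ hτ, h1, mul_one, mul_one, hχg]
    · rw [map_mul, hτ, mul_one, map_mul, map_mul, trace_conj]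
      exact h4
  · obtain ⟨g, τ, hτ, hfτ, rfl⟩ := key B hB ψ hψ
    have h6 : tau r (fun g => (f.1 g).val) (g * φ * g⁻¹ * τ)
        = tau r (fun g => (f.1 g).val) (g * φ * g⁻¹) := by
      unfold tau
      beta_reduce
      rw [map_mul, hτ, mul_one, f.2.2, hfτ, smul_zero, add_zero]
    rw [h6, hc.tau_conj g φ h1]
    refine mul_ne_zero ?_ h5
    intro h0
    have := hχg g
    rw [h0, zero_mul] at this
    exact zero_ne_one this

theorem toNat_mem {S : Finset Nat.Primes} {T : Finset ℕ} (hST : ∀ q ∈ S, (q : ℕ) ∈ T) {q : ℕ}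
    (hq : q.Prime) (hqT : q ∉ T) : (⟨q, hq⟩ : Nat.Primes) ∉ S := fun h => hqT (hST _ h)

/-- Existence of Taylor-Wiles primes detecting a given class -/
theorem exists_TW_class [Finite k] [CharP k p] (h : TWData p S r χ) {n : ℕ} (hn : n ≠ 0) (T : Finset ℕ)
    (hpT : p ∈ T) (hST : ∀ q ∈ S, (q : ℕ) ∈ T) (y : H1 (levS S) (Ad0 r χ)) (hy : y ≠ 0) :
    ∃ q : ℕ, q ∉ T ∧ IsTW p n r χ q ∧ ∀ B : ValuationSubring Qb, B.LiesOverPrime q →
      resD S (B.decompositionSubgroup ℚ) _ y ≠ 0 := by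
  have hg := Fermat.Agent.H51.isGalois_Qbar
  have : Fact p.Prime := ⟨h.prime⟩
  obtain ⟨f, rfl⟩ := H1.mk_surjective y
  have hc : IsCoc r χ (fun g => (f.1 g).val) := Ad0.isCoc f.2.2
  have : NeZero (p ^ n) := ⟨pow_ne_zero _ h.prime.ne_zero⟩
  obtain ⟨σ, hσ, hσ4, hσ0⟩ := h.hyp.exists_good h.ne_two (h.noLine_NN n)
    (commutator_mem_NN (p ^ n)) (fun x hx => h.chi_NN hn hx) hc (fun g => (f.1 g).trace_val) (by
      rintro ⟨X, hX, hX'⟩
      apply hy
      rw [H1.mk_eq_zero]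
      refine ⟨Ad0.mk X hX, fun g => Ad0.ext ?_⟩
      rw [Ad0.val_sub, Ad0.val_gsmul]
      exact hX' g)
  obtain ⟨U, hU, hfU⟩ := f.2.1
  obtain ⟨q, hq, hqT, hqn, A, hA, φ, hφ, h1, h4, h5⟩ := exists_frobenius_of_good (n := n) h.prime
    (U := U ⊓ r.ker) (lev.inf _ _ (lev_isOpen_of_levS hU) (lev_isOpen_of_levS h.open_ker))
    (fun s hs => hs.2) (fun g s hs => by rw [hfU g s hs.1]) h.det
    (fun x hx => h.chi_NN hn hx) hc (fun g => (f.1 g).trace_val) T hpT hσ hσ4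
  obtain ⟨h6, h7⟩ := h.isTW_of_exists (f := f) hq (toNat_mem hST hq hqT) hqn hA hφ h1 h4
  refine ⟨q, hqT, h6, fun B hB h0 => ?_⟩
  rw [resD_mk_eq_zero] at h0
  obtain ⟨a, ha⟩ := h0
  obtain ⟨ψ, hψ⟩ := H05.exists_isFrobeniusAt hq hB
  have h8 := h7 (h5 hσ0) B hB ψ hψ
  apply h8
  have h9 := (h6.2.2 B hB ψ hψ).1
  unfold tau
  beta_reduce
  rw [ha ψ hψ.mem_decompositionSubgroup, Ad0.val_sub, Ad0.val_gsmul, h9, one_smul, sub_mul,
    Matrix.trace_sub, mul_assoc (r ψ * a.val), r_inv_mul, mul_one, Matrix.trace_mul_comm, sub_self]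

/-- Existence of Taylor-Wiles primes -/
theorem exists_TW [Finite k] [CharP k p] (h : TWData p S r χ) {n : ℕ} (hn : n ≠ 0) (T : Finset ℕ)
    (hpT : p ∈ T) (hST : ∀ q ∈ S, (q : ℕ) ∈ T) : ∃ q : ℕ, q ∉ T ∧ IsTW p n r χ q := by
  have hg := Fermat.Agent.H51.isGalois_Qbar
  have : Fact p.Prime := ⟨h.prime⟩
  let f : Z1 (levS S) (Ad0 r χ) := 0
  have hc : IsCoc r χ (fun g => (f.1 g).val) := Ad0.isCoc f.2.2
  let w : Mt k := !![1, 0; 0, -1]
  have hw : w ≠ 0 := by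
    intro h0
    have := congrFun (congrFun h0 0) 0
    simp [w] at this
  have hw0 : w.trace = 0 := by simp [w, Matrix.trace]
  obtain ⟨σ, hσ, hσ4, -⟩ := exists_elt (p := p) h.ne_two (h.noLine_NN n)
    (fun x hx => by rw [h.det, h.chi_NN hn hx]) hw hw0
  obtain ⟨U, hU, hfU⟩ := f.2.1
  obtain ⟨q, hq, hqT, hqn, A, hA, φ, hφ, h1, h4, h5⟩ := exists_frobenius_of_good (n := n) h.prime
    (U := U ⊓ r.ker) (lev.inf _ _ (lev_isOpen_of_levS hU) (lev_isOpen_of_levS h.open_ker))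
    (fun s hs => hs.2) (fun g s hs => by rw [hfU g s hs.1]) h.det
    (fun x hx => h.chi_NN hn hx) hc (fun g => (f.1 g).trace_val) T hpT hσ hσ4
  exact ⟨q, hqT, (h.isTW_of_exists (f := f) hq (toNat_mem hST hq hqT) hqn hA hφ h1 h4).1⟩

/-- **Selection theorem**: for every finite group `Y` of classes and every `m ≥ |Y| - 1` there are
exactly `m` Taylor-Wiles primes of depth `n` killing `Y`. -/
theorem exists_TW_set [Finite k] [CharP k p] (h : TWData p S r χ) {n : ℕ} (hn : n ≠ 0)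
    (m : ℕ) (T : Finset ℕ)
    (hpT : p ∈ T) (hST : ∀ q ∈ S, (q : ℕ) ∈ T) (Y : AddSubgroup (H1 (levS S) (Ad0 r χ)))
    [Finite Y] (hm : Nat.card Y ≤ m + 1) (pl : ℕ → ValuationSubring Qb)
    (hpl : ∀ q : ℕ, q.Prime → (pl q).LiesOverPrime q) :
    ∃ qv : Fin m → ℕ, Function.Injective qv ∧ (∀ i, qv i ∉ T ∧ IsTW p n r χ (qv i)) ∧
      ∀ y ∈ Y, (∀ i, resD S ((pl (qv i)).decompositionSubgroup ℚ) _ y = 0) → y = 0 := by
  induction m generalizing T Y with
  | zero =>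
    have hY : Nat.card Y = 1 := le_antisymm hm Nat.card_pos
    have hs : Subsingleton Y := (Nat.card_eq_one_iff_unique.1 hY).1
    refine ⟨Fin.elim0, fun i => i.elim0, fun i => i.elim0, fun y hy _ => ?_⟩
    exact congrArg Subtype.val (hs.elim ⟨y, hy⟩ 0)
  | succ m ih =>
    classical
    obtain ⟨q, hqT, hq, hqY⟩ : ∃ q : ℕ, q ∉ T ∧ IsTW p n r χ q ∧
        Nat.card (Y ⊓ (resD S ((pl q).decompositionSubgroup ℚ) (Ad0 r χ)).ker :
          AddSubgroup _) ≤ m + 1 := by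
      by_cases hY : ∃ y ∈ Y, y ≠ 0
      · obtain ⟨y, hy, hy0⟩ := hY
        obtain ⟨q, h1, h2, h3⟩ := h.exists_TW_class hn T hpT hST y hy0
        refine ⟨q, h1, h2, ?_⟩
        have h4 := h3 (pl q) (hpl q h2.1)
        have h5 : (Y ⊓ (resD S ((pl q).decompositionSubgroup ℚ) (Ad0 r χ)).ker :
          AddSubgroup _) < Y := by
          refine lt_of_le_of_ne inf_le_left (fun h6 => h4 ?_)
          have : y ∈ (Y ⊓ (resD S ((pl q).decompositionSubgroup ℚ) (Ad0 r χ)).ker :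
            AddSubgroup _) := by rw [h6]; exact hy
          exact this.2
        have h6 := card_lt_of_lt h5
        omega
      · push Not at hY
        obtain ⟨q, h1, h2⟩ := h.exists_TW hn T hpT hST
        refine ⟨q, h1, h2, ?_⟩
        have : Subsingleton (Y ⊓ (resD S ((pl q).decompositionSubgroup ℚ) (Ad0 r χ)).ker :
          AddSubgroup _) := by
          constructor
          rintro ⟨a, ha⟩ ⟨b, hb⟩
          exact Subtype.ext ((hY a ha.1).trans (hY b hb.1).symm)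
        rw [Nat.card_of_subsingleton 0]
        omega
    have hfin : Finite (Y ⊓ (resD S ((pl q).decompositionSubgroup ℚ) (Ad0 r χ)).ker :
          AddSubgroup _) := by
      have : Finite (Y : Set (H1 (levS S) (Ad0 r χ))) := ‹Finite Y›
      exact (Set.Finite.subset (Set.toFinite (Y : Set _)) (fun x hx => hx.1)).to_subtype
    obtain ⟨qv, h1, h2, h3⟩ := ih (insert q T) (Finset.mem_insert_of_mem hpT)
      (fun q' hq' => Finset.mem_insert_of_mem (hST q' hq'))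
      (Y ⊓ (resD S ((pl q).decompositionSubgroup ℚ) (Ad0 r χ)).ker) hqY
    refine ⟨Fin.cons q qv, ?_, ?_, ?_⟩
    · rw [Fin.cons_injective_iff]
      refine ⟨?_, h1⟩
      rintro ⟨i, hi⟩
      apply (h2 i).1
      rw [hi]
      exact Finset.mem_insert_self _ _
    · intro i
      refine Fin.cases ?_ (fun j => ?_) i
      · exact ⟨hqT, hq⟩
      · exact ⟨fun h4 => (h2 j).1 (Finset.mem_insert_of_mem h4), (h2 j).2⟩
    · intro y hy h4
      apply h3 y ⟨hy, ?_⟩ (fun i => h4 i.succ)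
      exact h4 0

end TWData

end Fermat.Agent.TW
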