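import Fermat.Agent.TW.Tam

/-!
# Hopf orders over the ring of integers of the inertia field
-/

set_option autoImplicit false
set_option linter.unusedSectionVars false

namespace Fermat.Agent.TW

open Fermat.Agent.CC

/-- the elements of `A` fixed by inertia (a discrete valuation ring) -/
def RI (A : ValuationSubring Qb) : Subring Qb where
  carrier := {a | a ∈ A ∧ ∀ σ ∈ A.inertiaSubgroupIn ℚ, σ a = a}
  zero_mem' := ⟨A.zero_mem, fun σ _ => map_zero σ⟩
  one_mem' := ⟨A.one_mem, fun σ _ => map_one σ⟩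
  add_mem' := fun {a b} ha hb => ⟨A.add_mem _ _ ha.1 hb.1, fun σ h => by
    rw [map_add, ha.2 σ h, hb.2 σ h]⟩
  mul_mem' := fun {a b} ha hb => ⟨A.mul_mem _ _ ha.1 hb.1, fun σ h => by
    rw [map_mul, ha.2 σ h, hb.2 σ h]⟩
  neg_mem' := fun {a} ha => ⟨A.neg_mem _ ha.1, fun σ h => by rw [map_neg, ha.2 σ h]⟩

theorem mem_RI {A : ValuationSubring Qb} {a : Qb} :
    a ∈ RI A ↔ a ∈ A ∧ ∀ σ ∈ A.inertiaSubgroupIn ℚ, σ a = a := Iff.rfl

/-- `H` is a Hopf order over `RI A` in the algebra of `I`-equivariant functions on `M` -/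
structure LH (A : ValuationSubring Qb) {M : Type*} [AddCommGroup M]
    (act : A.inertiaSubgroupIn ℚ →* AddMonoid.End M) (H : Subalgebra (RI A) (M → Qb)) : Prop where
  fg : (Subalgebra.toSubmodule H).FG
  equiv : ∀ φ ∈ H, ∀ (σ : A.inertiaSubgroupIn ℚ) (m : M), φ (act σ m) = (σ : GQ) (φ m)
  sep : ∀ x y : M, x ≠ y → ∃ φ ∈ H, φ x ≠ φ y
  comul : ∀ φ ∈ H, ∃ (n : ℕ) (a b : Fin n → M → Qb), (∀ i, a i ∈ H) ∧ (∀ i, b i ∈ H) ∧
    ∀ x y, φ (x + y) = ∑ i, a i x * b i y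

/-- existence of a Hopf order over the inertia field -/
def HasLH (A : ValuationSubring Qb) {M : Type*} [AddCommGroup M]
    (act : A.inertiaSubgroupIn ℚ →* AddMonoid.End M) : Prop := ∃ H, LH A act H

end Fermat.Agent.TW
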