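import Fermat.Agent.DefRing.Tangent
import Fermat.Agent.DefRing.PowSer
import Mathlib.RingTheory.AdicCompletion.RingHom
import Mathlib.RingTheory.AdicCompletion.Noetherian

/-!
# Surjections from power series rings

A complete noetherian local `𝒪`-algebra with at most `|k| ^ r` homomorphisms to the dual numbers
is a quotient of the power series ring in `r` variables.
-/

set_option autoImplicit false
set_option linter.unusedSectionVars false

namespace Fermat.Agent.TW

open IsLocalRing Fermat.Agent.H04 MvPowerSeries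

section lift

variable {σ : Type} [Finite σ] {𝒪 : Type} [CommRing 𝒪] {R : Type} [CommRing R] [IsLocalRing R]
  [Algebra 𝒪 R] [IsAdicComplete (maximalIdeal R) R]

theorem exists_algHom_complete (x : σ → R) (hx : ∀ i, x i ∈ maximalIdeal R) :
    ∃ γ : MvPowerSeries σ 𝒪 →ₐ[𝒪] R, ∀ i, γ (X i) = x i := by
  classical
  have hJ : ∀ n : ℕ, ((maximalIdeal R).map (Ideal.Quotient.mk (maximalIdeal R ^ n))) ^ n = ⊥ := by
    intro n
    rw [← Ideal.map_pow]
    exact Ideal.map_quotient_self _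
  have hxJ : ∀ (n : ℕ) i, Ideal.Quotient.mk (maximalIdeal R ^ n) (x i) ∈
      (maximalIdeal R).map (Ideal.Quotient.mk (maximalIdeal R ^ n)) := fun n i =>
    Ideal.mem_map_of_mem _ (hx i)
  have h1 : ∀ n : ℕ, ∃ f : MvPowerSeries σ 𝒪 →ₐ[𝒪] R ⧸ maximalIdeal R ^ n,
      ∀ i, f (X i) = Ideal.Quotient.mk _ (x i) := fun n =>
    exists_algHom _ _ (hJ n) (hxJ n)
  choose f hf using h1
  have hcomp : ∀ {m n : ℕ} (hle : m ≤ n),
      (Ideal.Quotient.factorₐ 𝒪 (Ideal.pow_le_pow_right (I := maximalIdeal R) hle)).comp (f n)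
        = f m := by
    intro m n hle
    refine algHom_unique _ _ ((maximalIdeal R).map (Ideal.Quotient.mk (maximalIdeal R ^ m)))
      (fun i => ?_) (fun i => ?_) (hJ m)
    · rw [AlgHom.comp_apply, hf]
      exact hxJ m i
    · rw [AlgHom.comp_apply, hf, hf]
      rfl
  refine ⟨IsAdicComplete.liftAlgHom (maximalIdeal R) f hcomp, fun i => ?_⟩
  refine eq_of_sub_eq_zero (IsHausdorff.haus (I := maximalIdeal R) inferInstance _ fun n => ?_)
  rw [SModEq.zero, smul_eq_mul, Ideal.mul_top, ← Ideal.Quotient.eq, IsAdicComplete.mk_liftAlgHom,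
    hf]

end lift

section surj

variable {𝒪 : Type} [CommRing 𝒪] [IsLocalRing 𝒪] [IsAdicComplete (maximalIdeal 𝒪) 𝒪]
  {R : Type} [CommRing R] [IsLocalRing R] [IsNoetherianRing R]
  [IsAdicComplete (maximalIdeal R) R] [Algebra 𝒪 R]

theorem surjective_of_generates {r : ℕ} (hR : PreTest 𝒪 R) (x : Fin r → R)
    (hgen : maximalIdeal R ≤ (maximalIdeal 𝒪).map (algebraMap 𝒪 R) ⊔
      Ideal.span (Set.range x))
    (γ : MvPowerSeries (Fin r) 𝒪 →ₐ[𝒪] R) (hγ : ∀ i, γ (X i) = x i)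
    (hx : ∀ i, x i ∈ maximalIdeal R) : Function.Surjective γ := by
  classical
  have hspan : Ideal.span (Set.range x) ≤ maximalIdeal R := by
    rw [Ideal.span_le]
    rintro _ ⟨i, rfl⟩
    exact hx i
  obtain ⟨J, hJ⟩ : ∃ J : Ideal R, J = Ideal.span (Set.range x) := ⟨_, rfl⟩
  rw [← hJ] at hgen hspan
  have hmap : (XI (Fin r) 𝒪).map (γ : MvPowerSeries (Fin r) 𝒪 →+* R) = J := by
    rw [hJ, Ideal.map_span, ← Set.range_comp]
    congr 1
    congr 1
    funext i
    exact hγ i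
  -- first step : `𝒪 → R / (x)` is surjective
  have hne : J ≠ ⊤ := fun h => (maximalIdeal.isMaximal R).ne_top (top_le_iff.mp (h ▸ hspan))
  have hloc := isLocalRing_quotient J hne
  have hQ : PreTest 𝒪 (R ⧸ J) := preTest_of_surjective (Ideal.Quotient.mkₐ 𝒪 J)
    (Ideal.Quotient.mkₐ_surjective _ _) hR
  have hmaxQ : (maximalIdeal 𝒪).map (algebraMap 𝒪 (R ⧸ J)) = maximalIdeal (R ⧸ J) := by
    apply le_antisymm
    · rw [Ideal.map_le_iff_le_comap]
      intro c hc
      rw [Ideal.mem_comap]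
      intro hu
      exact hc (hQ.isLocalHom.map_nonunit c hu)
    · intro y hy
      obtain ⟨a, rfl⟩ := Ideal.Quotient.mk_surjective y
      have ha : a ∈ maximalIdeal R := fun hu => hy (hu.map _)
      obtain ⟨b, hb, c, hc, rfl⟩ := Submodule.mem_sup.mp (hgen ha)
      rw [map_add, Ideal.Quotient.eq_zero_iff_mem.mpr hc, add_zero]
      have h2 := Ideal.mem_map_of_mem (Ideal.Quotient.mk J) hb
      rw [Ideal.map_map] at h2
      exact h2
  have hs1 : Function.Surjective (algebraMap 𝒪 (R ⧸ J)) := by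
    have : IsHausdorff ((maximalIdeal 𝒪).map (algebraMap 𝒪 (R ⧸ J))) (R ⧸ J) := by
      rw [hmaxQ]; infer_instance
    refine surjective_of_mk_map_comp_surjective (I := maximalIdeal 𝒪) (algebraMap 𝒪 (R ⧸ J)) ?_
    intro y
    obtain ⟨a, rfl⟩ := Ideal.Quotient.mk_surjective y
    obtain ⟨c, hc⟩ := hQ.approx a
    refine ⟨c, ?_⟩
    rw [RingHom.comp_apply, eq_comm, Ideal.Quotient.eq, hmaxQ]
    exact hc
  -- second step
  have : IsHausdorff ((XI (Fin r) 𝒪).map (γ : MvPowerSeries (Fin r) 𝒪 →+* R)) R := by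
    rw [hmap]
    exact IsHausdorff.of_le_jacobson _ _ (hspan.trans (IsLocalRing.maximalIdeal_le_jacobson _))
  refine surjective_of_mk_map_comp_surjective (I := XI (Fin r) 𝒪)
    (γ : MvPowerSeries (Fin r) 𝒪 →+* R) ?_
  intro y
  obtain ⟨a, rfl⟩ := Ideal.Quotient.mk_surjective y
  obtain ⟨c, hc⟩ := hs1 (Ideal.Quotient.mk J a)
  refine ⟨algebraMap 𝒪 _ c, ?_⟩
  rw [RingHom.comp_apply, RingHom.coe_coe, AlgHom.commutes, Ideal.Quotient.eq, hmap,
    ← Ideal.Quotient.eq]
  exact hc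

end surj

section count

variable {𝒪 : Type} [CommRing 𝒪] [IsLocalRing 𝒪] {A : Type} [CommRing A] [IsLocalRing A]
  [Algebra 𝒪 A]

/-- many homomorphisms to the dual numbers -/
theorem exists_generators_mod [Finite (ResidueField 𝒪)] (hA : PreTest 𝒪 A) (K : Ideal A)
    (h1 : (maximalIdeal 𝒪).map (algebraMap 𝒪 A) ≤ K) (h2 : maximalIdeal A ^ 2 ≤ K)
    (r : ℕ) (hfin : Finite {f : A →ₐ[𝒪] DN 𝒪 // IsLocalHom (f : A →+* DN 𝒪)})
    (hcard : Nat.card {f : A →ₐ[𝒪] DN 𝒪 // IsLocalHom (f : A →+* DN 𝒪)} ≤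
      Nat.card (ResidueField 𝒪) ^ r) (h3 : K ≤ maximalIdeal A) :
    ∃ x : Fin r → A, (∀ i, x i ∈ maximalIdeal A) ∧
      maximalIdeal A ≤ Ideal.span (Set.range x) ⊔ K := by
  classical
  obtain ⟨aug, haug, haug0⟩ := exists_aug hA
  let B := A ⧸ K
  let σ : ResidueField 𝒪 →+* B := Ideal.Quotient.lift (maximalIdeal 𝒪)
    ((Ideal.Quotient.mk K).comp (algebraMap 𝒪 A)) (fun a ha => by
      rw [RingHom.comp_apply, Ideal.Quotient.eq_zero_iff_mem]
      exact h1 (Ideal.mem_map_of_mem _ ha))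
  have hσ : ∀ c : 𝒪, σ (residue 𝒪 c) = Ideal.Quotient.mk K (algebraMap 𝒪 A c) := fun c => rfl
  let : Module (ResidueField 𝒪) B := Module.compHom B σ
  have hsmul : ∀ (c : 𝒪) (y : A), residue 𝒪 c • (Ideal.Quotient.mk K y) =
      Ideal.Quotient.mk K (algebraMap 𝒪 A c * y) := fun c y => rfl
  have haugc : ∀ c : 𝒪, aug (algebraMap 𝒪 A c) = residue 𝒪 c := fun c => by
    rw [AlgHom.commutes]; rfl
  let S1 : Submodule (ResidueField 𝒪) B := Submodule.span (ResidueField 𝒪) {(1 : B)}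
  let W := B ⧸ S1
  -- functionals give homomorphisms
  have key : ∀ l : Module.Dual (ResidueField 𝒪) W, ∃ f : A →ₐ[𝒪] DN 𝒪,
      IsLocalHom (f : A →+* DN 𝒪) ∧
      ∀ a, f a = DN.mk 𝒪 (aug a) (l (S1.mkQ (Ideal.Quotient.mk K a))) := by
    intro l'
    obtain ⟨l, hl⟩ : ∃ l : B →ₗ[ResidueField 𝒪] ResidueField 𝒪, l = l'.comp S1.mkQ := ⟨_, rfl⟩
    have hl1' : l (1 : B) = 0 := by
      rw [hl, LinearMap.comp_apply, Submodule.mkQ_apply,
        (Submodule.Quotient.mk_eq_zero S1).mpr (Submodule.mem_span_singleton_self _), map_zero]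
    have hlc : ∀ c : 𝒪, l (Ideal.Quotient.mk K (algebraMap 𝒪 A c)) = 0 := by
      intro c
      have : (Ideal.Quotient.mk K (algebraMap 𝒪 A c) : B) = residue 𝒪 c • (1 : B) := by
        have := hsmul c 1
        rw [mul_one, map_one] at this
        exact this.symm
      rw [this, map_smul, hl1', smul_zero]
    have hmul : ∀ a b : A, l (Ideal.Quotient.mk K (a * b)) =
        aug a * l (Ideal.Quotient.mk K b) + aug b * l (Ideal.Quotient.mk K a) := by
      intro a b
      obtain ⟨c, hc⟩ := hA.approx a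
      obtain ⟨d, hd⟩ := hA.approx b
      have h5 : (a - algebraMap 𝒪 A c) * (b - algebraMap 𝒪 A d) ∈ K := by
        apply h2
        rw [pow_two]
        exact Ideal.mul_mem_mul hc hd
      have h6 : Ideal.Quotient.mk K (a * b) = residue 𝒪 c • (Ideal.Quotient.mk K b) +
          residue 𝒪 d • (Ideal.Quotient.mk K a) -
          Ideal.Quotient.mk K (algebraMap 𝒪 A (c * d)) := by
        rw [hsmul, hsmul, ← map_add, ← map_sub, Ideal.Quotient.eq]
        convert h5 using 1
        rw [map_mul]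
        ring
      have ha : aug a = residue 𝒪 c := by
        have := (haug0 _).mpr hc
        rwa [map_sub, haugc, sub_eq_zero] at this
      have hb : aug b = residue 𝒪 d := by
        have := (haug0 _).mpr hd
        rwa [map_sub, haugc, sub_eq_zero] at this
      rw [h6, map_sub, map_add, map_smul, map_smul, hlc, sub_zero, ha, hb, smul_eq_mul,
        smul_eq_mul]
    let f : A →ₐ[𝒪] DN 𝒪 :=
      { toFun := fun a => DN.mk 𝒪 (aug a) (l (Ideal.Quotient.mk K a))
        map_one' := by rw [map_one, map_one, hl1']; rfl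
        map_mul' := fun a b => by rw [DN.mk_mul, map_mul aug, hmul]
        map_zero' := by rw [map_zero, map_zero, map_zero]; rfl
        map_add' := fun a b => by rw [DN.mk_add, map_add, map_add, map_add]
        commutes' := fun c => by rw [haugc, hlc]; rfl }
    have hf : ∀ a, f a = DN.mk 𝒪 (aug a) (l (Ideal.Quotient.mk K a)) := fun a => rfl
    refine ⟨f, ⟨fun a ha => ?_⟩, fun a => ?_⟩
    · rw [RingHom.coe_coe, hf] at ha
      exact haug.map_nonunit _ (DN.isUnit_fst ha)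
    · rw [hf, hl]
      rfl
  choose F hFloc hF using key
  have hinj : Function.Injective (fun l : Module.Dual (ResidueField 𝒪) W =>
      (⟨F l, hFloc l⟩ : {f : A →ₐ[𝒪] DN 𝒪 // IsLocalHom (f : A →+* DN 𝒪)})) := by
    intro l l' hll
    have h4 : F l = F l' := congrArg Subtype.val hll
    refine LinearMap.ext fun w => ?_
    obtain ⟨b, rfl⟩ := S1.mkQ_surjective w
    obtain ⟨a, rfl⟩ := Ideal.Quotient.mk_surjective b
    have h5 := congrArg (fun G => G a) h4
    simp only [hF] at h5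
    exact (DN.mk_inj h5).2
  have hfinDual : Finite (Module.Dual (ResidueField 𝒪) W) := Finite.of_injective _ hinj
  have hMF : Module.Finite (ResidueField 𝒪) (Module.Dual (ResidueField 𝒪) W) :=
    Module.Finite.of_finite
  have hW : Module.Finite (ResidueField 𝒪) W := (Module.finite_dual_iff _).mp hMF
  have hle : Module.finrank (ResidueField 𝒪) W ≤ r := by
    have h4 : Nat.card (Module.Dual (ResidueField 𝒪) W) ≤ Nat.card (ResidueField 𝒪) ^ r :=
      (Nat.card_le_card_of_injective _ hinj).trans hcard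
    rw [Module.natCard_eq_pow_finrank (K := ResidueField 𝒪), Subspace.dual_finrank_eq] at h4
    exact (Nat.pow_le_pow_iff_right (Finite.one_lt_card)).mp h4
  let bW := Module.finBasis (ResidueField 𝒪) W
  obtain ⟨w, hw⟩ : ∃ w : Fin r → W, Submodule.span (ResidueField 𝒪) (Set.range w) = ⊤ := by
    refine ⟨fun i => if h : (i : ℕ) < Module.finrank (ResidueField 𝒪) W then bW ⟨i, h⟩ else 0, ?_⟩
    rw [eq_top_iff, ← bW.span_eq]
    refine Submodule.span_mono ?_
    rintro _ ⟨i, rfl⟩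
    refine ⟨⟨i, i.2.trans_le hle⟩, ?_⟩
    simp
  have hx : ∀ i, ∃ x : A, x ∈ maximalIdeal A ∧ S1.mkQ (Ideal.Quotient.mk K x) = w i := by
    intro i
    obtain ⟨b, hb⟩ := S1.mkQ_surjective (w i)
    obtain ⟨y, rfl⟩ := Ideal.Quotient.mk_surjective b
    obtain ⟨c, hc⟩ := hA.approx y
    refine ⟨_, hc, ?_⟩
    have h4 : (Ideal.Quotient.mk K (algebraMap 𝒪 A c) : B) ∈ S1 := by
      have := hsmul c 1
      rw [mul_one, map_one] at this
      rw [← this]
      exact Submodule.smul_mem _ _ (Submodule.mem_span_singleton_self _)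
    rw [map_sub, map_sub, hb, Submodule.mkQ_apply S1 (Ideal.Quotient.mk K (algebraMap 𝒪 A c)),
      (Submodule.Quotient.mk_eq_zero S1).mpr h4, sub_zero]
  choose x hxm hxw using hx
  refine ⟨x, hxm, fun m hm => ?_⟩
  have h4 : S1.mkQ (Ideal.Quotient.mk K m) ∈
      Submodule.span (ResidueField 𝒪) (Set.range w) := by rw [hw]; trivial
  obtain ⟨a, ha⟩ := (Submodule.mem_span_range_iff_exists_fun _).mp h4
  choose α hα using fun i => residue_surjective (R := 𝒪) (a i)
  have h5 : S1.mkQ (Ideal.Quotient.mk K (m - ∑ i, algebraMap 𝒪 A (α i) * x i)) = 0 := by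
    rw [map_sub, map_sub, ← ha, map_sum, map_sum, sub_eq_zero]
    refine Finset.sum_congr rfl fun i _ => ?_
    rw [← hsmul, map_smul, hxw, hα]
  rw [Submodule.mkQ_apply, Submodule.Quotient.mk_eq_zero] at h5
  obtain ⟨c, hc⟩ := Submodule.mem_span_singleton.mp h5
  obtain ⟨c, rfl⟩ := residue_surjective c
  have h6 : Ideal.Quotient.mk K (algebraMap 𝒪 A c * 1) =
      Ideal.Quotient.mk K (m - ∑ i, algebraMap 𝒪 A (α i) * x i) := by
    rw [← hsmul, map_one]; exact hc
  rw [mul_one, Ideal.Quotient.eq] at h6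
  have hsum : ∑ i, algebraMap 𝒪 A (α i) * x i ∈ Ideal.span (Set.range x) :=
    Ideal.sum_mem _ fun i _ => Ideal.mul_mem_left _ _ (Ideal.subset_span ⟨i, rfl⟩)
  have hsum' : ∑ i, algebraMap 𝒪 A (α i) * x i ∈ maximalIdeal A :=
    Ideal.sum_mem _ fun i _ => Ideal.mul_mem_left _ _ (hxm i)
  have h7 : algebraMap 𝒪 A c ∈ maximalIdeal A := by
    have := Ideal.add_mem _ (h3 h6) (Ideal.sub_mem _ hm hsum')
    simpa using this
  have h8 : c ∈ maximalIdeal 𝒪 := fun hu => h7 (hu.map _)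
  have h9 : algebraMap 𝒪 A c ∈ K := h1 (Ideal.mem_map_of_mem _ h8)
  have h10 : m - ∑ i, algebraMap 𝒪 A (α i) * x i ∈ K := by
    have := Ideal.sub_mem _ h9 h6
    simpa using this
  have h11 : m = (∑ i, algebraMap 𝒪 A (α i) * x i) +
      (m - ∑ i, algebraMap 𝒪 A (α i) * x i) := by ring
  rw [h11]
  exact Submodule.add_mem_sup hsum h10

end count

/-- **Part [A]** -/
theorem exists_surjective_powerSeries {𝒪 : Type} [CommRing 𝒪] [IsLocalRing 𝒪]
    [IsAdicComplete (maximalIdeal 𝒪) 𝒪] [Finite (ResidueField 𝒪)]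
    {R : Type} [CommRing R] [IsLocalRing R] [IsNoetherianRing R]
    [IsAdicComplete (maximalIdeal R) R] [Algebra 𝒪 R] (hR : PreTest 𝒪 R) (r : ℕ)
    (hfin : Finite {f : R →ₐ[𝒪] DN 𝒪 // IsLocalHom (f : R →+* DN 𝒪)})
    (hcard : Nat.card {f : R →ₐ[𝒪] DN 𝒪 // IsLocalHom (f : R →+* DN 𝒪)} ≤
      Nat.card (ResidueField 𝒪) ^ r) :
    ∃ γ : MvPowerSeries (Fin r) 𝒪 →ₐ[𝒪] R, Function.Surjective γ := by
  have hK0 : (maximalIdeal 𝒪).map (algebraMap 𝒪 R) ≤ maximalIdeal R := by
    rw [Ideal.map_le_iff_le_comap]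
    intro c hc hu
    exact hc (hR.isLocalHom.map_nonunit c hu)
  obtain ⟨x, hx, hgen⟩ := exists_generators_mod hR
    ((maximalIdeal 𝒪).map (algebraMap 𝒪 R) ⊔ maximalIdeal R ^ 2) le_sup_left le_sup_right r
    hfin hcard (sup_le hK0 (Ideal.pow_le_self two_ne_zero))
  have hgen' : maximalIdeal R ≤ (maximalIdeal 𝒪).map (algebraMap 𝒪 R) ⊔
      Ideal.span (Set.range x) := by
    refine Submodule.le_of_le_smul_of_le_jacobson_bot (I := maximalIdeal R)
      (IsNoetherian.noetherian _) (IsLocalRing.maximalIdeal_le_jacobson _) ?_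
    rw [smul_eq_mul, ← pow_two, sup_comm ((maximalIdeal 𝒪).map (algebraMap 𝒪 R)), sup_assoc]
    exact hgen
  obtain ⟨γ, hγ⟩ := exists_algHom_complete (𝒪 := 𝒪) x hx
  exact ⟨γ, surjective_of_generates hR x hgen' γ hγ hx⟩

end Fermat.Agent.TW
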