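import Fermat.Agent.TW.Select
import Fermat.Agent.TW.PowSurj

/-!
# Deformations to the dual numbers as cocycles
-/

set_option autoImplicit false
set_option linter.unusedSectionVars false

noncomputable section

namespace Fermat.Agent.TW

open IsLocalRing Matrix Fermat.Agent.CC
open Fermat.Agent.H04 (DN M2 Dat IsNRep mapM ofMat IsCont)

section DN

variable {𝒪 : Type} [CommRing 𝒪] [IsLocalRing 𝒪]

/-- reduction of dual numbers -/
def fs : DN 𝒪 →+* ResidueField 𝒪 :=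
  (TrivSqZeroExt.fstHom (ResidueField 𝒪) (ResidueField 𝒪) (ResidueField 𝒪)).toRingHom

/-- the `ε`-part of a dual number -/
def sn (x : DN 𝒪) : ResidueField 𝒪 := TrivSqZeroExt.snd (show DualNumber (ResidueField 𝒪) from x)

@[simp] theorem fs_mk (a b : ResidueField 𝒪) : fs (DN.mk 𝒪 a b) = a := rfl
@[simp] theorem sn_mk (a b : ResidueField 𝒪) : sn (DN.mk 𝒪 a b) = b := rfl
@[simp] theorem sn_add (x y : DN 𝒪) : sn (x + y) = sn x + sn y := rfl
@[simp] theorem sn_sub (x y : DN 𝒪) : sn (x - y) = sn x - sn y := rfl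
@[simp] theorem sn_zero : sn (0 : DN 𝒪) = 0 := rfl
@[simp] theorem sn_one : sn (1 : DN 𝒪) = 0 := rfl
theorem eq_mk (x : DN 𝒪) : x = DN.mk 𝒪 (fs x) (sn x) := rfl

theorem sn_mul (x y : DN 𝒪) : sn (x * y) = fs x * sn y + sn x * fs y := by
  have h : x * y = DN.mk 𝒪 (fs x * fs y) (fs x * sn y + fs y * sn x) := by
    conv_lhs => rw [eq_mk x, eq_mk y]
    rw [Fermat.Agent.H04.DN.mk_mul]
  rw [h, sn_mk, mul_comm (sn x)]

theorem dn_ext {x y : DN 𝒪} (h1 : fs x = fs y) (h2 : sn x = sn y) : x = y := by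
  rw [eq_mk x, eq_mk y, h1, h2]

theorem fs_algebraMap (c : 𝒪) : fs (algebraMap 𝒪 (DN 𝒪) c) = residue 𝒪 c := rfl
theorem sn_algebraMap (c : 𝒪) : sn (algebraMap 𝒪 (DN 𝒪) c) = 0 := rfl

theorem sn_natCast (n : ℕ) : sn (n : DN 𝒪) = 0 := by
  have : (n : DN 𝒪) = algebraMap 𝒪 (DN 𝒪) n := by rw [map_natCast]
  rw [this, sn_algebraMap]

theorem isUnit_iff_fs {x : DN 𝒪} : IsUnit x ↔ fs x ≠ 0 := by
  constructor
  · intro h
    exact (h.map fs).ne_zero
  · intro h
    refine IsUnit.of_mul_eq_one (DN.mk 𝒪 (fs x)⁻¹ (-(sn x * (fs x)⁻¹ * (fs x)⁻¹))) ?_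
    apply dn_ext
    · rw [map_mul, fs_mk, mul_inv_cancel₀ h, map_one]
    · rw [sn_mul, fs_mk, sn_mk, sn_one]
      field_simp
      ring

theorem mem_maximalIdeal_iff_fs {x : DN 𝒪} : x ∈ maximalIdeal (DN 𝒪) ↔ fs x = 0 := by
  rw [IsLocalRing.mem_maximalIdeal, mem_nonunits_iff, isUnit_iff_fs, not_not]

theorem maximalIdeal_sq : maximalIdeal (DN 𝒪) ^ 2 = ⊥ := by
  rw [eq_bot_iff, pow_two, Ideal.mul_le]
  intro x hx y hy
  rw [mem_maximalIdeal_iff_fs] at hx hy
  rw [Ideal.mem_bot]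
  apply dn_ext
  · rw [map_mul, hx, zero_mul, map_zero]
  · rw [sn_mul, hx, hy, zero_mul, mul_zero, add_zero, sn_zero]

theorem isAdicComplete_of_pow {R : Type*} [CommRing R] (I : Ideal R) (N : ℕ) (h : I ^ N = ⊥) :
    IsAdicComplete I R where
  haus' := by
    intro x hx
    have := hx N
    rw [SModEq.zero, h, Submodule.bot_smul, Submodule.mem_bot] at this
    exact this
  prec' := by
    intro f hf
    refine ⟨f N, fun n => ?_⟩
    rcases le_total n N with hn | hn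
    · exact hf hn
    · have := hf hn
      rw [h, Submodule.bot_smul, SModEq.bot] at this
      rw [this]

instance instCompleteDN : IsAdicComplete (maximalIdeal (DN 𝒪)) (DN 𝒪) :=
  isAdicComplete_of_pow _ 2 maximalIdeal_sq

instance instFiniteDN [Finite (ResidueField 𝒪)] : Finite (DN 𝒪) :=
  inferInstanceAs (Finite (ResidueField 𝒪 × ResidueField 𝒪))

/-- matrix reduction -/
def FM (X : M2 (DN 𝒪)) : Mt (ResidueField 𝒪) := X.map fs

/-- the `ε`-part of a matrix -/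
def SM (X : M2 (DN 𝒪)) : Mt (ResidueField 𝒪) := X.map sn

theorem FM_mul (X Y : M2 (DN 𝒪)) : FM (X * Y) = FM X * FM Y := by
  unfold FM
  rw [Matrix.map_mul]

theorem FM_one : FM (1 : M2 (DN 𝒪)) = 1 := by
  unfold FM
  rw [Matrix.map_one _ (map_zero _) (map_one _)]

theorem SM_one : SM (1 : M2 (DN 𝒪)) = 0 := by
  ext i j
  change sn ((1 : M2 (DN 𝒪)) i j) = 0
  rw [Matrix.one_apply]
  split_ifs <;> simp

theorem SM_mul (X Y : M2 (DN 𝒪)) : SM (X * Y) = FM X * SM Y + SM X * FM Y := by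
  ext i j
  simp only [SM, FM, Matrix.map_apply, Matrix.mul_apply, Matrix.add_apply, Fin.sum_univ_two,
    sn_add, sn_mul]
  ring

theorem mat_ext {X Y : M2 (DN 𝒪)} (h1 : FM X = FM Y) (h2 : SM X = SM Y) : X = Y := by
  ext i j
  exact dn_ext (congrFun (congrFun h1 i) j) (congrFun (congrFun h2 i) j)

theorem isUnit_of_FM {X : M2 (DN 𝒪)} (h : FM X = 1) : IsUnit X := by
  rw [Matrix.isUnit_iff_isUnit_det, isUnit_iff_fs]
  have : fs X.det = (FM X).det := by
    rw [FM, ← RingHom.mapMatrix_apply, ← RingHom.map_det]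
  rw [this, h, Matrix.det_one]
  exact one_ne_zero

theorem sn_det (X : M2 (DN 𝒪)) : sn X.det = (SM X * (FM X).adjugate).trace := by
  rw [Matrix.det_fin_two, Matrix.adjugate_fin_two, sn_sub, sn_mul, sn_mul]
  simp only [Matrix.trace, Matrix.diag, Matrix.mul_apply, Fin.sum_univ_two, SM, FM,
    Matrix.map_apply, Matrix.of_apply, Matrix.cons_val', Matrix.cons_val_zero,
    Matrix.cons_val_one, Matrix.cons_val_fin_one]
  ring

end DN

section xi

variable {𝒪 : Type} [CommRing 𝒪] [IsLocalRing 𝒪] {rb : GQ →* Mt (ResidueField 𝒪)}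
  {s s' : GQ →* M2 (DN 𝒪)}

/-- cocycle attached to a lift to the dual numbers -/
def xi (rb : GQ →* Mt (ResidueField 𝒪)) (s : GQ →* M2 (DN 𝒪)) (σ : GQ) : Mt (ResidueField 𝒪) :=
  SM (s σ) * rb σ⁻¹

theorem xi_mul_rb (σ : GQ) : xi rb s σ * rb σ = SM (s σ) := by
  rw [xi, mul_assoc, r_inv_mul, mul_one]

theorem isCoc_xi (hs : ∀ σ, FM (s σ) = rb σ) : IsCoc rb (1 : GQ →* ResidueField 𝒪) (xi rb s) := by
  intro g h
  rw [MonoidHom.one_apply, one_smul, xi, map_mul, SM_mul, hs, hs, add_mul, _root_.mul_inv_rev,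
    map_mul, xi, xi, mul_assoc (SM (s g)), ← mul_assoc (rb h), r_mul_inv, one_mul, add_comm]
  simp only [mul_assoc]

theorem trace_xi (hs : ∀ σ, FM (s σ) = rb σ) {σ : GQ} (h : sn (s σ).det = 0) :
    (xi rb s σ).trace = 0 := by
  rw [sn_det, hs] at h
  have h1 : (rb σ).det * (rb σ⁻¹).det = 1 := by
    rw [← Matrix.det_mul, r_mul_inv, Matrix.det_one]
  have h2 : (rb σ).adjugate = (rb σ).det • rb σ⁻¹ := by
    have h3 : (rb σ).adjugate * (rb σ * rb σ⁻¹) = (rb σ).det • rb σ⁻¹ := by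
      rw [← mul_assoc, Matrix.adjugate_mul, smul_mul_assoc, one_mul]
    rwa [r_mul_inv, mul_one] at h3
  rw [h2, mul_smul_comm, Matrix.trace_smul, smul_eq_mul] at h
  rcases mul_eq_zero.1 h with h3 | h3
  · rw [h3, zero_mul] at h1
    exact absurd h1 zero_ne_one
  · exact h3

/-- The class of a lift. -/
noncomputable def cls (S' : Finset Nat.Primes) (hs : ∀ σ, FM (s σ) = rb σ)
    (hU : (levS S').isOpen s.ker) (htr : ∀ σ, sn (s σ).det = 0) :
    Z1 (levS S') (Ad0 rb (1 : GQ →* ResidueField 𝒪)) :=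
  ⟨fun σ => Ad0.mk (xi rb s σ) (trace_xi hs (htr σ)), ⟨s.ker, hU, fun g t ht => by
    apply Ad0.ext
    have ht' : s t = 1 := ht
    have h1 : rb t = 1 := by rw [← hs, ht', FM_one]
    have h2 : rb t⁻¹ = 1 := by
      have := r_mul_inv rb t
      rwa [h1, one_mul] at this
    change xi rb s (g * t) = xi rb s g
    rw [xi, xi, map_mul, ht', mul_one, _root_.mul_inv_rev, map_mul, h2, one_mul]⟩, fun g h => by
    apply Ad0.ext
    have := isCoc_xi hs g h
    exact this⟩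

theorem cls_val (S' : Finset Nat.Primes) (hs : ∀ σ, FM (s σ) = rb σ)
    (hU : (levS S').isOpen s.ker) (htr : ∀ σ, sn (s σ).det = 0) (σ : GQ) :
    ((cls S' hs hU htr).1 σ).val = xi rb s σ := rfl

/-- Cohomologous classes give conjugate lifts. -/
theorem exists_conj_of_cls {S' : Finset Nat.Primes} {hs : ∀ σ, FM (s σ) = rb σ}
    {hU : (levS S').isOpen s.ker} {htr : ∀ σ, sn (s σ).det = 0}
    {hs' : ∀ σ, FM (s' σ) = rb σ}
    {hU' : (levS S').isOpen s'.ker} {htr' : ∀ σ, sn (s' σ).det = 0}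
    (h : H1.mk _ _ (cls S' hs hU htr) = H1.mk _ _ (cls S' hs' hU' htr')) :
    ∃ P : M2 (DN 𝒪), IsUnit P ∧ ∀ σ, P * s σ = s' σ * P := by
  rw [H1.mk_eq_mk] at h
  obtain ⟨a, ha⟩ := h
  obtain ⟨P, hP⟩ : ∃ P : M2 (DN 𝒪), P = Matrix.of (fun i j =>
    DN.mk 𝒪 ((1 : Mt (ResidueField 𝒪)) i j) (a.val i j)) := ⟨_, rfl⟩
  have h1 : FM P = 1 := by rw [hP]; ext i j; rfl
  have h2 : SM P = a.val := by rw [hP]; ext i j; rfl
  refine ⟨P, isUnit_of_FM h1, fun σ => mat_ext ?_ ?_⟩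
  · rw [FM_mul, FM_mul, h1, hs, hs', one_mul, mul_one]
  · rw [SM_mul, SM_mul, h1, h2, hs, hs', one_mul, mul_one]
    have h3 := congrArg Ad0.val (ha σ)
    rw [Ad0.val_add, Ad0.val_sub, Ad0.val_gsmul, cls_val, cls_val, MonoidHom.one_apply,
      one_smul] at h3
    have h4 := congrArg (fun X => X * rb σ) h3
    beta_reduce at h4
    rw [xi_mul_rb, add_mul, xi_mul_rb, sub_mul, mul_assoc (rb σ * a.val), r_inv_mul, mul_one] at h4
    rw [h4]
    abel

end xi

section cyc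

/-- action on roots of unity -/
theorem exists_pow_action (n : ℕ) [NeZero n] (σ : GQ) :
    ∃ a : ℕ, ∀ x : Qb, x ^ n = 1 → σ x = x ^ a := by
  have hc : Nat.card (rootsOfUnity n Qb) = n := by
    have : NeZero (n : Qb) := ⟨Nat.cast_ne_zero.mpr (NeZero.ne n)⟩
    exact HasEnoughRootsOfUnity.natCard_rootsOfUnity Qb n
  refine ⟨((modularCyclotomicCharacter Qb hc (σ : Qb ≃+* Qb) : (ZMod n)ˣ) : ZMod n).val,
    fun x hx => ?_⟩
  have hx0 : x ≠ 0 := by
    rintro rfl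
    rw [zero_pow (NeZero.ne n)] at hx
    exact zero_ne_one hx
  have ht : Units.mk0 x hx0 ∈ rootsOfUnity n Qb := by
    rw [mem_rootsOfUnity]
    ext
    simpa using hx
  have h1 := modularCyclotomicCharacter.spec Qb hc (σ : Qb ≃+* Qb) ht
  simpa using h1

/-- open subgroups containing all inertia groups outside `S` -/
theorem levS_isOpen_of {S : Finset Nat.Primes} {N : Subgroup GQ} (hN : lev.isOpen N)
    (hI : ∀ q : Nat.Primes, q ∉ S → ∀ A : ValuationSubring Qb, A.LiesOverPrime q →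
      A.inertiaSubgroupIn ℚ ≤ N) : (levS S).isOpen N := by
  obtain ⟨L, hL, hLN⟩ := hN
  have hg := Fermat.Agent.H51.isGalois_Qbar
  have hopen : IsOpen (N : Set GQ) :=
    Subgroup.isOpen_mono hLN (IntermediateField.fixingSubgroup_isOpen L)
  let Hc : ClosedSubgroup GQ := ⟨N, N.isClosed_of_isOpen hopen⟩
  have hfix : (IntermediateField.fixedField N).fixingSubgroup = N :=
    InfiniteGalois.fixingSubgroup_fixedField Hc
  refine ⟨IntermediateField.fixedField N, ⟨?_, fun q hq A hA => ?_⟩, hfix.le⟩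
  · rw [← InfiniteGalois.isOpen_iff_finite, hfix]
    exact hopen
  · rw [hfix]
    exact hI q hq A hA

end cyc

end Fermat.Agent.TW

end
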