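import Fermat.Agent.TW.Local2
import Fermat.Agent.TW.Tan

/-!
# Unipotent deformations at primes of ramification
-/

set_option autoImplicit false
set_option linter.unusedSectionVars false

namespace Fermat.Agent.TW

open Matrix Fermat.Agent.CC IsLocalRing
open Fermat.Agent.H04 (DN M2)
open scoped Pointwise

section LinAlg

variable {k : Type*} [Field k]

theorem exists_nil {n : Mt k} (hn : n ≠ 0) (h1 : n.trace = 0) :
    n 0 1 ≠ 0 ∨ n 1 0 ≠ 0 ∨ n.det ≠ 0 := by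
  by_contra hcon
  push Not at hcon
  obtain ⟨e1, e2, e3⟩ := hcon
  have e4 : n 1 1 = - n 0 0 := by
    have : n 0 0 + n 1 1 = 0 := by simpa [Matrix.trace, Fin.sum_univ_two] using h1
    linear_combination this
  rw [Matrix.det_fin_two, e1, e2, e4, mul_zero, sub_zero, mul_neg, neg_eq_zero,
    mul_self_eq_zero] at e3
  rw [e3, neg_zero] at e4
  apply hn
  ext i j
  fin_cases i <;> fin_cases j <;> simp [e1, e2, e3, e4]

/-- solving `u a u⁻¹ - a = X` for a unipotent `u ≠ 1` -/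
theorem exists_coboundary_unip (h2 : (2 : k) ≠ 0) {u u' X : Mt k} (hu : u * u' = 1)
    (hd : u.det = 1) (ht : u.trace = 2)
    (hne : u ≠ 1) (hX : X.trace = 0) (hXu : (X * u).trace = 0) :
    ∃ a : Mt k, a.trace = 0 ∧ X = u * a * u' - a := by
  obtain ⟨n, hn⟩ : ∃ n : Mt k, n = u - 1 := ⟨_, rfl⟩
  have hn0 : n ≠ 0 := by rw [hn]; exact sub_ne_zero.2 hne
  have hn1 : n.trace = 0 := by rw [hn, trace_sub_one, ht, sub_self]
  have hn2 : n.det = 0 := by rw [hn, det_sub_one, ht, hd]; ring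
  have hun : u = 1 + n := by rw [hn]; abel
  have nn : n * n = 0 := sq_zero hn1 hn2
  obtain ⟨m, hm1, hm2, hs⟩ : ∃ m : Mt k, m.trace = 0 ∧ m.det = 0 ∧ (n * m).trace ≠ 0 := by
    rcases exists_nil hn0 hn1 with h | h | h
    · refine ⟨!![0, 0; 1, 0], by simp [Matrix.trace], by simp, ?_⟩
      simpa [Matrix.trace, Matrix.mul_apply, Fin.sum_univ_two] using h
    · refine ⟨!![0, 1; 0, 0], by simp [Matrix.trace], by simp, ?_⟩
      simpa [Matrix.trace, Matrix.mul_apply, Fin.sum_univ_two] using h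
    · exact absurd hn2 h
  obtain ⟨s, hs'⟩ : ∃ s, s = (n * m).trace := ⟨_, rfl⟩
  rw [← hs'] at hs
  obtain ⟨C, hC⟩ : ∃ C : Mt k, C = X * u := ⟨_, rfl⟩
  have hXn : (X * n).trace = 0 := by
    rw [hn, mul_sub, mul_one, Matrix.trace_sub, hXu, hX, sub_zero]
  have a1 : C.trace = 0 := by rw [hC, hXu]
  have a2 : (C * n).trace = 0 := by
    rw [hC, hun, mul_assoc, add_mul, one_mul, nn, add_zero, hXn]
  have ac : C * n = - (n * C) := by
    have := anticomm (C := C) (H := n) a1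
    rw [hn1, a2, zero_smul, zero_smul, add_zero] at this
    exact eq_neg_of_add_eq_zero_left this
  have nm := nil_add hn1 hm1
  rw [← hs'] at nm
  obtain ⟨X₁, hX₁⟩ : ∃ X₁ : Mt k, X₁ = s⁻¹ • (m * C) := ⟨_, rfl⟩
  have p1 : n * X₁ - X₁ * n = C := by
    rw [hX₁, mul_smul_comm, smul_mul_assoc, ← smul_sub, mul_assoc m, ac, mul_neg, sub_neg_eq_add,
      ← mul_assoc, ← mul_assoc, ← add_mul, nm, smul_mul_assoc, one_mul, smul_smul,
      inv_mul_cancel₀ hs, one_smul]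
  refine ⟨X₁ - (2⁻¹ * X₁.trace) • (1 : Mt k), ?_, ?_⟩
  · rw [Matrix.trace_sub, Matrix.trace_smul, Matrix.trace_one]
    simp only [Fintype.card_fin, Nat.cast_ofNat, smul_eq_mul]
    field_simp
    ring
  · have h3 : u * (X₁ - (2⁻¹ * X₁.trace) • (1 : Mt k)) -
        (X₁ - (2⁻¹ * X₁.trace) • (1 : Mt k)) * u = C := by
      rw [← p1, hun]
      simp only [add_mul, mul_add, mul_sub, sub_mul, one_mul, mul_one, mul_smul_comm,
        smul_mul_assoc, smul_add]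
      abel
    have h4 := congrArg (fun Y => Y * u') h3
    beta_reduce at h4
    rw [hC, sub_mul, mul_assoc X, mul_assoc (X₁ - _) u u', hu, mul_one, mul_one] at h4
    exact h4.symm

end LinAlg

section

variable {𝒪 : Type} [CommRing 𝒪] [IsLocalRing 𝒪] {rb : GQ →* Mt (ResidueField 𝒪)}
  {s : GQ →* M2 (DN 𝒪)} {q : ℕ} {A : ValuationSubring Qb}

theorem trace_xi_mul (σ : GQ) :
    (xi rb s σ * rb σ).trace = sn (s σ).trace := by
  rw [xi_mul_rb]
  simp only [SM, Matrix.trace, Fin.sum_univ_two, Matrix.diag, Matrix.map_apply, sn_add]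

theorem Z1_zpow {G : Type*} [Group G] {𝓛 : Lev G} {M : Type*} [AddCommGroup M]
    [DistribMulAction G M] (f : Z1 𝓛 M) {g : G} (h : f.1 g = 0) (n : ℤ) : f.1 (g ^ n) = 0 := by
  have hinv : f.1 g⁻¹ = 0 := by
    have := f.2.2 g⁻¹ g
    rw [inv_mul_cancel, Z1.map_one, h, smul_zero, add_zero] at this
    exact this.symm
  obtain ⟨m, rfl | rfl⟩ := n.eq_nat_or_neg
  · rw [zpow_natCast]
    exact Z1_pow f h m
  · rw [_root_.zpow_neg, zpow_natCast, ← inv_pow]
    exact Z1_pow f hinv m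

/-- **(E3)**: a deformation to the dual numbers, unipotent on inertia at a prime where the
residual representation is ramified, has trivial restriction to inertia. -/
theorem cls_mem_unr [Finite (ResidueField 𝒪)] {p : ℕ} [CharP (ResidueField 𝒪) p] (hp : p.Prime)
    (hp2 : p ≠ 2) {S' : Finset Nat.Primes} (hs : ∀ σ, FM (s σ) = rb σ)
    (hU : (levS S').isOpen s.ker) (htr : ∀ σ, sn (s σ).det = 0)
    (hq : q.Prime) (hpq : p ≠ q) (hA : A.LiesOverPrime q)
    (hd : ∀ τ ∈ A.inertiaSubgroupIn ℚ, (rb τ).det = 1)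
    (ht : ∀ τ ∈ A.inertiaSubgroupIn ℚ, (s τ).trace = 2)
    (hram : ∃ τ ∈ A.inertiaSubgroupIn ℚ, rb τ ≠ 1) :
    resD S' (A.decompositionSubgroup ℚ) _ (H1.mk _ _ (cls S' hs hU htr)) ∈
      unr A (Ad0 rb (1 : GQ →* ResidueField 𝒪)) := by
  classical
  have hfact : Fact p.Prime := ⟨hp⟩
  have hgal := Fermat.Agent.H51.isGalois_Qbar
  have h2 : (2 : ResidueField 𝒪) ≠ 0 := by
    simpa using cast_ne_zero (k := ResidueField 𝒪) (p := p) Nat.prime_two hp2
  obtain ⟨π, τ, hπ, hτI, hτ⟩ := exists_pi_tau hq hA hp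
  have htb : ∀ τ ∈ A.inertiaSubgroupIn ℚ, (rb τ).trace = 2 := by
    intro τ hτ
    have h3 := congrArg fs (ht τ hτ)
    rw [← hs]
    have h4 : (FM (s τ)).trace = fs (s τ).trace := by
      simp only [FM, Matrix.trace, Fin.sum_univ_two, Matrix.diag, Matrix.map_apply, map_add]
    rw [h4, h3, map_ofNat]
  -- p-th power of the residual matrix
  have hpowb : ∀ τ ∈ A.inertiaSubgroupIn ℚ, rb τ ^ p = 1 := by
    intro τ hτ
    have h3 : rb τ = 1 + (rb τ - 1) := by abel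
    rw [h3, pow_unip (sq_zero (by rw [trace_sub_one, htb τ hτ, sub_self])
      (by rw [det_sub_one, htb τ hτ, hd τ hτ]; ring)), CharP.cast_eq_zero, zero_smul, add_zero]
  have hpows : ∀ τ ∈ A.inertiaSubgroupIn ℚ, s τ ^ (p ^ 2) = 1 := by
    intro τ hτ
    have h3 : FM (s τ ^ p) = 1 := by
      rw [← map_pow, hs, map_pow]
      exact hpowb τ hτ
    have h4 : ∀ (Y : M2 (DN 𝒪)), FM Y = 1 → ∀ j : ℕ, FM (Y ^ j) = 1 ∧
        SM (Y ^ j) = (j : ResidueField 𝒪) • SM Y := by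
      intro Y hY j
      induction j with
      | zero => rw [pow_zero, FM_one, SM_one]; simp
      | succ j ih =>
        rw [pow_succ, FM_mul, SM_mul, ih.1, ih.2, hY, one_mul, mul_one, one_mul]
        refine ⟨rfl, ?_⟩
        push_cast
        rw [add_smul, one_smul, add_comm]
    rw [pow_two, pow_mul]
    refine mat_ext ?_ ?_
    · rw [(h4 _ h3 p).1, FM_one]
    · rw [(h4 _ h3 p).2, CharP.cast_eq_zero, zero_smul, SM_one]
  have hfinM2 : Finite (M2 (DN 𝒪)) := inferInstanceAs (Finite (Fin 2 → Fin 2 → DN 𝒪))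
  have hfinU : Finite (M2 (DN 𝒪))ˣ := Finite.of_injective _ Units.val_injective
  obtain ⟨hgen, -⟩ := H12.tame_inertia (P := (M2 (DN 𝒪))ˣ) hq hA hp hpq π hπ τ hτI hτ
    (s.toHomUnits.comp (A.inertiaSubgroupIn ℚ).subtype) (fun σ => ⟨2, by
      apply Units.ext
      rw [Units.val_pow_eq_pow_val, Units.val_one]
      exact hpows σ σ.2⟩) s.ker (lev_isOpen_iff.1 (lev_isOpen_of_levS hU)) (fun σ hσ => by
      apply Units.ext
      exact hσ)
  have hgen' : ∀ σ ∈ A.inertiaSubgroupIn ℚ, ∃ n : ℤ, s σ = s (τ ^ n) := by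
    intro σ hσ
    obtain ⟨n, hn⟩ := hgen ⟨σ, hσ⟩
    refine ⟨n, ?_⟩
    rw [← map_zpow] at hn
    exact congrArg Units.val hn
  have hrbgen : ∀ σ : GQ, ∀ n : ℤ, s σ = s (τ ^ n) → rb σ = rb (τ ^ n) := by
    intro σ n h
    rw [← hs, ← hs, h]
  -- `rb τ ≠ 1`
  have hne : rb τ ≠ 1 := by
    intro h1
    obtain ⟨σ, hσ, hσ1⟩ := hram
    obtain ⟨n, hn⟩ := hgen' σ hσ
    apply hσ1
    rw [hrbgen σ n hn]
    have h3 : τ ∈ rb.ker := h1
    exact rb.ker.zpow_mem h3 n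
  obtain ⟨a, ha, hXa⟩ := exists_coboundary_unip h2 (r_mul_inv rb τ) (hd τ hτI) (htb τ hτI) hne
    (trace_xi hs (htr τ)) (by
      rw [trace_xi_mul, ht τ hτI]
      exact sn_natCast 2)
  -- the cocycle `f - ∂a` vanishes on inertia
  have hsm : lev.Smooth (Ad0 rb (1 : GQ →* ResidueField 𝒪)) := by
    refine smooth_Ad0 ?_ (fun _ _ => rfl)
    refine lev.mono _ _ (lev_isOpen_of_levS hU) fun t ht => ?_
    have : s t = 1 := ht
    change rb t = 1
    rw [← hs, this, FM_one]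
  obtain ⟨f, hf⟩ : ∃ f : Z1 (levS S') (Ad0 rb (1 : GQ →* ResidueField 𝒪)), f = cls S' hs hU htr :=
    ⟨_, rfl⟩
  rw [← hf]
  have hfv : ∀ σ, (f.1 σ).val = xi rb s σ := fun σ => by rw [hf, cls_val]
  have hred : ∀ σ ∈ A.inertiaSubgroupIn ℚ, f.1 σ = σ • (Ad0.mk a ha) - Ad0.mk a ha := by
    intro σ hσ
    obtain ⟨n, hn⟩ := hgen' σ hσ
    -- cocycle on GQ with lev
    let f' : Z1 lev (Ad0 rb (1 : GQ →* ResidueField 𝒪)) :=
      ⟨f.1, by
        obtain ⟨U, hU, h⟩ := f.2.1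
        exact ⟨U, lev_isOpen_of_levS hU, h⟩, f.2.2⟩
    let g := f' - coboundary1 hsm (Ad0.mk a ha)
    have hgτ : g.1 τ = 0 := by
      change f.1 τ - (τ • (Ad0.mk a ha : Ad0 rb (1 : GQ →* ResidueField 𝒪)) - Ad0.mk a ha) = 0
      rw [sub_eq_zero]
      apply Ad0.ext
      rw [hfv, Ad0.val_sub, Ad0.val_gsmul, MonoidHom.one_apply, one_smul]
      exact hXa
    have hgn := Z1_zpow g hgτ n
    change f.1 (τ ^ n) - ((τ ^ n) • (Ad0.mk a ha : Ad0 rb (1 : GQ →* ResidueField 𝒪)) -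
      Ad0.mk a ha) = 0 at hgn
    rw [sub_eq_zero] at hgn
    have e0 : rb σ = rb (τ ^ n) := hrbgen σ n hn
    have e0' : rb σ⁻¹ = rb (τ ^ n)⁻¹ := by
      have h3 : rb σ⁻¹ * (rb (τ ^ n) * rb (τ ^ n)⁻¹) = rb (τ ^ n)⁻¹ := by
        rw [← mul_assoc, ← e0, r_inv_mul, one_mul]
      rwa [r_mul_inv, mul_one] at h3
    have e1 : f.1 σ = f.1 (τ ^ n) := by
      apply Ad0.ext
      rw [hfv, hfv, xi, xi, hn, e0']
    have e2 : σ • (Ad0.mk a ha : Ad0 rb (1 : GQ →* ResidueField 𝒪)) =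
        (τ ^ n) • (Ad0.mk a ha : Ad0 rb (1 : GQ →* ResidueField 𝒪)) := by
      apply Ad0.ext
      rw [Ad0.val_gsmul, Ad0.val_gsmul, e0, e0', MonoidHom.one_apply, MonoidHom.one_apply]
    rw [e1, e2, hgn]
  unfold resD
  rw [H1map_mk]
  exact mem_unr_of hsm _ (Ad0.mk a ha) (fun g hg => hred g hg)

end

end Fermat.Agent.TW
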