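import Fermat.Agent.TW.LH6

/-!
# Flat deformations of reducible type: the adapted basis (conclusion)
-/

set_option autoImplicit false
set_option linter.unusedSectionVars false

namespace Fermat.Agent.TW

open Matrix Fermat.Agent.CC NVal IsLocalRing
open Fermat.Agent.H04 (DN M2 ofMat IsCont)

variable {𝒪 : Type} [CommRing 𝒪] [IsLocalRing 𝒪] {A : ValuationSubring Qb} {p : ℕ} {w : Qb → ℝ}
  {rb : GQ →* Mt (ResidueField 𝒪)} {s : GQ →* M2 (DN 𝒪)} {Q Q' : Mt (ResidueField 𝒪)}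

/-- characters of the decomposition group are trivial on the kernel of the cyclotomic character
of inertia -/
theorem char_dec_trivial {k : Type*} [Field k] [Finite k] [CharP k p] (P : PL p A w) {ζ : Qb}
    {x : GQ → ZMod p} (C : CY p ζ x) {f : GQ → k}
    (hf : ∀ σ ∈ A.decompositionSubgroup ℚ, ∀ τ ∈ A.decompositionSubgroup ℚ,
      f (σ * τ) = f σ * f τ) (hf1 : f 1 = 1)
    {U : Subgroup GQ} (hU : IsOpen (U : Set GQ))
    (hfU : ∀ σ ∈ A.inertiaSubgroupIn ℚ, σ ∈ U → f σ = 1) {σ : GQ}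
    (hσ : σ ∈ A.inertiaSubgroupIn ℚ) (hx : x σ = 1) : f σ = 1 := by
  classical
  have hg := Fermat.Agent.H51.isGalois_Qbar
  have hle := inertia_le_decomposition A
  have hinv : ∀ σ ∈ A.decompositionSubgroup ℚ, f σ * f σ⁻¹ = 1 := by
    intro σ hσ
    rw [← hf σ hσ σ⁻¹ (inv_mem hσ), mul_inv_cancel, hf1]
  have hne : ∀ σ ∈ A.decompositionSubgroup ℚ, f σ ≠ 0 := by
    intro σ hσ h0
    have := hinv σ hσ
    rw [h0, zero_mul] at this
    exact zero_ne_one this
  let ψ : GQ → kˣ := fun σ => if h : f σ ≠ 0 then Units.mk0 (f σ) h else 1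
  have hψ : ∀ σ ∈ A.decompositionSubgroup ℚ, (ψ σ : k) = f σ := by
    intro σ hσ
    change ((if h : f σ ≠ 0 then Units.mk0 (f σ) h else 1 : kˣ) : k) = f σ
    rw [dif_pos (hne σ hσ), Units.val_mk0]
  obtain ⟨φ, hφ⟩ := H05.exists_isFrobeniusAt P.prime P.lies
  have hmul : ∀ σ ∈ A.inertiaSubgroupIn ℚ, ∀ τ ∈ A.inertiaSubgroupIn ℚ,
      ψ (σ * τ) = ψ σ * ψ τ := by
    intro σ hσ τ hτ
    apply Units.ext
    rw [Units.val_mul, hψ _ (mul_mem (hle hσ) (hle hτ)), hψ _ (hle hσ), hψ _ (hle hτ),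
      hf _ (hle hσ) _ (hle hτ)]
  have hone : ∀ σ ∈ A.inertiaSubgroupIn ℚ, σ ∈ U → ψ σ = 1 := by
    intro σ hσ hσU
    apply Units.ext
    rw [hψ _ (hle hσ), hfU σ hσ hσU, Units.val_one]
  have h1 : ∀ σ ∈ A.inertiaSubgroupIn ℚ, ψ σ ^ (p - 1) = 1 := by
    intro σ hσ
    have h2 := tame_conj P hmul hU hone hφ hσ
    have h3 : ψ (φ * σ * φ⁻¹) = ψ σ := by
      apply Units.ext
      have hφD : φ ∈ A.decompositionSubgroup ℚ := hφ.1
      rw [hψ _ (mul_mem (mul_mem hφD (hle hσ)) (inv_mem hφD)), hψ _ (hle hσ),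
        hf _ (mul_mem hφD (hle hσ)) _ (inv_mem hφD), hf _ hφD _ (hle hσ), mul_right_comm,
        hinv _ hφD, one_mul]
    rw [h3] at h2
    have h4 : ψ σ * ψ σ ^ (p - 1) = ψ σ * 1 := by
      rw [← pow_succ', Nat.sub_add_cancel P.prime.one_lt.le, mul_one, ← h2]
    exact mul_left_cancel h4
  obtain ⟨π, hπ⟩ := IsAlgClosed.exists_pow_nat_eq (p : Qb) (n := p - 1)
    (by have := P.prime.one_lt; omega)
  have h5 := char_trivial_of_pow P hmul hU hone (not_dvd_pred P C hπ) h1 hπ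
    ((mem_Jt_iff_x P C hπ).2 ⟨hσ, hx⟩)
  rw [← hψ _ (hle hσ), h5, Units.val_one]

theorem x_surj_inertia (P : PL p A w) {ζ : Qb} {x : GQ → ZMod p} (C : CY p ζ x) (hp2 : p ≠ 2) :
    ∃ σ ∈ A.inertiaSubgroupIn ℚ, x σ ≠ 1 := by
  by_contra hno
  push Not at hno
  obtain ⟨π, hπ⟩ := IsAlgClosed.exists_pow_nat_eq (p : Qb) (n := p - 1)
    (by have := P.prime.one_lt; omega)
  have hne := not_dvd_pred P C hπ
  have h1 := P.prime.two_le
  obtain ⟨-, -, h2⟩ := P.uf_tame hne hπ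
  have h3 : Jt A π = A.inertiaSubgroupIn ℚ := by
    ext σ
    rw [mem_Jt_iff_x P C hπ]
    exact ⟨fun h => h.1, fun h => ⟨h, hno σ h⟩⟩
  rw [h3, Subgroup.relIndex_self] at h2
  omega

/-- **adapted basis for a flat deformation of reducible type** -/
theorem exists_adapted_flat [Finite (ResidueField 𝒪)] [CharP (ResidueField 𝒪) p]
    [Algebra (ZMod p) (ResidueField 𝒪)] (P : PL p A w)
    (hp2 : p ≠ 2) {ζ : Qb} {x : GQ → ZMod p} (C : CY p ζ x) (hs : ∀ σ, FM (s σ) = rb σ)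
    (hdet : ∀ σ, (s σ).det = ((x σ).val : DN 𝒪)) (hU : IsOpen (rb.ker : Set GQ))
    (B : BData A rb Q Q') (hH : HasLH A (actV A s)) :
    ∃ M M' : M2 (DN 𝒪), M * M' = 1 ∧
      (∀ g ∈ A.decompositionSubgroup ℚ, (M' * s g * M) 1 0 = 0) ∧
      (∀ g ∈ A.inertiaSubgroupIn ℚ, (M' * s g * M) 0 0 = ((x g).val : DN 𝒪)) ∧
      (∀ g ∈ A.inertiaSubgroupIn ℚ, (M' * s g * M) 1 1 = 1) ∧
      ∀ l : ResidueField 𝒪 →ₗ[ZMod p] ZMod p,
        UnitType A w ζ l (fun g => sn ((M' * s g * M) 0 1)) ∧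
        UnitType A w ζ l (fun g => fs ((M' * s g * M) 0 1)) := by
  classical
  obtain ⟨H, hH⟩ := hH
  have hfin := finite_DN (𝒪 := 𝒪)
  have hle := inertia_le_decomposition A
  have hf : Fact p.Prime := ⟨P.prime⟩
  obtain ⟨π, hπ⟩ := IsAlgClosed.exists_pow_nat_eq (p : Qb) (n := p - 1)
    (by have := P.prime.one_lt; omega)
  have hpV := p_smul_V P hp2 hH
  obtain ⟨σ₀, hσ₀, hxσ₀⟩ := x_surj_inertia P C hp2
  have hdetr : ∀ σ, (rb σ).det = ((x σ).val : ResidueField 𝒪) := by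
    intro σ
    have h1 := congrArg fs (hdet σ)
    rw [map_natCast] at h1
    rw [← hs, ← h1]
    exact (RingHom.map_det fs (s σ)).symm
  have hval : ∀ σ, ((x σ).val : ResidueField 𝒪) = 1 → x σ = 1 := by
    intro σ h
    have h2 : (((x σ).val : ℕ) : ResidueField 𝒪) = ((1 : ℕ) : _) := by rw [Nat.cast_one, h]
    rw [CharP.natCast_eq_natCast _ p] at h2
    have h3 := Nat.ModEq.eq_of_lt_of_lt h2 (ZMod.val_lt _) P.prime.one_lt
    exact (ZMod.val_eq_one P.prime.one_lt _).1 h3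
  -- the diagonal characters of the residual representation
  obtain ⟨y₁, hy₁⟩ : ∃ y₁ : Fin 2 → ResidueField 𝒪, y₁ = fun j => Q j 0 := ⟨_, rfl⟩
  have hmul00 : ∀ σ ∈ A.decompositionSubgroup ℚ, ∀ τ ∈ A.decompositionSubgroup ℚ,
      (Q' * rb (σ * τ) * Q) 0 0 = (Q' * rb σ * Q) 0 0 * (Q' * rb τ * Q) 0 0 ∧
      (Q' * rb (σ * τ) * Q) 1 1 = (Q' * rb σ * Q) 1 1 * (Q' * rb τ * Q) 1 1 := by
    intro σ hσ τ hτ
    have e1 : Q' * rb (σ * τ) * Q = (Q' * rb σ * Q) * (Q' * rb τ * Q) := by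
      have : (Q' * rb σ * Q) * (Q' * rb τ * Q) = Q' * rb σ * (Q * Q') * rb τ * Q := by
        noncomm_ring
      rw [this, B.inv, mul_one, map_mul]
      noncomm_ring
    rw [e1]
    constructor
    · rw [Matrix.mul_apply, Fin.sum_univ_two, B.tri τ hτ, mul_zero, add_zero]
    · rw [Matrix.mul_apply, Fin.sum_univ_two, B.tri σ hσ, zero_mul, zero_add]
  have hy₁act : ∀ σ ∈ A.decompositionSubgroup ℚ,
      (rb σ).mulVec y₁ = (Q' * rb σ * Q) 0 0 • y₁ := by
    intro σ hσ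
    have e1 : rb σ * Q = Q * (Q' * rb σ * Q) := by
      rw [← mul_assoc, ← mul_assoc, B.inv, one_mul]
    funext j
    have e2 : (rb σ * Q) j 0 = Q j 0 * (Q' * rb σ * Q) 0 0 := by
      rw [e1, Matrix.mul_apply, Fin.sum_univ_two, B.tri σ hσ, mul_zero, add_zero]
    rw [hy₁, Pi.smul_apply, smul_eq_mul, mul_comm, ← e2]
    rfl
  have hJ00 : ∀ σ ∈ Jt A π, (Q' * rb σ * Q) 0 0 = 1 := by
    intro σ hσ
    obtain ⟨h1, h2⟩ := (mem_Jt_iff_x P C hπ).1 hσ
    refine char_dec_trivial P C (f := fun σ => (Q' * rb σ * Q) 0 0)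
      (fun σ hσ τ hτ => (hmul00 σ hσ τ hτ).1) ?_ hU ?_ h1 h2
    · simp only [map_one, mul_one, B.inv', Matrix.one_apply_eq]
    · intro σ _ hσ
      have : rb σ = 1 := hσ
      simp only [this, mul_one, B.inv', Matrix.one_apply_eq]
  have hQ0 : y₁ ≠ 0 := by
    intro h0
    have h1 := congrFun (congrFun B.inv' 0) 0
    rw [Matrix.mul_apply, Fin.sum_univ_two, Matrix.one_apply_eq] at h1
    have h2 : Q 0 0 = 0 := by have := congrFun h0 0; rw [hy₁] at this; exact this
    have h3 : Q 1 0 = 0 := by have := congrFun h0 1; rw [hy₁] at this; exact this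
    rw [h2, h3, mul_zero, mul_zero, add_zero] at h1
    exact zero_ne_one h1
  -- `[I, k²]` is not everything
  have hNR : ∃ y, y ∉ NR A rb := by
    by_contra hall
    push Not at hall
    have h1 := epsv_NR P hp2 hH hs (hall y₁)
    have h2 := (mem_NV_iff P hp2 hH).1 h1
    have hfix : ∀ σ (hσ : σ ∈ Jt A π), actV A s ⟨σ, hσ.1⟩ (epsv y₁) = epsv y₁ := by
      intro σ hσ
      rw [actV_apply, mulVec_epsv, hs, hy₁act σ (hle hσ.1), hJ00 σ hσ, one_smul]
    have h3 := fun σ => (hH.act_eq_nsmul P C hπ (hpV _) h2 hfix σ).2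
    have h4 : ∀ σ ∈ A.inertiaSubgroupIn ℚ, (Q' * rb σ * Q) 0 0 =
        ((x σ).val : ResidueField 𝒪) := by
      intro σ hσ
      have h5 := h3 ⟨σ, hσ⟩
      rw [actV_apply, mulVec_epsv, hs, hy₁act σ (hle hσ), ← map_nsmul] at h5
      have h6 := epsv_inj h5
      obtain ⟨j, hj⟩ := Function.ne_iff.1 hQ0
      have h7 := congrFun h6 j
      rw [Pi.smul_apply, Pi.smul_apply, smul_eq_mul, nsmul_eq_mul] at h7
      exact mul_right_cancel₀ hj h7
    have h5 : ∀ σ ∈ A.inertiaSubgroupIn ℚ, (Q' * rb σ * Q) 1 1 = 1 := by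
      intro σ hσ
      have h6 := det_conj_matrix (X := rb σ) B.inv
      rw [Matrix.det_fin_two, B.tri σ (hle hσ), mul_zero, sub_zero, hdetr, h4 σ hσ] at h6
      have h7 : ((x σ).val : ResidueField 𝒪) ≠ 0 := by
        intro h0
        have h8 := h4 σ hσ
        have h9 := (hmul00 σ (hle hσ) σ⁻¹ (inv_mem (hle hσ))).1
        rw [mul_inv_cancel, map_one, mul_one, B.inv', Matrix.one_apply_eq, h8, h0,
          zero_mul] at h9
        exact one_ne_zero h9
      exact mul_left_cancel₀ h7 (by rw [h6, mul_one])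
    -- so `[I, k²]` is contained in the line
    have h6 : NR A rb ≤ Submodule.span (ResidueField 𝒪) {y₁} := by
      refine Submodule.span_le.2 ?_
      rintro y ⟨σ, m, rfl⟩
      have hσ := hle σ.2
      obtain ⟨n, hn⟩ : ∃ n, n = Q'.mulVec m := ⟨_, rfl⟩
      have hm : m = Q.mulVec n := by rw [hn, Matrix.mulVec_mulVec, B.inv, Matrix.one_mulVec]
      have e1 : actR A rb σ m - m = Q.mulVec ((Q' * rb σ * Q).mulVec n - n) := by
        change (rb σ).mulVec m - m = _
        rw [Matrix.mulVec_sub, Matrix.mulVec_mulVec, ← mul_assoc, ← mul_assoc, B.inv, one_mul,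
          ← Matrix.mulVec_mulVec, ← hm]
      have e2 : ((Q' * rb σ * Q).mulVec n - n) 1 = 0 := by
        rw [Pi.sub_apply, Matrix.mulVec, dotProduct, Fin.sum_univ_two, B.tri _ hσ,
          h5 _ σ.2, zero_mul, zero_add, one_mul, sub_self]
      rw [e1]
      refine Submodule.mem_span_singleton.2 ⟨((Q' * rb σ * Q).mulVec n - n) 0, ?_⟩
      funext j
      rw [Matrix.mulVec, dotProduct, Fin.sum_univ_two, e2, mul_zero, add_zero, hy₁,
        Pi.smul_apply, smul_eq_mul, mul_comm]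
    obtain ⟨a, ha⟩ := Submodule.mem_span_singleton.1 (h6 (hall (Pi.single 0 1)))
    obtain ⟨b, hb⟩ := Submodule.mem_span_singleton.1 (h6 (hall (Pi.single 1 1)))
    have a0 := congrFun ha 0
    have a1 := congrFun ha 1
    have b0 := congrFun hb 0
    have b1 := congrFun hb 1
    simp only [Pi.smul_apply, smul_eq_mul, Pi.single_eq_same, ne_eq, zero_ne_one,
      not_false_eq_true, Pi.single_eq_of_ne, one_ne_zero] at a0 a1 b0 b1
    have hne : a ≠ 0 := left_ne_zero_of_mul_eq_one a0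
    have h7 : y₁ 1 = 0 := (mul_eq_zero.1 a1).resolve_left hne
    rw [h7, mul_zero] at b1
    exact zero_ne_one b1
  -- `V⁰` contains a vector with nonzero reduction
  have hv : ∃ v ∈ NV A s, redv v ≠ 0 := by
    by_contra hno
    push Not at hno
    have h1 : ∀ z ∈ NV A s, z = 0 := by
      intro z hz
      obtain ⟨y, rfl⟩ := exists_epsv (hno z hz)
      have h2 := NR_of_epsv P hp2 hH hs hz
      obtain ⟨z', hz', h3⟩ := redv_NV hs h2
      rw [hno z' hz'] at h3
      rw [← h3, map_zero]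
    have h2 : s σ₀ = 1 := by
      ext i j
      have h3 := h1 _ (sub_mem_NV (s := s) ⟨σ₀, hσ₀⟩ (Pi.single j 1))
      have h4 := congrFun h3 i
      rw [actV_apply, Pi.sub_apply, Pi.zero_apply, sub_eq_zero, Matrix.mulVec_single_one] at h4
      rw [Matrix.one_apply, ← Pi.single_apply]
      exact h4
    have h3 := hdet σ₀
    rw [h2, Matrix.det_one] at h3
    have h4 := congrArg fs h3
    rw [map_one, map_natCast] at h4
    exact hxσ₀ (hval _ h4.symm)
  obtain ⟨v, hvN, hv0⟩ := hv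
  -- `[I, k²]` is the line spanned by `redv v`
  have hNRline : ∀ y ∈ NR A rb, ∃ c : ResidueField 𝒪, y = c • redv v := by
    intro y hy
    by_contra hno
    push Not at hno
    obtain ⟨y', hy'⟩ := hNR
    apply hy'
    -- `redv v` and `y` are a basis
    have hdetne : redv v 0 * y 1 - redv v 1 * y 0 ≠ 0 := by
      intro h0
      by_cases h1 : redv v 0 = 0
      · have h2 : redv v 1 ≠ 0 := by
          intro h2
          apply hv0
          funext j
          fin_cases j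
          · exact h1
          · exact h2
        apply hno (y 1 / redv v 1)
        funext j
        fin_cases j
        · change y 0 = y 1 / redv v 1 * redv v 0
          rw [h1, zero_mul, zero_sub, neg_eq_zero] at h0
          rw [h1, mul_zero]
          exact (mul_eq_zero.1 h0).resolve_left h2
        · change y 1 = y 1 / redv v 1 * redv v 1
          rw [div_mul_cancel₀ _ h2]
      · apply hno (y 0 / redv v 0)
        funext j
        fin_cases j
        · change y 0 = y 0 / redv v 0 * redv v 0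
          rw [div_mul_cancel₀ _ h1]
        · change y 1 = y 0 / redv v 0 * redv v 1
          field_simp
          linear_combination h0
    obtain ⟨d, hd⟩ : ∃ d, d = redv v 0 * y 1 - redv v 1 * y 0 := ⟨_, rfl⟩
    rw [← hd] at hdetne
    have e1 : y' = ((y' 0 * y 1 - y' 1 * y 0) / d) • redv v +
        ((redv v 0 * y' 1 - redv v 1 * y' 0) / d) • y := by
      funext j
      fin_cases j
      · change y' 0 = ((y' 0 * y 1 - y' 1 * y 0) / d) * redv v 0 +
          ((redv v 0 * y' 1 - redv v 1 * y' 0) / d) * y 0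
        field_simp
        rw [hd]
        ring
      · change y' 1 = ((y' 0 * y 1 - y' 1 * y 0) / d) * redv v 1 +
          ((redv v 0 * y' 1 - redv v 1 * y' 0) / d) * y 1
        field_simp
        rw [hd]
        ring
    rw [e1]
    exact Submodule.add_mem _ (Submodule.smul_mem _ _ (NR_redv hs hvN)) (Submodule.smul_mem _ _ hy)
  -- `V⁰` is the line spanned by `v`
  have hline : ∀ z ∈ NV A s, ∃ c : DN 𝒪, z = c • v := by
    intro z hz
    obtain ⟨c, hc⟩ := hNRline _ (NR_redv hs hz)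
    obtain ⟨c', rfl⟩ := exists_fs c
    have h1 : redv (z - c' • v) = 0 := by rw [map_sub, redv_smul, hc, sub_self]
    obtain ⟨y, hy⟩ := exists_epsv h1
    have h2 : epsv y ∈ NV A s := by
      rw [hy]
      exact Submodule.sub_mem _ hz (Submodule.smul_mem _ _ hvN)
    obtain ⟨d, hd⟩ := hNRline _ (NR_of_epsv P hp2 hH hs h2)
    refine ⟨c' + DN.mk 𝒪 0 d, ?_⟩
    rw [add_smul, ← epsv_redv, ← hd, hy]
    abel
  -- complete to a basis
  obtain ⟨v', hdetne⟩ : ∃ v' : Fin 2 → DN 𝒪, fs (v 0 * v' 1 - v' 0 * v 1) ≠ 0 := by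
    by_cases h1 : redv v 0 = 0
    · have h2 : redv v 1 ≠ 0 := by
        intro h2
        apply hv0
        funext j
        fin_cases j
        · exact h1
        · exact h2
      refine ⟨Pi.single 0 1, ?_⟩
      rw [Pi.single_eq_same, Pi.single_eq_of_ne one_ne_zero, mul_zero, zero_sub, one_mul, map_neg]
      exact neg_ne_zero.2 h2
    · refine ⟨Pi.single 1 1, ?_⟩
      rw [Pi.single_eq_same, Pi.single_eq_of_ne zero_ne_one, zero_mul, sub_zero, mul_one]
      exact h1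
  obtain ⟨M, hMdef⟩ : ∃ M : M2 (DN 𝒪), M = Matrix.of ![![v 0, v' 0], ![v 1, v' 1]] := ⟨_, rfl⟩
  have hcol0 : (fun a => M a 0) = v := by
    funext a
    rw [hMdef]
    fin_cases a <;> rfl
  have hcol1 : (fun a => M a 1) = v' := by
    funext a
    rw [hMdef]
    fin_cases a <;> rfl
  have hMdet : IsUnit M.det := by
    rw [isUnit_iff_fs, Matrix.det_fin_two, hMdef]
    exact hdetne
  have hMM : M * M⁻¹ = 1 := Matrix.mul_nonsing_inv M hMdet
  have hM'M : M⁻¹ * M = 1 := Matrix.nonsing_inv_mul M hMdet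
  have hent : ∀ (X : M2 (DN 𝒪)) (i j : Fin 2), (M⁻¹ * X * M) i j =
      M⁻¹.mulVec (X.mulVec (fun a => M a j)) i := by
    intro X i j
    rw [Matrix.mulVec_mulVec]
    rfl
  have hv_0 : ∀ i, M⁻¹.mulVec v i = (1 : M2 (DN 𝒪)) i 0 := by
    intro i
    rw [← hM'M, ← hcol0]
    rfl
  have hv_1 : ∀ i, M⁻¹.mulVec v' i = (1 : M2 (DN 𝒪)) i 1 := by
    intro i
    rw [← hM'M, ← hcol1]
    rfl
  have hstab : ∀ g ∈ A.decompositionSubgroup ℚ, ∀ z ∈ NV A s, (s g).mulVec z ∈ NV A s := by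
    intro g hg z hz
    unfold NV at hz
    induction hz using Submodule.span_induction with
    | mem y hy =>
      obtain ⟨σ, m, rfl⟩ := hy
      have e1 : (s g).mulVec (actV A s σ m - m) =
          actV A s ⟨g * σ * g⁻¹, inertia_conj_mem hg σ.2⟩ ((s g).mulVec m) -
            (s g).mulVec m := by
        rw [actV_apply, actV_apply, Matrix.mulVec_sub, Matrix.mulVec_mulVec,
          Matrix.mulVec_mulVec, ← map_mul, ← map_mul, inv_mul_cancel_right]
      rw [e1]
      exact sub_mem_NV _ _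
    | zero => rw [Matrix.mulVec_zero]; exact Submodule.zero_mem _
    | add x y _ _ hx hy => rw [Matrix.mulVec_add]; exact Submodule.add_mem _ hx hy
    | smul c x _ hx => rw [Matrix.mulVec_smul]; exact Submodule.smul_mem _ _ hx
  have h10 : ∀ g ∈ A.decompositionSubgroup ℚ, (M⁻¹ * s g * M) 1 0 = 0 := by
    intro g hg
    obtain ⟨c, hc⟩ := hline _ (hstab g hg v hvN)
    rw [hent, hcol0, hc, Matrix.mulVec_smul, Pi.smul_apply, hv_0, Matrix.one_apply_ne one_ne_zero,
      smul_zero]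
  have hI1 : ∀ g ∈ A.inertiaSubgroupIn ℚ, (s g).mulVec v' - v' =
      (M⁻¹ * s g * M) 0 1 • v ∧ (M⁻¹ * s g * M) 1 1 = 1 := by
    intro g hg
    obtain ⟨c, hc⟩ := hline _ (sub_mem_NV (s := s) ⟨g, hg⟩ v')
    rw [actV_apply] at hc
    have e1 : (s g).mulVec v' = v' + c • v := by
      rw [← hc]
      abel
    have e2 : ∀ i, (M⁻¹ * s g * M) i 1 = (1 : M2 (DN 𝒪)) i 1 + c * (1 : M2 (DN 𝒪)) i 0 := by
      intro i
      rw [hent, hcol1, e1, Matrix.mulVec_add, Matrix.mulVec_smul, Pi.add_apply, Pi.smul_apply,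
        hv_0, hv_1, smul_eq_mul]
    refine ⟨?_, ?_⟩
    · rw [e2, Matrix.one_apply_ne zero_ne_one, Matrix.one_apply_eq, zero_add, mul_one]
      exact hc
    · rw [e2, Matrix.one_apply_eq, Matrix.one_apply_ne one_ne_zero, mul_zero, add_zero]
  have h00 : ∀ g ∈ A.inertiaSubgroupIn ℚ, (M⁻¹ * s g * M) 0 0 = ((x g).val : DN 𝒪) := by
    intro g hg
    have h1 := det_conj_matrix (X := s g) hMM
    rw [Matrix.det_fin_two, h10 g (hle hg), mul_zero, sub_zero, (hI1 g hg).2, mul_one,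
      hdet] at h1
    exact h1
  -- inertia acts on the line through the cyclotomic character
  have hact : ∀ c ∈ NV A s, ∀ σ : A.inertiaSubgroupIn ℚ, actV A s σ c = (x σ).val • c := by
    intro c hc σ
    obtain ⟨a, rfl⟩ := hline c hc
    obtain ⟨b, hb⟩ := hline _ (hstab σ (hle σ.2) v hvN)
    have h1 := h00 σ σ.2
    rw [hent, hcol0, hb, Matrix.mulVec_smul, Pi.smul_apply, hv_0, Matrix.one_apply_eq, smul_eq_mul,
      mul_one] at h1
    rw [actV_apply, Matrix.mulVec_smul, hb, h1, smul_comm, Nat.cast_smul_eq_nsmul]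
  have hTD : ∀ c ∈ NV A s, TD w H (1 / (p - 1)) c := by
    intro c hc
    refine (hH.act_eq_nsmul P C hπ (hpV c) ((mem_NV_iff P hp2 hH).1 hc) (fun σ hσ => ?_) 1).1
    have h1 := ((mem_Jt_iff_x P C hπ).1 hσ).2
    rw [hact c hc, h1, ZMod.val_one, one_smul]
  refine ⟨M, M⁻¹, hMM, h10, h00, fun g hg => (hI1 g hg).2, fun l => ?_⟩
  have key : ∀ f : DN 𝒪 →+ ResidueField 𝒪,
      UnitType A w ζ l (fun g => f ((M⁻¹ * s g * M) 0 1)) := by
    intro f z
    let L : (Fin 2 → DN 𝒪) →+ ZMod p :=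
      { toFun := fun y => l (z * f (M⁻¹.mulVec y 0))
        map_zero' := by
          rw [Matrix.mulVec_zero, Pi.zero_apply, map_zero, mul_zero, map_zero]
        map_add' := fun a b => by
          rw [Matrix.mulVec_add, Pi.add_apply, map_add, mul_add, map_add] }
    obtain ⟨u, hu0, hwu, hu⟩ := hH.exists_unit P C (S := (NV A s : Set _)) hTD hact
      (fun c _ => hpV c) L v' (fun σ => sub_mem_NV σ v')
    refine ⟨u, ⟨hu0, fun σ hσ => ?_⟩, 0, by rw [hwu, Int.cast_zero]⟩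
    have h1 := hu ⟨σ, hσ⟩
    have h2 : L (actV A s ⟨σ, hσ⟩ v' - v') = l (z * f ((M⁻¹ * s σ * M) 0 1)) := by
      rw [actV_apply, (hI1 σ hσ).1]
      change l (z * f (M⁻¹.mulVec _ 0)) = _
      rw [Matrix.mulVec_smul, Pi.smul_apply, hv_0, Matrix.one_apply_eq, smul_eq_mul, mul_one]
    rw [h2] at h1
    exact h1
  refine ⟨key ⟨⟨sn, sn_zero⟩, fun a b => sn_add a b⟩, key fs.toAddMonoidHom⟩

end Fermat.Agent.TW
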