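import Fermat.Agent.TW.LH7

/-!
# Intersection of the flat and the strict ordinary local conditions
-/

set_option autoImplicit false
set_option linter.unusedSectionVars false

namespace Fermat.Agent.TW

open Matrix Fermat.Agent.CC NVal
open scoped Pointwise

variable {k : Type*} [Field k] {A : ValuationSubring Qb} {r : GQ →* Mt k} {Q Q' : Mt k}
  {p : ℕ} [Algebra (ZMod p) k] {w : Qb → ℝ} (P : PL p A w) {ζ : Qb} {x : GQ → ZMod p}
  (C : CY p ζ x) {l : k →ₗ[ZMod p] ZMod p}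

/-- classes which are flat and strictly ordinary are represented by cocycles with both
properties -/
theorem inter_map (hp2 : p ≠ 2) (hr : lev.isOpen r.ker) (B : BData A r Q Q')
    (h00 : ∀ σ ∈ A.inertiaSubgroupIn ℚ, (Q' * r σ * Q) 0 0 = algebraMap (ZMod p) k (x σ))
    (h11 : ∀ σ ∈ A.inertiaSubgroupIn ℚ, (Q' * r σ * Q) 1 1 = 1)
    (hres : UnitType A w ζ l (fun σ => (Q' * r σ * Q) 0 1)) :
    (ZS A r Q Q').map (H1.mk _ _) ⊓ (ZF P C l r Q Q').map (H1.mk _ _) =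
      (ZS A r Q Q' ⊓ ZF P C l r Q Q').map (H1.mk _ _) := by
  have hf : Fact p.Prime := ⟨P.prime⟩
  apply le_antisymm
  · rintro c ⟨⟨f, hf, hfc⟩, ⟨f', hf', hfc'⟩⟩
    have h1 : H1.mk _ _ f = H1.mk _ _ f' := hfc.trans hfc'.symm
    obtain ⟨m, hm⟩ := H1.mk_eq_mk.1 h1
    obtain ⟨σ, hσ, hxσ⟩ := x_surj_inertia P C hp2
    have hσD := inertia_le_decomposition A hσ
    have hmB : m ∈ BorelSub r Q Q' := by
      have h2 := congrArg Ad0.val (hm ⟨σ, hσD⟩)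
      have h3 : (f.1 ⟨σ, hσD⟩).val = (f'.1 ⟨σ, hσD⟩).val + ((σ • m).val - m.val) := h2
      have h4 := congrArg (fun X => (Q' * X * Q) 1 0) h3
      simp only [mul_add, add_mul, mul_sub, sub_mul, Matrix.add_apply, Matrix.sub_apply] at h4
      have h5 := (hf ⟨σ, hσD⟩).1
      have h6 := hf'.1 ⟨σ, hσD⟩
      rw [h5, h6, zero_add, B.conj_smul] at h4
      have h7 := B.tri σ hσD
      have h8 := B.tri σ⁻¹ (inv_mem hσD)
      have h9 := h11 σ hσ
      have h10 := h00 σ hσ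
      have h11' : (Q' * r σ * Q) 0 0 * (Q' * r σ⁻¹ * Q) 0 0 = 1 := by
        have e1 := congrFun (congrFun (B.conj_r σ) 0) 0
        rw [Matrix.mul_apply, Fin.sum_univ_two, h8, mul_zero, add_zero, Matrix.one_apply_eq] at e1
        exact e1
      obtain ⟨T, hT⟩ : ∃ T, T = Q' * r σ * Q := ⟨_, rfl⟩
      obtain ⟨T', hT'⟩ : ∃ T', T' = Q' * r σ⁻¹ * Q := ⟨_, rfl⟩
      obtain ⟨Y, hY⟩ : ∃ Y, Y = Q' * m.val * Q := ⟨_, rfl⟩
      change (Q' * m.val * Q) 1 0 = 0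
      rw [← hT] at h4 h7 h9 h10 h11'
      rw [← hT'] at h4 h8 h11'
      rw [← hY] at h4 ⊢
      simp only [Matrix.mul_apply, Fin.sum_univ_two] at h4
      rw [h7, h8, h9] at h4
      have h12 : (T' 0 0 - 1) * Y 1 0 = 0 := by linear_combination -h4
      rcases mul_eq_zero.1 h12 with h13 | h13
      · exfalso
        apply hxσ
        rw [sub_eq_zero.1 h13, mul_one, h10] at h11'
        exact (algebraMap (ZMod p) k).injective (by rw [h11', map_one])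
      · exact h13
    obtain ⟨f'', hf'', hf''m⟩ := coboundary_mem_ZF P C l B hr h00 h11 hres hmB
    have h2 : f = f' + f'' := by
      apply Subtype.ext
      funext g
      rw [hm g]
      change _ = f'.1 g + f''.1 g
      rw [hf''m]
    refine ⟨f, ⟨hf, ?_⟩, hfc⟩
    rw [h2]
    exact AddSubgroup.add_mem _ hf' hf''
  · rintro c ⟨f, ⟨hf, hf'⟩, hfc⟩
    exact ⟨⟨f, hf, hfc⟩, ⟨f, hf', hfc⟩⟩

/-- **flat and strictly ordinary: bound** -/
theorem card_inter [Finite k] (hp2 : p ≠ 2)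
    (hl : ∀ a : k, (∀ z, l (z * a) = 0) → a = 0) (hr : lev.isOpen r.ker)
    (B : BData A r Q Q')
    (h00 : ∀ σ ∈ A.inertiaSubgroupIn ℚ, (Q' * r σ * Q) 0 0 = algebraMap (ZMod p) k (x σ))
    (h11 : ∀ σ ∈ A.inertiaSubgroupIn ℚ, (Q' * r σ * Q) 1 1 = 1)
    (hres : UnitType A w ζ l (fun σ => (Q' * r σ * Q) 0 1)) :
    Nat.card ((ZS A r Q Q' ⊓ ZF P C l r Q Q').map (H1.mk _ _)) ≤
      Nat.card (H0 (A.decompositionSubgroup ℚ) (Ad0 r (1 : GQ →* k))) := by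
  have hf : Fact p.Prime := ⟨P.prime⟩
  have hω : ∀ σ ∈ A.inertiaSubgroupIn ℚ,
      (Q' * r σ * Q) 0 0 * ((Q' * r σ * Q) 1 1)⁻¹ = algebraMap (ZMod p) k (x σ) := by
    intro σ hσ
    rw [h00 σ hσ, h11 σ hσ, inv_one, mul_one]
  obtain ⟨h1, h2⟩ := P.card_unit (Y := ↥(ZS A r Q Q' ⊓ ZF P C l r Q Q')) C
    ((evB A r Q Q').comp ((ZS A r Q Q' ⊓ ZF P C l r Q Q').subtype)) hp2 hl
    (ω := fun g => (Q' * r g * Q) 0 0 * ((Q' * r g * Q) 1 1)⁻¹) hω
    (fun g hg => mul_ne_zero (B.ne_zero hg).1 (inv_ne_zero (B.ne_zero hg).2))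
    (fun y g hg h hh => ZS_coc B y.2.1 hg hh)
    (fun y hy => Subtype.ext (ZS_inj B y.2.1 hy))
    (fun y z => y.2.2.2.2 z)
  obtain ⟨h3, h4⟩ := card_map_le (ZS A r Q Q' ⊓ ZF P C l r Q Q') h1 h2 (BorelSub r Q Q')
    (fun m hm => by
      obtain ⟨f, hf, hfm⟩ := coboundary_mem_ZS B hr hm
      obtain ⟨f', hf', hfm'⟩ := coboundary_mem_ZF P C l B hr h00 h11 hres hm
      have : f = f' := by
        apply Subtype.ext
        funext g
        rw [hfm, hfm']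
      exact ⟨f, ⟨hf, this ▸ hf'⟩, hfm⟩)
  have h5 := card_BorelSub (r := r) B.inv'
  have h6 : 0 < Nat.card k ^ 2 := pow_pos Nat.card_pos 2
  have h7 : Nat.card ((ZS A r Q Q' ⊓ ZF P C l r Q Q').map (H1.mk _ _)) * Nat.card k ^ 2 ≤
      Nat.card (H0 (A.decompositionSubgroup ℚ) (Ad0 r (1 : GQ →* k))) * Nat.card k ^ 2 := by
    calc _ ≤ Nat.card ((ZS A r Q Q' ⊓ ZF P C l r Q Q').map (H1.mk _ _)) *
            Nat.card (BorelSub r Q Q') := Nat.mul_le_mul_left _ h5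
      _ ≤ _ := h4
  exact Nat.le_of_mul_le_mul_right h7 h6

end Fermat.Agent.TW
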