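import Fermat.Agent.TW.LocP2
import Fermat.Agent.DefRing.NRep
import Fermat.Prelude.Def_GaloisRep_StrictOrdinary

/-!
# Strict ordinary deformations to the dual numbers
-/

set_option autoImplicit false
set_option linter.unusedSectionVars false

namespace Fermat.Agent.TW

open Matrix Fermat.Agent.CC IsLocalRing
open Fermat.Agent.H04 (DN M2 ofMat IsCont)
open scoped Pointwise

variable {𝒪 : Type} [CommRing 𝒪] [IsLocalRing 𝒪] {rb : GQ →* Mt (ResidueField 𝒪)}
  {s : GQ →* M2 (DN 𝒪)} {A : ValuationSubring Qb}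

theorem dn_natCast_eq_zero {p : ℕ} [CharP (ResidueField 𝒪) p] : ((p : ℕ) : DN 𝒪) = 0 := by
  apply dn_ext
  · rw [map_natCast, map_zero, CharP.cast_eq_zero]
  · rw [sn_natCast, sn_zero]

/-- change of basis matrices -/
theorem exists_basis_matrix {B : Type*} [CommRing B] (b : Module.Basis (Fin 2) B (Fin 2 → B)) :
    ∃ M M' : Matrix (Fin 2) (Fin 2) B, M * M' = 1 ∧ (∀ i j, M i j = b j i) ∧
      ∀ (X : Matrix (Fin 2) (Fin 2) B) (i j), (M' * X * M) i j = b.repr (X.mulVec (b j)) i := by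
  have hinv : Matrix.of (fun i j => b j i) * Matrix.of (fun i j => b.repr (Pi.single j 1) i) =
      (1 : Matrix (Fin 2) (Fin 2) B) := by
    ext i j
    rw [Matrix.mul_apply]
    simp only [Matrix.of_apply]
    have h1 := congrFun (b.sum_repr (Pi.single j (1 : B))) i
    rw [Finset.sum_apply] at h1
    simp only [Pi.smul_apply, smul_eq_mul] at h1
    rw [Matrix.one_apply]
    calc _ = ∑ l, b.repr (Pi.single j 1) l * b l i := Finset.sum_congr rfl fun l _ => mul_comm _ _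
      _ = (Pi.single j (1 : B) : Fin 2 → B) i := h1
      _ = _ := by rw [Pi.single_apply]
  refine ⟨Matrix.of fun i j => b j i, Matrix.of fun i j => b.repr (Pi.single j 1) i, hinv,
    fun i j => rfl, fun X i j => ?_⟩
  obtain ⟨v, hv⟩ : ∃ v, v = X.mulVec (b j) := ⟨_, rfl⟩
  rw [mul_assoc, Matrix.mul_apply, ← hv]
  have h1 : ∀ l, (X * Matrix.of fun i j => b j i) l j = v l := by
    intro l
    rw [hv]
    rfl
  simp only [h1, Matrix.of_apply]
  have h2 : v = ∑ l, v l • (Pi.single l (1 : B) : Fin 2 → B) := by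
    ext i
    rw [Finset.sum_apply]
    simp [Pi.single_apply]
  conv_rhs => rw [h2]
  rw [map_sum, Finsupp.coe_finsetSum, Finset.sum_apply]
  refine Finset.sum_congr rfl fun l _ => ?_
  rw [map_smul, Finsupp.smul_apply, smul_eq_mul, mul_comm]

theorem det_conj_matrix {B : Type*} [CommRing B] {M M' X : Matrix (Fin 2) (Fin 2) B}
    (h : M * M' = 1) : (M' * X * M).det = X.det := by
  rw [Matrix.det_mul, Matrix.det_mul, mul_comm, ← mul_assoc, ← Matrix.det_mul, h, Matrix.det_one,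
    one_mul]

/-- **adapted basis for a strict ordinary deformation** -/
theorem exists_adapted_strict {p : ℕ} (hp : p.Prime) [CharP (ResidueField 𝒪) p]
    (h2 : (2 : ResidueField 𝒪) ≠ 0) {ζ : Qb} {x : GQ → ZMod p} (C : CY p ζ x)
    (hs : IsCont s) (h : (ofMat s hs).IsStrictOrdinaryAt p)
    (hdet : (ofMat s hs).DetIsCyclotomic p) (hA : A.LiesOverPrime p) :
    ∃ M M' : M2 (DN 𝒪), M * M' = 1 ∧
      (∀ g ∈ A.decompositionSubgroup ℚ, (M' * s g * M) 1 0 = 0) ∧
      (∀ g ∈ A.decompositionSubgroup ℚ, sn ((M' * s g * M) 0 0) = 0) ∧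
      (∀ g ∈ A.inertiaSubgroupIn ℚ, (M' * s g * M) 1 1 = 1) ∧
      (∀ g ∈ A.inertiaSubgroupIn ℚ, (M' * s g * M) 0 0 = ((x g).val : DN 𝒪)) := by
  have : NeZero p := ⟨hp.ne_zero⟩
  have key : ∃ (L : Submodule (DN 𝒪) (Fin 2 → DN 𝒪)) (b : Module.Basis (Fin 2) (DN 𝒪)
      (Fin 2 → DN 𝒪)), L = Submodule.span (DN 𝒪) {b 0} ∧
      (∀ σ ∈ A.decompositionSubgroup ℚ, ∀ v ∈ L, (s σ).mulVec v ∈ L) ∧
      (∀ σ ∈ A.inertiaSubgroupIn ℚ, ∀ v : Fin 2 → DN 𝒪, (s σ).mulVec v - v ∈ L) ∧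
      (∀ σ ∈ A.decompositionSubgroup ℚ, ∃ x z : DN 𝒪, (∀ v ∈ L, (s σ).mulVec v = x • v) ∧
        (∀ v : Fin 2 → DN 𝒪, (s σ).mulVec v - z • v ∈ L) ∧
        ∀ (n a : ℕ), (∀ μ : Qb, μ ^ p ^ n = 1 → σ μ = μ ^ a) →
          x - ↑a * z ∈ Ideal.span {((p ^ n : ℕ) : DN 𝒪)}) := by
    obtain ⟨L, ⟨b, hb⟩, hD, hI, hxz⟩ := h.2 A hA
    exact ⟨L, b, hb, hD, hI, hxz⟩
  obtain ⟨L, b, hb, hD, hI, hxz⟩ := key
  obtain ⟨M, M', hMM, hM, hM'⟩ := exists_basis_matrix b
  have hL : ∀ v : Fin 2 → DN 𝒪, v ∈ L → b.repr v 1 = 0 := by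
    intro v hv
    rw [hb] at hv
    obtain ⟨c, rfl⟩ := Submodule.mem_span_singleton.1 hv
    rw [map_smul, Finsupp.smul_apply, b.repr_self, Finsupp.single_apply]
    simp
  have hb0 : b 0 ∈ L := by rw [hb]; exact Submodule.mem_span_singleton_self _
  have h10 : ∀ g ∈ A.decompositionSubgroup ℚ, (M' * s g * M) 1 0 = 0 := by
    intro g hg
    rw [hM']
    exact hL _ (hD g hg _ hb0)
  have hpow : ∀ g : GQ, ∀ μ : Qb, μ ^ p ^ 1 = 1 → g μ = μ ^ (x g).val := by
    intro g μ hμ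
    rw [pow_one] at hμ
    obtain ⟨a, rfl⟩ := C.zp_surj hμ
    rw [C.act_zp, C.zp_mul]
  have hI11 : ∀ g ∈ A.inertiaSubgroupIn ℚ, (M' * s g * M) 1 1 = 1 := by
    intro g hg
    rw [hM']
    have h3 := hL _ (hI g hg (b 1))
    rw [map_sub, Finsupp.sub_apply, b.repr_self, Finsupp.single_eq_same,
      sub_eq_zero] at h3
    exact h3
  -- the diagonal entries
  have hdiag : ∀ g ∈ A.decompositionSubgroup ℚ,
      (M' * s g * M) 0 0 = ((x g).val : DN 𝒪) * (M' * s g * M) 1 1 ∧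
      (M' * s g * M) 0 0 * (M' * s g * M) 1 1 = ((x g).val : DN 𝒪) := by
    intro g hg
    obtain ⟨y, z, h3, h4, h5⟩ := hxz g hg
    have e1 : (M' * s g * M) 0 0 = y := by
      rw [hM']
      have h6 := h3 _ hb0
      rw [h6, map_smul, Finsupp.smul_apply, b.repr_self, Finsupp.single_eq_same, smul_eq_mul,
        mul_one]
    have e2 : (M' * s g * M) 1 1 = z := by
      rw [hM']
      have h6 := hL _ (h4 (b 1))
      rw [map_sub, map_smul, Finsupp.sub_apply, Finsupp.smul_apply, b.repr_self,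
        Finsupp.single_eq_same, smul_eq_mul, mul_one, sub_eq_zero] at h6
      exact h6
    have h6 := h5 1 (x g).val (hpow g)
    rw [pow_one, dn_natCast_eq_zero, Ideal.mem_span_singleton', ] at h6
    obtain ⟨c, hc⟩ := h6
    rw [mul_zero, eq_comm, sub_eq_zero] at hc
    have h7 := hdet.2 1 g (x g).val (hpow g)
    rw [pow_one, dn_natCast_eq_zero, Ideal.mem_span_singleton'] at h7
    obtain ⟨c', hc'⟩ := h7
    rw [mul_zero, eq_comm, sub_eq_zero] at hc'
    have h8 : LinearMap.det ((ofMat s hs).ρ g) = (s g).det := by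
      change LinearMap.det (Matrix.toLin' (s g)) = _
      rw [LinearMap.det_toLin']
    rw [h8] at hc'
    have h9 := det_conj_matrix (X := s g) hMM
    rw [Matrix.det_fin_two, h10 g hg, mul_zero, sub_zero] at h9
    refine ⟨?_, ?_⟩
    · rw [e1, e2]; exact hc
    · rw [h9, hc']
  refine ⟨M, M', hMM, h10, fun g hg => ?_, hI11, fun g hg => ?_⟩
  · obtain ⟨h3, h4⟩ := hdiag g hg
    obtain ⟨z, hz⟩ : ∃ z, z = (M' * s g * M) 1 1 := ⟨_, rfl⟩
    rw [← hz] at h3 h4
    rw [h3] at h4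
    have hxne : ((x g).val : ResidueField 𝒪) ≠ 0 := by
      rw [Ne, CharP.cast_eq_zero_iff (ResidueField 𝒪) p]
      intro hd
      have h5 := ZMod.val_lt (x g)
      have h6 : (x g).val = 0 := by
        by_contra h7
        exact absurd (Nat.le_of_dvd (Nat.pos_of_ne_zero h7) hd) (not_le.2 h5)
      exact C.x_ne g ((ZMod.val_eq_zero _).1 h6)
    have h5 := congrArg fs h4
    have h6 := congrArg sn h4
    rw [map_mul, map_mul, map_natCast] at h5
    rw [mul_assoc, sn_mul, sn_mul, sn_natCast, map_natCast, zero_mul, add_zero] at h6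
    have h7 : fs z ≠ 0 := by
      intro h8
      rw [h8, mul_zero] at h5
      exact hxne h5.symm
    have h8 : sn z = 0 := by
      have h9 : (x g).val * (2 * (fs z * sn z)) = (0 : ResidueField 𝒪) := by
        linear_combination h6
      rcases mul_eq_zero.1 h9 with h10 | h10
      · exact absurd h10 hxne
      rcases mul_eq_zero.1 h10 with h11 | h11
      · exact absurd h11 h2
      exact (mul_eq_zero.1 h11).resolve_left h7
    rw [h3, sn_mul, sn_natCast, h8, mul_zero, zero_mul, add_zero]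
  · rw [(hdiag g (inertia_le_decomposition A hg)).1, hI11 g hg, mul_one]

end Fermat.Agent.TW
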