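import Fermat.Agent.TW.TameChar
import Fermat.Agent.TW.StrictOrd
import Fermat.Agent.H09.LHD

/-!
# Hopf orders over inertia: deformations of reducible type
-/

set_option autoImplicit false
set_option linter.unusedSectionVars false

namespace Fermat.Agent.TW

open Matrix Fermat.Agent.CC NVal IsLocalRing
open Fermat.Agent.H04 (DN M2 ofMat IsCont)

section comm

variable {A : ValuationSubring Qb} {p : ℕ} {w : Qb → ℝ} {M : Type*} [AddCommGroup M]
  {act : A.inertiaSubgroupIn ℚ →* AddMonoid.End M} {H : Subalgebra (RI A) (M → Qb)}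

/-- connected points lie in the augmentation submodule of inertia -/
theorem LH.mem_closure [Finite M] (hH : LH A act H) (P : PL p A w) (hp2 : p ≠ 2)
    (hpM : ∀ z : M, p • z = 0) {z : M} (hz : TDS w H 0 z) :
    z ∈ AddSubgroup.closure {y : M | ∃ (σ : A.inertiaSubgroupIn ℚ) (m : M), y = act σ m - m} := by
  obtain ⟨N, hN⟩ : ∃ N, N = AddSubgroup.closure
    {y : M | ∃ (σ : A.inertiaSubgroupIn ℚ) (m : M), y = act σ m - m} := ⟨_, rfl⟩
  rw [← hN]
  obtain ⟨H₂, hH₂, hrel⟩ := H09.LHopf.exists_lh_surjective P.prime P.lies hH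
    (act₂ := (1 : A.inertiaSubgroupIn ℚ →* AddMonoid.End (M ⧸ N))) (QuotientAddGroup.mk' N)
    (fun σ m => by
      change (QuotientAddGroup.mk (act σ m) : M ⧸ N) = QuotientAddGroup.mk m
      rw [eq_comm, QuotientAddGroup.eq, neg_add_eq_sub, hN]
      exact AddSubgroup.subset_closure ⟨σ, m, rfl⟩) (QuotientAddGroup.mk'_surjective N)
  have h1 : TDS w H₂ 0 (QuotientAddGroup.mk' N z) := by
    intro ψ hψ
    have h2 := hz _ ((hrel ψ).1 hψ)
    rwa [map_zero] at h2
  have h2 := hH₂.eq_zero_of_trivial P hp2 (z := QuotientAddGroup.mk' N z)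
    (by rw [← map_nsmul, hpM, map_zero]) h1 (fun σ => rfl)
  exact (QuotientAddGroup.eq_zero_iff z).1 h2

end comm

section DNmod

variable {𝒪 : Type} [CommRing 𝒪] [IsLocalRing 𝒪]

/-- action of inertia on `k[ε]²` -/
noncomputable def actV (A : ValuationSubring Qb) (s : GQ →* M2 (DN 𝒪)) :
    A.inertiaSubgroupIn ℚ →* AddMonoid.End (Fin 2 → DN 𝒪) where
  toFun σ := (Matrix.mulVecLin (s σ)).toAddMonoidHom
  map_one' := by
    ext v : 1
    change (s 1).mulVec v = v
    rw [map_one, Matrix.one_mulVec]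
  map_mul' σ τ := by
    ext v : 1
    change (s (σ * τ)).mulVec v = (s σ).mulVec ((s τ).mulVec v)
    rw [map_mul, Matrix.mulVec_mulVec]

theorem actV_apply {A : ValuationSubring Qb} {s : GQ →* M2 (DN 𝒪)}
    (σ : A.inertiaSubgroupIn ℚ) (v : Fin 2 → DN 𝒪) : actV A s σ v = (s σ).mulVec v := rfl

/-- action of inertia on `k²` -/
noncomputable def actR (A : ValuationSubring Qb) (rb : GQ →* Mt (ResidueField 𝒪)) :
    A.inertiaSubgroupIn ℚ →* AddMonoid.End (Fin 2 → ResidueField 𝒪) where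
  toFun σ := (Matrix.mulVecLin (rb σ)).toAddMonoidHom
  map_one' := by
    ext v : 1
    change (rb 1).mulVec v = v
    rw [map_one, Matrix.one_mulVec]
  map_mul' σ τ := by
    ext v : 1
    change (rb (σ * τ)).mulVec v = (rb σ).mulVec ((rb τ).mulVec v)
    rw [map_mul, Matrix.mulVec_mulVec]

/-- reduction of vectors -/
noncomputable def redv : (Fin 2 → DN 𝒪) →+ (Fin 2 → ResidueField 𝒪) where
  toFun v j := fs (v j)
  map_zero' := by funext j; exact map_zero fs
  map_add' u v := by funext j; exact map_add fs _ _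

/-- the embedding `k² → εk²` -/
noncomputable def epsv : (Fin 2 → ResidueField 𝒪) →+ (Fin 2 → DN 𝒪) where
  toFun y j := DN.mk 𝒪 0 (y j)
  map_zero' := rfl
  map_add' u v := by
    funext j
    apply dn_ext
    · change (0 : ResidueField 𝒪) = fs (_ + _)
      rw [map_add, fs_mk, fs_mk, add_zero]
    · rfl

theorem redv_apply (v : Fin 2 → DN 𝒪) (j : Fin 2) : redv v j = fs (v j) := rfl
theorem fs_epsv (y : Fin 2 → ResidueField 𝒪) (j : Fin 2) : fs (epsv y j) = 0 := rfl
theorem sn_epsv (y : Fin 2 → ResidueField 𝒪) (j : Fin 2) : sn (epsv y j) = y j := rfl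

theorem epsv_inj : Function.Injective (epsv (𝒪 := 𝒪)) := by
  intro y y' h
  funext j
  rw [← sn_epsv y, ← sn_epsv y', h]

theorem mulVec_epsv (X : M2 (DN 𝒪)) (y : Fin 2 → ResidueField 𝒪) :
    X.mulVec (epsv y) = epsv ((FM X).mulVec y) := by
  funext j
  apply dn_ext
  · rw [fs_epsv, Matrix.mulVec, dotProduct, map_sum]
    refine Finset.sum_eq_zero fun l _ => ?_
    rw [map_mul, fs_epsv, mul_zero]
  · rw [sn_epsv, Matrix.mulVec, dotProduct, Matrix.mulVec, dotProduct, Fin.sum_univ_two,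
      Fin.sum_univ_two, sn_add, sn_mul, sn_mul, fs_epsv, fs_epsv, sn_epsv, sn_epsv, mul_zero,
      mul_zero, add_zero, add_zero]
    rfl

theorem redv_mulVec (X : M2 (DN 𝒪)) (v : Fin 2 → DN 𝒪) :
    redv (X.mulVec v) = (FM X).mulVec (redv v) := by
  funext j
  rw [redv_apply, Matrix.mulVec, dotProduct, map_sum]
  refine Finset.sum_congr rfl fun l _ => ?_
  rw [map_mul]
  rfl

theorem exists_epsv {v : Fin 2 → DN 𝒪} (h : redv v = 0) : ∃ y, epsv y = v := by
  refine ⟨fun j => sn (v j), ?_⟩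
  funext j
  apply dn_ext
  · rw [fs_epsv]
    exact (congrFun h j).symm
  · rfl

theorem epsv_redv (v : Fin 2 → DN 𝒪) (c : ResidueField 𝒪) :
    epsv (c • redv v) = (DN.mk 𝒪 0 c) • v := by
  funext j
  apply dn_ext
  · rw [fs_epsv, Pi.smul_apply, smul_eq_mul, map_mul, fs_mk, zero_mul]
  · rw [sn_epsv, Pi.smul_apply, Pi.smul_apply, smul_eq_mul, smul_eq_mul, sn_mul, fs_mk, sn_mk,
      zero_mul, zero_add]
    rfl

theorem redv_smul (c : DN 𝒪) (v : Fin 2 → DN 𝒪) : redv (c • v) = fs c • redv v := by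
  funext j
  rw [redv_apply, Pi.smul_apply, smul_eq_mul, map_mul]
  rfl

end DNmod

end Fermat.Agent.TW
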