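import Fermat.Agent.TW.SS6
import Fermat.Agent.TW.LocP3
import Fermat.Agent.H18S.SSRes
import Fermat.Agent.H19.SSFlat

/-!
# Local conditions at `p`: summary
-/

set_option autoImplicit false
set_option linter.unusedSectionVars false

namespace Fermat.Agent.TW

open Matrix Fermat.Agent.CC NVal IsLocalRing
open Fermat.Agent.H04 (DN M2 ofMat IsCont)

section line

variable {k : Type*} [Field k] {A : ValuationSubring Qb} {r : GQ →* Mt k}

theorem exists_basis_of_ne {v : Fin 2 → k} (hv : v ≠ 0) :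
    ∃ Q Q' : Mt k, Q * Q' = 1 ∧ ∀ i, Q i 0 = v i := by
  by_cases h0 : v 0 = 0
  · have h1 : v 1 ≠ 0 := by
      intro h1
      apply hv
      funext i
      fin_cases i
      · exact h0
      · exact h1
    refine ⟨!![0, 1; v 1, 0], !![0, (v 1)⁻¹; 1, 0], ?_, fun i => ?_⟩
    · rw [Matrix.mul_fin_two, Matrix.one_fin_two, mul_inv_cancel₀ h1]
      simp
    · fin_cases i
      · exact h0.symm
      · rfl
  · refine ⟨!![v 0, 0; v 1, 1], !![(v 0)⁻¹, 0; -(v 1 * (v 0)⁻¹), 1], ?_, fun i => ?_⟩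
    · rw [Matrix.mul_fin_two, Matrix.one_fin_two, mul_inv_cancel₀ h0]
      simp
    · fin_cases i <;> rfl

theorem exists_BData_of_line {v : Fin 2 → k} (hv : v ≠ 0)
    (h : ∀ g ∈ A.decompositionSubgroup ℚ, ∃ c : k, (r g).mulVec v = c • v) :
    ∃ Q Q' : Mt k, BData A r Q Q' := by
  obtain ⟨Q, Q', h1, h2⟩ := exists_basis_of_ne hv
  have h3 : Q' * Q = 1 := mul_eq_one_comm.1 h1
  refine ⟨Q, Q', h1, h3, fun g hg => ?_⟩
  obtain ⟨c, hc⟩ := h g hg
  have h4 : ∀ i, (r g * Q) i 0 = c * Q i 0 := by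
    intro i
    have h5 := congrFun hc i
    rw [Matrix.mulVec, dotProduct, Pi.smul_apply, smul_eq_mul] at h5
    rw [Matrix.mul_apply, h2, ← h5]
    exact Finset.sum_congr rfl fun j _ => by rw [h2]
  rw [mul_assoc, Matrix.mul_apply]
  simp only [h4]
  have h6 := congrFun (congrFun h3 1) 0
  rw [Matrix.mul_apply, Matrix.one_apply_ne (by decide : (1 : Fin 2) ≠ 0)] at h6
  calc ∑ j, Q' 1 j * (c * Q j 0) = c * ∑ j, Q' 1 j * Q j 0 := by
        rw [Finset.mul_sum]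
        exact Finset.sum_congr rfl fun j _ => by ring
    _ = 0 := by rw [h6, mul_zero]

end line

variable {𝒪 : Type} [CommRing 𝒪] [IsLocalRing 𝒪] {A : ValuationSubring Qb} {p : ℕ}
  {w : Qb → ℝ} {rb : GQ →* Mt (ResidueField 𝒪)} {s : GQ →* M2 (DN 𝒪)}

/-- strictly ordinary deformations to the dual numbers, in matrix form -/
def StrictDN (A : ValuationSubring Qb) (x : GQ → ZMod p) (s : GQ →* M2 (DN 𝒪)) : Prop :=
  ∃ M M' : M2 (DN 𝒪), M * M' = 1 ∧
      (∀ g ∈ A.decompositionSubgroup ℚ, (M' * s g * M) 1 0 = 0) ∧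
      (∀ g ∈ A.decompositionSubgroup ℚ, sn ((M' * s g * M) 0 0) = 0) ∧
      (∀ g ∈ A.inertiaSubgroupIn ℚ, (M' * s g * M) 1 1 = 1) ∧
      (∀ g ∈ A.inertiaSubgroupIn ℚ, (M' * s g * M) 0 0 = ((x g).val : DN 𝒪))

theorem natCast_val_eq {k : Type*} [Field k] [hp : Fact p.Prime] [Algebra (ZMod p) k] (a : ZMod p) :
    ((a.val : ℕ) : k) = algebraMap (ZMod p) k a := by
  conv_rhs => rw [← ZMod.natCast_zmod_val a]
  rw [map_natCast]

section adapted

variable [hp : Fact p.Prime] [Algebra (ZMod p) (ResidueField 𝒪)] {x : GQ → ZMod p}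
  {M M' : M2 (DN 𝒪)}

theorem FM_conj (hs : ∀ σ, FM (s σ) = rb σ) (g : GQ) :
    FM M' * rb g * FM M = FM (M' * s g * M) := by rw [FM_mul, FM_mul, hs]

theorem adapted_00 (hs : ∀ σ, FM (s σ) = rb σ)
    (h00 : ∀ g ∈ A.inertiaSubgroupIn ℚ, (M' * s g * M) 0 0 = ((x g).val : DN 𝒪)) :
    ∀ g ∈ A.inertiaSubgroupIn ℚ,
      (FM M' * rb g * FM M) 0 0 = algebraMap (ZMod p) (ResidueField 𝒪) (x g) := by
  intro g hg
  rw [FM_conj hs]
  change fs ((M' * s g * M) 0 0) = _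
  rw [h00 g hg, map_natCast, natCast_val_eq]

theorem adapted_11 (hs : ∀ σ, FM (s σ) = rb σ)
    (h11 : ∀ g ∈ A.inertiaSubgroupIn ℚ, (M' * s g * M) 1 1 = 1) :
    ∀ g ∈ A.inertiaSubgroupIn ℚ, (FM M' * rb g * FM M) 1 1 = 1 := by
  intro g hg
  rw [FM_conj hs]
  change fs ((M' * s g * M) 1 1) = _
  rw [h11 g hg, map_one]

theorem adapted_line (P : PL p A w) {ζ : Qb} (C : CY p ζ x) (hp2 : p ≠ 2)
    {Q Q' R R' : Mt (ResidueField 𝒪)} (B : BData A rb Q Q') (B' : BData A rb R R')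
    (h00 : ∀ g ∈ A.inertiaSubgroupIn ℚ,
      (Q' * rb g * Q) 0 0 = algebraMap (ZMod p) (ResidueField 𝒪) (x g))
    (h11 : ∀ g ∈ A.inertiaSubgroupIn ℚ, (Q' * rb g * Q) 1 1 = 1)
    (h00' : ∀ g ∈ A.inertiaSubgroupIn ℚ,
      (R' * rb g * R) 0 0 = algebraMap (ZMod p) (ResidueField 𝒪) (x g)) :
    (Q' * R) 1 0 = 0 := by
  obtain ⟨σ, hσ, hxσ⟩ := x_surj_inertia P C hp2
  refine line_unique B B' (inertia_le_decomposition A hσ) ?_ ?_
  · rw [h00 σ hσ, h11 σ hσ, ← map_one (algebraMap (ZMod p) (ResidueField 𝒪))]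
    exact fun h => hxσ ((algebraMap (ZMod p) (ResidueField 𝒪)).injective h)
  · rw [h00 σ hσ, h00' σ hσ]

end adapted

section main

variable [Finite (ResidueField 𝒪)] [CharP (ResidueField 𝒪) p] (P : PL p A w) (hp2 : p ≠ 2)
  {ζ : Qb} {x : GQ → ZMod p} (C : CY p ζ x)

theorem two_ne (_P : PL p A w) (hp2 : p ≠ 2) : (2 : ResidueField 𝒪) ≠ 0 := by
  intro h
  have h1 : ((2 : ℕ) : ResidueField 𝒪) = 0 := by exact_mod_cast h
  rw [CharP.cast_eq_zero_iff (ResidueField 𝒪) p] at h1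
  exact hp2 ((Nat.prime_dvd_prime_iff_eq _P.prime Nat.prime_two).1 h1)

include P hp2 C

/-- **strictly ordinary local condition** -/
theorem exists_Lstrict (rb : GQ →* Mt (ResidueField 𝒪)) (hU : lev.isOpen rb.ker) :
    ∃ L : AddSubgroup (H1 (lev.sub (A.decompositionSubgroup ℚ))
      (Ad0 rb (1 : GQ →* ResidueField 𝒪))), Finite L ∧
      Nat.card L ≤ Nat.card (ResidueField 𝒪) * Nat.card (H0 (A.decompositionSubgroup ℚ)
        (Ad0 rb (1 : GQ →* ResidueField 𝒪))) ∧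
      ∀ (S' : Finset Nat.Primes) (s : GQ →* M2 (DN 𝒪)) (hs : ∀ σ, FM (s σ) = rb σ)
        (hU : (levS S').isOpen s.ker) (htr : ∀ σ, sn (s σ).det = 0), StrictDN A x s →
        resD S' (A.decompositionSubgroup ℚ) _ (H1.mk _ _ (cls S' hs hU htr)) ∈ L := by
  have hf : Fact p.Prime := ⟨P.prime⟩
  let _ : Algebra (ZMod p) (ResidueField 𝒪) := ZMod.algebra _ p
  by_cases hex : ∃ s : GQ →* M2 (DN 𝒪), (∀ σ, FM (s σ) = rb σ) ∧ StrictDN A x s
  · obtain ⟨s, hs, M, M', hMM, h10, h00, h11, hx⟩ := hex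
    have B := BData.of_adapted hs hMM h10
    have e00 := adapted_00 (M := M) (M' := M') hs hx
    have e11 := adapted_11 (M := M) (M' := M') hs h11
    obtain ⟨h1, h2⟩ := card_strict P hp2 C hU B fun σ hσ => by
      rw [e00 σ hσ, e11 σ hσ, inv_one, mul_one]
    refine ⟨_, h1, h2, fun S' s' hs' hU' htr' hst => ?_⟩
    obtain ⟨N, N', hNN, k10, k00, k11, kx⟩ := hst
    refine mem_ZS_of_adapted (two_ne P hp2) hs' hU' htr' B hNN k10 k00 ?_
    exact adapted_line P C hp2 B (BData.of_adapted hs' hNN k10) e00 e11 (adapted_00 hs' kx)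
  · refine ⟨⊥, inferInstance, ?_, fun S' s' hs' hU' htr' hst => absurd ⟨s', hs', hst⟩ hex⟩
    rw [AddSubgroup.card_bot]
    exact Nat.mul_pos Nat.card_pos Nat.card_pos

/-- flat local condition, reducible case -/
theorem exists_Lflat_red (rb : GQ →* Mt (ResidueField 𝒪)) (hU : lev.isOpen rb.ker)
    {Q Q' : Mt (ResidueField 𝒪)} (B : BData A rb Q Q') {s : GQ →* M2 (DN 𝒪)}
    (hs : ∀ σ, FM (s σ) = rb σ) (hdet : ∀ σ, (s σ).det = ((x σ).val : DN 𝒪))
    (hH : HasLH A (actV A s)) :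
    ∃ L : AddSubgroup (H1 (lev.sub (A.decompositionSubgroup ℚ))
      (Ad0 rb (1 : GQ →* ResidueField 𝒪))), Finite L ∧
      Nat.card L ≤ Nat.card (ResidueField 𝒪) * Nat.card (H0 (A.decompositionSubgroup ℚ)
        (Ad0 rb (1 : GQ →* ResidueField 𝒪))) ∧
      ∀ (S' : Finset Nat.Primes) (s : GQ →* M2 (DN 𝒪)) (hs : ∀ σ, FM (s σ) = rb σ)
        (hU : (levS S').isOpen s.ker) (htr : ∀ σ, sn (s σ).det = 0),
        (∀ σ, (s σ).det = ((x σ).val : DN 𝒪)) → HasLH A (actV A s) →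
        resD S' (A.decompositionSubgroup ℚ) _ (H1.mk _ _ (cls S' hs hU htr)) ∈ L := by
  have hf : Fact p.Prime := ⟨P.prime⟩
  let _ : Algebra (ZMod p) (ResidueField 𝒪) := ZMod.algebra _ p
  obtain ⟨l, hl⟩ := exists_functional (p := p) (ResidueField 𝒪)
  have hU' := lev_isOpen_iff.1 hU
  obtain ⟨M, M', hMM, h10, hx, h11, hun⟩ := exists_adapted_flat P hp2 C hs hdet hU' B hH
  have B := BData.of_adapted hs hMM h10
  have e00 := adapted_00 (M := M) (M' := M') hs hx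
  have e11 := adapted_11 (M := M) (M' := M') hs h11
  have hres : UnitType A w ζ l (fun σ => (FM M' * rb σ * FM M) 0 1) := by
    have : (fun σ => (FM M' * rb σ * FM M) 0 1) = fun g => fs ((M' * s g * M) 0 1) := by
      funext g
      rw [FM_conj hs]
      rfl
    rw [this]
    exact (hun l).2
  obtain ⟨h1, h2⟩ := card_flat_red P hp2 C hl hU B e00 e11 hres
  refine ⟨_, h1, h2, fun S' s' hs' hU'' htr' hdet' hH' => ?_⟩
  obtain ⟨N, N', hNN, k10, kx, k11, kun⟩ := exists_adapted_flat P hp2 C hs' hdet' hU' B hH'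
  refine mem_ZF_of_adapted (two_ne P hp2) P C l hs' hU'' htr' B hNN k10 (fun g hg => ?_) k11
    (kun l).1 ?_
  · rw [kx g hg, sn_natCast]
  · exact adapted_line P C hp2 B (BData.of_adapted hs' hNN k10) e00 e11 (adapted_00 hs' kx)

omit hp2 C P in
theorem hasLH_actR (hs : ∀ σ, FM (s σ) = rb σ)
    (hH : HasLH A (actV A s)) : HasLH A (actR A rb) := by
  obtain ⟨H, hH⟩ := hH
  obtain ⟨H₁, hH₁, -⟩ := H09.LHopf.exists_lh_injective hH (act₁ := actR A rb) epsv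
    (fun σ y => by
      rw [actV_apply, mulVec_epsv, hs]
      rfl) epsv_inj
  exact ⟨H₁, hH₁⟩

/-- rigidity: classes trivial on wild inertia are trivial (irreducible case) -/
def Rigid (A : ValuationSubring Qb) (p : ℕ) (rb : GQ →* Mt (ResidueField 𝒪)) : Prop :=
  ∀ [Algebra (ZMod p) (ResidueField 𝒪)] (π : Qb) (α : GQ → ResidueField 𝒪)
    (K : Subfield (ResidueField 𝒪)) (τ : K →+* IsLocalRing.ResidueField A)
    (Q Q' : Mt (ResidueField 𝒪)), SD p A π α K τ rb Q Q' →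
    ∀ f : Z1 (lev.sub (A.decompositionSubgroup ℚ)) (Ad0 rb (1 : GQ →* ResidueField 𝒪)),
      (∀ σ (_ : σ ∈ Jt A π) (hD : σ ∈ A.decompositionSubgroup ℚ), f.1 ⟨σ, hD⟩ = 0) →
      H1.mk _ _ f = 0

/-- flat local condition, irreducible case -/
theorem exists_Lflat_irr (rb : GQ →* Mt (ResidueField 𝒪)) (hU : lev.isOpen rb.ker)
    (hrig : Rigid A p rb)
    (hsplit : ∀ s, ∃ a b : ResidueField 𝒪,
      (rb s).charpoly = (Polynomial.X - Polynomial.C a) * (Polynomial.X - Polynomial.C b))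
    (hirr : ∀ v : Fin 2 → ResidueField 𝒪, v ≠ 0 → ∃ g ∈ A.decompositionSubgroup ℚ,
      ∀ c : ResidueField 𝒪, (rb g).mulVec v ≠ c • v) {s : GQ →* M2 (DN 𝒪)}
    (hs : ∀ σ, FM (s σ) = rb σ) (hdet : ∀ σ, (s σ).det = ((x σ).val : DN 𝒪))
    (hH : HasLH A (actV A s)) :
    ∃ L : AddSubgroup (H1 (lev.sub (A.decompositionSubgroup ℚ))
      (Ad0 rb (1 : GQ →* ResidueField 𝒪))), Finite L ∧
      Nat.card L ≤ Nat.card (ResidueField 𝒪) * Nat.card (H0 (A.decompositionSubgroup ℚ)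
        (Ad0 rb (1 : GQ →* ResidueField 𝒪))) ∧
      ∀ (S' : Finset Nat.Primes) (s : GQ →* M2 (DN 𝒪)) (hs : ∀ σ, FM (s σ) = rb σ)
        (hU : (levS S').isOpen s.ker) (htr : ∀ σ, sn (s σ).det = 0),
        (∀ σ, (s σ).det = ((x σ).val : DN 𝒪)) → HasLH A (actV A s) →
        resD S' (A.decompositionSubgroup ℚ) _ (H1.mk _ _ (cls S' hs hU htr)) ∈ L := by
  have hf : Fact p.Prime := ⟨P.prime⟩
  let _ : Algebra (ZMod p) (ResidueField 𝒪) := ZMod.algebra _ p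
  obtain ⟨l, hl⟩ := exists_functional (p := p) (ResidueField 𝒪)
  have hU' := lev_isOpen_iff.1 hU
  have hdetr : ∀ σ, (rb σ).det = ((x σ).val : ResidueField 𝒪) := by
    intro σ
    have h1 := congrArg fs (hdet σ)
    rw [map_natCast] at h1
    rw [← hs, ← h1]
    exact (RingHom.map_det fs (s σ)).symm
  have hdetr' : ∀ σ, (rb σ).det = algebraMap (ZMod p) (ResidueField 𝒪) (x σ) := fun σ => by
    rw [hdetr, natCast_val_eq]
  obtain ⟨π, hπ⟩ := IsAlgClosed.exists_pow_nat_eq (p : Qb) (n := p ^ 2 - 1)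
    (Nat.sub_pos_of_lt (Nat.one_lt_pow two_ne_zero P.prime.one_lt))
  obtain ⟨Q, Q', α, K, τ, hal, hQ, hK, hτ, hdiag, hanti⟩ := H18S.ss_residual P hp2 C hU' hdetr
    hsplit hirr (hasLH_actR hs hH) hπ
  have SRr : SR p A π α K τ := ⟨hK, hπ, hal, hτ⟩
  have S : SD p A π α K τ rb Q Q' := ⟨SRr, hQ, mul_eq_one_comm.1 hQ, hdiag, hanti⟩
  obtain ⟨h1, h2⟩ := S.card_ss P hp2 C hdetr' l hl fun f hfJ =>
    hrig π α K τ Q Q' S f fun σ hσ hD => hfJ σ hσ
  refine ⟨_, h1, h2.trans (Nat.le_mul_of_pos_right _ Nat.card_pos),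
    fun S' s' hs' hU'' htr' hdet' hH' => ?_⟩
  obtain ⟨c, hc1, hc2⟩ : ∃ c : Z1 (lev.sub (A.decompositionSubgroup ℚ))
      (Ad0 rb (1 : GQ →* ResidueField 𝒪)),
      H1.mk _ _ c = resD S' (A.decompositionSubgroup ℚ) _ (H1.mk _ _ (cls S' hs' hU'' htr')) ∧
      ∀ g : A.decompositionSubgroup ℚ, (c.1 g).val = xi rb s' g := by
    unfold resD
    rw [H1map_mk]
    exact ⟨_, rfl, fun g => rfl⟩
  rw [← hc1]
  refine AddSubgroup.mem_map_of_mem _ (S.mem_ZSS P hp2 C hdetr' l hl c ?_)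
  have hev : ∀ i : Fin 2, ∀ σ ∈ Jt A π, evM A rb Q Q' 0 i c σ = (Q' * SM (s' σ) * Q) 0 i := by
    intro i σ hσ
    rw [evM_apply c (S.J_le P hσ), hc2]
    have h3 : rb σ⁻¹ = 1 := S.r_one P ((Jt A π).inv_mem hσ)
    change (Q' * (SM (s' σ) * rb σ⁻¹) * Q) 0 i = _
    rw [h3, mul_one]
  intro i z j hj0 hpj hj t ht ht0 htr
  have h4 : KR w (Jt A π) ζ π (p ^ 2 - 1) j (fun σ => l (z * (Q' * SM (s' σ) * Q) 0 i)) t :=
    UF.KR_eqOn (fun σ hσ => by rw [hev i σ hσ]) htr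
  have h5 := ss_flat P hp2 C SRr hQ hdiag hs' hH' i l z hj0 hpj hj ht ht0 h4
  have h6 : {y : ResidueField 𝒪 | ∃ σ ∈ Jt A π, evM A rb Q Q' 0 i c σ = y} =
      {y : ResidueField 𝒪 | ∃ σ ∈ Jt A π, (Q' * SM (s' σ) * Q) 0 i = y} := by
    ext y
    constructor
    · rintro ⟨σ, hσ, h⟩
      exact ⟨σ, hσ, by rw [← hev i σ hσ, h]⟩
    · rintro ⟨σ, hσ, h⟩
      exact ⟨σ, hσ, by rw [hev i σ hσ, h]⟩
  rw [h6]
  exact h5

/-- **flat local condition** -/
theorem exists_Lflat' (rb : GQ →* Mt (ResidueField 𝒪)) (hU : lev.isOpen rb.ker)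
    (hrig : Rigid A p rb)
    (hsplit : ∀ s, ∃ a b : ResidueField 𝒪,
      (rb s).charpoly = (Polynomial.X - Polynomial.C a) * (Polynomial.X - Polynomial.C b)) :
    ∃ L : AddSubgroup (H1 (lev.sub (A.decompositionSubgroup ℚ))
      (Ad0 rb (1 : GQ →* ResidueField 𝒪))), Finite L ∧
      Nat.card L ≤ Nat.card (ResidueField 𝒪) * Nat.card (H0 (A.decompositionSubgroup ℚ)
        (Ad0 rb (1 : GQ →* ResidueField 𝒪))) ∧
      ∀ (S' : Finset Nat.Primes) (s : GQ →* M2 (DN 𝒪)) (hs : ∀ σ, FM (s σ) = rb σ)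
        (hU : (levS S').isOpen s.ker) (htr : ∀ σ, sn (s σ).det = 0),
        (∀ σ, (s σ).det = ((x σ).val : DN 𝒪)) → HasLH A (actV A s) →
        resD S' (A.decompositionSubgroup ℚ) _ (H1.mk _ _ (cls S' hs hU htr)) ∈ L := by
  by_cases hex : ∃ s : GQ →* M2 (DN 𝒪), (∀ σ, FM (s σ) = rb σ) ∧
      (∀ σ, (s σ).det = ((x σ).val : DN 𝒪)) ∧ HasLH A (actV A s)
  · obtain ⟨s, hs, hdet, hH⟩ := hex
    by_cases hline : ∃ v : Fin 2 → ResidueField 𝒪, v ≠ 0 ∧
      ∀ g ∈ A.decompositionSubgroup ℚ, ∃ c : ResidueField 𝒪, (rb g).mulVec v = c • v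
    · obtain ⟨v, hv, hc⟩ := hline
      obtain ⟨Q, Q', B⟩ := exists_BData_of_line hv hc
      exact exists_Lflat_red P hp2 C rb hU B hs hdet hH
    · push Not at hline
      exact exists_Lflat_irr P hp2 C rb hU hrig hsplit hline hs hdet hH
  · refine ⟨⊥, inferInstance, ?_, fun S' s' hs' hU' htr' hdet' hst =>
      absurd ⟨s', hs', hdet', hst⟩ hex⟩
    rw [AddSubgroup.card_bot]
    exact Nat.mul_pos Nat.card_pos Nat.card_pos

/-- **flat and strictly ordinary local condition** -/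
theorem exists_Linter (rb : GQ →* Mt (ResidueField 𝒪)) (hU : lev.isOpen rb.ker) :
    ∃ L : AddSubgroup (H1 (lev.sub (A.decompositionSubgroup ℚ))
      (Ad0 rb (1 : GQ →* ResidueField 𝒪))), Finite L ∧
      Nat.card L ≤ Nat.card (H0 (A.decompositionSubgroup ℚ)
        (Ad0 rb (1 : GQ →* ResidueField 𝒪))) ∧
      ∀ (S' : Finset Nat.Primes) (s : GQ →* M2 (DN 𝒪)) (hs : ∀ σ, FM (s σ) = rb σ)
        (hU : (levS S').isOpen s.ker) (htr : ∀ σ, sn (s σ).det = 0),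
        (∀ σ, (s σ).det = ((x σ).val : DN 𝒪)) → HasLH A (actV A s) → StrictDN A x s →
        resD S' (A.decompositionSubgroup ℚ) _ (H1.mk _ _ (cls S' hs hU htr)) ∈ L := by
  have hf : Fact p.Prime := ⟨P.prime⟩
  let _ : Algebra (ZMod p) (ResidueField 𝒪) := ZMod.algebra _ p
  obtain ⟨l, hl⟩ := exists_functional (p := p) (ResidueField 𝒪)
  have hU' := lev_isOpen_iff.1 hU
  by_cases hex : ∃ s : GQ →* M2 (DN 𝒪), (∀ σ, FM (s σ) = rb σ) ∧
      (∀ σ, (s σ).det = ((x σ).val : DN 𝒪)) ∧ HasLH A (actV A s) ∧ StrictDN A x s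
  · obtain ⟨s, hs, hdet, hH, N0, N0', hNN0, k0, -⟩ := hex
    obtain ⟨M, M', hMM, h10, hx, h11, hun⟩ := exists_adapted_flat P hp2 C hs hdet hU'
      (BData.of_adapted hs hNN0 k0) hH
    have B := BData.of_adapted hs hMM h10
    have e00 := adapted_00 (M := M) (M' := M') hs hx
    have e11 := adapted_11 (M := M) (M' := M') hs h11
    have hres : UnitType A w ζ l (fun σ => (FM M' * rb σ * FM M) 0 1) := by
      have : (fun σ => (FM M' * rb σ * FM M) 0 1) = fun g => fs ((M' * s g * M) 0 1) := by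
        funext g
        rw [FM_conj hs]
        rfl
      rw [this]
      exact (hun l).2
    obtain ⟨h1, -⟩ := card_flat_red P hp2 C hl hU B e00 e11 hres
    have h2 := card_inter P C hp2 hl hU B e00 e11 hres
    have h3 := inter_map P C hp2 hU B e00 e11 hres
    refine ⟨(ZS A rb (FM M) (FM M') ⊓ ZF P C l rb (FM M) (FM M')).map (H1.mk _ _), ?_, h2,
      fun S' s' hs' hU'' htr' hdet' hH' hst => ?_⟩
    · rw [← h3]
      exact @Finite.of_injective _ _ h1 (AddSubgroup.inclusion inf_le_right)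
        (AddSubgroup.inclusion_injective _)
    rw [← h3]
    constructor
    · obtain ⟨N, N', hNN, k10, k00, k11, kx⟩ := hst
      refine mem_ZS_of_adapted (two_ne P hp2) hs' hU'' htr' B hNN k10 k00 ?_
      exact adapted_line P C hp2 B (BData.of_adapted hs' hNN k10) e00 e11 (adapted_00 hs' kx)
    · obtain ⟨N, N', hNN, k10, kx, k11, kun⟩ := exists_adapted_flat P hp2 C hs' hdet' hU' B hH'
      refine mem_ZF_of_adapted (two_ne P hp2) P C l hs' hU'' htr' B hNN k10 (fun g hg => ?_) k11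
        (kun l).1 ?_
      · rw [kx g hg, sn_natCast]
      · exact adapted_line P C hp2 B (BData.of_adapted hs' hNN k10) e00 e11 (adapted_00 hs' kx)
  · refine ⟨⊥, inferInstance, ?_, fun S' s' hs' hU' htr' hdet' hst hst' =>
      absurd ⟨s', hs', hdet', hst, hst'⟩ hex⟩
    rw [AddSubgroup.card_bot]
    exact Nat.card_pos

end main

end Fermat.Agent.TW
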