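import Fermat.Agent.TW.Select
import Fermat.Agent.H25.DecGen
import Fermat.Agent.H12.Tame

/-!
# Local cohomology at a place: unramified classes and the tame case
-/

set_option autoImplicit false
set_option linter.unusedSectionVars false

namespace Fermat.Agent.TW

open Fermat.Agent.CC
open scoped Pointwise

theorem lev_isOpen_iff {N : Subgroup GQ} : lev.isOpen N ↔ IsOpen (N : Set GQ) := by
  have hg := Fermat.Agent.H51.isGalois_Qbar
  constructor
  · rintro ⟨L, hL, hLN⟩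
    exact Subgroup.isOpen_mono hLN (IntermediateField.fixingSubgroup_isOpen L)
  · intro h
    let Hc : ClosedSubgroup GQ := ⟨N, N.isClosed_of_isOpen h⟩
    have hfix : (IntermediateField.fixedField N).fixingSubgroup = N :=
      InfiniteGalois.fixingSubgroup_fixedField Hc
    refine ⟨IntermediateField.fixedField N, ?_, hfix.le⟩
    rw [← InfiniteGalois.isOpen_iff_finite, hfix]
    exact h

section

variable {q : ℕ} {A : ValuationSubring Qb} {φ : GQ}

theorem inertia_le_decomposition (A : ValuationSubring Qb) :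
    A.inertiaSubgroupIn ℚ ≤ A.decompositionSubgroup ℚ := by
  intro τ hτ
  exact ((H09.mem_inertia_iff A τ).1 hτ).1

theorem exists_dec (hq : q.Prime) (hA : A.LiesOverPrime q) (hφ : A.IsFrobeniusAt φ q) {d : GQ}
    (hd : d ∈ A.decompositionSubgroup ℚ) {V : Subgroup GQ} (hV : V.Normal) (hVo : lev.isOpen V) :
    ∃ n : ℕ, ∃ σ ∈ A.inertiaSubgroupIn ℚ, ∃ h ∈ V, h ∈ A.decompositionSubgroup ℚ ∧
      d = φ ^ n * σ * h := by
  have hg := Fermat.Agent.H51.isGalois_Qbar
  obtain ⟨n, h, hh, σ, hσ, e⟩ := H25.exists_decomp hq hA hφ hd V (lev_isOpen_iff.1 hVo)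
  refine ⟨n, σ, hσ, σ⁻¹ * h * σ, by simpa using hV.conj_mem h hh σ⁻¹, ?_, by
    rw [e]; group⟩
  have h1 : σ⁻¹ * h * σ = (φ ^ n * σ)⁻¹ * d := by rw [e]; group
  rw [h1]
  exact mul_mem (inv_mem (mul_mem (pow_mem hφ.mem_decompositionSubgroup n)
    (inertia_le_decomposition A hσ))) hd

variable {M : Type*} [AddCommGroup M] [DistribMulAction GQ M]

theorem Z1_pow {G : Type*} [Group G] {𝓛 : Lev G} {M : Type*} [AddCommGroup M]
    [DistribMulAction G M] (f : Z1 𝓛 M) {g : G} (h : f.1 g = 0) (n : ℕ) : f.1 (g ^ n) = 0 := by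
  induction n with
  | zero => rw [pow_zero, Z1.map_one]
  | succ n ih => rw [pow_succ, f.2.2, ih, h, smul_zero, add_zero]

/-- a local cocycle vanishing on inertia and Frobenius vanishes -/
theorem Z1_eq_zero (hq : q.Prime) (hA : A.LiesOverPrime q) (hφ : A.IsFrobeniusAt φ q)
    (f : Z1 (lev.sub (A.decompositionSubgroup ℚ)) M)
    (h1 : ∀ g : A.decompositionSubgroup ℚ, (g : GQ) ∈ A.inertiaSubgroupIn ℚ → f.1 g = 0)
    (h2 : f.1 ⟨φ, hφ.mem_decompositionSubgroup⟩ = 0) (g : A.decompositionSubgroup ℚ) :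
    f.1 g = 0 := by
  obtain ⟨U, ⟨U0, hU0, hU0U⟩, hU⟩ := f.2.1
  obtain ⟨V, hVn, hV, hVU⟩ := lev.nor U0 hU0
  obtain ⟨n, σ, hσ, h, hh, hhD, e⟩ := exists_dec hq hA hφ g.2 hVn hV
  have e' : g = (⟨φ, hφ.mem_decompositionSubgroup⟩ ^ n * ⟨σ, inertia_le_decomposition A hσ⟩) *
      ⟨h, hhD⟩ := Subtype.ext e
  rw [e', hU _ _ (hU0U (hVU hh)), f.2.2, Z1_pow f h2, h1 _ hσ, smul_zero, add_zero]

theorem mem_H0_iff (hq : q.Prime) (hA : A.LiesOverPrime q) (hφ : A.IsFrobeniusAt φ q)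
    (hM : lev.Smooth M) (m : M) :
    m ∈ H0 (A.decompositionSubgroup ℚ) M ↔
      (∀ τ ∈ A.inertiaSubgroupIn ℚ, τ • m = m) ∧ φ • m = m := by
  constructor
  · intro h
    exact ⟨fun τ hτ => h ⟨τ, inertia_le_decomposition A hτ⟩,
      h ⟨φ, hφ.mem_decompositionSubgroup⟩⟩
  · rintro ⟨h1, h2⟩ g
    obtain ⟨U, hU, hUm⟩ := hM m
    obtain ⟨V, hVn, hV, hVU⟩ := lev.nor U hU
    obtain ⟨n, σ, hσ, h, hh, hhD, e⟩ := exists_dec hq hA hφ g.2 hVn hV
    change (g : GQ) • m = m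
    rw [e, mul_smul, mul_smul, hUm h (hVU hh), h1 σ hσ]
    clear e
    induction n with
    | zero => rw [pow_zero, one_smul]
    | succ n ih => rw [pow_succ, mul_smul, h2, ih]

/-- classes vanishing on inertia -/
def unr (A : ValuationSubring Qb) (M : Type*) [AddCommGroup M] [DistribMulAction GQ M] :
    AddSubgroup (H1 (lev.sub (A.decompositionSubgroup ℚ)) M) where
  carrier := {x | ∃ f : Z1 (lev.sub (A.decompositionSubgroup ℚ)) M, H1.mk _ _ f = x ∧
    ∀ g : A.decompositionSubgroup ℚ, (g : GQ) ∈ A.inertiaSubgroupIn ℚ → f.1 g = 0}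
  add_mem' := by
    rintro _ _ ⟨f, rfl, hf⟩ ⟨f', rfl, hf'⟩
    refine ⟨f + f', map_add _ _ _, fun g hg => ?_⟩
    rw [AddSubgroup.coe_add, Pi.add_apply, hf g hg, hf' g hg, add_zero]
  zero_mem' := ⟨0, map_zero _, fun g _ => rfl⟩
  neg_mem' := by
    rintro _ ⟨f, rfl, hf⟩
    refine ⟨-f, map_neg _ _, fun g hg => ?_⟩
    rw [AddSubgroup.coe_neg, Pi.neg_apply, hf g hg, neg_zero]

theorem smooth_sub {D : Subgroup GQ} (hM : lev.Smooth M) : (lev.sub D).Smooth M := by
  intro a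
  obtain ⟨U, hU, h⟩ := hM a
  exact ⟨U.comap D.subtype, ⟨U, hU, le_rfl⟩, fun s hs => h s hs⟩

theorem mem_unr_of (hM : lev.Smooth M) (f : Z1 (lev.sub (A.decompositionSubgroup ℚ)) M)
    (a : M) (hf : ∀ g : A.decompositionSubgroup ℚ, (g : GQ) ∈ A.inertiaSubgroupIn ℚ →
      f.1 g = g • a - a) : H1.mk _ _ f ∈ unr A M := by
  refine ⟨f - coboundary1 (smooth_sub hM) a, ?_, fun g hg => ?_⟩
  · rw [map_sub, sub_eq_self, H1.mk_eq_zero]
    exact ⟨a, fun g => rfl⟩
  · rw [AddSubgroup.coe_sub, Pi.sub_apply, hf g hg]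
    exact sub_self _

/-- the inertia invariants -/
def MI (A : ValuationSubring Qb) (M : Type*) [AddCommGroup M] [DistribMulAction GQ M] :
    AddSubgroup M where
  carrier := {m | ∀ τ ∈ A.inertiaSubgroupIn ℚ, τ • m = m}
  add_mem' := fun {a b} ha hb τ hτ => by rw [smul_add, ha τ hτ, hb τ hτ]
  zero_mem' := fun τ _ => smul_zero τ
  neg_mem' := fun {a} ha τ hτ => by rw [smul_neg, ha τ hτ]

theorem inertia_conj_mem {φ : GQ} (hD : φ ∈ A.decompositionSubgroup ℚ) {τ : GQ}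
    (hτ : τ ∈ A.inertiaSubgroupIn ℚ) : φ * τ * φ⁻¹ ∈ A.inertiaSubgroupIn ℚ := by
  have h1 : φ⁻¹ • A = A := (A.decompositionSubgroup ℚ).inv_mem hD
  have h2 := H09.inertia_conj (A := A) (g := φ⁻¹) (σ := τ) (by rw [h1]; exact hτ)
  rwa [inv_inv] at h2

/-- the value at Frobenius of a cocycle vanishing on inertia is fixed by inertia -/
theorem frob_mem_MI (hφ : A.IsFrobeniusAt φ q)
    (f : Z1 (lev.sub (A.decompositionSubgroup ℚ)) M)
    (h1 : ∀ g : A.decompositionSubgroup ℚ, (g : GQ) ∈ A.inertiaSubgroupIn ℚ → f.1 g = 0) :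
    f.1 ⟨φ, hφ.mem_decompositionSubgroup⟩ ∈ MI A M := by
  intro τ hτ
  have hφD := hφ.mem_decompositionSubgroup
  have h2 : φ⁻¹ * τ * φ ∈ A.inertiaSubgroupIn ℚ := by
    have := inertia_conj_mem (A := A) (inv_mem hφD) hτ
    rwa [inv_inv] at this
  have e : (⟨τ, inertia_le_decomposition A hτ⟩ * ⟨φ, hφD⟩ : A.decompositionSubgroup ℚ) =
      ⟨φ, hφD⟩ * ⟨φ⁻¹ * τ * φ, inertia_le_decomposition A h2⟩ := by
    apply Subtype.ext
    change τ * φ = φ * (φ⁻¹ * τ * φ)
    group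
  have h3 := congrArg f.1 e
  rw [f.2.2, f.2.2, h1 ⟨τ, inertia_le_decomposition A hτ⟩ hτ,
    h1 ⟨φ⁻¹ * τ * φ, inertia_le_decomposition A h2⟩ h2, smul_zero, zero_add, add_zero] at h3
  exact h3

theorem smul_mem_MI (hφD : φ ∈ A.decompositionSubgroup ℚ) {m : M} (hm : m ∈ MI A M) :
    φ • m ∈ MI A M := by
  intro τ hτ
  have h2 : φ⁻¹ * τ * φ ∈ A.inertiaSubgroupIn ℚ := by
    have := inertia_conj_mem (A := A) (inv_mem hφD) hτ
    rwa [inv_inv] at this
  have h3 := hm _ h2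
  rw [mul_smul, mul_smul] at h3
  have := congrArg (fun x => φ • x) h3
  beta_reduce at this
  rwa [smul_inv_smul] at this

/-- `φ - 1` on inertia invariants -/
noncomputable def phiSub (A : ValuationSubring Qb) (M : Type*) [AddCommGroup M] [DistribMulAction GQ M]
    (φ : GQ) (hφD : φ ∈ A.decompositionSubgroup ℚ) : MI A M →+ MI A M where
  toFun m := ⟨φ • (m : M) - m, sub_mem (smul_mem_MI hφD m.2) m.2⟩
  map_zero' := by
    apply Subtype.ext
    change φ • (0 : M) - 0 = 0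
    rw [smul_zero, sub_zero]
  map_add' a b := by
    apply Subtype.ext
    change φ • ((a : M) + b) - (a + b) = (φ • (a : M) - a) + (φ • (b : M) - b)
    rw [smul_add]
    abel

/-- **unramified classes**: the number of local classes vanishing on inertia is at most the number
of invariants. -/
theorem card_unr_le [Finite M] (hq : q.Prime) (hA : A.LiesOverPrime q)
    (hφ : A.IsFrobeniusAt φ q) (hM : lev.Smooth M) :
    Finite (unr A M) ∧ Nat.card (unr A M) ≤ Nat.card (H0 (A.decompositionSubgroup ℚ) M) := by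
  classical
  have hφD := hφ.mem_decompositionSubgroup
  choose f hf hfI using fun x : unr A M => x.2
  let P := phiSub A M φ hφD
  let v : unr A M → MI A M := fun x => ⟨(f x).1 ⟨φ, hφD⟩, frob_mem_MI hφ (f x) (hfI x)⟩
  have hinj : Function.Injective (fun z : unr A M × P.range => v z.1 + (z.2 : MI A M)) := by
    rintro ⟨x, ⟨c, hc⟩⟩ ⟨y, ⟨d, hd⟩⟩ hxy
    beta_reduce at hxy
    change v x + c = v y + d at hxy
    have hxy2 : x = y := by
      obtain ⟨a, ha⟩ := P.range.sub_mem hd hc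
      have h1 : v x = v y + P a := by
        rw [ha, ← add_sub_assoc, ← hxy, add_sub_cancel_right]
      have h2 : (f x).1 ⟨φ, hφD⟩ = (f y).1 ⟨φ, hφD⟩ + (φ • (a : M) - a) :=
        congrArg Subtype.val h1
      apply Subtype.ext
      rw [← hf x, ← hf y, H1.mk_eq_mk]
      refine ⟨a, fun g => ?_⟩
      have h3 := Z1_eq_zero hq hA hφ (f x - f y - coboundary1 (smooth_sub hM) (a : M))
        (fun g hg => ?_) ?_ g
      · have h4 : (f x).1 g - (f y).1 g - (g • (a : M) - a) = 0 := h3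
        rw [sub_sub, sub_eq_zero] at h4
        exact h4
      · change (f x).1 g - (f y).1 g - (g • (a : M) - a) = 0
        rw [hfI x g hg, hfI y g hg]
        have : g • (a : M) = a := a.2 g hg
        rw [this, sub_self, sub_self, sub_self]
      · change (f x).1 ⟨φ, hφD⟩ - (f y).1 ⟨φ, hφD⟩ - (φ • (a : M) - a) = 0
        rw [h2]
        abel
    subst hxy2
    refine Prod.ext rfl (Subtype.ext ?_)
    exact add_left_cancel hxy
  have hne : Nonempty P.range := ⟨0⟩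
  have hfin : Finite (unr A M × P.range) := Finite.of_injective _ hinj
  have hfin1 : Finite (unr A M) := Finite.of_surjective (Prod.fst : unr A M × P.range → _)
    (fun x => ⟨(x, 0), rfl⟩)
  refine ⟨hfin1, ?_⟩
  have h1 := Nat.card_le_card_of_injective _ hinj
  rw [Nat.card_prod] at h1
  have h2 : Nat.card (MI A M) = Nat.card P.ker * Nat.card P.range := by
    have h3 := AddSubgroup.card_eq_card_quotient_mul_card_addSubgroup P.ker
    rw [h3, Nat.card_congr (QuotientAddGroup.quotientKerEquivRange P).toEquiv, mul_comm]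
  rw [h2] at h1
  have h3 : Nat.card (unr A M) ≤ Nat.card P.ker :=
    Nat.le_of_mul_le_mul_right h1 Nat.card_pos
  refine h3.trans ?_
  refine Nat.card_le_card_of_injective
    (fun x : P.ker => (⟨(x.1 : M), ?_⟩ : H0 (A.decompositionSubgroup ℚ) M)) ?_
  · rw [mem_H0_iff hq hA hφ hM]
    refine ⟨x.1.2, ?_⟩
    have h4 : φ • (x.1 : M) - x.1 = 0 := congrArg Subtype.val x.2
    rwa [sub_eq_zero] at h4
  · intro x y hxy
    have h5 : (x.1 : M) = y.1 := congrArg (fun z : H0 (A.decompositionSubgroup ℚ) M => (z : M)) hxy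
    exact Subtype.ext (Subtype.ext h5)

/-- a prime-to-`q` hom on inertia is determined by its value at `τ`, and Frobenius acts by `q` -/
theorem tame_values [Finite M] (hq : q.Prime) (hA : A.LiesOverPrime q)
    {p : ℕ} (hp : p.Prime) (hpq : p ≠ q)
    (hpM : ∀ m : M, p • m = 0) (π : Qb) (hπ : π ^ p = (q : Qb)) (τ : GQ)
    (hτI : τ ∈ A.inertiaSubgroupIn ℚ) (hτ : τ π ≠ π)
    (g : A.inertiaSubgroupIn ℚ → M) (hg : ∀ x y, g (x * y) = g x + g y)
    (U : Subgroup GQ) (hU : lev.isOpen U)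
    (hgU : ∀ σ : A.inertiaSubgroupIn ℚ, (σ : GQ) ∈ U → g σ = 0) :
    (g ⟨τ, hτI⟩ = 0 → ∀ σ, g σ = 0) ∧
    (∀ φ : GQ, A.IsFrobeniusAt φ q → ∀ (σ : GQ) (hσ : σ ∈ A.inertiaSubgroupIn ℚ)
      (hσ' : φ * σ * φ⁻¹ ∈ A.inertiaSubgroupIn ℚ), g ⟨φ * σ * φ⁻¹, hσ'⟩ = q • g ⟨σ, hσ⟩) := by
  have hgal := Fermat.Agent.H51.isGalois_Qbar
  let ρ : A.inertiaSubgroupIn ℚ →* Multiplicative M :=
    { toFun := fun x => Multiplicative.ofAdd (g x)
      map_one' := by
        have := hg 1 1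
        rw [mul_one, left_eq_add] at this
        rw [this]
        rfl
      map_mul' := fun x y => by rw [hg, ofAdd_add] }
  have hfinM : Finite (Multiplicative M) := inferInstanceAs (Finite M)
  obtain ⟨h1, h2⟩ := H12.tame_inertia (P := Multiplicative M) hq hA hp hpq π hπ τ hτI hτ ρ
    (fun σ => ⟨1, by
      rw [pow_one]
      change Multiplicative.ofAdd (p • g σ) = 1
      rw [hpM]
      rfl⟩) U (lev_isOpen_iff.1 hU) (fun σ hσ => by
      change Multiplicative.ofAdd (g σ) = 1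
      rw [hgU σ hσ]
      rfl)
  constructor
  · intro h0 σ
    obtain ⟨n, hn⟩ := h1 σ
    have h3 : ρ ⟨τ, hτI⟩ = 1 := by
      change Multiplicative.ofAdd (g ⟨τ, hτI⟩) = 1
      rw [h0]
      rfl
    rw [h3, one_zpow] at hn
    exact hn
  · intro φ hφ σ hσ hσ'
    exact h2 φ hφ σ hσ hσ'

theorem exists_pi_tau (hq : q.Prime) (hA : A.LiesOverPrime q) {p : ℕ} (hp : p.Prime) :
    ∃ (π : Qb) (τ : GQ), π ^ p = (q : Qb) ∧ τ ∈ A.inertiaSubgroupIn ℚ ∧ τ π ≠ π := by
  have hgal := Fermat.Agent.H51.isGalois_Qbar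
  obtain ⟨π, hπ⟩ := IsAlgClosed.exists_pow_nat_eq (q : Qb) hp.pos
  obtain ⟨τ, h1, h2⟩ := H12.exists_inertia_move hq hA hp.one_lt π hπ
  exact ⟨π, τ, hπ, h1, h2⟩

/-- evaluation of classes at an element acting trivially -/
noncomputable def evH1 {G : Type*} [Group G] {𝓛 : Lev G} {M : Type*} [AddCommGroup M]
    [DistribMulAction G M] (τ : G) (hτ : ∀ m : M, τ • m = m) : H1 𝓛 M →+ M :=
  QuotientAddGroup.lift (B1 𝓛 M)
    { toFun := fun f => f.1 τ
      map_zero' := rfl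
      map_add' := fun _ _ => rfl } (by
      rintro f ⟨a, ha⟩
      change f.1 τ = 0
      rw [ha, hτ, sub_self])

theorem evH1_mk {G : Type*} [Group G] {𝓛 : Lev G} {M : Type*} [AddCommGroup M]
    [DistribMulAction G M] (τ : G) (hτ : ∀ m : M, τ • m = m) (f : Z1 𝓛 M) :
    evH1 τ hτ (H1.mk _ _ f) = f.1 τ := rfl

theorem finite_of_ker {G H : Type*} [AddGroup G] [AddGroup H] (f : G →+ H) [Finite f.ker]
    [Finite H] : Finite G := by
  have : Finite (G ⧸ f.ker) :=
    Finite.of_injective _ (QuotientAddGroup.kerLift_injective f)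
  exact Finite.of_equiv _ (AddSubgroup.addGroupEquivQuotientProdAddSubgroup (s := f.ker)).symm

theorem card_eq_ker_range {G H : Type*} [AddGroup G] [AddGroup H] (f : G →+ H) :
    Nat.card G = Nat.card f.ker * Nat.card f.range := by
  rw [AddSubgroup.card_eq_card_quotient_mul_card_addSubgroup f.ker,
    Nat.card_congr (QuotientAddGroup.quotientKerEquivRange f).toEquiv, mul_comm]

/-- **the unramified tame case** -/
theorem card_tame_le [Finite M] (hq : q.Prime) (hA : A.LiesOverPrime q)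
    (hφ : A.IsFrobeniusAt φ q) (hM : lev.Smooth M)
    {p : ℕ} (hp : p.Prime) (hpq : p ≠ q) (hpM : ∀ m : M, p • m = 0)
    (hI : ∀ τ ∈ A.inertiaSubgroupIn ℚ, ∀ m : M, τ • m = m) :
    Finite (H1 (lev.sub (A.decompositionSubgroup ℚ)) M) ∧
    Nat.card (H1 (lev.sub (A.decompositionSubgroup ℚ)) M) ≤
      Nat.card (H0 (A.decompositionSubgroup ℚ) M) * Nat.card {m : M // φ • m = q • m} := by
  obtain ⟨π, τ, hπ, hτI, hτ⟩ := exists_pi_tau hq hA hp
  have hφD := hφ.mem_decompositionSubgroup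
  obtain ⟨ev, hev⟩ : ∃ ev : H1 (lev.sub (A.decompositionSubgroup ℚ)) M →+ M, ev =
    evH1 (⟨τ, inertia_le_decomposition A hτI⟩ : A.decompositionSubgroup ℚ) (hI τ hτI) := ⟨_, rfl⟩
  -- restriction to inertia of a cocycle
  have key : ∀ f : Z1 (lev.sub (A.decompositionSubgroup ℚ)) M,
      (f.1 ⟨τ, inertia_le_decomposition A hτI⟩ = 0 → ∀ g : A.decompositionSubgroup ℚ,
        (g : GQ) ∈ A.inertiaSubgroupIn ℚ → f.1 g = 0) ∧
      φ • f.1 ⟨τ, inertia_le_decomposition A hτI⟩ =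
        q • f.1 ⟨τ, inertia_le_decomposition A hτI⟩ := by
    intro f
    obtain ⟨U, ⟨U0, hU0, hU0U⟩, hU⟩ := f.2.1
    have hgadd : ∀ x y : A.inertiaSubgroupIn ℚ,
        f.1 ⟨(x * y : A.inertiaSubgroupIn ℚ), inertia_le_decomposition A (x * y).2⟩ =
        f.1 ⟨x, inertia_le_decomposition A x.2⟩ + f.1 ⟨y, inertia_le_decomposition A y.2⟩ := by
      intro x y
      have h1 := f.2.2 ⟨x, inertia_le_decomposition A x.2⟩ ⟨y, inertia_le_decomposition A y.2⟩
      have h2 : (⟨x, inertia_le_decomposition A x.2⟩ : A.decompositionSubgroup ℚ) •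
          f.1 ⟨y, inertia_le_decomposition A y.2⟩ = f.1 ⟨y, inertia_le_decomposition A y.2⟩ :=
        hI x x.2 _
      rw [h2] at h1
      exact h1
    obtain ⟨h1, h2⟩ := tame_values hq hA hp hpq hpM π hπ τ hτI hτ
      (fun x => f.1 ⟨x, inertia_le_decomposition A x.2⟩) hgadd U0 hU0 (fun σ hσ => by
        have h3 := hU 1 ⟨σ, inertia_le_decomposition A σ.2⟩ (hU0U hσ)
        rw [one_mul] at h3
        rw [h3, Z1.map_one])
    refine ⟨fun h0 g hg => h1 h0 ⟨g, hg⟩, ?_⟩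
    have hτ' := inertia_conj_mem hφD hτI
    have h3 := h2 φ hφ τ hτI hτ'
    beta_reduce at h3
    rw [← h3]
    have e : (⟨φ * τ * φ⁻¹, inertia_le_decomposition A hτ'⟩ * ⟨φ, hφD⟩ :
        A.decompositionSubgroup ℚ) = ⟨φ, hφD⟩ * ⟨τ, inertia_le_decomposition A hτI⟩ := by
      apply Subtype.ext
      change φ * τ * φ⁻¹ * φ = φ * τ
      group
    have h4 := congrArg f.1 e
    rw [f.2.2, f.2.2] at h4
    have h5 : (⟨φ * τ * φ⁻¹, inertia_le_decomposition A hτ'⟩ : A.decompositionSubgroup ℚ) •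
        f.1 ⟨φ, hφD⟩ = f.1 ⟨φ, hφD⟩ := hI _ hτ' _
    rw [h5, add_comm (f.1 ⟨φ, hφD⟩)] at h4
    exact (add_right_cancel h4).symm
  have hker : ev.ker ≤ unr A M := by
    intro x hx
    obtain ⟨f, rfl⟩ := H1.mk_surjective x
    rw [AddMonoidHom.mem_ker, hev, evH1_mk] at hx
    exact ⟨f, rfl, (key f).1 hx⟩
  obtain ⟨hfu, hcu⟩ := card_unr_le hq hA hφ hM
  have hfk : Finite ev.ker := Finite.of_injective (AddSubgroup.inclusion hker)
    (AddSubgroup.inclusion_injective hker)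
  refine ⟨finite_of_ker ev, ?_⟩
  rw [card_eq_ker_range ev]
  refine Nat.mul_le_mul ?_ ?_
  · exact (Nat.card_le_card_of_injective _ (AddSubgroup.inclusion_injective hker)).trans hcu
  · refine Nat.card_le_card_of_injective
      (fun x : ev.range => (⟨x.1, ?_⟩ : {m : M // φ • m = q • m})) ?_
    · obtain ⟨_, y, rfl⟩ := x
      obtain ⟨f, rfl⟩ := H1.mk_surjective y
      change φ • ev _ = q • ev _
      rw [hev, evH1_mk]
      exact (key f).2
    · intro x y hxy
      have h5 : (x.1 : M) = y.1 := congrArg (fun z : {m : M // φ • m = q • m} => (z : M)) hxy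
      exact Subtype.ext h5

end

end Fermat.Agent.TW
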