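import Fermat.Agent.TW.Lead

/-!
# Counting cocycles of the decomposition group at `p` with values in `k(χψ)`
-/

set_option autoImplicit false
set_option linter.unusedSectionVars false

namespace Fermat.Agent.TW

open Fermat.Agent.CC
open scoped Pointwise

theorem Km_congr {p : ℕ} {J : Subgroup GQ} {ζ : Qb} {b b' : GQ → ZMod p} {u : Qb}
    (h : ∀ σ ∈ J, b σ = b' σ) (hu : Km J ζ b u) : Km J ζ b' u :=
  ⟨hu.1, fun σ hσ => by rw [← h σ hσ]; exact hu.2 σ hσ⟩

/-- nondegenerate functional -/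
theorem exists_functional {p : ℕ} [Fact p.Prime] (k : Type*) [Field k] [Algebra (ZMod p) k] :
    ∃ l : k →ₗ[ZMod p] ZMod p, ∀ a : k, (∀ z, l (z * a) = 0) → a = 0 := by
  obtain ⟨l, hl⟩ : ∃ l : k →ₗ[ZMod p] ZMod p, l 1 ≠ 0 := by
    by_contra hcon
    push Not at hcon
    exact one_ne_zero ((Module.forall_dual_apply_eq_zero_iff (ZMod p) (1 : k)).1 hcon)
  refine ⟨l, fun a ha => ?_⟩
  by_contra h0
  have := ha a⁻¹
  rw [inv_mul_cancel₀ h0] at this
  exact hl this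

namespace PL

open NVal

variable {A : ValuationSubring Qb} {p : ℕ} {w : Qb → ℝ} (P : PL p A w)
include P

theorem exists_x_ne_one (hp2 : p ≠ 2) {ζ : Qb} {x : GQ → ZMod p} (C : CY p ζ x) :
    ∃ σ ∈ A.inertiaSubgroupIn ℚ, x σ ≠ 1 := by
  by_contra hcon
  push Not at hcon
  have h1 : ∀ σ ∈ A.inertiaSubgroupIn ℚ, σ (1 - ζ) = 1 - ζ := by
    intro σ hσ
    rw [map_sub, map_one, C.act, hcon σ hσ, C.zp_one]
  have h2 : 1 - ζ ≠ 0 := sub_ne_zero.2 (C.prim.ne_one C.prime.one_lt).symm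
  obtain ⟨n, hn⟩ := P.int_of_fixed h2 h1
  rw [P.nv.w_one_sub P.prime C.prim] at hn
  have hp3 : 3 ≤ p := by
    have := P.prime.two_le
    omega
  have h3 : (2 : ℝ) ≤ (p : ℝ) - 1 := by
    have : (3 : ℝ) ≤ p := by exact_mod_cast hp3
    linarith
  have h4 : (0 : ℝ) < n := by rw [← hn]; positivity
  have h5 : (n : ℝ) < 1 := by
    rw [← hn, div_lt_one (by linarith)]
    linarith
  have h6 : 0 < n := by exact_mod_cast h4
  have h7 : n < 1 := by exact_mod_cast h5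
  omega

/-- coboundaries do not change leading coefficients -/
theorem KR_cob {J : Subgroup GQ} {ζ : Qb} {x : GQ → ZMod p} (C : CY p ζ x) {π : Qb} {e j : ℕ}
    {b : GQ → ZMod p} (a : ZMod p) {r : Qb}
    (h : KR w J ζ π e j (fun σ => b σ + (x σ * a - a)) r) : KR w J ζ π e j b r := by
  obtain ⟨u, hu, hur⟩ := h
  refine ⟨u * zp ζ (-a), ⟨mul_ne_zero hu.1 (C.zp_ne _), fun σ hσ => ?_⟩, ?_⟩
  · rw [map_mul, hu.2 σ hσ, C.act_zp]
    have : zp ζ (b σ + (x σ * a - a)) * zp ζ (x σ * -a) = zp ζ (b σ) * zp ζ (-a) := by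
      rw [← C.zp_add, ← C.zp_add]
      congr 1
      ring
    linear_combination u * this
  · rw [mul_pow, C.zp_pow, mul_one]
    exact hur

/-- Kummer generators of a coboundary-modified class -/
theorem Km_cob {J : Subgroup GQ} {ζ : Qb} {x : GQ → ZMod p} (C : CY p ζ x)
    {b : GQ → ZMod p} (a : ZMod p) {u : Qb}
    (hu : Km J ζ (fun σ => b σ + (x σ * a - a)) u) : Km J ζ b (u * zp ζ (-a)) := by
  refine ⟨mul_ne_zero hu.1 (C.zp_ne _), fun σ hσ => ?_⟩
  rw [map_mul, hu.2 σ hσ, C.act_zp]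
  have : zp ζ (b σ + (x σ * a - a)) * zp ζ (x σ * -a) = zp ζ (b σ) * zp ζ (-a) := by
    rw [← C.zp_add, ← C.zp_add]
    congr 1
    ring
  linear_combination u * this

section count

variable {ζ : Qb} {x : GQ → ZMod p} (C : CY p ζ x) {k : Type*} [Field k] [Finite k]
  [Algebra (ZMod p) k] {ω : GQ → k} {Y : Type*} [AddCommGroup Y] (ev : Y →+ (GQ → k))
include C

/-- cocycles are determined by their restriction to inertia -/
theorem inj_inertia (hp2 : p ≠ 2)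
    (hω : ∀ σ ∈ A.inertiaSubgroupIn ℚ, ω σ = algebraMap (ZMod p) k (x σ))
    (hcoc : ∀ y, ∀ g ∈ A.decompositionSubgroup ℚ, ∀ h ∈ A.decompositionSubgroup ℚ,
      ev y (g * h) = ev y g + ω g * ev y h)
    (hinj : ∀ y, (∀ g ∈ A.decompositionSubgroup ℚ, ev y g = 0) → y = 0) {y : Y}
    (hy : ∀ σ ∈ A.inertiaSubgroupIn ℚ, ev y σ = 0) : y = 0 := by
  have hf : Fact p.Prime := ⟨P.prime⟩
  obtain ⟨σ, hσ, hxσ⟩ := P.exists_x_ne_one hp2 C
  apply hinj
  intro g hg
  have hσD := P.inertia_le_dec hσ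
  have h1 := hcoc y σ hσD g hg
  rw [hy σ hσ, zero_add] at h1
  have h2 : σ * g = g * (g⁻¹ * σ * g) := by group
  have h3 : g⁻¹ * σ * g ∈ A.inertiaSubgroupIn ℚ := by
    have := inertia_conj_mem (φ := g⁻¹) (inv_mem hg) hσ
    rwa [inv_inv] at this
  rw [h2, hcoc y g hg _ (P.inertia_le_dec h3), hy _ h3, mul_zero, add_zero, hω σ hσ] at h1
  have h4 : (algebraMap (ZMod p) k (x σ) - 1) * ev y g = 0 := by
    rw [sub_mul, one_mul, ← h1, sub_self]
  refine (mul_eq_zero.1 h4).resolve_left fun h5 => hxσ ?_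
  rw [sub_eq_zero, ← map_one (algebraMap (ZMod p) k)] at h5
  exact (algebraMap (ZMod p) k).injective h5

/-- **the number of cocycles of unit type is at most `|k|²`** -/
theorem card_unit (hp2 : p ≠ 2) {l : k →ₗ[ZMod p] ZMod p}
    (hl : ∀ a : k, (∀ z, l (z * a) = 0) → a = 0)
    (hω : ∀ σ ∈ A.inertiaSubgroupIn ℚ, ω σ = algebraMap (ZMod p) k (x σ))
    (hω0 : ∀ g ∈ A.decompositionSubgroup ℚ, ω g ≠ 0)
    (hcoc : ∀ y, ∀ g ∈ A.decompositionSubgroup ℚ, ∀ h ∈ A.decompositionSubgroup ℚ,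
      ev y (g * h) = ev y g + ω g * ev y h)
    (hinj : ∀ y, (∀ g ∈ A.decompositionSubgroup ℚ, ev y g = 0) → y = 0)
    (hunit : ∀ y z, ∃ u, Km (A.inertiaSubgroupIn ℚ) ζ (fun σ => l (z * ev y σ)) u ∧
      ∃ n : ℤ, w u = n) :
    Finite Y ∧ Nat.card Y ≤ Nat.card k ^ 2 := by
  have hg := Fermat.Agent.H51.isGalois_Qbar
  have hf : Fact p.Prime := ⟨P.prime⟩
  have hchar := P.charP
  let _ : Algebra (ZMod p) (IsLocalRing.ResidueField A) := ZMod.algebra _ p
  have U := P.uf_inertia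
  have hp3 : 3 ≤ p := by
    have := P.prime.two_le
    omega
  have hp1 : (1 : ℝ) < p := by exact_mod_cast P.prime.one_lt
  have hj0 : 0 < 1 := one_pos
  have hpj : ¬ p ∣ 1 := P.prime.not_dvd_one
  have hj : 1 * (p - 1) < p * 1 := by omega
  have hKL : ∀ y z, KL w (A.inertiaSubgroupIn ℚ) ζ ((1 : ℕ) / (1 : ℕ)) (fun σ => l (z * ev y σ)) := by
    intro y z
    obtain ⟨u, hu, n, hn⟩ := hunit y z
    exact U.KL_one P C hu (n := n) (by rw [hn]; simp)
  have hR : ∀ y, ∃ R : k →+ IsLocalRing.ResidueField A, ∀ z r, Bl w 0 r →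
      (KR w (A.inertiaSubgroupIn ℚ) ζ p 1 1 (fun σ => l (z * ev y σ)) r ↔ rsd A r = R z) := by
    intro y
    refine U.exists_lead P C hj0 hpj hj (fun z σ => l (z * ev y σ)) (fun z z' σ => ?_) (hKL y)
    rw [add_mul, map_add]
  choose R hR using hR
  obtain ⟨T, hT⟩ : ∃ T : Y →+ (k →+ IsLocalRing.ResidueField A), ∀ y, T y = R y := by
    refine ⟨AddMonoidHom.mk' R fun y y' => ?_, fun _ => rfl⟩
    ext z
    obtain ⟨r, hr, h1⟩ := U.KR_exists P (hKL y z)
    obtain ⟨r', hr', h1'⟩ := U.KR_exists P (hKL y' z)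
    have h2 := U.KR_add P C hj0 (P.te_Bl hr) (P.te_Bl hr') h1 h1'
    have h3 : KR w (A.inertiaSubgroupIn ℚ) ζ p 1 1 (fun σ => l (z * ev (y + y') σ)) (r + r') :=
      UF.KR_eqOn (fun σ _ => by rw [map_add, Pi.add_apply, mul_add, map_add]) h2
    have h4 := (hR (y + y') z _ (P.nv.add (P.te_Bl hr) (P.te_Bl hr'))).1 h3
    rw [P.rsd_add (P.te_Bl hr) (P.te_Bl hr'), (hR y z r (P.te_Bl hr)).1 h1,
      (hR y' z r' (P.te_Bl hr')).1 h1'] at h4
    exact h4.symm
  -- the range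
  obtain ⟨φ, hφ⟩ := H05.exists_isFrobeniusAt P.prime P.lies
  have hφD : φ ∈ A.decompositionSubgroup ℚ := hφ.1
  obtain ⟨s, hs⟩ : ∃ s : k, s = algebraMap (ZMod p) k (x φ) * (ω φ)⁻¹ := ⟨_, rfl⟩
  have hs0 : s ≠ 0 := by
    rw [hs]
    refine mul_ne_zero ?_ (inv_ne_zero (hω0 φ hφD))
    rw [Ne, ← map_zero (algebraMap (ZMod p) k), (algebraMap (ZMod p) k).injective.eq_iff]
    exact C.x_ne φ
  have hrange : ∀ Q ∈ T.range, ∀ z, (Q z) ^ p = Q (s * z) := by
    rintro _ ⟨y, rfl⟩ z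
    obtain ⟨r, hr, h1⟩ := U.KR_exists P (hKL y z)
    have hconj : ∀ σ ∈ A.inertiaSubgroupIn ℚ, φ⁻¹ * σ * φ ∈ A.inertiaSubgroupIn ℚ := by
      intro σ hσ
      have := inertia_conj_mem (φ := φ⁻¹) (inv_mem hφD) hσ
      rwa [inv_inv] at this
    have h2 := U.KR_conj P C h1 hφD hconj
    have h3 : φ (p : Qb) / p = 1 := by rw [map_natCast, div_self P.p_ne_zero]
    rw [h3, one_pow, mul_one] at h2
    obtain ⟨a, ha⟩ : ∃ a : ZMod p, a = l (s * z * ev y φ) := ⟨_, rfl⟩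
    have h4 : KR w (A.inertiaSubgroupIn ℚ) ζ p 1 1 (fun σ => l (s * z * ev y σ) +
        (x σ * a - a)) (φ r) := by
      refine UF.KR_eqOn (fun σ hσ => ?_) h2
      have e1 : σ * φ = φ * (φ⁻¹ * σ * φ) := by group
      have e2 := hcoc y σ (P.inertia_le_dec hσ) φ hφD
      rw [e1, hcoc y φ hφD _ (P.inertia_le_dec (hconj σ hσ)), hω σ hσ] at e2
      have e3 : ev y (φ⁻¹ * σ * φ) = (ω φ)⁻¹ * (ev y σ +
          algebraMap (ZMod p) k (x σ) * ev y φ - ev y φ) := by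
        rw [eq_inv_mul_iff_mul_eq₀ (hω0 φ hφD), ← e2]
        ring
      have e4 : algebraMap (ZMod p) k (x φ) * (z * ev y (φ⁻¹ * σ * φ)) =
          s * z * ev y σ + (algebraMap (ZMod p) k (x σ) * (s * z * ev y φ) - s * z * ev y φ) := by
        rw [e3, hs]
        ring
      have e5 : ∀ (c : ZMod p) (m : k), l (algebraMap (ZMod p) k c * m) = c * l m := by
        intro c m
        rw [← Algebra.smul_def, map_smul, smul_eq_mul]
      rw [← e5, e4, map_add, map_sub, e5, ha]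
    have h5 := P.KR_cob C a h4
    have hφr : Bl w 0 (φ r) := (Bl_smul P.nv hφD).2 (P.te_Bl hr)
    have h6 := (hR y (s * z) _ hφr).1 h5
    rw [P.rsd_frob hφ (P.te_Bl hr), (hR y z r (P.te_Bl hr)).1 h1] at h6
    rw [hT]
    exact h6
  obtain ⟨hfinR, hcardR⟩ := card_frob_eigen (p := p) s hs0 T.range hrange
  -- the kernel
  obtain ⟨σ0, hσ0, hxσ0⟩ := P.exists_x_ne_one hp2 C
  have hker : ∀ y ∈ T.ker, ∀ σ ∈ A.inertiaSubgroupIn ℚ,
      (algebraMap (ZMod p) k (x σ0) - 1) * ev y σ =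
        (algebraMap (ZMod p) k (x σ) - 1) * ev y σ0 := by
    intro y hy σ hσ
    rw [← sub_eq_zero]
    apply hl
    intro z
    have h1 : KR w (A.inertiaSubgroupIn ℚ) ζ p 1 1 (fun σ => l (z * ev y σ)) 0 := by
      rw [hR y z 0 (NVal.zero 0), P.rsd_zero, ← hT, AddMonoidHom.mem_ker.1 hy]
      rfl
    have h2 := U.KL_succ P C h1
    obtain ⟨a, ha⟩ := UF.trivial_of_level P C (inertia_le_decomposition A)
      (t := ((1 + 1 : ℕ) : ℝ) / (1 : ℕ)) (by
        rw [div_lt_iff₀ (by linarith)]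
        have : (3 : ℝ) ≤ p := by exact_mod_cast hp3
        push_cast
        linarith) h2
    have e5 : ∀ (c : ZMod p) (m : k), l (algebraMap (ZMod p) k c * m) = c * l m := by
      intro c m
      rw [← Algebra.smul_def, map_smul, smul_eq_mul]
    have h3 := ha σ hσ
    have h4 := ha σ0 hσ0
    have e6 : z * ((algebraMap (ZMod p) k (x σ0) - 1) * ev y σ -
        (algebraMap (ZMod p) k (x σ) - 1) * ev y σ0) =
        algebraMap (ZMod p) k (x σ0 - 1) * (z * ev y σ) -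
        algebraMap (ZMod p) k (x σ - 1) * (z * ev y σ0) := by
      rw [map_sub, map_sub, map_one]
      ring
    rw [e6, map_sub, e5, e5, h3, h4]
    ring
  have hinjk : Function.Injective (fun y : T.ker => ev (y : Y) σ0) := by
    intro y y' hyy'
    have hyy : ev (y : Y) σ0 = ev (y' : Y) σ0 := hyy'
    rw [Subtype.ext_iff, ← sub_eq_zero]
    refine P.inj_inertia C ev hp2 hω hcoc hinj fun σ hσ => ?_
    have hmem : ((y : Y) - (y' : Y)) ∈ T.ker := sub_mem y.2 y'.2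
    have h1 := hker _ hmem σ hσ
    have h2 : ev ((y : Y) - (y' : Y)) σ0 = 0 := by
      rw [map_sub, Pi.sub_apply, hyy, sub_self]
    rw [h2, mul_zero] at h1
    refine (mul_eq_zero.1 h1).resolve_left fun h5 => hxσ0 ?_
    rw [sub_eq_zero, ← map_one (algebraMap (ZMod p) k)] at h5
    exact (algebraMap (ZMod p) k).injective h5
  have hfinK : Finite T.ker := Finite.of_injective _ hinjk
  have hcardK : Nat.card T.ker ≤ Nat.card k := Nat.card_le_card_of_injective _ hinjk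
  have hfinY : Finite Y := by
    have : Finite T.rangeRestrict.ker := by
      rw [AddMonoidHom.ker_rangeRestrict]; exact hfinK
    exact finite_of_ker T.rangeRestrict
  refine ⟨hfinY, ?_⟩
  rw [card_eq_ker_range T, pow_two]
  exact Nat.mul_le_mul hcardK hcardR

/-- existence of Kummer generators -/
theorem exists_Km_ev {l : k →ₗ[ZMod p] ZMod p}
    (hω : ∀ σ ∈ A.inertiaSubgroupIn ℚ, ω σ = algebraMap (ZMod p) k (x σ))
    (hcoc : ∀ y, ∀ g ∈ A.decompositionSubgroup ℚ, ∀ h ∈ A.decompositionSubgroup ℚ,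
      ev y (g * h) = ev y g + ω g * ev y h)
    (hlev : ∀ y, ∃ U : Subgroup GQ, IsOpen (U : Set GQ) ∧
      ∀ σ ∈ A.inertiaSubgroupIn ℚ, σ ∈ U → ev y σ = 0) (y : Y) (z : k) :
    ∃ u, Km (A.inertiaSubgroupIn ℚ) ζ (fun σ => l (z * ev y σ)) u := by
  obtain ⟨U, hU, hyU⟩ := hlev y
  refine exists_Km C (fun σ hσ τ hτ => ?_) hU (fun σ hσ hσU => ?_)
  · have e5 : ∀ (c : ZMod p) (m : k), l (algebraMap (ZMod p) k c * m) = c * l m := by
      intro c m
      rw [← Algebra.smul_def, map_smul, smul_eq_mul]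
    rw [hcoc y σ (P.inertia_le_dec hσ) τ (P.inertia_le_dec hτ), hω σ hσ, ← e5, ← map_add]
    congr 1
    ring
  · rw [hyU σ hσ hσU, mul_zero, map_zero]

/-- **the number of cocycles is at most `|k|³`** -/
theorem card_all (hp2 : p ≠ 2) {l : k →ₗ[ZMod p] ZMod p}
    (hl : ∀ a : k, (∀ z, l (z * a) = 0) → a = 0)
    (hω : ∀ σ ∈ A.inertiaSubgroupIn ℚ, ω σ = algebraMap (ZMod p) k (x σ))
    (hω0 : ∀ g ∈ A.decompositionSubgroup ℚ, ω g ≠ 0)
    (hcoc : ∀ y, ∀ g ∈ A.decompositionSubgroup ℚ, ∀ h ∈ A.decompositionSubgroup ℚ,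
      ev y (g * h) = ev y g + ω g * ev y h)
    (hinj : ∀ y, (∀ g ∈ A.decompositionSubgroup ℚ, ev y g = 0) → y = 0)
    (hlev : ∀ y, ∃ U : Subgroup GQ, IsOpen (U : Set GQ) ∧
      ∀ σ ∈ A.inertiaSubgroupIn ℚ, σ ∈ U → ev y σ = 0) :
    Finite Y ∧ Nat.card Y ≤ Nat.card k ^ 3 := by
  have hf : Fact p.Prime := ⟨P.prime⟩
  have hp0 : (p : ℝ) ≠ 0 := Nat.cast_ne_zero.2 P.prime.ne_zero
  have h1 : ∀ y z, ∃ n : ℤ, ∃ u, Km (A.inertiaSubgroupIn ℚ) ζ (fun σ => l (z * ev y σ)) u ∧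
      w (u ^ p) = n := by
    intro y z
    obtain ⟨u, hu⟩ := P.exists_Km_ev C ev (l := l) hω hcoc hlev y z
    obtain ⟨n, hn⟩ := P.int_of_fixed (pow_ne_zero p hu.1) (Km.pow_fixed C hu)
    exact ⟨n, u, hu, hn⟩
  have huniq : ∀ (b : GQ → ZMod p) (n n' : ℤ) (u u' : Qb), Km (A.inertiaSubgroupIn ℚ) ζ b u →
      Km (A.inertiaSubgroupIn ℚ) ζ b u' → w (u ^ p) = n → w (u' ^ p) = n' →
      (n : ZMod p) = n' := by
    intro b n n' u u' hu hu' hn hn'
    obtain ⟨m, hm⟩ := P.int_of_fixed (div_ne_zero hu'.1 hu.1) (Km.div_fixed C hu hu')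
    rw [P.nv.w_div hu'.1 hu.1] at hm
    rw [P.nv.w_pow hu.1] at hn
    rw [P.nv.w_pow hu'.1] at hn'
    have h2 : (n' : ℝ) = n + p * m := by
      rw [← hn, ← hn', ← hm]; ring
    have h3 : n' = n + p * m := by exact_mod_cast h2
    rw [h3]
    push_cast
    rw [ZMod.natCast_self, zero_mul, add_zero]
  choose n u hu hn using h1
  have haddz : ∀ y z z', (n y (z + z') : ZMod p) = n y z + n y z' := by
    intro y z z'
    have h2 := huniq _ (n y (z + z')) (n y z + n y z') _ (u y z * u y z') (hu y (z + z')) (by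
      refine Km_congr (fun σ _ => ?_) (Km.mul C (hu y z) (hu y z'))
      rw [← map_add, ← add_mul]) (hn y (z + z')) (by
      rw [mul_pow, P.nv.w_mul (pow_ne_zero _ (hu y z).1) (pow_ne_zero _ (hu y z').1), hn, hn]
      push_cast
      ring)
    rw [h2]
    push_cast
    ring
  have haddy : ∀ y y' z, (n (y + y') z : ZMod p) = n y z + n y' z := by
    intro y y' z
    have h2 := huniq _ (n (y + y') z) (n y z + n y' z) _ (u y z * u y' z) (hu (y + y') z) (by
      refine Km_congr (fun σ _ => ?_) (Km.mul C (hu y z) (hu y' z))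
      rw [map_add, Pi.add_apply, mul_add, map_add]) (hn (y + y') z) (by
      rw [mul_pow, P.nv.w_mul (pow_ne_zero _ (hu y z).1) (pow_ne_zero _ (hu y' z).1), hn, hn]
      push_cast
      ring)
    rw [h2]
    push_cast
    ring
  obtain ⟨T, hT⟩ : ∃ T : Y →+ (k →+ ZMod p), ∀ y z, T y z = n y z :=
    ⟨AddMonoidHom.mk' (fun y => AddMonoidHom.mk' (fun z => (n y z : ZMod p)) (haddz y))
      (fun y y' => by ext z; exact haddy y y' z), fun _ _ => rfl⟩
  have hker := P.card_unit (Y := T.ker) C (ev.comp T.ker.subtype) hp2 hl hω hω0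
    (fun y g hg h hh => hcoc y g hg h hh) (fun y hy => Subtype.ext (hinj y hy)) (fun y z => by
      refine ⟨u y z, hu y z, ?_⟩
      have h2 : (n y z : ZMod p) = 0 := by
        rw [← hT, AddMonoidHom.mem_ker.1 y.2]
        rfl
      obtain ⟨m, hm⟩ := (ZMod.intCast_zmod_eq_zero_iff_dvd (n y z) p).1 h2
      refine ⟨m, ?_⟩
      have h3 := hn (y : Y) z
      rw [P.nv.w_pow (hu (y : Y) z).1, hm] at h3
      push_cast at h3
      exact mul_left_cancel₀ hp0 h3)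
  obtain ⟨hfK, hcK⟩ := hker
  obtain ⟨hfd, hcd⟩ := finrank_addHom_le (p := p) (κ := ZMod p) (k := k)
  have hfin : Finite (k →+ ZMod p) := Module.finite_of_finite (ZMod p)
  have hcard : Nat.card (k →+ ZMod p) ≤ Nat.card k := by
    have h2 := Module.natCard_eq_pow_finrank (K := ZMod p) (V := k →+ ZMod p)
    rw [Nat.card_zmod] at h2
    rw [h2]
    exact hcd
  have hfinY : Finite Y := finite_of_ker T
  refine ⟨hfinY, ?_⟩
  rw [card_eq_ker_range T, pow_succ]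
  exact Nat.mul_le_mul hcK ((Nat.card_le_card_of_injective _ Subtype.val_injective).trans hcard)

end count

end PL

end Fermat.Agent.TW
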