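import Fermat.Agent.TW.LocMain
import Fermat.Agent.H19.SSRigid
import Fermat.Agent.H25.SelF

/-!
# Local conditions at `p`: final form
-/

set_option autoImplicit false
set_option linter.unusedSectionVars false

namespace Fermat.Agent.TW

open Matrix Fermat.Agent.CC NVal IsLocalRing
open Fermat.Agent.H04 (DN M2 ofMat IsCont)

variable {𝒪 : Type} [CommRing 𝒪] [IsLocalRing 𝒪] {A : ValuationSubring Qb} {p : ℕ}
  {w : Qb → ℝ}

section main

variable [Finite (ResidueField 𝒪)] [CharP (ResidueField 𝒪) p]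

theorem rigid (P : PL p A w) (hp2 : p ≠ 2) (rb : GQ →* Mt (ResidueField 𝒪))
    (hU : lev.isOpen rb.ker) : Rigid A p rb := by
  have hf : Fact p.Prime := ⟨P.prime⟩
  intro _ π α K τ Q Q' S f hfJ
  exact ss_rigid S P hp2 (smooth_Ad0 hU (fun _ _ => rfl)) f
    fun σ hσ => hfJ σ hσ (S.J_le P hσ)

/-- **flat local condition** -/
theorem exists_Lflat (P : PL p A w) (hp2 : p ≠ 2) {ζ : Qb} {x : GQ → ZMod p} (C : CY p ζ x)
    (rb : GQ →* Mt (ResidueField 𝒪)) (hU : lev.isOpen rb.ker)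
    (hsplit : ∀ s, ∃ a b : ResidueField 𝒪,
      (rb s).charpoly = (Polynomial.X - Polynomial.C a) * (Polynomial.X - Polynomial.C b)) :
    ∃ L : AddSubgroup (H1 (lev.sub (A.decompositionSubgroup ℚ))
      (Ad0 rb (1 : GQ →* ResidueField 𝒪))), Finite L ∧
      Nat.card L ≤ Nat.card (ResidueField 𝒪) * Nat.card (H0 (A.decompositionSubgroup ℚ)
        (Ad0 rb (1 : GQ →* ResidueField 𝒪))) ∧
      ∀ (S' : Finset Nat.Primes) (s : GQ →* M2 (DN 𝒪)) (hs : ∀ σ, FM (s σ) = rb σ)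
        (hU : (levS S').isOpen s.ker) (htr : ∀ σ, sn (s σ).det = 0),
        (∀ σ, (s σ).det = ((x σ).val : DN 𝒪)) → HasLH A (actV A s) →
        resD S' (A.decompositionSubgroup ℚ) _ (H1.mk _ _ (cls S' hs hU htr)) ∈ L :=
  exists_Lflat' P hp2 C rb hU (rigid P hp2 rb hU) hsplit

theorem exists_data (hp : p.Prime) (hA : A.LiesOverPrime p) :
    ∃ (w : Qb → ℝ) (ζ : Qb) (x : GQ → ZMod p), PL p A w ∧ CY p ζ x := by
  obtain ⟨w, hw⟩ := exists_NVal hp hA
  obtain ⟨ζ, hζ⟩ : ∃ ζ : Qb, IsPrimitiveRoot ζ p := by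
    have : NeZero (p : Qb) := ⟨Nat.cast_ne_zero.2 hp.ne_zero⟩
    exact HasEnoughRootsOfUnity.exists_primitiveRoot Qb p
  obtain ⟨x, hx⟩ := exists_CY hp hζ
  exact ⟨w, ζ, x, ⟨hp, hA, hw⟩, hx⟩

theorem det_of_cycDet {ζ : Qb} {x : GQ → ZMod p} (C : CY p ζ x) {s : GQ →* M2 (DN 𝒪)}
    (h : H25.SB.CycDet p s) (σ : GQ) : (s σ).det = ((x σ).val : DN 𝒪) := by
  have : NeZero p := ⟨C.prime.ne_zero⟩
  refine h σ _ fun μ hμ => ?_
  obtain ⟨a, rfl⟩ := C.zp_surj hμ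
  rw [C.act_zp, C.zp_mul]

/-- **the flat local condition (interface form)** -/
theorem lflat (hp : p.Prime) (hA : A.LiesOverPrime p) (hp2 : p ≠ 2)
    (rb : GQ →* Mt (ResidueField 𝒪)) (hU : lev.isOpen rb.ker)
    (hsplit : ∀ s, ∃ a b : ResidueField 𝒪,
      (rb s).charpoly = (Polynomial.X - Polynomial.C a) * (Polynomial.X - Polynomial.C b)) :
    H25.SB.LFlat p A rb := by
  obtain ⟨w, ζ, x, P, C⟩ := exists_data hp hA
  obtain ⟨L, h1, h2, h3⟩ := exists_Lflat P hp2 C rb hU hsplit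
  refine ⟨L, h1, ?_, fun S' s hs hU' htr hc => h3 S' s hs hU' htr (det_of_cycDet C hc.1) hc.2⟩
  rw [pow_one]
  exact h2

/-- **the strictly ordinary local condition (interface form)** -/
theorem lstrict (hp : p.Prime) (hA : A.LiesOverPrime p) (hp2 : p ≠ 2)
    (rb : GQ →* Mt (ResidueField 𝒪)) (hU : lev.isOpen rb.ker) {ζ : Qb} {x : GQ → ZMod p}
    (C : CY p ζ x) : H25.SB.LCond A rb 1 (StrictDN A x) := by
  obtain ⟨w, -, -, P, -⟩ := exists_data hp hA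
  obtain ⟨L, h1, h2, h3⟩ := exists_Lstrict P hp2 C rb hU
  refine ⟨L, h1, ?_, h3⟩
  rw [pow_one]
  exact h2

/-- **the flat and strictly ordinary local condition (interface form)** -/
theorem linter (hp : p.Prime) (hA : A.LiesOverPrime p) (hp2 : p ≠ 2)
    (rb : GQ →* Mt (ResidueField 𝒪)) (hU : lev.isOpen rb.ker) {ζ : Qb} {x : GQ → ZMod p}
    (C : CY p ζ x) :
    H25.SB.LCond A rb 0 (fun s => H25.SB.CycDet p s ∧ HasLH A (actV A s) ∧ StrictDN A x s) := by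
  obtain ⟨w, -, -, P, -⟩ := exists_data hp hA
  obtain ⟨L, h1, h2, h3⟩ := exists_Linter P hp2 C rb hU
  refine ⟨L, h1, ?_, fun S' s hs hU' htr hc =>
    h3 S' s hs hU' htr (det_of_cycDet C hc.1) hc.2.1 hc.2.2⟩
  rw [pow_zero, one_mul]
  exact h2

end main

end Fermat.Agent.TW
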