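import Fermat.Agent.TW.S56A
import Fermat.Agent.H25.SelC

/-!
# The deformation conditions over the dual numbers
-/

set_option autoImplicit false
set_option linter.unusedSectionVars false

noncomputable section

namespace Fermat.Agent.TW

open Matrix Fermat.Agent.CC IsLocalRing
open scoped TensorProduct
open Fermat.Agent.H04 (DN M2 ofMat IsCont)

section DNcond

variable {𝒪 : Type} [CommRing 𝒪] [IsLocalRing 𝒪] {s : GQ →* M2 (DN 𝒪)}

theorem ofMat_rho (hs : IsCont s) (σ : GQ) : (ofMat s hs).ρ σ = Matrix.toLin' (s σ) := rfl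

theorem dn_sq_eq_zero {x : DN 𝒪} (h : x ∈ maximalIdeal (DN 𝒪) ^ 2) : x = 0 := by
  have h1 : maximalIdeal (DN 𝒪) ^ 2 ≤ ⊥ := by
    rw [pow_two, Ideal.mul_le]
    intro a ha b hb
    rw [mem_maximalIdeal_iff_fs] at ha hb
    rw [Ideal.mem_bot]
    apply dn_ext
    · rw [map_mul, ha, zero_mul, map_zero]
    · rw [sn_mul, ha, hb, zero_mul, mul_zero, add_zero, sn_zero]
  exact (Ideal.mem_bot).1 (h1 h)

/-- determinants of cyclotomic deformations -/
theorem det_of_cyc {p : ℕ} [CharP (ResidueField 𝒪) p] {ζ : Qb} {x : GQ → ZMod p}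
    (C : CY p ζ x) (hs : IsCont s) (h : (ofMat s hs).DetIsCyclotomic p) (σ : GQ) :
    (s σ).det = ((x σ).val : DN 𝒪) := by
  have : NeZero p := ⟨C.prime.ne_zero⟩
  have hpow : ∀ μ : Qb, μ ^ p ^ 1 = 1 → σ μ = μ ^ (x σ).val := by
    intro μ hμ
    rw [pow_one] at hμ
    obtain ⟨a, rfl⟩ := C.zp_surj hμ
    rw [C.act_zp, C.zp_mul]
  have h7 := h.2 1 σ (x σ).val hpow
  rw [pow_one, dn_natCast_eq_zero, Ideal.mem_span_singleton'] at h7
  obtain ⟨c', hc'⟩ := h7
  rw [mul_zero, eq_comm, sub_eq_zero] at hc'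
  have h8 : LinearMap.det ((ofMat s hs).ρ σ) = (s σ).det := by
    change LinearMap.det (Matrix.toLin' (s σ)) = _
    rw [LinearMap.det_toLin']
  rw [h8] at hc'
  exact hc'

theorem eq_one_of_rho (hs : IsCont s) {σ : GQ} (h : (ofMat s hs).ρ σ = 1) : s σ = 1 := by
  rw [ofMat_rho] at h
  apply Matrix.toLin'.injective
  rw [h, Matrix.toLin'_one]
  rfl

/-- the level of a deformation -/
theorem level_of_unr (hs : IsCont s) {S : Finset ℕ}
    (h : ∀ q : ℕ, q.Prime → q ∉ S → (ofMat s hs).IsUnramifiedAt q) {S' : Finset Nat.Primes}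
    (hS' : ∀ q : Nat.Primes, q ∉ S' → (q : ℕ) ∉ S) : (levS S').isOpen s.ker := by
  refine levS_isOpen_of ?_ fun q hq A hA τ hτ => eq_one_of_rho hs (h q q.2 (hS' q hq) A hA τ hτ)
  obtain ⟨L, hL, h2⟩ := hs 2
  refine ⟨L, hL, fun σ hσ => ?_⟩
  have h3 := h2 σ fun x hx => (IntermediateField.mem_fixingSubgroup_iff L σ).1 hσ x hx
  change s σ = 1
  ext i j
  exact sub_eq_zero.1 (dn_sq_eq_zero (h3 i j))

/-- determinants of unipotent matrices -/
theorem det_of_unip (hs : IsCont s) {σ : GQ}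
    (h : LinearMap.charpoly ((ofMat s hs).ρ σ) = (Polynomial.X - 1) ^ 2) :
    (s σ).det = 1 := by
  have h1 : (s σ).charpoly = (Polynomial.X - 1) ^ 2 := by
    rw [← h]
    change _ = LinearMap.charpoly (Matrix.toLin' (s σ))
    rw [← LinearMap.charpoly_toMatrix _ (Pi.basisFun (DN 𝒪) (Fin 2)),
      LinearMap.toMatrix_eq_toMatrix', LinearMap.toMatrix'_toLin']
  rw [Matrix.charpoly_fin_two] at h1
  have h2 := congrArg (fun P => Polynomial.coeff P 0) h1
  have e : (Polynomial.X - 1 : Polynomial (DN 𝒪)) ^ 2 =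
      Polynomial.X ^ 2 - Polynomial.C 2 * Polynomial.X + Polynomial.C 1 := by
    rw [map_ofNat, map_one]
    ring
  rw [e] at h2
  simpa using h2

/-- traces of unipotent matrices -/
theorem trace_of_unip (hs : IsCont s) {σ : GQ}
    (h : LinearMap.charpoly ((ofMat s hs).ρ σ) = (Polynomial.X - 1) ^ 2) :
    (s σ).trace = 2 := by
  have h1 : (s σ).charpoly = (Polynomial.X - 1) ^ 2 := by
    rw [← h]
    change _ = LinearMap.charpoly (Matrix.toLin' (s σ))
    rw [← LinearMap.charpoly_toMatrix _ (Pi.basisFun (DN 𝒪) (Fin 2)),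
      LinearMap.toMatrix_eq_toMatrix', LinearMap.toMatrix'_toLin']
  rw [Matrix.charpoly_fin_two] at h1
  have h2 := congrArg (fun P => Polynomial.coeff P 1) h1
  have e : (Polynomial.X - 1 : Polynomial (DN 𝒪)) ^ 2 =
      Polynomial.X ^ 2 - Polynomial.C 2 * Polynomial.X + Polynomial.C 1 := by
    rw [map_ofNat, map_one]
    ring
  rw [e] at h2
  simp [Polynomial.coeff_C, Polynomial.coeff_one] at h2
  exact h2

/-- flat deformations have Hopf orders over the inertia field -/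
theorem hasLH_of_flat [Finite (ResidueField 𝒪)] {p : ℕ} (hp : p.Prime)
    {A : ValuationSubring Qb} (hA : A.LiesOverPrime p) (hs : IsCont s)
    (h : (ofMat s hs).IsFlatAt p) : HasLH A (actV A s) := by
  have hfin := finite_DN (𝒪 := 𝒪)
  have hfin' : Finite (DN 𝒪 ⧸ (⊥ : Ideal (DN 𝒪))) :=
    Finite.of_surjective _ Ideal.Quotient.mk_surjective
  have h1 := H19.hasHopf_of_isFlatAt h (⊥ : Ideal (DN 𝒪))
  have h2 : H19.HasHopf p (H25.SB.actG s) := by
    refine H19.HasHopf.of_injective h1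
      (Submodule.mkQ ((⊥ : Ideal (DN 𝒪)) • (⊤ : Submodule (DN 𝒪) (ofMat s hs).V))).toAddMonoidHom
      (fun σ m => rfl) ?_
    rw [injective_iff_map_eq_zero]
    intro x hx
    have h3 : x ∈ (⊥ : Ideal (DN 𝒪)) • (⊤ : Submodule (DN 𝒪) (ofMat s hs).V) :=
      (Submodule.Quotient.mk_eq_zero _).1 hx
    rw [Submodule.bot_smul] at h3
    exact (Submodule.mem_bot (DN 𝒪)).1 h3
  obtain ⟨H, hH⟩ := h2
  exact H09.LHopf.hasLH_of_isHopfOrder' hp hA hH fun σ m => rfl

end DNcond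

end Fermat.Agent.TW

end
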