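import Fermat.Agent.TW.S56C
import Fermat.Agent.TW.LocFinal

/-!
# Taylor-Wiles primes: both deformation problems
-/

set_option autoImplicit false
set_option linter.unusedSectionVars false

noncomputable section

namespace Fermat.Agent.TW

open Matrix Fermat.Agent.CC IsLocalRing Polynomial
open Fermat.Agent.H04 (DN M2 ofMat IsCont)
open Fermat.Agent.H25.SB (Sel mem_Sel Dq HD LocF GWad exists_TW_Sel)
open Fermat.Agent.H25.TR (plv plv_over frv_spec)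

section loc

variable {𝒪 : Type} [CommRing 𝒪] [IsLocalRing 𝒪] [Finite (ResidueField 𝒪)] {p : ℕ}
  [CharP (ResidueField 𝒪) p]

theorem loc_flat (hp : p.Prime) (hp2 : p ≠ 2) {pp : Nat.Primes} (hpp : (pp : ℕ) = p)
    (rb : GQ →* Mt (ResidueField 𝒪)) (hU : lev.isOpen rb.ker)
    (hsplit : ∀ σ, ∃ α β : ResidueField 𝒪, (rb σ).charpoly = (X - C α) * (X - C β)) :
    ∃ L : AddSubgroup (H1 (lev.sub (Dq pp)) (Ad0 rb (1 : GQ →* ResidueField 𝒪))), Finite L ∧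
      Nat.card L ≤ Nat.card (ResidueField 𝒪) * Nat.card (H0 (Dq pp)
        (Ad0 rb (1 : GQ →* ResidueField 𝒪))) ∧
      ∀ (S' : Finset Nat.Primes) (s : GQ →* M2 (DN 𝒪)) (hs : IsCont s)
        (hF : ∀ σ, FM (s σ) = rb σ)
        (hU : (levS S').isOpen s.ker) (htr : ∀ σ, sn (s σ).det = 0),
        (ofMat s hs).DetIsCyclotomic p → (ofMat s hs).IsFlatAt p →
        resD S' (Dq pp) _ (H1.mk _ _ (cls S' hF hU htr)) ∈ L := by
  have hA : (plv pp pp.2).LiesOverPrime p := by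
    subst hpp
    exact plv_over pp pp.2
  obtain ⟨w, ζ, x, P, CY⟩ := exists_data hp hA
  obtain ⟨L, h1, h2, h3⟩ := exists_Lflat P hp2 CY rb hU hsplit
  exact ⟨L, h1, h2, fun S' s hs hF hU' htr hd hfl =>
    h3 S' s hF hU' htr (det_of_cyc CY hs hd) (hasLH_of_flat hp hA hs hfl)⟩

theorem loc_strict (hp : p.Prime) (hp2 : p ≠ 2) {pp : Nat.Primes} (hpp : (pp : ℕ) = p)
    (rb : GQ →* Mt (ResidueField 𝒪)) (hU : lev.isOpen rb.ker) :
    ∃ L : AddSubgroup (H1 (lev.sub (Dq pp)) (Ad0 rb (1 : GQ →* ResidueField 𝒪))), Finite L ∧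
      Nat.card L ≤ Nat.card (ResidueField 𝒪) * Nat.card (H0 (Dq pp)
        (Ad0 rb (1 : GQ →* ResidueField 𝒪))) ∧
      ∀ (S' : Finset Nat.Primes) (s : GQ →* M2 (DN 𝒪)) (hs : IsCont s)
        (hF : ∀ σ, FM (s σ) = rb σ)
        (hU : (levS S').isOpen s.ker) (htr : ∀ σ, sn (s σ).det = 0),
        (ofMat s hs).DetIsCyclotomic p → (ofMat s hs).IsStrictOrdinaryAt p →
        resD S' (Dq pp) _ (H1.mk _ _ (cls S' hF hU htr)) ∈ L := by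
  have hA : (plv pp pp.2).LiesOverPrime p := by
    subst hpp
    exact plv_over pp pp.2
  obtain ⟨w, ζ, x, P, CY⟩ := exists_data hp hA
  obtain ⟨L, h1, h2, h3⟩ := exists_Lstrict P hp2 CY rb hU
  exact ⟨L, h1, h2, fun S' s hs hF hU' htr hd hst =>
    h3 S' s hF hU' htr (exists_adapted_strict hp (two_ne P hp2) CY hs hst hd hA)⟩

end loc

theorem s56_of_GW
    {𝒪 : Type} [CommRing 𝒪] [IsDomain 𝒪] [IsDiscreteValuationRing 𝒪]
    [IsAdicComplete (maximalIdeal 𝒪) 𝒪] [Finite (ResidueField 𝒪)]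
    (p : ℕ) [Fact p.Prime] (hp2 : p ≠ 2)
    (ρbar : ResidualGaloisRep (ResidueField 𝒪))
    (habs : ρbar.IsAbsolutelyIrreducible)
    (hdet : (GaloisRepAdic.ofResidualGaloisRep ρbar).DetIsCyclotomic p)
    (hsplit : ∀ σ : AlgebraicClosure ℚ ≃ₐ[ℚ] AlgebraicClosure ℚ,
      ∃ α β : ResidueField 𝒪, LinearMap.charpoly (ρbar.ρ σ) = (X - C α) * (X - C β))
    (hTW : ∀ (K : Type) [Field K] [Algebra (ResidueField 𝒪) K]
      (G : Subgroup (AlgebraicClosure ℚ ≃ₐ[ℚ] AlgebraicClosure ℚ)), G.index = 2 →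
      ∀ V : Submodule K (ρbar.baseChange K).V,
        (∀ σ ∈ G, ∀ x ∈ V, (ρbar.baseChange K).ρ σ x ∈ V) → V = ⊥ ∨ V = ⊤)
    (S Smin : Finset ℕ) (hpSmin : p ∈ Smin) (hSmin : Smin ⊆ S) (hS : ∀ q ∈ S, q.Prime)
    (hmin : ∀ q : ℕ, q.Prime → q ≠ p → (q ∈ Smin ↔ ¬ ρbar.IsUnramifiedAt q))
    (hGW : GWad p) :
    (∃ r : ℕ, ∀ n : ℕ, ∃ qv : Fin r → ℕ, Function.Injective qv ∧
      (∀ i, (qv i).Prime ∧ qv i ∉ S ∧ p ^ (n + 1) ∣ qv i - 1) ∧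
      (∀ i, ∀ P : ValuationSubring (AlgebraicClosure ℚ), P.LiesOverPrime (qv i) →
        ∀ φ : AlgebraicClosure ℚ ≃ₐ[ℚ] AlgebraicClosure ℚ, P.IsFrobeniusAt φ (qv i) →
          ∃ α β : ResidueField 𝒪, α ≠ β ∧ LinearMap.charpoly (ρbar.ρ φ) = (X - C α) * (X - C β)) ∧
      ∀ DQ : GaloisRep.DeformationRingData 𝒪 ρbar (fun _A _ _ _ ρ =>
          GaloisRep.strictOrdinaryCondition 𝒪 p (Smin ∪ Finset.univ.image qv) ρ ∧
            ∀ q ∈ Smin, q.Prime → q ≠ p → ρ.IsUnipotentOnInertiaAt q),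
        ∃ γ : MvPowerSeries (Fin r) 𝒪 →ₐ[𝒪] DQ.R, Function.Surjective γ) ∧
    (∃ r : ℕ, ∀ n : ℕ, ∃ qv : Fin r → ℕ, Function.Injective qv ∧
      (∀ i, (qv i).Prime ∧ qv i ∉ S ∧ p ^ (n + 1) ∣ qv i - 1) ∧
      (∀ i, ∀ P : ValuationSubring (AlgebraicClosure ℚ), P.LiesOverPrime (qv i) →
        ∀ φ : AlgebraicClosure ℚ ≃ₐ[ℚ] AlgebraicClosure ℚ, P.IsFrobeniusAt φ (qv i) →
          ∃ α β : ResidueField 𝒪, α ≠ β ∧ LinearMap.charpoly (ρbar.ρ φ) = (X - C α) * (X - C β)) ∧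
      ∀ DQ : GaloisRep.DeformationRingData 𝒪 ρbar (fun _A _ _ _ ρ =>
          GaloisRep.flatCondition 𝒪 p (Smin ∪ Finset.univ.image qv) ρ ∧
            ∀ q ∈ Smin, q.Prime → q ≠ p → ρ.IsUnipotentOnInertiaAt q),
        ∃ γ : MvPowerSeries (Fin r) 𝒪 →ₐ[𝒪] DQ.R, Function.Surjective γ) := by
  classical
  have hp : p.Prime := Fact.out
  have hcharP : CharP (ResidueField 𝒪) p := charP_of ρbar p hp hdet
  have hDNfin := finite_DN (𝒪 := 𝒪)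
  have hDNres : Finite (ResidueField (DN 𝒪)) :=
    Finite.of_surjective _ (residue_surjective (R := DN 𝒪))
  obtain ⟨pp, hpp⟩ : ∃ pp : Nat.Primes, (pp : ℕ) = p := ⟨⟨p, hp⟩, rfl⟩
  constructor
  · obtain ⟨r, hr⟩ := frame p hp2 ρbar habs hdet hsplit hTW S Smin hpSmin hSmin hS hmin hGW hpp
      (fun A _ _ ρ => ρ.IsStrictOrdinaryAt p)
      (fun ρ ρ' e h => H19.isStrictOrdinaryAt_of_isEquiv e h)
      (fun R _ _ ρ φ hφ h => H19.isStrictOrdinaryAt_baseChangeAlong φ hφ h)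
      (fun rb hU _ => loc_strict hp hp2 hpp rb hU)
    refine ⟨r, fun n => ?_⟩
    obtain ⟨qv, h1, h2, h3, h4⟩ := hr n
    exact ⟨qv, h1, h2, h3, fun DQ => h4 DQ⟩
  · obtain ⟨r, hr⟩ := frame p hp2 ρbar habs hdet hsplit hTW S Smin hpSmin hSmin hS hmin hGW hpp
      (fun A _ _ ρ => ρ.IsFlatAt p)
      (fun ρ ρ' e h => H19.isFlatAt_of_isEquiv e h)
      (fun R _ _ ρ φ hφ h => H19.isFlatAt_baseChangeAlong φ hφ h)
      (fun rb hU hsp => loc_flat hp hp2 hpp rb hU hsp)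
    refine ⟨r, fun n => ?_⟩
    obtain ⟨qv, h1, h2, h3, h4⟩ := hr n
    exact ⟨qv, h1, h2, h3, fun DQ => h4 DQ⟩

end Fermat.Agent.TW

end
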