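import Fermat.Agent.TW.Tan
import Fermat.Agent.DefRing.Normalize
import Fermat.Agent.DefRing.Residual
import Fermat.Prelude.Def_GaloisRep_DeformationRingData

/-!
# Homomorphisms from a universal deformation ring to the dual numbers and Selmer classes
-/

set_option autoImplicit false
set_option linter.unusedSectionVars false

noncomputable section

namespace Fermat.Agent.TW

open IsLocalRing Matrix Fermat.Agent.CC GaloisRep
open Fermat.Agent.H04 (DN M2 Dat IsNRep mapM ofMat IsCont PreTest)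

section

variable {𝒪 : Type} [CommRing 𝒪] [IsLocalRing 𝒪]
variable {R : Type} [CommRing R] [IsLocalRing R] [Algebra 𝒪 R]

/-- a homomorphism to the dual numbers which is not surjective has no `ε`-part -/
theorem sn_eq_zero_of_not_surjective (φ : R →ₐ[𝒪] DN 𝒪) (h : ¬ Function.Surjective φ) (x : R) :
    sn (φ x) = 0 := by
  by_contra hx
  apply h
  intro y
  obtain ⟨c0, hc0⟩ := residue_surjective (fs (φ x))
  obtain ⟨c1, hc1⟩ := residue_surjective (fs y)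
  obtain ⟨c2, hc2⟩ := residue_surjective (sn y * (sn (φ x))⁻¹)
  refine ⟨algebraMap 𝒪 R c1 + algebraMap 𝒪 R c2 * (x - algebraMap 𝒪 R c0), ?_⟩
  rw [map_add, map_mul, map_sub, AlgHom.commutes, AlgHom.commutes, AlgHom.commutes]
  apply dn_ext
  · rw [map_add, map_mul, map_sub, fs_algebraMap, fs_algebraMap, fs_algebraMap, hc0, hc1, sub_self,
      mul_zero, add_zero]
  · rw [sn_add, sn_mul, sn_sub, sn_algebraMap, sn_algebraMap, sn_algebraMap, fs_algebraMap, hc2,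
      sub_zero, zero_mul, add_zero, zero_add]
    field_simp

theorem FM_of_red {D : Dat 𝒪} {rb : GQ →* Mt (ResidueField 𝒪)}
    (hrb : ∀ σ i j, residue 𝒪 (D.cf σ i j) = rb σ i j) {s : GQ →* M2 (DN 𝒪)}
    (red : ∀ σ i j, s σ i j - algebraMap 𝒪 (DN 𝒪) (D.cf σ i j) ∈ maximalIdeal (DN 𝒪)) (σ : GQ) :
    FM (s σ) = rb σ := by
  ext i j
  have h := red σ i j
  rw [mem_maximalIdeal_iff_fs, map_sub, fs_algebraMap, hrb, sub_eq_zero] at h
  exact h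

end

/-- **Part [B]**: the number of homomorphisms from a universal deformation ring to the dual numbers
is bounded by the order of a Selmer group containing the classes of all deformations of type `𝒟`. -/
theorem card_hom_le {𝒪 : Type} [CommRing 𝒪] [IsDomain 𝒪] [IsDiscreteValuationRing 𝒪]
    [IsAdicComplete (maximalIdeal 𝒪) 𝒪] [Finite (ResidueField 𝒪)]
    {ρbar : ResidualGaloisRep (ResidueField 𝒪)}
    {𝒟 : ∀ ⦃A : Type⦄ [CommRing A] [IsLocalRing A] [Algebra 𝒪 A], GaloisRepAdic A → Prop}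
    (DQ : GaloisRep.DeformationRingData 𝒪 ρbar 𝒟)
    {b : Module.Basis (Fin 2) (ResidueField 𝒪) ρbar.V} {D : Dat 𝒪}
    (hD : Fermat.Agent.H04.Compat D ρbar b) {rb : GQ →* Mt (ResidueField 𝒪)}
    (hrb : ∀ σ, rb σ = LinearMap.toMatrix b b (ρbar.ρ σ))
    (S' : Finset Nat.Primes) (hrbU : (levS S').isOpen rb.ker)
    (Sel : AddSubgroup (H1 (levS S') (Ad0 rb (1 : GQ →* ResidueField 𝒪)))) [Finite Sel]
    (hiso : ∀ ρ ρ' : GaloisRepAdic (DN 𝒪), ρ.IsEquiv ρ' → 𝒟 ρ → 𝒟 ρ')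
    (hbc : ∀ φ : DQ.R →ₐ[𝒪] DN 𝒪, ∀ hφ : IsLocalHom (φ : DQ.R →+* DN 𝒪),
      Function.Surjective φ → 𝒟 (DQ.ρ.baseChangeAlong (φ : DQ.R →+* DN 𝒪) hφ))
    (hlev : ∀ (s : GQ →* M2 (DN 𝒪)) (hs : IsCont s), (∀ σ, FM (s σ) = rb σ) → 𝒟 (ofMat s hs) →
      (levS S').isOpen s.ker ∧ ∀ σ, sn (s σ).det = 0)
    (hSel : ∀ (s : GQ →* M2 (DN 𝒪)) (hs : IsCont s) (hF : ∀ σ, FM (s σ) = rb σ)
      (hU : (levS S').isOpen s.ker) (htr : ∀ σ, sn (s σ).det = 0), 𝒟 (ofMat s hs) →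
      H1.mk _ _ (cls S' hF hU htr) ∈ Sel) :
    Finite {f : DQ.R →ₐ[𝒪] DN 𝒪 // IsLocalHom (f : DQ.R →+* DN 𝒪)} ∧
    Nat.card {f : DQ.R →ₐ[𝒪] DN 𝒪 // IsLocalHom (f : DQ.R →+* DN 𝒪)} ≤ Nat.card Sel := by
  have hrb' : ∀ σ i j, residue 𝒪 (D.cf σ i j) = rb σ i j := fun σ i j => by
    rw [hD σ i j, hrb]
  have hPT : PreTest 𝒪 DQ.R := Fermat.Agent.H04.preTest_iff.mpr
    ⟨DQ.instIsLocalHom, DQ.residue_surjective⟩
  obtain ⟨r0, hr0, hred0, heq0⟩ := Fermat.Agent.H04.exists_mat hD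
    (IsLocalRing.ResidueField.map (algebraMap 𝒪 DQ.R)) (fun c => rfl) DQ.ρ DQ.residual_isEquiv
  obtain ⟨r, hr, heq⟩ := Fermat.Agent.H04.exists_isNRep (D := D) DQ.instIsLocalHom r0 hr0 hred0
  -- ofMat r ≅ DQ.ρ
  have hrρ : (ofMat r hr.cont).IsEquiv DQ.ρ := by
    obtain ⟨e1⟩ := heq
    obtain ⟨e0⟩ := heq0
    exact ⟨e1.trans e0.symm⟩
  have hbase : ∀ (φ : DQ.R →ₐ[𝒪] DN 𝒪) (hφ : IsLocalHom (φ : DQ.R →+* DN 𝒪)),
      (DQ.ρ.baseChangeAlong (φ : DQ.R →+* DN 𝒪) hφ).IsEquiv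
        (ofMat (mapM (φ : DQ.R →+* DN 𝒪) r) (hr.cont.map _ hφ)) := by
    intro φ hφ
    obtain ⟨e1⟩ := Fermat.Agent.H04.ofMat_baseChange r hr.cont (φ : DQ.R →+* DN 𝒪) hφ
    obtain ⟨e2⟩ := hrρ
    exact ⟨(e2.symm.baseChangeAlong _ hφ).trans e1⟩
  have hNR : ∀ (φ : DQ.R →ₐ[𝒪] DN 𝒪) (hφ : IsLocalHom (φ : DQ.R →+* DN 𝒪)),
      IsNRep D (mapM (φ : DQ.R →+* DN 𝒪) r) := fun φ hφ => hr.map φ hφ
  have hFM : ∀ (φ : DQ.R →ₐ[𝒪] DN 𝒪) (hφ : IsLocalHom (φ : DQ.R →+* DN 𝒪)) σ,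
      FM (mapM (φ : DQ.R →+* DN 𝒪) r σ) = rb σ := fun φ hφ σ => FM_of_red hrb' (hNR φ hφ).red σ
  have h𝒟s : ∀ (φ : DQ.R →ₐ[𝒪] DN 𝒪) (hφ : IsLocalHom (φ : DQ.R →+* DN 𝒪)),
      Function.Surjective φ →
      𝒟 (ofMat (mapM (φ : DQ.R →+* DN 𝒪) r) (hr.cont.map _ hφ)) := fun φ hφ hs =>
    hiso _ _ (hbase φ hφ) (hbc φ hφ hs)
  have hSM0 : ∀ (φ : DQ.R →ₐ[𝒪] DN 𝒪), ¬ Function.Surjective φ → ∀ σ,
      SM (mapM (φ : DQ.R →+* DN 𝒪) r σ) = 0 := by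
    intro φ hφ σ
    ext i j
    exact sn_eq_zero_of_not_surjective φ hφ _
  have hL : ∀ (φ : DQ.R →ₐ[𝒪] DN 𝒪) (hφ : IsLocalHom (φ : DQ.R →+* DN 𝒪)),
      (levS S').isOpen (mapM (φ : DQ.R →+* DN 𝒪) r).ker ∧
        ∀ σ, sn (mapM (φ : DQ.R →+* DN 𝒪) r σ).det = 0 := by
    intro φ hφ
    by_cases hs : Function.Surjective φ
    · exact hlev _ (hr.cont.map _ hφ) (hFM φ hφ) (h𝒟s φ hφ hs)
    · refine ⟨(levS S').mono _ _ hrbU fun t ht => ?_, fun σ => ?_⟩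
      · refine mat_ext ?_ ?_
        · rw [hFM φ hφ, FM_one]
          exact ht
        · rw [hSM0 φ hs, SM_one]
      · rw [sn_det, hSM0 φ hs, zero_mul, Matrix.trace_zero]
  let F : {f : DQ.R →ₐ[𝒪] DN 𝒪 // IsLocalHom (f : DQ.R →+* DN 𝒪)} →
      H1 (levS S') (Ad0 rb (1 : GQ →* ResidueField 𝒪)) := fun φ =>
    H1.mk _ _ (cls S' (hFM φ.1 φ.2) (hL φ.1 φ.2).1 (hL φ.1 φ.2).2)
  have hF : ∀ φ, F φ ∈ Sel := by
    intro φ
    by_cases hs : Function.Surjective φ.1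
    · exact hSel _ (hr.cont.map _ φ.2) (hFM φ.1 φ.2) (hL φ.1 φ.2).1 (hL φ.1 φ.2).2
        (h𝒟s φ.1 φ.2 hs)
    · have : F φ = 0 := by
        change H1.mk _ _ _ = 0
        rw [H1.mk_eq_zero]
        refine ⟨0, fun g => ?_⟩
        rw [smul_zero, sub_zero]
        apply Ad0.ext
        rw [cls_val, xi, hSM0 φ.1 hs, zero_mul]
        rfl
      rw [this]
      exact Sel.zero_mem
  have hinj : Function.Injective F := by
    have key : ∀ φ ψ : {f : DQ.R →ₐ[𝒪] DN 𝒪 // IsLocalHom (f : DQ.R →+* DN 𝒪)},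
        F φ = F ψ → Function.Surjective φ.1 → φ = ψ := by
      intro φ ψ hφψ hs
      obtain ⟨P, hP, hPs⟩ := exists_conj_of_cls hφψ
      have h1 : mapM (φ.1 : DQ.R →+* DN 𝒪) r = mapM (ψ.1 : DQ.R →+* DN 𝒪) r :=
        Fermat.Agent.H04.IsNRep.eq_of_isEquiv (Fermat.Agent.H04.test_DN (𝒪 := 𝒪)).isLocalHom
          (hNR φ.1 φ.2) (hNR ψ.1 ψ.2)
          (Fermat.Agent.H04.isEquiv_of_matrix _ _ P hP hPs)
      have hloc : IsLocalHom (algebraMap 𝒪 (DN 𝒪)) :=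
        (Fermat.Agent.H04.test_DN (𝒪 := 𝒪)).isLocalHom
      have hres := Fermat.Agent.H04.residual_ofMat hD
        (IsLocalRing.ResidueField.map (algebraMap 𝒪 (DN 𝒪))) (fun c => rfl)
        (mapM (φ.1 : DQ.R →+* DN 𝒪) r) (hNR φ.1 φ.2).cont (hNR φ.1 φ.2).red
      obtain ⟨χ, -, hχ⟩ := DQ.universal (DN 𝒪)
        (Fermat.Agent.H04.test_DN (𝒪 := 𝒪)).residue_surjective
        (ofMat (mapM (φ.1 : DQ.R →+* DN 𝒪) r) (hNR φ.1 φ.2).cont) (h𝒟s φ.1 φ.2 hs) hres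
      have e1 := hχ φ.1 ⟨φ.2, hbase φ.1 φ.2⟩
      have e2 := hχ ψ.1 ⟨ψ.2, by
        have h2 := hbase ψ.1 ψ.2
        have h3 : ofMat (mapM (ψ.1 : DQ.R →+* DN 𝒪) r) (hr.cont.map _ ψ.2) =
          ofMat (mapM (φ.1 : DQ.R →+* DN 𝒪) r) (hNR φ.1 φ.2).cont := by
          congr 1
          exact h1.symm
        rw [h3] at h2
        exact h2⟩
      exact Subtype.ext (e1.trans e2.symm)
    intro φ ψ hφψ
    by_cases hs : Function.Surjective φ.1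
    · exact key φ ψ hφψ hs
    by_cases hs' : Function.Surjective ψ.1
    · exact (key ψ φ hφψ.symm hs').symm
    -- both non surjective
    apply Subtype.ext
    apply AlgHom.ext
    intro x
    obtain ⟨c, hc⟩ := hPT.approx x
    have h1 : ∀ χ : {f : DQ.R →ₐ[𝒪] DN 𝒪 // IsLocalHom (f : DQ.R →+* DN 𝒪)},
        fs (χ.1 x) = residue 𝒪 c := by
      intro χ
      have h2 : χ.1 (x - algebraMap 𝒪 DQ.R c) ∈ maximalIdeal (DN 𝒪) := by
        intro hu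
        exact hc (χ.2.map_nonunit _ hu)
      rw [mem_maximalIdeal_iff_fs, map_sub, AlgHom.commutes, map_sub, fs_algebraMap,
        sub_eq_zero] at h2
      exact h2
    apply dn_ext
    · rw [h1 φ, h1 ψ]
    · rw [sn_eq_zero_of_not_surjective φ.1 hs, sn_eq_zero_of_not_surjective ψ.1 hs']
  have hinj' : Function.Injective (fun φ => (⟨F φ, hF φ⟩ : Sel)) := fun φ ψ h =>
    hinj (congrArg Subtype.val h)
  exact ⟨Finite.of_injective _ hinj', Nat.card_le_card_of_injective _ hinj'⟩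

end Fermat.Agent.TW

end
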