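import Fermat.Agent.TW.LH4
import Fermat.Agent.H12.Tame

/-!
# Frobenius action on characters of tame inertia
-/

set_option autoImplicit false
set_option linter.unusedSectionVars false

namespace Fermat.Agent.TW

open Fermat.Agent.CC NVal

variable {A : ValuationSubring Qb} {p : ℕ} {w : Qb → ℝ} {k : Type*} [Field k]

/-- Teichmüller embedding of the units of a finite field -/
theorem exists_teich [Finite k] : ∃ T : kˣ →* Qbˣ, Function.Injective T ∧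
    ∀ u : kˣ, T u ^ (Nat.card k - 1) = 1 := by
  have := Fintype.ofFinite k
  have hc : Nat.card kˣ = Nat.card k - 1 := by
    rw [Nat.card_units k]
  have hpos : 0 < Nat.card kˣ := Nat.card_pos
  have : NeZero (Nat.card kˣ) := ⟨hpos.ne'⟩
  have : NeZero ((Nat.card kˣ : ℕ) : Qb) := ⟨Nat.cast_ne_zero.2 hpos.ne'⟩
  have e : kˣ ≃* rootsOfUnity (Nat.card kˣ) Qb :=
    mulEquivOfCyclicCardEq (HasEnoughRootsOfUnity.natCard_rootsOfUnity Qb _).symm
  refine ⟨(rootsOfUnity (Nat.card kˣ) Qb).subtype.comp e.toMonoidHom,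
    fun a b h => e.injective (Subtype.ext h), fun u => ?_⟩
  rw [← hc]
  exact (mem_rootsOfUnity _ _).1 (e u).2

theorem not_dvd_card_sub_one [Finite k] (hp : p.Prime) [CharP k p] : ¬ p ∣ Nat.card k - 1 := by
  have := Fintype.ofFinite k
  have hf : Fact p.Prime := ⟨hp⟩
  obtain ⟨n, -, hn⟩ := FiniteField.card k p
  rw [Nat.card_eq_fintype_card, hn]
  intro h
  have h1 : 1 ≤ p ^ (n : ℕ) := Nat.one_le_pow _ _ hp.pos
  have h2 : p ∣ p ^ (n : ℕ) := dvd_pow_self p n.ne_zero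
  have h3 : p ∣ 1 := by
    have := Nat.dvd_sub h2 h
    rwa [Nat.sub_sub_self h1] at this
  exact hp.one_lt.ne' (Nat.dvd_one.1 h3)

/-- the tame character of level `m` and conjugation by a Frobenius -/
theorem theta_conj (P : PL p A w) {m : ℕ} (hm : ¬ p ∣ m) {π : Qb} (hπ : π ^ m = p) {φ : GQ}
    (hφ : A.IsFrobeniusAt φ p) {σ : GQ} (hσ : σ ∈ A.inertiaSubgroupIn ℚ) :
    (φ * σ * φ⁻¹) π / π = (σ π / π) ^ p := by
  have h0 := P.tame_ne hm hπ
  obtain ⟨t, ht⟩ : ∃ t, t = φ⁻¹ π / π := ⟨_, rfl⟩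
  have h1 : φ⁻¹ π = t * π := by rw [ht, div_mul_cancel₀ _ h0]
  have hte : Te p t := by rw [ht]; exact P.theta_te hm hπ _
  have h2 : σ π = (σ π / π) * π := (div_mul_cancel₀ _ h0).symm
  have h3 : φ (t * π) = π := by rw [← h1]; exact φ.apply_symm_apply π
  rw [AlgEquiv.mul_apply, AlgEquiv.mul_apply, h1, map_mul, P.te_fixed hte hσ, h2,
    mul_left_comm, map_mul, h3, P.te_frob (P.theta_te hm hπ σ) hφ]
  field_simp

/-- characters of inertia and conjugation by a Frobenius -/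
theorem tame_conj [Finite k] [CharP k p] (P : PL p A w) {ψ : GQ → kˣ}
    (hψ : ∀ σ ∈ A.inertiaSubgroupIn ℚ, ∀ τ ∈ A.inertiaSubgroupIn ℚ, ψ (σ * τ) = ψ σ * ψ τ)
    {U : Subgroup GQ} (hU : IsOpen (U : Set GQ))
    (hψU : ∀ σ ∈ A.inertiaSubgroupIn ℚ, σ ∈ U → ψ σ = 1) {φ : GQ}
    (hφ : A.IsFrobeniusAt φ p) {σ : GQ} (hσ : σ ∈ A.inertiaSubgroupIn ℚ) :
    ψ (φ * σ * φ⁻¹) = ψ σ ^ p := by
  have hg := Fermat.Agent.H51.isGalois_Qbar
  obtain ⟨T, hT, hTm⟩ := exists_teich (k := k)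
  have hm := not_dvd_card_sub_one (k := k) P.prime
  obtain ⟨m, hmm⟩ : ∃ m, m = Nat.card k - 1 := ⟨_, rfl⟩
  rw [← hmm] at hTm hm
  have hm0 : m ≠ 0 := by rintro rfl; exact hm (dvd_zero _)
  obtain ⟨π, hπ⟩ := IsAlgClosed.exists_pow_nat_eq (p : Qb) (Nat.pos_of_ne_zero hm0)
  obtain ⟨n, hn⟩ := H12.inertia_char_eq P.prime P.lies hm π hπ (fun σ => (T (ψ σ) : Qb))
    (fun σ _ => by rw [← Units.val_pow_eq_pow_val, hTm, Units.val_one])
    (fun σ hσ τ hτ => by rw [hψ σ hσ τ hτ, map_mul, Units.val_mul]) U hU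
    (fun σ hσ hσU => by rw [hψU σ hσ hσU, map_one, Units.val_one])
  have hconj : φ * σ * φ⁻¹ ∈ A.inertiaSubgroupIn ℚ := inertia_conj_mem hφ.1 hσ
  have h1 := hn _ hconj
  rw [theta_conj P hm hπ hφ hσ, ← zpow_natCast, ← zpow_mul, mul_comm, zpow_mul, ← hn σ hσ,
    zpow_natCast, ← Units.val_pow_eq_pow_val, ← map_pow] at h1
  exact hT (Units.ext h1)

/-- characters of inertia with values in `μ_m` are powers of the tame character -/
theorem char_trivial_of_pow [Finite k] (P : PL p A w) {ψ : GQ → kˣ}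
    (hψ : ∀ σ ∈ A.inertiaSubgroupIn ℚ, ∀ τ ∈ A.inertiaSubgroupIn ℚ, ψ (σ * τ) = ψ σ * ψ τ)
    {U : Subgroup GQ} (hU : IsOpen (U : Set GQ))
    (hψU : ∀ σ ∈ A.inertiaSubgroupIn ℚ, σ ∈ U → ψ σ = 1) {m : ℕ} (hm : ¬ p ∣ m)
    (hψm : ∀ σ ∈ A.inertiaSubgroupIn ℚ, ψ σ ^ m = 1) {π : Qb} (hπ : π ^ m = p) {σ : GQ}
    (hσ : σ ∈ Jt A π) : ψ σ = 1 := by
  have hg := Fermat.Agent.H51.isGalois_Qbar
  obtain ⟨T, hT, -⟩ := exists_teich (k := k)
  obtain ⟨n, hn⟩ := H12.inertia_char_eq P.prime P.lies hm π hπ (fun σ => (T (ψ σ) : Qb))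
    (fun σ hσ => by rw [← Units.val_pow_eq_pow_val, ← map_pow, hψm σ hσ, map_one, Units.val_one])
    (fun σ hσ τ hτ => by rw [hψ σ hσ τ hτ, map_mul, Units.val_mul]) U hU
    (fun σ hσ hσU => by rw [hψU σ hσ hσU, map_one, Units.val_one])
  have h1 := hn σ hσ.1
  rw [hσ.2, div_self (P.tame_ne hm hπ), one_zpow] at h1
  refine hT (Units.ext ?_)
  rw [map_one, Units.val_one, h1]

end Fermat.Agent.TW
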