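import Fermat.Agent.TW.SS1
import Fermat.Agent.TW.TameChar

/-!
# Supersingular case: levels of Kummer classes
-/

set_option autoImplicit false
set_option linter.unusedSectionVars false

namespace Fermat.Agent.TW

open Fermat.Agent.CC NVal
open scoped Pointwise

variable {A : ValuationSubring Qb} {p : ℕ} {w : Qb → ℝ} {k : Type*} [Field k]

/-- residual structure in the supersingular case -/
structure SR (p : ℕ) (A : ValuationSubring Qb) (π : Qb) (α : GQ → k) (K : Subfield k)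
    (τ : K →+* IsLocalRing.ResidueField A) : Prop where
  card : Nat.card K = p ^ 2
  pi : π ^ (p ^ 2 - 1) = p
  mem : ∀ σ ∈ A.inertiaSubgroupIn ℚ, α σ ∈ K
  tau : ∀ σ (h : σ ∈ A.inertiaSubgroupIn ℚ), τ ⟨α σ, mem σ h⟩ = rsd A (σ π / π)

theorem exists_theta_gen (P : PL p A w) {e : ℕ} (he : ¬ p ∣ e) {π : Qb} (hπ : π ^ e = p) :
    ∃ g ∈ A.inertiaSubgroupIn ℚ, IsPrimitiveRoot (rsd A (g π / π)) e := by
  have he0 : e ≠ 0 := by rintro rfl; exact he (dvd_zero _)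
  have : NeZero (e : Qb) := ⟨Nat.cast_ne_zero.2 he0⟩
  have h0 := P.tame_ne he hπ
  obtain ⟨ξ, hξ⟩ := HasEnoughRootsOfUnity.exists_primitiveRoot Qb e
  obtain ⟨g, hg, hgπ⟩ := P.theta_surj he hπ hξ.pow_eq_one
  refine ⟨g, hg, ?_⟩
  have e1 : g π / π = ξ := by rw [hgπ, mul_div_cancel_right₀ _ h0]
  rw [e1]
  have hξb : Bl w 0 ξ := Or.inr (P.nv.w_eq_zero_of_pow he0 hξ.pow_eq_one).ge
  refine ⟨by rw [← P.rsd_pow hξb, hξ.pow_eq_one, P.rsd_one], fun m hm => ?_⟩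
  rw [← P.rsd_pow hξb, ← P.rsd_one] at hm
  have hξm : Bl w 0 (ξ ^ m) := by
    have := P.nv.pow hξb m
    rwa [mul_zero] at this
  rw [P.rsd_eq_iff hξm P.nv.one] at hm
  have h1 := P.te_unique he (x := ξ ^ m) (y := 1)
    (by rw [← pow_mul, mul_comm, pow_mul, hξ.pow_eq_one, one_pow]) (one_pow _) hm
  exact (hξ.pow_eq_one_iff_dvd m).1 h1

theorem prim_pow_eq {κ : Type*} [Field κ] {t : κ} {e : ℕ} [NeZero e]
    (ht : IsPrimitiveRoot t e) {i j : ℕ} (h : t ^ i = t ^ j) : i ≡ j [MOD e] := by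
  have ht0 : t ≠ 0 := ht.ne_zero (NeZero.ne e)
  have key : ∀ i j : ℕ, i ≤ j → t ^ i = t ^ j → i ≡ j [MOD e] := by
    intro i j hij h
    obtain ⟨c, rfl⟩ := Nat.exists_eq_add_of_le hij
    rw [pow_add] at h
    have h1 : t ^ c = 1 := by
      have := mul_left_cancel₀ (pow_ne_zero i ht0) ((mul_one _).trans h)
      exact this.symm
    obtain ⟨d, rfl⟩ := ht.dvd_of_pow_eq_one c h1
    exact (Nat.modEq_iff_dvd' hij).2 ⟨d, by rw [Nat.add_sub_cancel_left]⟩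
  rcases le_total i j with hij | hij
  · exact key i j hij h
  · exact (key j i hij h.symm).symm

theorem not_dvd_sq_sub_one (hp : p.Prime) : ¬ p ∣ p ^ 2 - 1 := by
  intro h
  have h1 : 1 ≤ p ^ 2 := Nat.one_le_pow _ _ hp.pos
  have h2 : p ∣ p ^ 2 := dvd_pow_self p two_ne_zero
  have h3 := Nat.dvd_sub h2 h
  rw [Nat.sub_sub_self h1] at h3
  exact hp.one_lt.ne' (Nat.dvd_one.1 h3)

/-- a linear form does not see roots in `𝔽_p` -/
theorem add_zmod_smul [Fact p.Prime] [Algebra (ZMod p) k] {κ : Type*} [Field κ] [CharP κ p]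
    (R : k →+ κ) (c : ZMod p) (z : k) : R (algebraMap (ZMod p) k c * z) = (c.val : κ) * R z := by
  have h1 : algebraMap (ZMod p) k c * z = c.val • z := by
    rw [nsmul_eq_mul]
    congr 1
    conv_lhs => rw [← ZMod.natCast_zmod_val c]
    rw [map_natCast]
  rw [h1, map_nsmul, nsmul_eq_mul]

section chain

variable [Finite k] [hf : Fact p.Prime] [Algebra (ZMod p) k] {π : Qb} {α : GQ → k}
  {K : Subfield k} {τ : K →+* IsLocalRing.ResidueField A} (S : SR p A π α K τ) (P : PL p A w)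
include S P

theorem SR.pow_card {a : k} (ha : a ∈ K) : a ^ p ^ 2 = a := by
  have : Fintype K := Fintype.ofFinite K
  have h1 := FiniteField.pow_card (⟨a, ha⟩ : K)
  rw [← Nat.card_eq_fintype_card, S.card] at h1
  exact congrArg (fun z : K => (z : k)) h1

theorem SR.charP : CharP k p := charP_of_injective_algebraMap (algebraMap (ZMod p) k).injective p

/-- an additive map with an eigencondition vanishes unless the eigenvalues match -/
theorem SR.eigen (R : k →+ IsLocalRing.ResidueField A) {g : GQ}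
    (hg : g ∈ A.inertiaSubgroupIn ℚ) {n j : ℕ}
    (hR : ∀ z, R (α g ^ n * z) = rsd A (g π / π) ^ j * R z) (z : k) :
    (rsd A (g π / π) ^ j - rsd A (g π / π) ^ n) * (rsd A (g π / π) ^ j -
      rsd A (g π / π) ^ (n * p)) * R z = 0 := by
  have hcp := P.charP
  have hck := S.charP P
  obtain ⟨t, ht⟩ : ∃ t, t = rsd A (g π / π) := ⟨_, rfl⟩
  obtain ⟨a, ha⟩ : ∃ a : K, a = ⟨α g, S.mem g hg⟩ ^ n := ⟨_, rfl⟩
  have hτa : τ a = t ^ n := by rw [ha, map_pow, S.tau g hg, ← ht]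
  have hak : (a : k) = α g ^ n := by rw [ha]; rfl
  have hpa : (a : k) ^ p ^ 2 = a := S.pow_card P a.2
  have hexp : ExpChar k p := ExpChar.prime hf.out
  have hs1 : ((a : k) + (a : k) ^ p) ^ p = (a : k) + (a : k) ^ p := by
    rw [add_pow_expChar, ← pow_mul, ← pow_two, hpa, add_comm]
  have hs2 : ((a : k) ^ (p + 1)) ^ p = (a : k) ^ (p + 1) := by
    rw [← pow_mul, add_mul, one_mul, ← pow_two, pow_add, hpa, ← pow_succ']
  obtain ⟨c1, hc1⟩ := exists_zmod_of_pow_eq hs1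
  obtain ⟨c2, hc2⟩ := exists_zmod_of_pow_eq hs2
  -- transport to the residue field of `A`
  have hval : ∀ c : ZMod p, ∀ b : K, algebraMap (ZMod p) k c = b →
      ((c.val : ℕ) : IsLocalRing.ResidueField A) = τ b := by
    intro c b hcb
    have h1 : b = ((c.val : ℕ) : K) := by
      apply Subtype.ext
      rw [← hcb]
      conv_lhs => rw [← ZMod.natCast_zmod_val c]
      rw [map_natCast]
      rfl
    rw [h1, map_natCast]
  have h1 := hval c1 (a + a ^ p) (by rw [hc1]; rfl)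
  have h2 := hval c2 (a ^ (p + 1)) (by rw [hc2]; rfl)
  rw [map_add, map_pow, hτa, ← pow_mul] at h1
  rw [map_pow, hτa, ← pow_mul] at h2
  have h3 : (a : k) * ((a : k) * z) + algebraMap (ZMod p) k c2 * z =
      algebraMap (ZMod p) k c1 * ((a : k) * z) := by
    rw [hc1, hc2]
    ring
  have h4 := congrArg R h3
  rw [map_add, add_zmod_smul, add_zmod_smul, hak, hR, hR, ← ht, h1, h2] at h4
  rw [← ht]
  linear_combination h4

section

variable {J : Subgroup GQ} {ζ : Qb} {x : GQ → ZMod p} (C : CY p ζ x)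
  (l : k →ₗ[ZMod p] ZMod p) {β : GQ → k} {n : ℕ}
  (hβ : ∀ σ ∈ Jt A π, ∀ τ' ∈ Jt A π, β (σ * τ') = β σ + β τ')
  {Uo : Subgroup GQ} (hUo : IsOpen (Uo : Set GQ)) (hβU : ∀ σ ∈ Jt A π, σ ∈ Uo → β σ = 0)
  (hconj : ∀ g ∈ A.inertiaSubgroupIn ℚ, ∀ σ ∈ Jt A π,
    algebraMap (ZMod p) k (x g) * β (g⁻¹ * σ * g) = α g ^ n * β σ)

theorem SR.ndvd : ¬ p ∣ p ^ 2 - 1 := not_dvd_sq_sub_one P.prime

theorem SR.conj_mem {g σ : GQ} (hg : g ∈ A.decompositionSubgroup ℚ) (hσ : σ ∈ Jt A π) :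
    g⁻¹ * σ * g ∈ Jt A π := by
  have := P.Jt_normal (S.ndvd P) S.pi (inv_mem hg) hσ
  rwa [inv_inv] at this

include C

theorem SR.x_one {σ : GQ} (hσ : σ ∈ Jt A π) : x σ = 1 := by
  have hp1 := P.prime.one_lt
  have h1 : (π ^ (p + 1)) ^ (p - 1) = (p : Qb) := by
    rw [← pow_mul, ← S.pi]
    congr 1
    obtain ⟨q, hq⟩ : ∃ q, p = q + 1 := ⟨p - 1, (Nat.sub_add_cancel hp1.le).symm⟩
    rw [hq, Nat.add_sub_cancel, pow_two]
    have : (q + 1) * (q + 1) = (q + 1 + 1) * q + 1 := by ring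
    rw [this, Nat.add_sub_cancel]
  exact ((mem_Jt_iff_x P C h1).1 ⟨hσ.1, by rw [map_pow, hσ.2]⟩).2

theorem SR.x_eq {σ : GQ} (hσ : σ ∈ A.inertiaSubgroupIn ℚ) :
    ((x σ).val : IsLocalRing.ResidueField A) = rsd A (σ π / π) ^ (p + 1) := by
  have hp1 := P.prime.one_lt
  have h0 := P.tame_ne (S.ndvd P) S.pi
  have h1 : (π ^ (p + 1)) ^ (p - 1) = (p : Qb) := by
    rw [← pow_mul, ← S.pi]
    congr 1
    obtain ⟨q, hq⟩ : ∃ q, p = q + 1 := ⟨p - 1, (Nat.sub_add_cancel hp1.le).symm⟩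
    rw [hq, Nat.add_sub_cancel, pow_two]
    have : (q + 1) * (q + 1) = (q + 1 + 1) * q + 1 := by ring
    rw [this, Nat.add_sub_cancel]
  have hθ : Bl w 0 (σ π / π) := Or.inr (by
    rw [P.nv.w_div ((map_ne_zero _).2 h0) h0, P.nv.w_smul (inertia_le_decomposition A hσ),
      sub_self])
  rw [← theta_eq_x P C h1 hσ, map_pow, ← div_pow, P.rsd_pow hθ]

include hconj

omit [Finite k] in
theorem SR.b_conj {g : GQ} (hg : g ∈ A.inertiaSubgroupIn ℚ) (z : k) {σ : GQ}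
    (hσ : σ ∈ Jt A π) : x g * l (z * β (g⁻¹ * σ * g)) = l (α g ^ n * z * β σ) := by
  have h1 : x g * l (z * β (g⁻¹ * σ * g)) =
      l (algebraMap (ZMod p) k (x g) * (z * β (g⁻¹ * σ * g))) := by
    rw [← Algebra.smul_def, map_smul, smul_eq_mul]
  rw [h1, mul_left_comm, hconj g hg σ hσ]
  congr 1
  ring

omit hconj in
include hβ hUo hβU in
theorem SR.exists_Km (z : k) : ∃ u, Km (Jt A π) ζ (fun σ => l (z * β σ)) u := by
  refine Fermat.Agent.TW.exists_Km C (fun σ hσ τ' hτ' => ?_) hUo (fun σ hσ hσU => ?_)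
  · rw [hβ σ hσ τ' hτ', mul_add, map_add, S.x_one P C hσ, one_mul]
  · rw [hβU σ hσ hσU, mul_zero, map_zero]

include hβ hUo hβU in
/-- level one -/
theorem SR.CL_one {g : GQ} (hg : g ∈ A.inertiaSubgroupIn ℚ) (hgn : α g ^ n ≠ 1) (z : k) :
    KL w (Jt A π) ζ ((1 : ℕ) / ((p ^ 2 - 1 : ℕ) : ℝ)) (fun σ => l (z * β σ)) := by
  obtain ⟨U, -, -⟩ := P.uf_tame (S.ndvd P) S.pi
  obtain ⟨y, hy⟩ : ∃ y, y = z / (α g ^ n - 1) := ⟨_, rfl⟩
  have hgn' : α g ^ n - 1 ≠ 0 := sub_ne_zero.2 hgn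
  have hz : z = α g ^ n * y - y := by
    rw [hy]
    field_simp
  obtain ⟨u, hu⟩ := S.exists_Km P C l hβ hUo hβU y
  have hgD := inertia_le_decomposition A hg
  have hu2 := Km.conj C hu (g := g) (fun σ hσ => S.conj_mem P hgD hσ)
  have hu3 := Km.mul C hu2 (Km.neg C hu)
  have hu4 : Km (Jt A π) ζ (fun σ => l (z * β σ)) (g u * u⁻¹) := by
    refine ⟨hu3.1, fun σ hσ => ?_⟩
    rw [hu3.2 σ hσ]
    change zp ζ (x g * l (y * β (g⁻¹ * σ * g)) + -l (y * β σ)) * _ = zp ζ (l (z * β σ)) * _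
    rw [S.b_conj P C l hconj hg y hσ, ← sub_eq_add_neg, ← map_sub, ← sub_mul, ← hz]
  refine U.KL_one P C hu4 (n := 0) ?_
  rw [Int.cast_zero, zero_div, ← div_eq_mul_inv, P.nv.w_div ((map_ne_zero _).2 hu.1) hu.1,
    P.nv.w_smul hgD, sub_self]

/-- the leading coefficient map -/
theorem SR.lead {j : ℕ} (hj0 : 0 < j) (hpj : ¬ p ∣ j) (hj : j < p * (p + 1))
    (hCL : ∀ z, KL w (Jt A π) ζ ((j : ℕ) / ((p ^ 2 - 1 : ℕ) : ℝ)) (fun σ => l (z * β σ))) :
    ∃ R : k →+ IsLocalRing.ResidueField A, (∀ z r, Bl w 0 r →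
      (KR w (Jt A π) ζ π (p ^ 2 - 1) j (fun σ => l (z * β σ)) r ↔ rsd A r = R z)) ∧
      ∀ g ∈ A.inertiaSubgroupIn ℚ, ∀ z, R (α g ^ n * z) = rsd A (g π / π) ^ j * R z := by
  obtain ⟨U, -, -⟩ := P.uf_tame (S.ndvd P) S.pi
  have hp1 := P.prime.one_lt
  have h0 := P.tame_ne (S.ndvd P) S.pi
  have hj' : j * (p - 1) < p * (p ^ 2 - 1) := by
    obtain ⟨q, hq⟩ : ∃ q, p = q + 1 := ⟨p - 1, (Nat.sub_add_cancel hp1.le).symm⟩
    have h1 : p ^ 2 - 1 = (p + 1) * (p - 1) := by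
      rw [hq, Nat.add_sub_cancel, pow_two]
      have : (q + 1) * (q + 1) = (q + 1 + 1) * q + 1 := by ring
      rw [this, Nat.add_sub_cancel]
    rw [h1, ← mul_assoc]
    exact Nat.mul_lt_mul_of_pos_right hj (by omega)
  obtain ⟨R, hR⟩ := U.exists_lead P C hj0 hpj hj' (fun (z : k) σ => l (z * β σ))
    (fun z z' σ => by rw [add_mul, map_add]) hCL
  refine ⟨R, hR, fun g hg z => ?_⟩
  have hgD := inertia_le_decomposition A hg
  obtain ⟨r, hr, hrz⟩ := U.KR_exists P (hCL z)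
  have h1 := U.KR_conj P C hrz hgD (fun σ hσ => S.conj_mem P hgD hσ)
  have h2 : KR w (Jt A π) ζ π (p ^ 2 - 1) j (fun σ => l (α g ^ n * z * β σ))
      (g r * (g π / π) ^ j) :=
    UF.KR_eqOn (fun σ hσ => S.b_conj P C l hconj hg z hσ) h1
  have hθ : Bl w 0 (g π / π) := Or.inr (by
    rw [P.nv.w_div ((map_ne_zero _).2 h0) h0, P.nv.w_smul hgD, sub_self])
  have hθj : Bl w 0 ((g π / π) ^ j) := by
    have := P.nv.pow hθ j
    rwa [mul_zero] at this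
  rw [P.te_fixed hr hg] at h2
  rw [← (hR _ _ (P.nv.mul_left (P.te_Bl hr) hθj)).1 h2, P.rsd_mul (P.te_Bl hr) hθj,
    P.rsd_pow hθ, (hR z r (P.te_Bl hr)).1 hrz, mul_comm]

/-- improving the level -/
theorem SR.CL_step (hp2 : p ≠ 2) {j : ℕ} (hj0 : 0 < j) (hj : j < p * (p + 1))
    (hcase : p ∣ j ∨ (¬ j ≡ n [MOD (p ^ 2 - 1)] ∧ ¬ j ≡ n * p [MOD (p ^ 2 - 1)]))
    (hCL : ∀ z, KL w (Jt A π) ζ ((j : ℕ) / ((p ^ 2 - 1 : ℕ) : ℝ)) (fun σ => l (z * β σ))) :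
    ∀ z, KL w (Jt A π) ζ ((j + 1 : ℕ) / ((p ^ 2 - 1 : ℕ) : ℝ)) (fun σ => l (z * β σ)) := by
  obtain ⟨U, -, -⟩ := P.uf_tame (S.ndvd P) S.pi
  have hp1 := P.prime.one_lt
  intro z
  by_cases hpj : p ∣ j
  · obtain ⟨i, rfl⟩ := hpj
    have hi0 : 0 < i := Nat.pos_of_mul_pos_left hj0
    have hi : i < p + 1 := Nat.lt_of_mul_lt_mul_left hj
    refine U.KL_dvd P C hp2 hi0 ?_ (hCL z)
    obtain ⟨q, hq⟩ : ∃ q, p = q + 1 := ⟨p - 1, (Nat.sub_add_cancel hp1.le).symm⟩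
    have h1 : p ^ 2 - 1 = (p + 1) * (p - 1) := by
      rw [hq, Nat.add_sub_cancel, pow_two]
      have : (q + 1) * (q + 1) = (q + 1 + 1) * q + 1 := by ring
      rw [this, Nat.add_sub_cancel]
    rw [h1]
    exact Nat.mul_lt_mul_of_pos_right hi (by omega)
  · obtain ⟨h1, h2⟩ := hcase.resolve_left hpj
    obtain ⟨R, hR, hReig⟩ := S.lead P C l hconj hj0 hpj hj hCL
    obtain ⟨g, hg, hprim⟩ := exists_theta_gen P (S.ndvd P) S.pi
    have hne : NeZero (p ^ 2 - 1) := ⟨by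
      have := Nat.pow_lt_pow_left hp1 (two_ne_zero)
      omega⟩
    have h3 := S.eigen P R hg (hReig g hg) z
    have h4 : R z = 0 := by
      rcases mul_eq_zero.1 h3 with h5 | h5
      · exfalso
        rcases mul_eq_zero.1 h5 with h6 | h6
        · exact h1 (prim_pow_eq hprim (sub_eq_zero.1 h6))
        · exact h2 (prim_pow_eq hprim (sub_eq_zero.1 h6))
      · exact h5
    have h5 : KR w (Jt A π) ζ π (p ^ 2 - 1) j (fun σ => l (z * β σ)) 0 :=
      (hR z 0 (NVal.zero _)).2 (by rw [P.rsd_zero, h4])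
    exact U.KL_succ P C h5

omit hconj in
/-- classes of top level are trivial -/
theorem SR.CL_top
    (hCL : ∀ z, KL w (Jt A π) ζ ((p * (p + 1) : ℕ) / ((p ^ 2 - 1 : ℕ) : ℝ))
      (fun σ => l (z * β σ)))
    (hl : ∀ a : k, (∀ z, l (z * a) = 0) → a = 0) : ∀ σ ∈ Jt A π, β σ = 0 := by
  obtain ⟨U, -, -⟩ := P.uf_tame (S.ndvd P) S.pi
  have hp1 := P.prime.one_lt
  obtain ⟨q, hq⟩ : ∃ q, p = q + 1 := ⟨p - 1, (Nat.sub_add_cancel hp1.le).symm⟩
  have h1 : p ^ 2 - 1 = (p + 1) * (p - 1) := by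
    rw [hq, Nat.add_sub_cancel, pow_two]
    have : (q + 1) * (q + 1) = (q + 1 + 1) * q + 1 := by ring
    rw [this, Nat.add_sub_cancel]
  intro σ hσ
  refine hl _ fun z => ?_
  have h2 := U.KL_top P C S.pi (i := p + 1) h1.symm (hCL z)
  obtain ⟨a, ha⟩ := UF.trivial_of_level (J := Jt A π) P C
    (fun σ hσ => inertia_le_decomposition A hσ.1) (t := (p * (p + 1) + 1 : ℕ) /
      ((p ^ 2 - 1 : ℕ) : ℝ)) (by
    have h3 : (1 : ℝ) < p := by exact_mod_cast hp1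
    have h4 : ((p ^ 2 - 1 : ℕ) : ℝ) = (p + 1) * (p - 1) := by
      rw [h1, Nat.cast_mul, Nat.cast_sub hp1.le]
      push_cast
      ring
    rw [h4]
    push_cast
    rw [div_lt_div_iff₀ (by linarith) (by nlinarith)]
    nlinarith) h2
  rw [ha σ hσ, S.x_one P C hσ, one_mul, sub_self]

end

end chain

end Fermat.Agent.TW
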