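import Mathlib
set_option autoImplicit false

/-!
# Cocycles with values in trace-zero 2x2 matrices: trace functions

`IsCoc r χ c` : `c` is a 1-cocycle for the action `g • X = χ g • (r g * X * r g⁻¹)`.
`tau r c g = tr (c g * r g)`.
-/

namespace Fermat.Agent.TW

open Matrix

/-- 2x2 matrices -/
abbrev Mt (k : Type*) := Matrix (Fin 2) (Fin 2) k

section Alg

variable {k : Type*} [CommRing k]

/-- Cayley-Hamilton -/
theorem cayley (A : Mt k) : A * A = A.trace • A - A.det • (1 : Mt k) := by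
  ext i j
  fin_cases i <;> fin_cases j <;>
    simp [Matrix.mul_apply, Matrix.trace, Matrix.det_fin_two, Fin.sum_univ_two] <;> ring

theorem anticomm {C H : Mt k} (hC : C.trace = 0) :
    C * H + H * C = H.trace • C + (C * H).trace • (1 : Mt k) := by
  have h1 : C 1 1 = - C 0 0 := by
    have : C 0 0 + C 1 1 = 0 := by simpa [Matrix.trace, Fin.sum_univ_two] using hC
    linear_combination this
  ext i j
  fin_cases i <;> fin_cases j <;>
    simp [Matrix.mul_apply, Matrix.trace, Fin.sum_univ_two, h1] <;> ring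

theorem adj_eq (H : Mt k) : H.adjugate = H.trace • (1 : Mt k) - H := by
  ext i j
  fin_cases i <;> fin_cases j <;>
    simp [Matrix.adjugate_fin_two, Matrix.trace, Fin.sum_univ_two]

/-- if `H * H' = 1` and `det H = 1` then `H' = tr H - H`. -/
theorem inv_eq {H H' : Mt k} (h : H * H' = 1) (hd : H.det = 1) :
    H' = H.trace • (1 : Mt k) - H := by
  have h2 : H.adjugate * H = 1 := by rw [Matrix.adjugate_mul, hd, one_smul]
  calc H' = H.adjugate * H * H' := by rw [h2, one_mul]
    _ = H.adjugate := by rw [mul_assoc, h, mul_one]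
    _ = _ := adj_eq H

theorem nil_mul_mul {n X : Mt k} (h1 : n.trace = 0) (h2 : n.det = 0) :
    n * X * n = (n * X).trace • n := by
  have e1 : n 1 1 = - n 0 0 := by
    have : n 0 0 + n 1 1 = 0 := by simpa [Matrix.trace, Fin.sum_univ_two] using h1
    linear_combination this
  have e2 : n 0 0 * n 0 0 + n 0 1 * n 1 0 = 0 := by
    rw [Matrix.det_fin_two, e1] at h2
    linear_combination -h2
  ext i j
  fin_cases i <;> fin_cases j <;>
    simp [Matrix.mul_apply, Matrix.trace, Fin.sum_univ_two, e1]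
  · linear_combination (X 1 1) * e2
  · linear_combination -(X 0 1) * e2
  · linear_combination -(X 1 0) * e2
  · linear_combination (X 0 0) * e2

end Alg


section Coc

variable {Γ : Type*} [Group Γ] {k : Type*} [Field k]

/-- twisted 1-cocycles -/
def IsCoc (r : Γ →* Mt k) (χ : Γ →* k) (c : Γ → Mt k) : Prop :=
  ∀ g h, c (g * h) = c g + χ g • (r g * c h * r g⁻¹)

variable {r : Γ →* Mt k} {χ : Γ →* k} {c : Γ → Mt k}

theorem r_mul_inv (r : Γ →* Mt k) (g : Γ) : r g * r g⁻¹ = 1 := by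
  rw [← map_mul, mul_inv_cancel, map_one]

theorem r_inv_mul (r : Γ →* Mt k) (g : Γ) : r g⁻¹ * r g = 1 := by
  rw [← map_mul, inv_mul_cancel, map_one]

theorem IsCoc.one (hc : IsCoc r χ c) : c 1 = 0 := by
  have := hc 1 1
  simpa using this

theorem IsCoc.inv (hc : IsCoc r χ c) (g : Γ) : c g⁻¹ = - (χ g⁻¹ • (r g⁻¹ * c g * r g)) := by
  have := hc g⁻¹ g
  rw [inv_mul_cancel, hc.one, inv_inv] at this
  exact eq_neg_of_add_eq_zero_left this.symm

/-- trace function of a cocycle -/
def tau (r : Γ →* Mt k) (c : Γ → Mt k) (g : Γ) : k := (c g * r g).trace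

theorem trace_conj (r : Γ →* Mt k) (g : Γ) (X : Mt k) : (r g * X * r g⁻¹).trace = X.trace := by
  rw [Matrix.trace_mul_comm, ← mul_assoc, r_inv_mul, one_mul]

/-- conjugation formula for cocycles -/
theorem IsCoc.conj (hc : IsCoc r χ c) (γ g : Γ) (hg : χ g = 1) :
    c (γ * g * γ⁻¹) = c γ + χ γ • (r γ * c g * r γ⁻¹)
      - r (γ * g * γ⁻¹) * c γ * r (γ * g * γ⁻¹)⁻¹ := by
  have e1 : χ γ * χ γ⁻¹ = 1 := by rw [← map_mul, mul_inv_cancel, map_one]
  rw [hc (γ * g) γ⁻¹, hc γ g, hc.inv γ, map_mul χ, hg, mul_one]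
  have e2 : r (γ * g) * -(χ γ⁻¹ • (r γ⁻¹ * c γ * r γ)) * r (γ * g)⁻¹
      = - (χ γ⁻¹ • (r (γ * g * γ⁻¹) * c γ * r (γ * g * γ⁻¹)⁻¹)) := by
    have e3 : (γ * g * γ⁻¹)⁻¹ = γ * (γ * g)⁻¹ := by group
    rw [e3, show r (γ * (γ * g)⁻¹) = r γ * r (γ * g)⁻¹ from map_mul _ _ _,
      show r (γ * g * γ⁻¹) = r (γ * g) * r γ⁻¹ from map_mul _ _ _]
    simp only [mul_neg, neg_mul, mul_smul_comm, smul_mul_assoc, mul_assoc]
  rw [e2, smul_neg, smul_smul, e1, one_smul]
  abel

theorem IsCoc.tau_conj (hc : IsCoc r χ c) (γ g : Γ) (hg : χ g = 1) :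
    tau r c (γ * g * γ⁻¹) = χ γ * tau r c g := by
  unfold tau
  rw [hc.conj γ g hg, sub_mul, add_mul, Matrix.trace_sub, Matrix.trace_add]
  have e1 : (r (γ * g * γ⁻¹) * c γ * r (γ * g * γ⁻¹)⁻¹ * r (γ * g * γ⁻¹)).trace
      = (c γ * r (γ * g * γ⁻¹)).trace := by
    rw [mul_assoc, r_inv_mul, mul_one, Matrix.trace_mul_comm]
  have e2 : (χ γ • (r γ * c g * r γ⁻¹) * r (γ * g * γ⁻¹)).trace = χ γ * (c g * r g).trace := by
    rw [smul_mul_assoc, Matrix.trace_smul, smul_eq_mul, map_mul, map_mul]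
    congr 1
    calc (r γ * c g * r γ⁻¹ * (r γ * r g * r γ⁻¹)).trace
        = (r γ * c g * (r γ⁻¹ * r γ) * r g * r γ⁻¹).trace := by simp only [mul_assoc]
      _ = (r γ * (c g * r g) * r γ⁻¹).trace := by rw [r_inv_mul, mul_one]; simp only [mul_assoc]
      _ = _ := trace_conj r γ _
  rw [e1, e2]
  ring

/-- the trace identity -/
theorem IsCoc.tau_mul_add (hc : IsCoc r χ c) (htr : ∀ g, (c g).trace = 0)
    {g h : Γ} (hg : χ g = 1) (hh : χ h = 1) (hd : (r h).det = 1) :
    tau r c (g * h) + tau r c (g * h⁻¹) = (r h).trace * tau r c g + (r g).trace * tau r c h := by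
  have hi : r h⁻¹ = (r h).trace • (1 : Mt k) - r h := inv_eq (r_mul_inv r h) hd
  have hχi : χ h⁻¹ = 1 := by
    have : χ h * χ h⁻¹ = 1 := by rw [← map_mul, mul_inv_cancel, map_one]
    rwa [hh, one_mul] at this
  unfold tau
  rw [hc g h, hc g h⁻¹, hc.inv h, hg, hχi, one_smul, one_smul, one_smul, map_mul, map_mul]
  have e1 : ((c g + r g * c h * r g⁻¹) * (r g * r h)).trace
      = (c g * (r g * r h)).trace + (r g * (c h * r h)).trace := by
    rw [add_mul, Matrix.trace_add]
    congr 2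
    calc r g * c h * r g⁻¹ * (r g * r h) = r g * c h * (r g⁻¹ * r g) * r h := by
          simp only [mul_assoc]
      _ = _ := by rw [r_inv_mul, mul_one, mul_assoc]
  have e2 : ((c g + r g * -(r h⁻¹ * c h * r h) * r g⁻¹) * (r g * r h⁻¹)).trace
      = (c g * (r g * r h⁻¹)).trace - (r g * (r h⁻¹ * c h)).trace := by
    rw [add_mul, Matrix.trace_add, sub_eq_add_neg, ← Matrix.trace_neg]
    congr 2
    calc r g * -(r h⁻¹ * c h * r h) * r g⁻¹ * (r g * r h⁻¹)
        = -(r g * (r h⁻¹ * c h * r h * (r g⁻¹ * r g) * r h⁻¹)) := by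
          simp only [mul_assoc, mul_neg, neg_mul]
      _ = -(r g * (r h⁻¹ * c h * (r h * r h⁻¹))) := by
          rw [r_inv_mul, mul_one]; simp only [mul_assoc]
      _ = _ := by rw [r_mul_inv, mul_one]
  rw [e1, e2, hi]
  have e3 : c h * r h - ((r h).trace • (1 : Mt k) - r h) * c h = (c h * r h).trace • (1 : Mt k) := by
    have := anticomm (C := c h) (H := r h) (htr h)
    rw [sub_mul, smul_mul_assoc, one_mul]
    rw [← sub_eq_zero] at this ⊢
    rw [← this]; abel
  have e4 : (r g * (c h * r h)).trace - (r g * (((r h).trace • (1 : Mt k) - r h) * c h)).trace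
      = (r g).trace * (c h * r h).trace := by
    rw [← Matrix.trace_sub, ← mul_sub, e3, mul_smul_comm, mul_one, Matrix.trace_smul, smul_eq_mul,
      mul_comm]
  have e5 : (c g * (r g * ((r h).trace • (1 : Mt k) - r h))).trace
      = (r h).trace * (c g * r g).trace - (c g * (r g * r h)).trace := by
    rw [mul_sub, mul_sub, Matrix.trace_sub, mul_smul_comm, mul_one, mul_smul_comm,
      Matrix.trace_smul, smul_eq_mul]
  rw [e5]
  linear_combination e4

theorem IsCoc.trace_pow (hc : IsCoc r χ c) {g : Γ} (hg : χ g = 1) (n : ℕ) :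
    (c (g ^ n) * r g).trace = n * tau r c g := by
  induction n with
  | zero => simp [hc.one]
  | succ n ih =>
    rw [pow_succ, hc, map_pow χ, hg, one_pow, one_smul, add_mul, Matrix.trace_add, ih]
    have e1 : (r (g ^ n) * c g * r (g ^ n)⁻¹ * r g).trace = tau r c g := by
      have e2 : r (g ^ n)⁻¹ * r g = r g * r (g ^ n)⁻¹ := by
        rw [← map_mul, ← map_mul]
        congr 1
        group
      rw [mul_assoc (r (g ^ n) * c g), e2, ← mul_assoc, mul_assoc (r (g ^ n)), trace_conj]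
      rfl
    rw [e1]
    push_cast
    ring

theorem IsCoc.tau_eq_zero_of_pow (hc : IsCoc r χ c) {g : Γ} (hg : χ g = 1)
    (hker : ∀ g, r g = 1 → c g = 0) {n : ℕ} (hn : (n : k) ≠ 0) (hr : r g ^ n = 1) :
    tau r c g = 0 := by
  have := hc.trace_pow hg n
  rw [hker (g ^ n) (by rw [map_pow, hr]), zero_mul, Matrix.trace_zero] at this
  exact (mul_eq_zero.1 this.symm).resolve_left hn

end Coc

section Order

variable {k : Type*} [Field k]

theorem trace_sq_of_commute_nil {n A : Mt k} (hn : n ≠ 0) (h1 : n.trace = 0) (h2 : n.det = 0)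
    (h : A * n = n * A) : A.trace ^ 2 = 4 * A.det := by
  have e1 : n 1 1 = - n 0 0 := by
    have : n 0 0 + n 1 1 = 0 := by simpa [Matrix.trace, Fin.sum_univ_two] using h1
    linear_combination this
  have e2 : n 0 0 * n 0 0 + n 0 1 * n 1 0 = 0 := by
    rw [Matrix.det_fin_two, e1] at h2
    linear_combination -h2
  have h00 := congrFun (congrFun h 0) 0
  have h01 := congrFun (congrFun h 0) 1
  have h10 := congrFun (congrFun h 1) 0
  simp only [Matrix.mul_apply, Fin.sum_univ_two, e1] at h00 h01 h10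
  rw [Matrix.det_fin_two]
  simp only [Matrix.trace, Fin.sum_univ_two, Matrix.diag_apply]
  by_cases hb : n 0 1 = 0
  · by_cases hc : n 1 0 = 0
    · exfalso
      apply hn
      have ha : n 0 0 = 0 := by
        rw [hb, zero_mul, add_zero] at e2
        exact mul_self_eq_zero.1 e2
      ext i j
      fin_cases i <;> fin_cases j <;> simp [ha, hb, hc, e1]
    · have : (n 1 0) ^ 2 * ((A 0 0 + A 1 1) ^ 2 - 4 * (A 0 0 * A 1 1 - A 0 1 * A 1 0)) = 0 := by
        have e3 : n 1 0 * (A 0 0 - A 1 1) = 2 * n 0 0 * A 1 0 := by linear_combination -h10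
        have e4 : A 0 1 * n 1 0 = n 0 1 * A 1 0 := by linear_combination h00
        have : (n 1 0) ^ 2 * ((A 0 0 + A 1 1) ^ 2 - 4 * (A 0 0 * A 1 1 - A 0 1 * A 1 0))
            = (n 1 0 * (A 0 0 - A 1 1)) ^ 2 + 4 * (A 0 1 * n 1 0) * A 1 0 * n 1 0 := by ring
        rw [this, e3, e4]
        linear_combination 4 * (A 1 0) ^ 2 * e2
      have h5 := (mul_eq_zero.1 this).resolve_left (pow_ne_zero _ hc)
      linear_combination h5
  · have : (n 0 1) ^ 2 * ((A 0 0 + A 1 1) ^ 2 - 4 * (A 0 0 * A 1 1 - A 0 1 * A 1 0)) = 0 := by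
      have e3 : n 0 1 * (A 0 0 - A 1 1) = 2 * n 0 0 * A 0 1 := by linear_combination h01
      have e4 : A 1 0 * n 0 1 = n 1 0 * A 0 1 := by linear_combination -h00
      have : (n 0 1) ^ 2 * ((A 0 0 + A 1 1) ^ 2 - 4 * (A 0 0 * A 1 1 - A 0 1 * A 1 0))
          = (n 0 1 * (A 0 0 - A 1 1)) ^ 2 + 4 * (A 1 0 * n 0 1) * A 0 1 * n 0 1 := by ring
      rw [this, e3, e4]
      linear_combination 4 * (A 0 1) ^ 2 * e2
    have h5 := (mul_eq_zero.1 this).resolve_left (pow_ne_zero _ hb)
    linear_combination h5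

theorem nil_of_pow {n : Mt k} {m : ℕ} (h : n ^ m = 0) : n.trace = 0 ∧ n.det = 0 := by
  constructor
  · have : IsNilpotent n := ⟨m, h⟩
    have := Matrix.isNilpotent_trace_of_isNilpotent this
    exact this.eq_zero
  · have : n.det ^ m = (0 : Mt k).det := by rw [← Matrix.det_pow, h]
    rw [Matrix.det_zero] at this
    exact eq_zero_of_pow_eq_zero this

variable (p : ℕ) [hp : Fact p.Prime] [CharP k p]

/-- elements of order `p` -/
theorem unip_of_pow {B : Mt k} (hB : B ^ p = 1) : (B - 1).trace = 0 ∧ (B - 1).det = 0 := by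
  have : (B - 1) ^ p = 0 := by
    rw [sub_pow_char_of_commute p (Commute.one_right B), hB, one_pow, sub_self]
  exact nil_of_pow this

include p hp in
theorem exists_pow_coprime [Finite k] {A : Mt k} (hd : A.det = 1) (ht : A.trace ^ 2 ≠ 4) :
    ∃ m : ℕ, (m : k) ≠ 0 ∧ A ^ m = 1 := by
  obtain ⟨u, hu⟩ : IsUnit A := (Matrix.isUnit_iff_isUnit_det A).2 (by rw [hd]; exact isUnit_one)
  have : Finite (Mt k) := inferInstanceAs (Finite (Fin 2 → Fin 2 → k))
  have hN : 0 < orderOf u := orderOf_pos u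
  refine ⟨orderOf u, ?_, ?_⟩
  · intro h0
    rw [CharP.cast_eq_zero_iff k p] at h0
    obtain ⟨m, hm⟩ := h0
    have hB : (A ^ m) ^ p = 1 := by
      rw [← pow_mul, mul_comm, ← hm, ← hu, ← Units.val_pow_eq_pow_val, pow_orderOf_eq_one,
        Units.val_one]
    obtain ⟨h1, h2⟩ := unip_of_pow p hB
    have hn : A ^ m - 1 ≠ 0 := by
      intro h3
      have h4 : u ^ m = 1 := by
        apply Units.ext
        rw [Units.val_pow_eq_pow_val, hu, Units.val_one]
        exact sub_eq_zero.1 h3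
      have h5 := orderOf_dvd_of_pow_eq_one h4
      have hm0 : 0 < m := by
        rcases Nat.eq_zero_or_pos m with h | h
        · rw [h, mul_zero] at hm; omega
        · exact h
      have h6 := Nat.le_of_dvd hm0 h5
      have h7 := hp.out.two_le
      nlinarith
    apply ht
    rw [trace_sq_of_commute_nil hn h1 h2 (by
      rw [mul_sub, sub_mul, mul_one, one_mul, ← pow_succ, ← pow_succ']), hd, mul_one]
  · rw [← hu, ← Units.val_pow_eq_pow_val, pow_orderOf_eq_one, Units.val_one]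

end Order

end Fermat.Agent.TW
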