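import Fermat.Agent.TW.Prime
set_option autoImplicit false

/-!
# The Galois modules `ad⁰` and `ad⁰(1)`
-/

namespace Fermat.Agent.TW

open Matrix Fermat.Agent.CC
open scoped Pointwise

/-- trace-zero matrices with the action `g • X = χ g • (r g * X * r g⁻¹)`. -/
def Ad0 {k : Type*} [Field k] (_r : GQ →* Mt k) (_χ : GQ →* k) : Type _ :=
  LinearMap.ker (Matrix.traceLinearMap (Fin 2) k k)

section

variable {k : Type*} [Field k] {r : GQ →* Mt k} {χ : GQ →* k}

instance : AddCommGroup (Ad0 r χ) :=
  inferInstanceAs (AddCommGroup (LinearMap.ker (Matrix.traceLinearMap (Fin 2) k k)))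

instance : Module k (Ad0 r χ) :=
  inferInstanceAs (Module k (LinearMap.ker (Matrix.traceLinearMap (Fin 2) k k)))

instance [Finite k] : Finite (Ad0 r χ) := by
  have : Finite (Mt k) := inferInstanceAs (Finite (Fin 2 → Fin 2 → k))
  exact inferInstanceAs (Finite (LinearMap.ker (Matrix.traceLinearMap (Fin 2) k k)))

namespace Ad0

/-- underlying matrix -/
def val (X : Ad0 r χ) : Mt k := X.1

/-- constructor -/
def mk (X : Mt k) (h : X.trace = 0) : Ad0 r χ := ⟨X, h⟩

theorem trace_val (X : Ad0 r χ) : X.val.trace = 0 := X.2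

@[simp] theorem val_mk (X : Mt k) (h : X.trace = 0) : (mk X h : Ad0 r χ).val = X := rfl

theorem ext {X Y : Ad0 r χ} (h : X.val = Y.val) : X = Y := Subtype.ext h

@[simp] theorem val_add (X Y : Ad0 r χ) : (X + Y).val = X.val + Y.val := rfl
@[simp] theorem val_sub (X Y : Ad0 r χ) : (X - Y).val = X.val - Y.val := rfl
@[simp] theorem val_neg (X : Ad0 r χ) : (-X).val = -X.val := rfl
@[simp] theorem val_zero : (0 : Ad0 r χ).val = 0 := rfl
@[simp] theorem val_smul (a : k) (X : Ad0 r χ) : (a • X).val = a • X.val := rfl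

noncomputable instance : DistribMulAction GQ (Ad0 r χ) where
  smul g X := mk (χ g • (r g * X.val * r g⁻¹)) (by
    rw [Matrix.trace_smul, trace_conj, X.trace_val, smul_zero])
  one_smul X := by
    apply ext
    change χ 1 • (r 1 * X.val * r 1⁻¹) = X.val
    simp
  mul_smul g h X := by
    apply ext
    change χ (g * h) • (r (g * h) * X.val * r (g * h)⁻¹)
      = χ g • (r g * (χ h • (r h * X.val * r h⁻¹)) * r g⁻¹)
    rw [map_mul, map_mul, _root_.mul_inv_rev, map_mul, mul_smul]
    simp only [mul_smul_comm, smul_mul_assoc, mul_assoc]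
  smul_zero g := by
    apply ext
    change χ g • (r g * (0 : Mt k) * r g⁻¹) = 0
    simp
  smul_add g X Y := by
    apply ext
    change χ g • (r g * (X.val + Y.val) * r g⁻¹)
      = χ g • (r g * X.val * r g⁻¹) + χ g • (r g * Y.val * r g⁻¹)
    rw [mul_add, add_mul, smul_add]

theorem val_gsmul (g : GQ) (X : Ad0 r χ) : (g • X).val = χ g • (r g * X.val * r g⁻¹) := rfl

theorem val_subgroup_smul {D : Subgroup GQ} (g : D) (X : Ad0 r χ) :
    (g • X).val = χ g • (r g * X.val * r (g : GQ)⁻¹) := rfl

theorem smul_eq_of_mem {D : Subgroup GQ} (g : D) (X : Ad0 r χ) : g • X = (g : GQ) • X := rfl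

instance : SMulCommClass GQ k (Ad0 r χ) where
  smul_comm g a X := by
    apply ext
    rw [val_gsmul, val_smul, val_smul, val_gsmul, smul_comm a]
    simp only [mul_smul_comm, smul_mul_assoc]

/-- elements of the kernel of `r` and `χ` act trivially -/
theorem smul_of_trivial {g : GQ} (h1 : r g = 1) (h2 : χ g = 1) (X : Ad0 r χ) : g • X = X := by
  apply ext
  have h3 : r g⁻¹ = 1 := by
    have := r_mul_inv r g
    rwa [h1, one_mul] at this
  rw [val_gsmul, h1, h2, h3, one_smul, one_mul, mul_one]

theorem isCoc {f : GQ → Ad0 r χ} (hf : ∀ g h, f (g * h) = f g + g • f h) :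
    IsCoc r χ (fun g => (f g).val) := by
  intro g h
  beta_reduce
  rw [hf, val_add, val_gsmul]

end Ad0

end

end Fermat.Agent.TW
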