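import Fermat.Agent.TW.Clifford
import Fermat.Agent.DefRing.Burnside
set_option autoImplicit false

/-!
# Selecting good elements for Taylor-Wiles primes
-/

namespace Fermat.Agent.TW

open Matrix

variable {Γ : Type*} [Group Γ] {k : Type*} [Field k]
variable {r : Γ →* Mt k} {χ : Γ →* k} {c : Γ → Mt k}
variable {p : ℕ} [hp : Fact p.Prime] [CharP k p]

/-- Absence of stable lines over the algebraic closure implies it over `k`. -/
theorem NoLine.descend {K : Type*} [Field K] [Algebra k K] {N : Subgroup Γ}
    (h : NoLine (ext K r) N) : NoLine r N := by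
  intro v hv
  have hv' : (fun i => algebraMap k K (v i)) ≠ 0 := by
    intro h0
    apply hv
    ext i
    have := congrFun h0 i
    simpa using this
  obtain ⟨γ, hγ, h1⟩ := h _ hv'
  refine ⟨γ, hγ, fun a ha => h1 (algebraMap k K a) ?_⟩
  ext i
  have := congrFun ha i
  rw [ext_apply]
  simp only [Matrix.mulVec, dotProduct, Matrix.map_apply, Fin.sum_univ_two, Pi.smul_apply,
    smul_eq_mul] at this ⊢
  rw [← map_mul, ← map_mul, ← map_add, this, map_mul]

/-- Burnside -/
theorem NoLine.exists_trace_ne {K : Type*} [Field K] [IsAlgClosed K] [Algebra k K]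
    {N : Subgroup Γ} (h : NoLine (ext K r) N) {w : Mt k} (hw : w ≠ 0) :
    ∃ x ∈ N, (w * r x).trace ≠ 0 := by
  by_contra hcon
  push Not at hcon
  let ρ : N →* Module.End K (Fin 2 → K) :=
    ((Matrix.toLinAlgEquiv' : Mt K ≃ₐ[K] _).toRingEquiv.toRingHom.toMonoidHom).comp
      ((ext K r).comp N.subtype)
  have hρ : ∀ x : N, ρ x = Matrix.toLin' (ext K r x) := fun x => rfl
  have hirr : ∀ W : Submodule K (Fin 2 → K), (∀ g, ∀ x ∈ W, ρ g x ∈ W) → W = ⊥ ∨ W = ⊤ := by
    intro W hW
    by_cases hb : W = ⊥
    · left; exact hb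
    right
    obtain ⟨v, hvW, hv⟩ := (Submodule.ne_bot_iff W).1 hb
    obtain ⟨γ, hγ, h1⟩ := h v hv
    rw [eq_top_iff]
    intro u _
    obtain ⟨a, b, rfl⟩ := exists_comb hv h1 u
    have h2 := hW ⟨γ, hγ⟩ v hvW
    rw [hρ] at h2
    exact W.add_mem (W.smul_mem _ hvW) (W.smul_mem _ (by simpa using h2))
  have hspan := Fermat.Agent.H04.span_range_eq_top_of_irreducible ρ hirr
  -- the linear functional
  let w' : Mt K := w.map (algebraMap k K)
  let L : Module.End K (Fin 2 → K) →ₗ[K] K :=
    (Matrix.traceLinearMap (Fin 2) K K) ∘ₗ (LinearMap.mulLeft K w') ∘ₗ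
      (LinearMap.toMatrix' : ((Fin 2 → K) →ₗ[K] (Fin 2 → K)) ≃ₗ[K] Mt K).toLinearMap
  have hL : ∀ f, f ∈ Submodule.span K (Set.range ρ) → L f = 0 := by
    intro f hf
    induction hf using Submodule.span_induction with
    | mem x hx =>
      obtain ⟨g, rfl⟩ := hx
      change (w' * LinearMap.toMatrix' (ρ g)).trace = 0
      rw [hρ, LinearMap.toMatrix'_toLin', ext_apply]
      have h3 : w' * (r g).map (algebraMap k K) = (w * r g).map (algebraMap k K) := by
        rw [Matrix.map_mul]
      rw [h3]
      have h4 : ((w * r g).map (algebraMap k K)).trace = algebraMap k K (w * r g).trace := by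
        simp only [Matrix.trace, Matrix.diag_apply, Matrix.map_apply, Fin.sum_univ_two, map_add]
      rw [h4, hcon g g.2, map_zero]
    | zero => rw [map_zero]
    | add x y _ _ hx hy => rw [map_add, hx, hy, add_zero]
    | smul a x _ hx => rw [map_smul, hx, smul_zero]
  apply hw
  have hz : ∀ i j, w i j = 0 := by
    intro i j
    have h5 := hL (Matrix.toLin' (Matrix.single j i 1)) (by rw [hspan]; trivial)
    have h6 : L (Matrix.toLin' (Matrix.single j i 1)) = w' i j := by
      change (w' * LinearMap.toMatrix' (Matrix.toLin' (Matrix.single j i 1))).trace = _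
      rw [LinearMap.toMatrix'_toLin']
      simp [Matrix.trace_mul_single]
    rw [h6] at h5
    have : algebraMap k K (w i j) = 0 := h5
    exact (map_eq_zero _).1 this
  ext i j
  exact hz i j

/-- Selecting an element with distinct eigenvalues and nonzero pairing with `w`. -/
theorem exists_elt {K : Type*} [Field K] [IsAlgClosed K] [Algebra k K] (hp2 : p ≠ 2)
    {N : Subgroup Γ} (h : NoLine (ext K r) N) (hd : ∀ x ∈ N, (r x).det = 1)
    {w : Mt k} (hw : w ≠ 0) (hw0 : w.trace = 0) :
    ∃ x ∈ N, (r x).trace ^ 2 ≠ 4 ∧ (w * r x).trace ≠ 0 := by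
  have h2 : (2 : k) ≠ 0 := by simpa using cast_ne_zero (k := k) (p := p) Nat.prime_two hp2
  by_cases hex : ∀ x ∈ N, r x ^ p = 1 → r x = 1
  · obtain ⟨x, hx, hx'⟩ := h.exists_trace_ne hw
    refine ⟨x, hx, fun h4 => hx' ?_, hx'⟩
    have : ((r x).trace - 2) * ((r x).trace + 2) = 0 := by linear_combination h4
    rcases mul_eq_zero.1 this with h | h
    · have ht : (r x).trace = 2 := sub_eq_zero.1 h
      have hn : (r x - 1) ^ 2 = 0 := by
        rw [pow_two, mul_sub, sub_mul, cayley, ht, hd x hx]
        simp only [mul_one, one_mul, one_smul, two_smul]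
        abel
      have h5 : (r x - 1) ^ p = 0 := by
        have : p = 2 + (p - 2) := by have := hp.out.two_le; omega
        rw [this, pow_add, hn, zero_mul]
      rw [sub_pow_char_of_commute p (Commute.one_right (r x)), one_pow] at h5
      rw [hex x hx (sub_eq_zero.1 h5), mul_one, hw0]
    · have ht : (r x).trace = -2 := by linear_combination h
      have hn : (r x + 1) ^ 2 = 0 := by
        rw [pow_two, mul_add, add_mul, cayley, ht, hd x hx]
        simp only [mul_one, one_mul, one_smul, neg_smul, two_smul]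
        abel
      have h5 : (r x + 1) ^ p = 0 := by
        have : p = 2 + (p - 2) := by have := hp.out.two_le; omega
        rw [this, pow_add, hn, zero_mul]
      rw [add_pow_char_of_commute p (Commute.one_right (r x)), one_pow] at h5
      have h6 : (r x) ^ p = -1 := eq_neg_of_add_eq_zero_left h5
      have h7 : r (x * x) = 1 := by
        apply hex _ (N.mul_mem hx hx)
        rw [map_mul, (Commute.refl (r x)).mul_pow, h6]
        simp
      have h8 : r x = -1 := by
        have h9 : (2 : k) • (r x + 1) = 0 := by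
          have e : (r x + 1) ^ 2 = r x * r x + (2 : k) • r x + 1 := by
            rw [pow_two, mul_add, add_mul, two_smul]; simp; abel
          rw [e, ← map_mul, h7] at hn
          rw [smul_add, two_smul k (1 : Mt k), ← hn]; abel
        have := (smul_eq_zero.1 h9).resolve_left h2
        exact eq_neg_of_add_eq_zero_left this
      rw [h8, mul_neg, mul_one, Matrix.trace_neg, hw0, neg_zero]
  · push Not at hex
    obtain ⟨g, hgN, hg, hg1⟩ := hex
    obtain ⟨hn1, hn2⟩ := unip_of_pow p hg
    have hn0 : r g - 1 ≠ 0 := sub_ne_zero.2 hg1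
    obtain ⟨n, hn⟩ : ∃ n, n = r g - 1 := ⟨_, rfl⟩
    rw [← hn] at hn1 hn2 hn0
    have hrg : r g = 1 + n := by rw [hn]; abel
    have nn : n * n = 0 := sq_zero hn1 hn2
    -- the main claim for a second unipotent
    have main : ∀ h' ∈ N, (r h' - 1).trace = 0 → (r h' - 1).det = 0 →
        (n * (r h' - 1)).trace ≠ 0 → (n * (r h' - 1)).trace ≠ -4 →
        ∃ x ∈ N, (r x).trace ^ 2 ≠ 4 ∧ (w * r x).trace ≠ 0 := by
      intro h' hh' hm1 hm2 hs hs4
      obtain ⟨m, hm⟩ : ∃ m, m = r h' - 1 := ⟨_, rfl⟩
      rw [← hm] at hm1 hm2 hs hs4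
      have hrh : r h' = 1 + m := by rw [hm]; abel
      obtain ⟨s, hs'⟩ : ∃ s, s = (n * m).trace := ⟨_, rfl⟩
      rw [← hs'] at hs4
      have hX : r (g * h') = 1 + n + m + n * m := by
        rw [map_mul, hrg, hrh]; simp only [add_mul, mul_add, one_mul, mul_one]; abel
      have htX : (r (g * h')).trace = 2 + s := by
        rw [hX, Matrix.trace_add, Matrix.trace_add, Matrix.trace_add, hn1, hm1, ← hs',
          Matrix.trace_one]; norm_num
      have hgi : r g⁻¹ = 1 - n := by
        rw [inv_eq (r_mul_inv r g) (hd g hgN), hrg, Matrix.trace_add, hn1, add_zero,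
          Matrix.trace_one]
        simp only [Fintype.card_fin, Nat.cast_ofNat, two_smul]; abel
      have hne : (2 + s) ^ 2 ≠ 4 := by
        intro h0
        have : s * (s + 4) = 0 := by linear_combination h0
        rcases mul_eq_zero.1 this with h | h
        · exact hs (by rw [← hs', h])
        · exact hs4 (by linear_combination h)
      by_contra hcon
      push Not at hcon
      -- three conjugates
      have ht : ∀ i : ℕ, (r (g ^ i * (g * h') * (g ^ i)⁻¹)).trace ^ 2 ≠ 4 := by
        intro i
        rw [map_mul, map_mul, trace_conj, htX]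
        exact hne
      have hmem : ∀ i : ℕ, g ^ i * (g * h') * (g ^ i)⁻¹ ∈ N := fun i =>
        N.mul_mem (N.mul_mem (N.pow_mem hgN i) (N.mul_mem hgN hh')) (N.inv_mem (N.pow_mem hgN i))
      have q0 := hcon _ (hmem 0) (ht 0)
      have q1 := hcon _ (hmem 1) (ht 1)
      have q2 := hcon _ (hmem 2) (ht 2)
      obtain ⟨X, hX'⟩ : ∃ X, X = r (g * h') := ⟨_, rfl⟩
      have f0 : r (g ^ 0 * (g * h') * (g ^ 0)⁻¹) = X := by rw [hX']; simp
      have f1 : r (g ^ 1 * (g * h') * (g ^ 1)⁻¹) = X + (n * X - X * n) - n * X * n := by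
        rw [pow_one, map_mul, map_mul, hgi, ← hX', hrg]
        simp only [add_mul, mul_sub, one_mul, mul_one]; abel
      have f2 : r (g ^ 2 * (g * h') * (g ^ 2)⁻¹)
          = X + (2 : k) • (n * X - X * n) - (4 : k) • (n * X * n) := by
        have e1 : r (g ^ 2) = 1 + (2 : k) • n := by
          rw [map_pow, hrg, pow_unip nn]; simp
        have e2 : r (g ^ 2)⁻¹ = 1 - (2 : k) • n := by
          rw [pow_two, _root_.mul_inv_rev, map_mul, hgi]
          simp only [mul_sub, sub_mul, mul_one, one_mul, nn, two_smul]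
          abel
        rw [map_mul, map_mul, e1, e2, ← hX']
        simp only [add_mul, mul_sub, one_mul, mul_one, smul_mul_assoc, mul_smul_comm, smul_sub]
        module
      rw [f0] at q0
      rw [f1, mul_sub, mul_add, Matrix.trace_sub, Matrix.trace_add, q0] at q1
      rw [f2, mul_sub, mul_add, mul_smul_comm, mul_smul_comm, Matrix.trace_sub, Matrix.trace_add,
        Matrix.trace_smul, Matrix.trace_smul, q0, smul_eq_mul, smul_eq_mul] at q2
      obtain ⟨B, hB⟩ : ∃ B, B = (w * (n * X - X * n)).trace := ⟨_, rfl⟩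
      obtain ⟨C, hC⟩ : ∃ C, C = (w * (n * X * n)).trace := ⟨_, rfl⟩
      rw [← hB, ← hC] at q1 q2
      have hC0 : C = 0 := by
        have : (2 : k) * C = 0 := by linear_combination 2 * q1 - q2
        exact (mul_eq_zero.1 this).resolve_left h2
      have hB0 : B = 0 := by linear_combination q1 + hC0
      have nX : n * X = n + n * m := by
        rw [hX', hX]
        simp only [mul_add, mul_one, nn, ← mul_assoc, zero_mul, add_zero]
      have hwn : (w * n).trace = 0 := by
        rw [hC] at hC0
        rw [nil_mul_mul hn1 hn2, nX, Matrix.trace_add, hn1, zero_add, mul_smul_comm,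
          Matrix.trace_smul] at hC0
        exact (smul_eq_zero.1 hC0).resolve_left hs
      have Xn : X * n = n + m * n + s • n := by
        rw [hX', hX]
        simp only [add_mul, one_mul, nn, nil_mul_mul hn1 hn2, ← hs', add_zero]
      have hsum : (w * (n * m)).trace + (w * (m * n)).trace = 0 := by
        rw [← Matrix.trace_add, ← mul_add, nil_add hn1 hm1, mul_smul_comm, mul_one,
          Matrix.trace_smul, hw0, smul_zero]
      have hnm : (w * (n * m)).trace = 0 := by
        rw [hB, nX, Xn] at hB0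
        have e : w * (n + n * m - (n + m * n + s • n))
            = w * (n * m) - w * (m * n) - s • (w * n) := by
          simp only [mul_sub, mul_add, mul_smul_comm]; abel
        rw [e, Matrix.trace_sub, Matrix.trace_sub, Matrix.trace_smul, hwn, smul_zero,
          sub_zero] at hB0
        have : (2 : k) * (w * (n * m)).trace = 0 := by linear_combination hB0 + hsum
        exact (mul_eq_zero.1 this).resolve_left h2
      have hwm : (w * m).trace = 0 := by
        rw [hX', hX] at q0
        simp only [mul_add, mul_one, Matrix.trace_add, hw0, hwn, hnm, add_zero, zero_add] at q0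
        exact q0
      exact hw (eq_zero_of_traces hn1 hn2 hm1 hm2 hs hw0 hwn hwm hnm)
    -- find the second unipotent inside N : conjugate by an element of N
    have hNL : NoLine (r.comp N.subtype) ⊤ := by
      intro v hv
      obtain ⟨γ, hγ, h3⟩ := h.descend v hv
      exact ⟨⟨γ, hγ⟩, trivial, h3⟩
    obtain ⟨γ, hγ⟩ := exists_conj_trace_ne (r.comp N.subtype) (fun v hv => by
      obtain ⟨γ, _, h3⟩ := hNL v hv
      exact ⟨γ, h3⟩) hn0 hn1 hn2
    obtain ⟨h', hh⟩ : ∃ h' : Γ, h' = γ * g * (γ : Γ)⁻¹ := ⟨_, rfl⟩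
    have hh' : h' ∈ N := by
      rw [hh]; exact N.mul_mem (N.mul_mem γ.2 hgN) (N.inv_mem γ.2)
    have hm : r h' - 1 = r γ * n * r (γ : Γ)⁻¹ := by
      rw [hh, map_mul, map_mul, hn, mul_sub, sub_mul, mul_one, r_mul_inv]
    have hγ' : (n * (r h' - 1)).trace ≠ 0 := by rw [hm]; exact hγ
    have hm1 : (r h' - 1).trace = 0 := by rw [hm, trace_conj, hn1]
    have hm2 : (r h' - 1).det = 0 := by rw [hm, Matrix.det_mul, Matrix.det_mul, hn2]; ring
    by_cases hs4 : (n * (r h' - 1)).trace = -4
    · -- use the inverse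
      have hi : r h'⁻¹ - 1 = -(r h' - 1) := by
        have e1 : (r h').trace = 2 := by
          rw [trace_sub_one] at hm1; linear_combination hm1
        rw [inv_eq (r_mul_inv r h') (hd h' hh'), e1, two_smul]; abel
      apply main h'⁻¹ (N.inv_mem hh')
      · rw [hi, Matrix.trace_neg, hm1, neg_zero]
      · rw [hi, Matrix.det_neg, hm2, mul_zero]
      · rw [hi, mul_neg, Matrix.trace_neg]
        exact neg_ne_zero.2 hγ'
      · rw [hi, mul_neg, Matrix.trace_neg, hs4, neg_neg]
        intro h0
        have : (2 : k) * (2 * 2) = 0 := by linear_combination h0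
        exact (mul_ne_zero h2 (mul_ne_zero h2 h2)) this
    · exact main h' hh' hm1 hm2 hγ' hs4

/-- no invariants in `ad⁰(1)` -/
theorem eq_zero_of_invariant {K : Type*} [Field K] [IsAlgClosed K] [Algebra k K]
    (h2 : (2 : k) ≠ 0) {N : Subgroup Γ} (h : NoLine (ext K r) N)
    {Y : Mt k} (hY : Y.trace = 0) (hc : ∀ x ∈ N, r x * Y = Y * r x) : Y = 0 := by
  have : FaithfulSMul k K := inferInstance
  obtain ⟨v, l, hv, hl⟩ := exists_eigenvector (Y.map (algebraMap k K))
  obtain ⟨x, hx, h1⟩ := h v hv
  have h3 : Y.map (algebraMap k K) *ᵥ (ext K r x *ᵥ v) = l • (ext K r x *ᵥ v) := by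
    rw [Matrix.mulVec_mulVec, ext_apply, ← Matrix.map_mul, ← hc x hx, Matrix.map_mul,
      ← Matrix.mulVec_mulVec, hl, Matrix.mulVec_smul]
  have h4 := eq_scalar hv h1 hl h3
  have h5 : (Y.map (algebraMap k K)).trace = 0 := by
    have : (Y.map (algebraMap k K)).trace = algebraMap k K Y.trace := by
      simp [Matrix.trace, Fin.sum_univ_two]
    rw [this, hY, map_zero]
  rw [h4, Matrix.trace_smul, Matrix.trace_one, smul_eq_mul] at h5
  have h6 : ((Fintype.card (Fin 2) : ℕ) : K) ≠ 0 := by
    have : ((Fintype.card (Fin 2) : ℕ) : K) = algebraMap k K 2 := by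
      rw [map_ofNat]; simp
    rw [this]
    exact (map_ne_zero _).2 h2
  have hl0 : l = 0 := (mul_eq_zero.1 h5).resolve_right h6
  rw [hl0, zero_smul] at h4
  ext i j
  have := congrFun (congrFun h4 i) j
  simpa using this

/-- **Selection**: for a cocycle which is not a coboundary there is a good element in `N`. -/
theorem Hyp.exists_good {K : Type*} [Field K] [IsAlgClosed K] [Algebra k K] [Finite k]
    (H : Hyp p r χ) (hp2 : p ≠ 2) {N : Subgroup Γ} [hN : N.Normal] (h : NoLine (ext K r) N)
    (hab : ∀ x y : Γ, x * y * x⁻¹ * y⁻¹ ∈ N)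
    (hχ : ∀ x ∈ N, χ x = 1) (hc : IsCoc r χ c) (htr : ∀ g, (c g).trace = 0)
    (hnc : ¬ ∃ X : Mt k, X.trace = 0 ∧ ∀ g, c g = χ g • (r g * X * r g⁻¹) - X) :
    ∃ x ∈ N, (r x).trace ^ 2 ≠ 4 ∧ tau r c x ≠ 0 := by
  have h2 : (2 : k) ≠ 0 := by simpa using cast_ne_zero (k := k) (p := p) Nat.prime_two hp2
  obtain ⟨t, htN, ht1, ht⟩ : ∃ t ∈ N, r t = 1 ∧ c t ≠ 0 := by
    by_contra hcon
    push Not at hcon
    apply hnc
    apply H.exists_coboundary hp2 hc htr
    intro s hs
    have hχs : χ s = 1 := by rw [← H.det, hs, Matrix.det_one]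
    have hinv : ∀ y, χ y • (r y * c s * r y⁻¹) = c s := by
      intro y
      have h3 : c (y * s * y⁻¹) = c s := by
        obtain ⟨t, ht⟩ : ∃ t, t = y * s * y⁻¹ * s⁻¹ := ⟨_, rfl⟩
        have ht1 : r t = 1 := by
          rw [ht, map_mul, map_mul, map_mul, hs, mul_one, r_mul_inv, one_mul]
          have := r_mul_inv r s
          rwa [hs, one_mul] at this
        have htN : t ∈ N := by rw [ht]; exact hab y s
        have e : y * s * y⁻¹ = t * s := by rw [ht]; group
        have hi : r t⁻¹ = 1 := by
          have := r_mul_inv r t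
          rwa [ht1, one_mul] at this
        rw [e, hc, hcon t htN ht1, hχ t htN, ht1, hi]
        simp
      have h4 := hc.conj y s hχs
      have h5 : r (y * s * y⁻¹) = 1 := by
        rw [map_mul, map_mul, hs, mul_one, r_mul_inv]
      have h6 : r (y * s * y⁻¹)⁻¹ = 1 := by
        have := r_mul_inv r (y * s * y⁻¹)
        rwa [h5, one_mul] at this
      rw [h3, h5, h6, one_mul, mul_one, add_sub_cancel_left] at h4
      exact h4.symm
    apply eq_zero_of_invariant h2 h (htr s)
    intro x hx
    have h3 := hinv x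
    rw [hχ x hx, one_smul] at h3
    calc r x * c s = r x * c s * (r x⁻¹ * r x) := by rw [r_inv_mul, mul_one]
      _ = (r x * c s * r x⁻¹) * r x := by simp only [mul_assoc]
      _ = _ := by rw [h3]
  obtain ⟨x, hx, hx4, hx'⟩ := exists_elt (p := p) hp2 h
    (fun x hx => by rw [H.det, hχ x hx]) ht (htr t)
  by_cases hτ : tau r c x = 0
  · refine ⟨t * x, N.mul_mem htN hx, ?_, ?_⟩
    · rwa [map_mul, ht1, one_mul]
    · have hi : r t⁻¹ = 1 := by
        have := r_mul_inv r t
        rwa [ht1, one_mul] at this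
      rw [tau, hc, hχ t htN, ht1, hi, map_mul, ht1, one_smul, one_mul, one_mul, mul_one, add_mul,
        Matrix.trace_add]
      unfold tau at hτ
      rw [hτ, add_zero]
      exact hx'
  · exact ⟨x, hx, hx4, hτ⟩

end Fermat.Agent.TW
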