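import Fermat.Agent.TW.Tam
import Fermat.Agent.TW.Tan

/-!
# Kummer generators and their levels
-/

set_option autoImplicit false
set_option linter.unusedSectionVars false

namespace Fermat.Agent.TW

open Fermat.Agent.CC
open scoped Pointwise

/-- `ζ ^ a` for `a : ZMod p` -/
noncomputable def zp {p : ℕ} (ζ : Qb) (a : ZMod p) : Qb := ζ ^ a.val

/-- `x` is the mod `p` cyclotomic character -/
structure CY (p : ℕ) (ζ : Qb) (x : GQ → ZMod p) : Prop where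
  prime : p.Prime
  prim : IsPrimitiveRoot ζ p
  act : ∀ σ : GQ, σ ζ = zp ζ (x σ)

theorem exists_CY {p : ℕ} (hp : p.Prime) {ζ : Qb} (hζ : IsPrimitiveRoot ζ p) :
    ∃ x, CY p ζ x := by
  have : NeZero p := ⟨hp.ne_zero⟩
  choose a ha using exists_pow_action p
  refine ⟨fun σ => (a σ : ZMod p), hp, hζ, fun σ => ?_⟩
  rw [ha σ ζ hζ.pow_eq_one, zp, ZMod.val_natCast, ← pow_mod_orderOf, ← hζ.eq_orderOf]

namespace CY

variable {p : ℕ} {ζ : Qb} {x : GQ → ZMod p} (C : CY p ζ x)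
include C

theorem zp_natCast (n : ℕ) : zp (p := p) ζ n = ζ ^ n := by
  rw [zp, ZMod.val_natCast, C.prim.eq_orderOf, pow_mod_orderOf]

theorem zp_add (a b : ZMod p) : zp ζ (a + b) = zp ζ a * zp ζ b := by
  have : NeZero p := ⟨C.prime.ne_zero⟩
  rw [← ZMod.natCast_zmod_val a, ← ZMod.natCast_zmod_val b, ← Nat.cast_add, C.zp_natCast,
    C.zp_natCast, C.zp_natCast, pow_add]

theorem zp_zero : zp ζ (0 : ZMod p) = 1 := by rw [zp, ZMod.val_zero, pow_zero]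

theorem zp_ne (a : ZMod p) : zp ζ a ≠ 0 := pow_ne_zero _ (C.prim.ne_zero C.prime.ne_zero)

theorem zp_one : zp ζ (1 : ZMod p) = ζ := by
  have := C.zp_natCast 1
  rwa [Nat.cast_one, pow_one] at this

theorem zp_pow (a : ZMod p) : zp ζ a ^ p = 1 := by
  rw [zp, ← pow_mul, mul_comm, pow_mul, C.prim.pow_eq_one, one_pow]

theorem zp_neg (a : ZMod p) : zp ζ (-a) = (zp ζ a)⁻¹ := by
  apply eq_inv_of_mul_eq_one_left
  rw [← C.zp_add, neg_add_cancel, C.zp_zero]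

theorem zp_inj {a b : ZMod p} (h : zp ζ a = zp ζ b) : a = b := by
  have : NeZero p := ⟨C.prime.ne_zero⟩
  exact ZMod.val_injective p (C.prim.pow_inj (ZMod.val_lt a) (ZMod.val_lt b) h)

theorem zp_mul (a b : ZMod p) : zp ζ (a * b) = zp ζ b ^ a.val := by
  have : NeZero p := ⟨C.prime.ne_zero⟩
  rw [← ZMod.natCast_zmod_val a, ← ZMod.natCast_zmod_val b, ← Nat.cast_mul, C.zp_natCast,
    C.zp_natCast, ZMod.natCast_zmod_val, mul_comm, pow_mul]

theorem act_zp (σ : GQ) (a : ZMod p) : σ (zp ζ a) = zp ζ (x σ * a) := by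
  have : NeZero p := ⟨C.prime.ne_zero⟩
  rw [mul_comm, C.zp_mul, ← C.act, zp, map_pow]

theorem zp_surj {y : Qb} (hy : y ^ p = 1) : ∃ a : ZMod p, y = zp ζ a := by
  have : NeZero p := ⟨C.prime.ne_zero⟩
  obtain ⟨i, hi, hi'⟩ := C.prim.eq_pow_of_pow_eq_one hy
  exact ⟨(i : ZMod p), by rw [C.zp_natCast, hi']⟩

theorem x_mul (σ τ : GQ) : x (σ * τ) = x σ * x τ := by
  apply C.zp_inj
  rw [← C.act, AlgEquiv.mul_apply, C.act τ, C.act_zp]

theorem x_one : x 1 = 1 := by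
  apply C.zp_inj
  rw [← C.act, AlgEquiv.one_apply, C.zp_one]

theorem x_ne (σ : GQ) : x σ ≠ 0 := by
  have hf : Fact p.Prime := ⟨C.prime⟩
  intro h
  have h1 := C.x_mul σ σ⁻¹
  rw [mul_inv_cancel, C.x_one, h, zero_mul] at h1
  exact one_ne_zero h1

theorem x_spec (σ : GQ) {n : ℕ} (h : ∀ y : Qb, y ^ p = 1 → σ y = y ^ n) : x σ = n := by
  apply C.zp_inj
  rw [← C.act, h ζ C.prim.pow_eq_one, C.zp_natCast]

end CY

/-- `u` is a Kummer generator for `b` on `J` -/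
def Km {p : ℕ} (J : Subgroup GQ) (ζ : Qb) (b : GQ → ZMod p) (u : Qb) : Prop :=
  u ≠ 0 ∧ ∀ σ ∈ J, σ u = zp ζ (b σ) * u

section Km

variable {p : ℕ} {ζ : Qb} {x : GQ → ZMod p} (C : CY p ζ x) {J : Subgroup GQ}
include C

theorem exists_Km {b : GQ → ZMod p} (hb : ∀ σ ∈ J, ∀ τ ∈ J, b (σ * τ) = b σ + x σ * b τ)
    {U : Subgroup GQ} (hU : IsOpen (U : Set GQ)) (hbU : ∀ σ ∈ J, σ ∈ U → b σ = 0) :
    ∃ u, Km J ζ b u := by
  obtain ⟨u, hu0, hu⟩ := H12.hilbert90' J (fun σ => zp ζ (b σ)) (fun σ _ => C.zp_ne _)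
    (fun σ hσ τ hτ => by
      rw [hb σ hσ τ hτ, C.zp_add, C.act_zp]) U hU
    (fun σ hσ hσU => by
      rw [hbU σ hσ hσU, C.zp_zero])
  exact ⟨u, hu0, hu⟩

theorem Km.mul {b b' : GQ → ZMod p} {u u' : Qb} (h : Km J ζ b u) (h' : Km J ζ b' u') :
    Km J ζ (fun σ => b σ + b' σ) (u * u') := by
  refine ⟨mul_ne_zero h.1 h'.1, fun σ hσ => ?_⟩
  rw [map_mul, h.2 σ hσ, h'.2 σ hσ, C.zp_add]
  ring

theorem Km.mul_fixed {b : GQ → ZMod p} {u t : Qb} (h : Km J ζ b u) (ht : t ≠ 0)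
    (htf : ∀ σ ∈ J, σ t = t) : Km J ζ b (u * t) := by
  refine ⟨mul_ne_zero h.1 ht, fun σ hσ => ?_⟩
  rw [map_mul, h.2 σ hσ, htf σ hσ]
  ring

theorem Km.neg {b : GQ → ZMod p} {u : Qb} (h : Km J ζ b u) :
    Km J ζ (fun σ => - b σ) u⁻¹ := by
  refine ⟨inv_ne_zero h.1, fun σ hσ => ?_⟩
  rw [map_inv₀, h.2 σ hσ, C.zp_neg, mul_inv]

theorem Km.pow_fixed {b : GQ → ZMod p} {u : Qb} (h : Km J ζ b u) :
    ∀ σ ∈ J, σ (u ^ p) = u ^ p := by
  intro σ hσ
  rw [map_pow, h.2 σ hσ, mul_pow, C.zp_pow, one_mul]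

theorem Km.div_fixed {b : GQ → ZMod p} {u u' : Qb} (h : Km J ζ b u) (h' : Km J ζ b u') :
    ∀ σ ∈ J, σ (u' / u) = u' / u := by
  intro σ hσ
  rw [map_div₀, h.2 σ hσ, h'.2 σ hσ, mul_div_mul_left _ _ (C.zp_ne _)]

theorem Km.conj {b : GQ → ZMod p} {u : Qb} (h : Km J ζ b u) {g : GQ}
    (hg : ∀ σ ∈ J, g⁻¹ * σ * g ∈ J) :
    Km J ζ (fun σ => x g * b (g⁻¹ * σ * g)) (g u) := by
  refine ⟨(map_ne_zero g).2 h.1, fun σ hσ => ?_⟩
  have h1 : σ (g u) = g ((g⁻¹ * σ * g) u) := by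
    rw [← AlgEquiv.mul_apply, ← AlgEquiv.mul_apply]
    congr 1
    group
  rw [h1, h.2 _ (hg σ hσ), map_mul, C.act_zp]

end Km

/-- the class of `b` has a Kummer generator whose `p`-th power is `1` to order `t` -/
def KL {p : ℕ} (w : Qb → ℝ) (J : Subgroup GQ) (ζ : Qb) (t : ℝ) (b : GQ → ZMod p) : Prop :=
  ∃ u, Km J ζ b u ∧ Bl w t (u ^ p - 1)

/-- leading coefficient -/
def KR {p : ℕ} (w : Qb → ℝ) (J : Subgroup GQ) (ζ π : Qb) (e j : ℕ) (b : GQ → ZMod p) (r : Qb) :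
    Prop :=
  ∃ u, Km J ζ b u ∧ Bs w (j / e) (u ^ p - 1 - r * π ^ j)

theorem one_add_pow_prime {R : Type*} [CommRing R] {p : ℕ} (hp : p.Prime) (s : R) :
    ∃ c : R, (1 + s) ^ p = 1 + s ^ p + p * s + p * s ^ 2 * c := by
  have h1 : ∀ m ∈ Finset.Ico 2 p, s ^ m * (p.choose m : R) =
      p * s ^ 2 * (s ^ (m - 2) * (p.choose m / p : ℕ)) := by
    intro m hm
    rw [Finset.mem_Ico] at hm
    have h2 : p ∣ p.choose m := hp.dvd_choose_self (by omega) hm.2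
    have h3 : (p.choose m : R) = (p : R) * ((p.choose m / p : ℕ) : R) := by
      rw [← Nat.cast_mul, Nat.mul_div_cancel' h2]
    have h4 : s ^ m = s ^ 2 * s ^ (m - 2) := by
      rw [← pow_add]
      congr 1
      omega
    rw [h3, h4]
    ring
  refine ⟨∑ m ∈ Finset.Ico 2 p, s ^ (m - 2) * (p.choose m / p : ℕ), ?_⟩
  rw [add_comm 1 s, add_pow, Finset.sum_range_succ, Finset.range_eq_Ico,
    Finset.sum_eq_sum_Ico_succ_bot hp.pos, Finset.sum_eq_sum_Ico_succ_bot hp.one_lt,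
    Finset.mul_sum]
  simp only [one_pow, mul_one, pow_zero, Nat.choose_zero_right, Nat.cast_one, Nat.sub_self,
    Nat.choose_self, pow_one, Nat.choose_one_right]
  rw [Finset.sum_congr rfl h1]
  ring

namespace PL

open NVal

variable {A : ValuationSubring Qb} {p : ℕ} {w : Qb → ℝ} (P : PL p A w)
include P

/-- `(1 + s)^p = 1 + s^p + p s c` -/
theorem one_add_pow {s : Qb} (hs : Bl w 0 s) :
    ∃ c, Bl w 0 c ∧ (1 + s) ^ p = 1 + s ^ p + p * s * c := by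
  have hsA : s ∈ A := P.nv.mem_iff.2 hs
  obtain ⟨c, hc⟩ := exists_add_pow_prime_eq P.prime (1 : A) (⟨s, hsA⟩ : A)
  refine ⟨c, P.nv.mem_iff.1 c.2, ?_⟩
  have h := congrArg (fun z : A => (z : Qb)) hc
  push_cast at h
  rw [one_pow, mul_one] at h
  exact h

theorem pow_sub_one_unit {t : Qb} (ht : Bs w 0 (t ^ p - 1)) : t ≠ 0 ∧ w t = 0 := by
  have h1 := P.nv.unit_of_Bs (x := t ^ p) one_ne_zero P.nv.log.one ht
  have h2 : t ≠ 0 := fun h0 => h1.1 (by rw [h0, zero_pow P.prime.ne_zero])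
  refine ⟨h2, ?_⟩
  have h3 := P.nv.w_pow h2 p
  rw [h1.2] at h3
  exact (mul_eq_zero.1 h3.symm).resolve_left (Nat.cast_ne_zero.2 P.prime.ne_zero)

/-- `t ^ p ≡ 1` implies `t ≡ 1` -/
theorem sub_one_of_pow {t : Qb} (ht : Bs w 0 (t ^ p - 1)) : Bs w 0 (t - 1) := by
  obtain ⟨h0, hw⟩ := P.pow_sub_one_unit ht
  have hs : Bl w 0 (t - 1) := P.nv.sub (Or.inr hw.ge) P.nv.one
  obtain ⟨c, hc, h⟩ := P.one_add_pow hs
  rw [add_sub_cancel] at h
  have h1 : Bs w 0 ((t - 1) ^ p) := by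
    have h2 : (t - 1) ^ p = (t ^ p - 1) - p * ((t - 1) * c) := by rw [h]; ring
    rw [h2]
    refine P.nv.Bs_sub ht (P.nv.Bs_mul_right P.Bs_p (P.nv.mul_left hs hc))
  by_cases ht1 : t - 1 = 0
  · exact Or.inl ht1
  right
  rcases h1 with h2 | h2
  · exact absurd (pow_eq_zero_iff P.prime.ne_zero |>.1 h2) ht1
  · rw [P.nv.w_pow ht1] at h2
    have : (0 : ℝ) < p := Nat.cast_pos.2 P.prime.pos
    exact (mul_pos_iff_of_pos_left this).1 h2

end PL

namespace UF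

open NVal

variable {A : ValuationSubring Qb} {p : ℕ} {w : Qb → ℝ}
  {J : Subgroup GQ} {e : ℕ} {π : Qb}

/-- levels of `p`-th powers -/
theorem pow_level (P : PL p A w) (U : UF p A w J e π) {t : Qb} (ht : ∀ σ ∈ J, σ t = t) {j : ℕ}
    (hj0 : 0 < j) (hpj : ¬ p ∣ j) (hj : j * (p - 1) < p * e) (h : Bl w (j / e) (t ^ p - 1)) :
    Bs w (j / e) (t ^ p - 1) := by
  have he := U.e_pos'
  have hje : (0 : ℝ) < j / e := div_pos (Nat.cast_pos.2 hj0) he
  have h0 : Bs w 0 (t ^ p - 1) := Bs_of h hje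
  have h1 := P.sub_one_of_pow h0
  by_cases htp : t ^ p - 1 = 0
  · exact Or.inl htp
  by_cases ht1 : t - 1 = 0
  · rw [sub_eq_zero.1 ht1, one_pow, sub_self]; exact Bs_zero _
  have hws := h1.resolve_left ht1
  obtain ⟨i, hi⟩ := U.val (t - 1) ht1 (fun σ hσ => by rw [map_sub, ht σ hσ, map_one])
  have hi0 : 0 < i := by
    rw [hi, div_pos_iff_of_pos_right he] at hws
    exact_mod_cast hws
  obtain ⟨i, rfl⟩ := Int.eq_ofNat_of_zero_le hi0.le
  rw [Int.cast_natCast] at hi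
  obtain ⟨c, hc, h2⟩ := P.one_add_pow (Bs_bl h1)
  rw [add_sub_cancel] at h2
  have h3 : t ^ p - 1 = (t - 1) ^ p + p * (t - 1) * c := by rw [h2]; ring
  have h4 : Bl w (1 + i / e) (p * (t - 1) * c) :=
    P.nv.mul_right (P.nv.mul P.Bl_p (Or.inr hi.ge)) hc
  have h5 : (t - 1) ^ p ≠ 0 := pow_ne_zero _ ht1
  have h6 : w ((t - 1) ^ p) = p * i / e := by rw [P.nv.w_pow ht1, hi]; ring
  rcases h with h | h
  · exact Or.inl h
  rcases h.lt_or_eq with h7 | h7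
  · exact Or.inr h7
  exfalso
  have hp1 : 1 ≤ p := P.prime.one_lt.le
  rcases lt_or_ge (p * i) (e + i) with h8 | h8
  · -- `w (t^p - 1) = p i / e`
    have h9 : w (t ^ p - 1) = p * i / e := by
      rw [h3]
      have h10 : Bs w (w ((t - 1) ^ p)) ((t - 1) ^ p + p * (t - 1) * c - (t - 1) ^ p) := by
        rw [add_sub_cancel_left, h6]
        refine Bs_of h4 ?_
        have : ((p * i : ℕ) : ℝ) < ((e + i : ℕ) : ℝ) := Nat.cast_lt.2 h8
        push_cast at this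
        rw [div_lt_iff₀ he, add_mul, one_mul, div_mul_cancel₀ _ U.e_ne]
        exact this
      rw [(P.nv.w_eq_of_Bs_sub h5 h10).2, h6]
    rw [h9, div_left_inj' U.e_ne] at h7
    have h10 : j = p * i := by exact_mod_cast h7
    exact hpj ⟨i, h10⟩
  · have h9 : Bl w ((e + i : ℕ) / e) (t ^ p - 1) := by
      rw [h3]
      refine P.nv.add (Or.inr ?_) (mono ?_ h4)
      · rw [h6, div_le_div_iff_of_pos_right he]
        exact_mod_cast h8
      · push_cast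
        rw [add_div, div_self U.e_ne]
    have h10 : t ^ p - 1 ≠ 0 := htp
    have h11 := h9.resolve_left h10
    rw [← h7, div_le_div_iff_of_pos_right he] at h11
    have h12 : e + i ≤ j := by exact_mod_cast h11
    obtain ⟨q, rfl⟩ : ∃ q, p = q + 1 := ⟨p - 1, (Nat.sub_add_cancel hp1).symm⟩
    rw [Nat.add_sub_cancel] at hj
    have h13 : e ≤ i * q := by nlinarith
    nlinarith

/-- comparison of Kummer generators of the same class -/
theorem KR_unique (P : PL p A w) (U : UF p A w J e π) {ζ : Qb} {x : GQ → ZMod p} (C : CY p ζ x)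
    {j : ℕ} (hj0 : 0 < j) (hpj : ¬ p ∣ j) (hj : j * (p - 1) < p * e) {b : GQ → ZMod p}
    {r r' : Qb} (hr : Bl w 0 r) (hr' : Bl w 0 r')
    (h : KR w J ζ π e j b r) (h' : KR w J ζ π e j b r') : Bs w 0 (r - r') := by
  have he := U.e_pos'
  have hje : (0 : ℝ) < j / e := div_pos (Nat.cast_pos.2 hj0) he
  obtain ⟨u, hu, hur⟩ := h
  obtain ⟨u', hu', hur'⟩ := h'
  have hπj := U.Bl_pow P j
  have h1 : Bl w (j / e) (u ^ p - 1) := by
    have := P.nv.add (Bs_bl hur) (P.nv.mul_left hr hπj)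
    rwa [sub_add_cancel] at this
  have h1' : Bl w (j / e) (u' ^ p - 1) := by
    have := P.nv.add (Bs_bl hur') (P.nv.mul_left hr' hπj)
    rwa [sub_add_cancel] at this
  obtain ⟨hup, hwup⟩ := P.nv.unit_of_Bs (x := u ^ p) one_ne_zero P.nv.log.one (Bs_of h1 hje)
  have h2 : u' ^ p - u ^ p = u ^ p * ((u' / u) ^ p - 1) := by
    rw [div_pow, mul_sub, mul_div_cancel₀ _ hup, mul_one]
  have h3 : Bl w (j / e) ((u' / u) ^ p - 1) := by
    have h4 : (u' / u) ^ p - 1 = (u' ^ p - u ^ p) / u ^ p := by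
      rw [h2, mul_div_cancel_left₀ _ hup]
    rw [h4]
    have h5 : Bl w (j / e) (u' ^ p - u ^ p) := by
      have := P.nv.sub h1' h1
      rwa [sub_sub_sub_cancel_right] at this
    have := P.nv.Bl_div hup h5
    rwa [hwup, sub_zero] at this
  have h4 := U.pow_level P (Km.div_fixed C hu hu') hj0 hpj hj h3
  have h5 : Bs w (j / e) (u' ^ p - u ^ p) := by
    rw [h2]
    exact P.nv.Bs_mul_left (Or.inr hwup.ge) h4
  have h6 : (r - r') = ((u' ^ p - u ^ p) + ((u ^ p - 1 - r * π ^ j) -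
      (u' ^ p - 1 - r' * π ^ j))) / π ^ j * (-1) := by
    have : π ^ j ≠ 0 := pow_ne_zero _ U.ne
    field_simp
    ring
  rw [h6]
  have h7 := P.nv.Bs_div (pow_ne_zero j U.ne) (P.nv.Bs_add h5 (P.nv.Bs_sub hur hur'))
  rw [U.w_pow P, sub_self] at h7
  rw [mul_neg_one]
  exact P.nv.Bs_neg h7

theorem KR_congr (P : PL p A w) (U : UF p A w J e π) {ζ : Qb} {j : ℕ} {b : GQ → ZMod p}
    {r r' : Qb} (h : KR w J ζ π e j b r) (hr : Bs w 0 (r - r')) : KR w J ζ π e j b r' := by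
  obtain ⟨u, hu, hur⟩ := h
  refine ⟨u, hu, ?_⟩
  have h1 : u ^ p - 1 - r' * π ^ j = (u ^ p - 1 - r * π ^ j) + (r - r') * π ^ j := by ring
  rw [h1]
  have h2 := P.nv.Bs_mul' hr (U.Bl_pow P j)
  rw [zero_add] at h2
  exact P.nv.Bs_add hur h2

theorem KR_exists (P : PL p A w) (U : UF p A w J e π) {ζ : Qb} {j : ℕ} {b : GQ → ZMod p}
    (h : KL w J ζ (j / e) b) : ∃ r, Te p r ∧ KR w J ζ π e j b r := by
  obtain ⟨u, hu, hur⟩ := h
  obtain ⟨r, hr, hr1⟩ := U.approx P (n := j) (x := u ^ p - 1) (by rw [Int.cast_natCast]; exact hur)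
  rw [zpow_natCast, Int.cast_natCast] at hr1
  exact ⟨r, hr, u, hu, hr1⟩

theorem KL_of_KR (P : PL p A w) (U : UF p A w J e π) {ζ : Qb} {j : ℕ} {b : GQ → ZMod p} {r : Qb}
    (hr : Bl w 0 r) (h : KR w J ζ π e j b r) : KL w J ζ (j / e) b := by
  obtain ⟨u, hu, hur⟩ := h
  refine ⟨u, hu, ?_⟩
  have := P.nv.add (Bs_bl hur) (P.nv.mul_left hr (U.Bl_pow P j))
  rwa [sub_add_cancel] at this

theorem KL_succ (P : PL p A w) (U : UF p A w J e π) {ζ : Qb} {x : GQ → ZMod p} (C : CY p ζ x)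
    {j : ℕ} {b : GQ → ZMod p} (h : KR w J ζ π e j b 0) : KL w J ζ ((j + 1 : ℕ) / e) b := by
  obtain ⟨u, hu, hur⟩ := h
  rw [zero_mul, sub_zero] at hur
  refine ⟨u, hu, U.step' P (fun σ hσ => ?_) hur⟩
  rw [map_sub, Km.pow_fixed C hu σ hσ, map_one]

theorem KR_add (P : PL p A w) (U : UF p A w J e π) {ζ : Qb} {x : GQ → ZMod p} (C : CY p ζ x)
    {j : ℕ} (hj0 : 0 < j) {b b' : GQ → ZMod p} {r r' : Qb} (hr : Bl w 0 r) (hr' : Bl w 0 r')
    (h : KR w J ζ π e j b r) (h' : KR w J ζ π e j b' r') :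
    KR w J ζ π e j (fun σ => b σ + b' σ) (r + r') := by
  have he := U.e_pos'
  have hje : (0 : ℝ) < j / e := div_pos (Nat.cast_pos.2 hj0) he
  obtain ⟨u, hu, hur⟩ := h
  obtain ⟨u', hu', hur'⟩ := h'
  refine ⟨u * u', Km.mul C hu hu', ?_⟩
  have hπj := U.Bl_pow P j
  have h1 : Bl w (j / e) (u ^ p - 1) := by
    have := P.nv.add (Bs_bl hur) (P.nv.mul_left hr hπj)
    rwa [sub_add_cancel] at this
  have h1' : Bl w (j / e) (u' ^ p - 1) := by
    have := P.nv.add (Bs_bl hur') (P.nv.mul_left hr' hπj)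
    rwa [sub_add_cancel] at this
  have h2 : (u * u') ^ p - 1 - (r + r') * π ^ j = (u ^ p - 1) * (u' ^ p - 1) +
      ((u ^ p - 1 - r * π ^ j) + (u' ^ p - 1 - r' * π ^ j)) := by
    rw [mul_pow]; ring
  rw [h2]
  refine P.nv.Bs_add (Bs_of (P.nv.mul h1 h1') (by linarith)) (P.nv.Bs_add hur hur')

/-- conjugation by elements of the decomposition group -/
theorem KR_conj (P : PL p A w) (U : UF p A w J e π) {ζ : Qb} {x : GQ → ZMod p} (C : CY p ζ x)
    {j : ℕ} {b : GQ → ZMod p} {r : Qb} (h : KR w J ζ π e j b r) {g : GQ}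
    (hgD : g ∈ A.decompositionSubgroup ℚ) (hg : ∀ σ ∈ J, g⁻¹ * σ * g ∈ J) :
    KR w J ζ π e j (fun σ => x g * b (g⁻¹ * σ * g)) (g r * (g π / π) ^ j) := by
  obtain ⟨u, hu, hur⟩ := h
  refine ⟨g u, Km.conj C hu hg, ?_⟩
  have h1 : (g u) ^ p - 1 - g r * (g π / π) ^ j * π ^ j = g (u ^ p - 1 - r * π ^ j) := by
    rw [div_pow, mul_assoc, div_mul_cancel₀ _ (pow_ne_zero j U.ne), map_sub, map_sub, map_mul,
      map_pow, map_pow, map_one]
  rw [h1]
  exact (Bs_smul P.nv hgD).2 hur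

/-- improving the level when `p ∣ j` -/
theorem KL_dvd (P : PL p A w) (U : UF p A w J e π) {ζ : Qb} {x : GQ → ZMod p} (C : CY p ζ x)
    (hp2 : p ≠ 2) {i : ℕ} (hi0 : 0 < i) (hi : i * (p - 1) < e) {b : GQ → ZMod p}
    (h : KL w J ζ ((p * i : ℕ) / e) b) : KL w J ζ ((p * i + 1 : ℕ) / e) b := by
  have he := U.e_pos'
  obtain ⟨r, hr, u, hu, hur⟩ := U.KR_exists P h
  obtain ⟨s, hs, hsr⟩ := P.te_root hr
  have hodd : Odd p := P.prime.odd_of_ne_two hp2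
  have hbs : Bl w (i / e) (-(s * π ^ i)) :=
    P.nv.neg (P.nv.mul_left (P.te_Bl hs) (U.Bl_pow P i))
  have hie : (0 : ℝ) < i / e := div_pos (Nat.cast_pos.2 hi0) he
  obtain ⟨c, hc, h2⟩ := P.one_add_pow (mono hie.le hbs)
  have h3 : (-(s * π ^ i)) ^ p = - (r * π ^ (p * i)) := by
    rw [hodd.neg_pow, mul_pow, hsr, ← pow_mul, mul_comm i p]
  rw [h3] at h2
  have hlt : ((p * i : ℕ) : ℝ) / e < 1 + i / e := by
    have hp1 : 1 ≤ p := P.prime.one_lt.le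
    obtain ⟨q, hq⟩ : ∃ q, p = q + 1 := ⟨p - 1, (Nat.sub_add_cancel hp1).symm⟩
    rw [hq, Nat.add_sub_cancel] at hi
    have h4 : p * i < e + i := by rw [hq]; nlinarith
    have h5 : ((p * i : ℕ) : ℝ) < e + i := by exact_mod_cast h4
    rw [div_lt_iff₀ he, add_mul, one_mul, div_mul_cancel₀ _ U.e_ne]
    exact h5
  have h4 : Bs w ((p * i : ℕ) / e) ((1 + -(s * π ^ i)) ^ p - 1 + r * π ^ (p * i)) := by
    have h5 : (1 + -(s * π ^ i)) ^ p - 1 + r * π ^ (p * i) = p * (-(s * π ^ i)) * c := by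
      rw [h2]; ring
    rw [h5]
    exact Bs_of (P.nv.mul_right (P.nv.mul P.Bl_p hbs) hc) hlt
  obtain ⟨t, ht⟩ : ∃ t, t = 1 + -(s * π ^ i) := ⟨_, rfl⟩
  rw [← ht] at h4
  have htf : ∀ σ ∈ J, σ t = t := by
    intro σ hσ
    rw [ht, map_add, map_one, map_neg, map_mul, map_pow, U.fix σ hσ,
      P.te_fixed hs (U.le hσ)]
  have hpie : (0 : ℝ) < ((p * i : ℕ) : ℝ) / e :=
    div_pos (Nat.cast_pos.2 (Nat.mul_pos P.prime.pos hi0)) he
  have h5 : Bl w ((p * i : ℕ) / e) (r * π ^ (p * i)) :=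
    P.nv.mul_left (P.te_Bl hr) (U.Bl_pow P _)
  have h6 : Bl w ((p * i : ℕ) / e) (t ^ p - 1) := by
    have := P.nv.sub (Bs_bl h4) h5
    rwa [add_sub_cancel_right] at this
  have h7 : Bl w ((p * i : ℕ) / e) (u ^ p - 1) := by
    have := P.nv.add (Bs_bl hur) h5
    rwa [sub_add_cancel] at this
  obtain ⟨ht0, hwt⟩ := P.pow_sub_one_unit (Bs_of h6 hpie)
  have hu' := Km.mul_fixed C hu ht0 htf
  refine ⟨u * t, hu', ?_⟩
  refine U.step' P (fun σ hσ => by rw [map_sub, Km.pow_fixed C hu' σ hσ, map_one]) ?_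
  have h8 : (u * t) ^ p - 1 = (u ^ p - 1) * (t ^ p - 1) + ((u ^ p - 1 - r * π ^ (p * i)) +
      (t ^ p - 1 + r * π ^ (p * i))) := by
    rw [mul_pow]; ring
  rw [h8]
  exact P.nv.Bs_add (Bs_of (P.nv.mul h7 h6) (by linarith)) (P.nv.Bs_add hur h4)

/-- improving the level at the top `j = p e / (p - 1)` -/
theorem KL_top (P : PL p A w) (U : UF p A w J e π) {ζ : Qb} {x : GQ → ZMod p} (C : CY p ζ x)
    (hπe : π ^ e = p) {i : ℕ} (hi : i * (p - 1) = e) {b : GQ → ZMod p}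
    (h : KL w J ζ ((p * i : ℕ) / e) b) : KL w J ζ ((p * i + 1 : ℕ) / e) b := by
  have he := U.e_pos'
  have hi0 : 0 < i := by
    rcases Nat.eq_zero_or_pos i with h0 | h0
    · rw [h0, zero_mul] at hi
      exact absurd hi.symm U.e_pos.ne'
    · exact h0
  obtain ⟨r, hr, u, hu, hur⟩ := U.KR_exists P h
  -- solve `X ^ p + X + r = 0`
  obtain ⟨s0, hs0⟩ : ∃ s0 : Qb, s0 ^ p + s0 + r = 0 := by
    obtain ⟨s0, hs0⟩ := IsAlgClosed.exists_root
      (Polynomial.X ^ p + Polynomial.X + Polynomial.C r : Polynomial Qb) (by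
        have h1 : (Polynomial.X ^ p + Polynomial.X + Polynomial.C r : Polynomial Qb) =
          Polynomial.X ^ p + (Polynomial.X + Polynomial.C r) := by ring
        rw [h1, Polynomial.degree_add_eq_left_of_degree_lt]
        · rw [Polynomial.degree_X_pow]
          exact_mod_cast P.prime.ne_zero
        · rw [Polynomial.degree_X_pow, Polynomial.degree_X_add_C]
          exact_mod_cast P.prime.one_lt)
    refine ⟨s0, ?_⟩
    simpa using hs0
  have hs0b : Bl w 0 s0 := by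
    by_contra hcon
    have hs00 : s0 ≠ 0 := fun h0 => hcon (Or.inl h0)
    have hneg : w s0 < 0 := by
      by_contra h1
      exact hcon (Or.inr (not_lt.1 h1))
    have h1 : Bl w (w s0) (s0 + r) := P.nv.add (Or.inr le_rfl) (mono hneg.le (P.te_Bl hr))
    have h2 : s0 ^ p = - (s0 + r) := by linear_combination hs0
    have h3 : Bl w (w s0) (s0 ^ p) := by rw [h2]; exact P.nv.neg h1
    have h4 := h3.resolve_left (pow_ne_zero _ hs00)
    rw [P.nv.w_pow hs00] at h4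
    have hp1 : (1 : ℝ) < p := by exact_mod_cast P.prime.one_lt
    nlinarith
  obtain ⟨s, hs, hss⟩ := P.te_exists hs0b
  have hsr : Bs w 0 (s ^ p + s + r) := by
    have h1 : s ^ p + s + r = (s ^ p - s0 ^ p) + (s - s0) := by linear_combination hs0
    rw [h1]
    refine P.nv.Bs_add ?_ (P.nv.Bs_comm hss)
    rw [← geom_sum₂_mul]
    refine P.nv.Bs_mul_left (P.nv.sum _ _ fun m _ => ?_) (P.nv.Bs_comm hss)
    have h2 := P.nv.pow (P.te_Bl hs) m
    have h3 := P.nv.pow hs0b (p - 1 - m)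
    rw [mul_zero] at h2 h3
    exact P.nv.mul_left h2 h3
  have hie : (0 : ℝ) < i / e := div_pos (Nat.cast_pos.2 hi0) he
  have hbs : Bl w (i / e) (s * π ^ i) := P.nv.mul_left (P.te_Bl hs) (U.Bl_pow P i)
  have hsA : s * π ^ i ∈ A := P.nv.mem_iff.2 (mono hie.le hbs)
  have heq : e + i = p * i := by
    have hp1 : 1 ≤ p := P.prime.one_lt.le
    obtain ⟨q, hq⟩ : ∃ q, p = q + 1 := ⟨p - 1, (Nat.sub_add_cancel hp1).symm⟩
    rw [hq, Nat.add_sub_cancel] at hi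
    rw [hq, ← hi]; ring
  obtain ⟨c, hc, h2⟩ : ∃ c, Bl w 0 c ∧ (1 + s * π ^ i) ^ p =
      1 + (s * π ^ i) ^ p + p * (s * π ^ i) + p * (s * π ^ i) ^ 2 * c := by
    obtain ⟨c, hc⟩ := one_add_pow_prime P.prime (⟨s * π ^ i, hsA⟩ : A)
    refine ⟨c, P.nv.mem_iff.1 c.2, ?_⟩
    have h := congrArg (fun z : A => (z : Qb)) hc
    push_cast at h
    exact h
  obtain ⟨t, ht⟩ : ∃ t, t = 1 + s * π ^ i := ⟨_, rfl⟩
  rw [← ht] at h2
  have htf : ∀ σ ∈ J, σ t = t := by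
    intro σ hσ
    rw [ht, map_add, map_one, map_mul, map_pow, U.fix σ hσ, P.te_fixed hs (U.le hσ)]
  have hpie : (0 : ℝ) < ((p * i : ℕ) : ℝ) / e :=
    div_pos (Nat.cast_pos.2 (Nat.mul_pos P.prime.pos hi0)) he
  have h3 : t ^ p - 1 - (s ^ p + s) * π ^ (p * i) = p * (s * π ^ i) ^ 2 * c := by
    rw [h2, mul_pow s (π ^ i) p, ← pow_mul, mul_comm i p]
    have h4 : (p : Qb) * (s * π ^ i) = s * π ^ (p * i) := by
      rw [← hπe, ← heq, pow_add]; ring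
    rw [h4]; ring
  have h4 : Bs w ((p * i : ℕ) / e) (t ^ p - 1 - (s ^ p + s) * π ^ (p * i)) := by
    rw [h3]
    have h5 := P.nv.mul_right (P.nv.mul P.Bl_p (P.nv.pow hbs 2)) hc
    refine Bs_of h5 ?_
    rw [← heq]
    push_cast
    rw [add_div, div_self U.e_ne]
    linarith
  have h5 : Bl w ((p * i : ℕ) / e) (r * π ^ (p * i)) :=
    P.nv.mul_left (P.te_Bl hr) (U.Bl_pow P _)
  have hsps : Bl w 0 (s ^ p + s) :=
    P.nv.add (P.te_Bl (P.te_pow hs p)) (P.te_Bl hs)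
  have h6 : Bl w ((p * i : ℕ) / e) (t ^ p - 1) := by
    have := P.nv.add (Bs_bl h4) (P.nv.mul_left hsps (U.Bl_pow P (p * i)))
    rwa [sub_add_cancel] at this
  have h7 : Bl w ((p * i : ℕ) / e) (u ^ p - 1) := by
    have := P.nv.add (Bs_bl hur) h5
    rwa [sub_add_cancel] at this
  obtain ⟨ht0, hwt⟩ := P.pow_sub_one_unit (Bs_of h6 hpie)
  have hu' := Km.mul_fixed C hu ht0 htf
  refine ⟨u * t, hu', ?_⟩
  refine U.step' P (fun σ hσ => by rw [map_sub, Km.pow_fixed C hu' σ hσ, map_one]) ?_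
  have h8 : (u * t) ^ p - 1 = (u ^ p - 1) * (t ^ p - 1) + ((u ^ p - 1 - r * π ^ (p * i)) +
      (t ^ p - 1 - (s ^ p + s) * π ^ (p * i))) + (s ^ p + s + r) * π ^ (p * i) := by
    rw [mul_pow]; ring
  rw [h8]
  have h9 := P.nv.Bs_mul' hsr (U.Bl_pow P (p * i))
  rw [zero_add] at h9
  exact P.nv.Bs_add (P.nv.Bs_add (Bs_of (P.nv.mul h7 h6) (by linarith)) (P.nv.Bs_add hur h4)) h9

/-- above the top level the class is trivial -/
theorem trivial_of_level (P : PL p A w) {ζ : Qb} {x : GQ → ZMod p} (C : CY p ζ x)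
    (hJ : J ≤ A.decompositionSubgroup ℚ) {t : ℝ} (ht : (p : ℝ) / (p - 1) < t)
    {b : GQ → ZMod p} (h : KL w J ζ t b) : ∃ a : ZMod p, ∀ σ ∈ J, b σ = x σ * a - a := by
  obtain ⟨u, hu, hur⟩ := h
  obtain ⟨z, hz, hzf, -⟩ := P.nv.exists_root P.prime hJ (Km.pow_fixed C hu) ht hur
  have hz0 : z ≠ 0 := by
    rintro rfl
    rw [zero_pow P.prime.ne_zero] at hz
    exact pow_ne_zero _ hu.1 hz.symm
  obtain ⟨a, ha⟩ := C.zp_surj (y := u / z) (by
    rw [div_pow, hz, div_self (pow_ne_zero _ hu.1)])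
  refine ⟨a, fun σ hσ => ?_⟩
  have h1 : u = zp ζ a * z := by rw [← ha, div_mul_cancel₀ _ hz0]
  have h2 := hu.2 σ hσ
  rw [h1, map_mul, C.act_zp, hzf σ hσ, ← mul_assoc] at h2
  have h3 := mul_right_cancel₀ hz0 h2
  rw [← C.zp_add] at h3
  have h4 := C.zp_inj h3
  rw [h4, add_sub_cancel_right]

/-- starting the induction on levels -/
theorem KL_one (P : PL p A w) (U : UF p A w J e π) {ζ : Qb} {x : GQ → ZMod p} (C : CY p ζ x)
    {b : GQ → ZMod p} {u : Qb} (hu : Km J ζ b u) {n : ℤ} (hn : w u = n / e) :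
    KL w J ζ ((1 : ℕ) / e) b := by
  have hπn : π ^ n ≠ 0 := zpow_ne_zero _ U.ne
  have hu1 := Km.mul_fixed C hu (t := (π ^ n)⁻¹) (inv_ne_zero hπn)
    (fun σ hσ => by rw [map_inv₀, U.fix_zpow n hσ])
  obtain ⟨v, hv⟩ : ∃ v, v = u * (π ^ n)⁻¹ := ⟨_, rfl⟩
  rw [← hv] at hu1
  have hv0 : v ≠ 0 := hu1.1
  have hwv : w v = 0 := by
    rw [hv, ← div_eq_mul_inv, P.nv.w_div hu.1 hπn, U.w_zpow P, hn, sub_self]
  obtain ⟨r, hr, hr1⟩ := P.te_exists (x := v) (Or.inr hwv.ge)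
  have hr0 : r ≠ 0 := by
    rintro rfl
    rw [sub_zero] at hr1
    rcases hr1 with h | h
    · exact hv0 h
    · rw [hwv] at h; exact lt_irrefl _ h
  have hwr := P.te_w hr hr0
  have hu2 := Km.mul_fixed C hu1 (t := r⁻¹) (inv_ne_zero hr0)
    (fun σ hσ => by rw [map_inv₀, P.te_fixed hr (U.le hσ)])
  refine ⟨v * r⁻¹, hu2, ?_⟩
  have h1 : Bs w 0 (v * r⁻¹ - 1) := by
    have h2 : v * r⁻¹ - 1 = (v - r) / r := by field_simp
    rw [h2]
    have := P.nv.Bs_div hr0 hr1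
    rwa [hwr, sub_zero] at this
  have h2 : Bs w 0 ((v * r⁻¹) ^ p - 1) := by
    have h3 : (v * r⁻¹) ^ p - 1 = (∑ i ∈ Finset.range p, (v * r⁻¹) ^ i) * (v * r⁻¹ - 1) :=
      (geom_sum_mul _ _).symm
    rw [h3]
    refine P.nv.Bs_mul_left (P.nv.sum _ _ fun i _ => ?_) h1
    have h4 : Bl w 0 (v * r⁻¹) := by
      right
      rw [← div_eq_mul_inv, P.nv.w_div hv0 hr0, hwv, hwr, sub_zero]
    have := P.nv.pow h4 i
    rwa [mul_zero] at this
  have h3 := U.step' P (n := 0) (x := (v * r⁻¹) ^ p - 1)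
    (fun σ hσ => by rw [map_sub, Km.pow_fixed C hu2 σ hσ, map_one])
    (by rw [Nat.cast_zero, zero_div]; exact h2)
  rwa [Nat.zero_add] at h3

end UF

end Fermat.Agent.TW
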