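import Mathlib

/-!
# Solutions of Frobenius-semilinear equations
-/

set_option autoImplicit false

namespace Fermat.Agent.TW

theorem exists_zmod_of_pow_eq {p : ℕ} [Fact p.Prime] {κ : Type*} [Field κ] [Algebra (ZMod p) κ]
    {c : κ} (hc : c ^ p = c) : ∃ a : ZMod p, algebraMap (ZMod p) κ a = c := by
  classical
  have hp : 1 < p := (Fact.out : p.Prime).one_lt
  have hinj : Function.Injective (algebraMap (ZMod p) κ) := (algebraMap (ZMod p) κ).injective
  have hne : (Polynomial.X ^ p - Polynomial.X : Polynomial κ) ≠ 0 :=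
    FiniteField.X_pow_card_sub_X_ne_zero κ hp
  have h1 : (Finset.univ.image (algebraMap (ZMod p) κ)) ⊆
      (Polynomial.X ^ p - Polynomial.X : Polynomial κ).roots.toFinset := by
    intro y hy
    rw [Finset.mem_image] at hy
    obtain ⟨a, -, rfl⟩ := hy
    rw [Multiset.mem_toFinset, Polynomial.mem_roots hne]
    simp only [Polynomial.IsRoot.def, Polynomial.eval_sub, Polynomial.eval_pow, Polynomial.eval_X]
    rw [← map_pow, ZMod.pow_card, sub_self]
  have h2 : (Polynomial.X ^ p - Polynomial.X : Polynomial κ).roots.toFinset.card ≤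
      (Finset.univ.image (algebraMap (ZMod p) κ)).card := by
    rw [Finset.card_image_of_injective _ hinj, Finset.card_univ, ZMod.card]
    refine (Multiset.toFinset_card_le _).trans ((Polynomial.card_roots' _).trans ?_)
    rw [FiniteField.X_pow_card_sub_X_natDegree_eq κ hp]
  have h3 := Finset.eq_of_subset_of_card_le h1 h2
  have h4 : c ∈ (Polynomial.X ^ p - Polynomial.X : Polynomial κ).roots.toFinset := by
    rw [Multiset.mem_toFinset, Polynomial.mem_roots hne]
    simp only [Polynomial.IsRoot.def, Polynomial.eval_sub, Polynomial.eval_pow, Polynomial.eval_X]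
    rw [hc, sub_self]
  rw [← h3, Finset.mem_image] at h4
  obtain ⟨a, -, ha⟩ := h4
  exact ⟨a, ha⟩

theorem mem_span_image_finset {R M ι : Type*} [Semiring R] [AddCommMonoid M] [Module R M]
    (v : ι → M) (s : Finset ι) (x : M) :
    x ∈ Submodule.span R (v '' (s : Set ι)) ↔ ∃ c : ι → R, ∑ i ∈ s, c i • v i = x := by
  classical
  constructor
  · intro h
    rw [Submodule.mem_span_image_finset_iff_exists_fun] at h
    obtain ⟨c, hc⟩ := h
    refine ⟨fun i => if h : i ∈ s then c ⟨i, h⟩ else 0, ?_⟩
    rw [← hc, ← Finset.sum_coe_sort s]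
    refine Finset.sum_congr rfl fun i _ => ?_
    have : (if h : (i : ι) ∈ s then c ⟨i, h⟩ else 0) = c i := dif_pos i.2
    rw [← this]
  · rintro ⟨c, rfl⟩
    exact Submodule.sum_mem _ fun i hi => Submodule.smul_mem _ _
      (Submodule.subset_span ⟨i, hi, rfl⟩)

theorem semilinear_card {p : ℕ} [Fact p.Prime] {κ : Type*} [Field κ] [Algebra (ZMod p) κ]
    {W : Type*} [AddCommGroup W] [Module κ W] [FiniteDimensional κ W] (Φ : W →+ W)
    (hΦ : ∀ (c : κ) (v : W), Φ (c • v) = c ^ p • Φ v) (G : W →ₗ[κ] W)
    (hG : Function.Injective G) (S : AddSubgroup W) (hS : ∀ v ∈ S, Φ v = G v) :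
    Finite S ∧ Nat.card S ≤ p ^ Module.finrank κ W := by
  classical
  let _ : Module (ZMod p) W := Module.compHom W (algebraMap (ZMod p) κ)
  have hsm : ∀ (a : ZMod p) (v : W), a • v = (algebraMap (ZMod p) κ a) • v := fun a v => rfl
  let S' : Submodule (ZMod p) W := AddSubgroup.toZModSubmodule p S
  have hmem : ∀ v, v ∈ S' ↔ v ∈ S := fun v => Iff.rfl
  obtain ⟨ι, ⟨b⟩⟩ : ∃ ι : Type _, Nonempty (Module.Basis ι (ZMod p) S') :=
    ⟨_, ⟨Module.Basis.ofVectorSpace (ZMod p) S'⟩⟩
  have hli : LinearIndependent (ZMod p) (fun i => (b i : W)) :=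
    b.linearIndependent.map' S'.subtype (Submodule.ker_subtype _)
  have hfr : ∀ i, Φ (b i : W) = G (b i : W) := fun i => hS _ ((hmem _).1 (b i).2)
  have hfin : ∀ s : Finset ι, LinearIndepOn κ (fun i => (b i : W)) (s : Set _) := by
    intro s
    induction s using Finset.induction_on with
    | empty => simp
    | insert a s ha ih =>
      rw [Finset.coe_insert, linearIndepOn_insert (by simpa using ha)]
      refine ⟨ih, fun hspan => ?_⟩
      rw [mem_span_image_finset] at hspan
      obtain ⟨c, hc⟩ := hspan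
      have h1 : Φ (b a : W) = ∑ i ∈ s, c i ^ p • Φ (b i : W) := by
        rw [← hc, map_sum]
        exact Finset.sum_congr rfl fun i _ => hΦ _ _
      have h2 : G (b a : W) = G (∑ i ∈ s, c i ^ p • (b i : W)) := by
        rw [← hfr, h1, map_sum]
        refine Finset.sum_congr rfl fun i _ => ?_
        rw [map_smul, hfr]
      have h3 := hG h2
      have h4 : ∑ i ∈ s, (c i ^ p - c i) • (b i : W) = 0 := by
        simp only [sub_smul]
        rw [Finset.sum_sub_distrib, ← h3, hc, sub_self]
      rw [linearIndepOn_finset_iff] at ih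
      have h5 := ih _ h4
      have h6 : ∀ i ∈ s, ∃ y : ZMod p, algebraMap (ZMod p) κ y = c i := fun i hi =>
        exists_zmod_of_pow_eq (sub_eq_zero.1 (h5 i hi))
      choose! y hy using h6
      have h7 : (b a : W) ∈ Submodule.span (ZMod p) ((fun i => (b i : W)) '' (s : Set _)) := by
        rw [mem_span_image_finset]
        refine ⟨y, ?_⟩
        rw [← hc]
        exact Finset.sum_congr rfl fun i hi => by rw [hsm, hy i hi]
      exact hli.notMem_span_image (by simpa using ha) h7
  have hli' : LinearIndependent κ (fun i => (b i : W)) := by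
    rw [← linearIndepOn_univ_iff]
    exact linearIndepOn_of_finite _ (fun t _ hfin' => by
      have := hfin hfin'.toFinset
      rwa [Set.Finite.coe_toFinset] at this)
  have hι : Finite ι := hli'.finite_of_isNoetherian
  have : Fintype ι := Fintype.ofFinite ι
  have h1 := hli'.fintype_card_le_finrank
  have hfd : Module.Finite (ZMod p) S' := Module.Finite.of_basis b
  have hfinS : Finite S' := Module.finite_of_finite (ZMod p)
  refine ⟨hfinS, ?_⟩
  have h2 : Nat.card S' = p ^ Module.finrank (ZMod p) S' := by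
    have := Module.natCard_eq_pow_finrank (K := ZMod p) (V := S')
    rwa [Nat.card_zmod] at this
  change Nat.card S' ≤ _
  rw [h2, Module.finrank_eq_card_basis b]
  exact Nat.pow_le_pow_right (Fact.out : p.Prime).pos h1

/-- additive maps from a finite field to an overfield of the prime field -/
theorem finrank_addHom_le {p : ℕ} [Fact p.Prime] {κ : Type*} [Field κ] [Algebra (ZMod p) κ]
    {k : Type*} [AddCommGroup k] [Module (ZMod p) k] [Finite k] :
    Module.Finite κ (k →+ κ) ∧ p ^ Module.finrank κ (k →+ κ) ≤ Nat.card k := by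
  classical
  have : Fintype k := Fintype.ofFinite k
  have hfd : Module.Finite (ZMod p) k := Module.Finite.of_finite
  let b := Module.finBasis (ZMod p) k
  let ev : (k →+ κ) →ₗ[κ] (Fin (Module.finrank (ZMod p) k) → κ) :=
    { toFun := fun R i => R (b i)
      map_add' := fun _ _ => rfl
      map_smul' := fun _ _ => rfl }
  have hinj : Function.Injective ev := by
    rw [injective_iff_map_eq_zero]
    intro R hR
    have h0 : ∀ i, R (b i) = 0 := fun i => congrFun hR i
    ext z
    have h1 : ∀ (a : ZMod p) (y : k), R (a • y) = a • R y := fun a y => by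
      rw [← ZMod.natCast_zmod_val a, Nat.cast_smul_eq_nsmul, map_nsmul, Nat.cast_smul_eq_nsmul]
    rw [← b.sum_repr z, map_sum, AddMonoidHom.zero_apply]
    exact Finset.sum_eq_zero fun i _ => by rw [h1, h0, smul_zero]
  have hf : Module.Finite κ (k →+ κ) := Module.Finite.of_injective ev hinj
  refine ⟨hf, ?_⟩
  have h2 := LinearMap.finrank_le_finrank_of_injective hinj
  rw [Module.finrank_fin_fun] at h2
  have h3 := Module.natCard_eq_pow_finrank (K := ZMod p) (V := k)
  rw [Nat.card_zmod] at h3
  rw [h3]
  exact Nat.pow_le_pow_right (Fact.out : p.Prime).pos h2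

theorem card_frob_eigen {p : ℕ} [Fact p.Prime] {κ : Type*} [Field κ] [Algebra (ZMod p) κ]
    {k : Type*} [Field k] [Algebra (ZMod p) k] [Finite k] (s : k) (hs : s ≠ 0)
    (S : AddSubgroup (k →+ κ)) (hS : ∀ R ∈ S, ∀ z, (R z) ^ p = R (s * z)) :
    Finite S ∧ Nat.card S ≤ Nat.card k := by
  have hchar : CharP κ p := charP_of_injective_algebraMap (algebraMap (ZMod p) κ).injective p
  have hexp : ExpChar κ p := ExpChar.prime Fact.out
  obtain ⟨hf, hcard⟩ := finrank_addHom_le (p := p) (κ := κ) (k := k)
  let Φ : (k →+ κ) →+ (k →+ κ) :=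
    { toFun := fun R => (frobenius κ p : κ →+ κ).comp R
      map_zero' := by ext z; simp
      map_add' := fun R R' => by ext z; simp }
  let G : (k →+ κ) →ₗ[κ] (k →+ κ) :=
    { toFun := fun R => R.comp (AddMonoidHom.mulLeft s)
      map_add' := fun _ _ => rfl
      map_smul' := fun _ _ => rfl }
  have hG : Function.Injective G := by
    rw [injective_iff_map_eq_zero]
    intro R hR
    ext z
    have h1 : R (s * (s⁻¹ * z)) = 0 := congrArg (fun f : k →+ κ => f (s⁻¹ * z)) hR
    rw [mul_inv_cancel_left₀ hs] at h1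
    exact h1
  obtain ⟨h1, h2⟩ := semilinear_card Φ (by
    intro c R
    ext z
    change (frobenius κ p) (c * R z) = c ^ p * (frobenius κ p) (R z)
    rw [map_mul, frobenius_def, frobenius_def]) G hG S (by
    intro R hR
    ext z
    change (frobenius κ p) (R z) = R (s * z)
    rw [frobenius_def]
    exact hS R hR z)
  exact ⟨h1, h2.trans hcard⟩

end Fermat.Agent.TW
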