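import Fermat.Agent.TW.Kum
import Fermat.Agent.TW.Semi

/-!
# Residues and leading coefficients
-/

set_option autoImplicit false
set_option linter.unusedSectionVars false

namespace Fermat.Agent.TW

open Fermat.Agent.CC
open scoped Pointwise

open Classical in
/-- residue class of an element of `A` (junk value `0` outside) -/
noncomputable def rsd (A : ValuationSubring Qb) (x : Qb) : IsLocalRing.ResidueField A :=
  if h : x ∈ A then IsLocalRing.residue A ⟨x, h⟩ else 0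

namespace PL

open NVal

variable {A : ValuationSubring Qb} {p : ℕ} {w : Qb → ℝ} (P : PL p A w)
include P

theorem rsd_mk {x : Qb} (hx : x ∈ A) : rsd A x = IsLocalRing.residue A ⟨x, hx⟩ := dif_pos hx

theorem rsd_eq_iff {x y : Qb} (hx : Bl w 0 x) (hy : Bl w 0 y) :
    rsd A x = rsd A y ↔ Bs w 0 (x - y) := by
  rw [P.rsd_mk (P.nv.mem_iff.2 hx), P.rsd_mk (P.nv.mem_iff.2 hy), ← sub_eq_zero, ← map_sub,
    IsLocalRing.residue_eq_zero_iff, ← ValuationSubring.coe_mem_nonunits_iff, P.nv.nonunits_iff]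
  rfl

theorem rsd_add {x y : Qb} (hx : Bl w 0 x) (hy : Bl w 0 y) :
    rsd A (x + y) = rsd A x + rsd A y := by
  rw [P.rsd_mk (P.nv.mem_iff.2 hx), P.rsd_mk (P.nv.mem_iff.2 hy),
    P.rsd_mk (P.nv.mem_iff.2 (P.nv.add hx hy)), ← map_add]
  rfl

theorem rsd_mul {x y : Qb} (hx : Bl w 0 x) (hy : Bl w 0 y) :
    rsd A (x * y) = rsd A x * rsd A y := by
  rw [P.rsd_mk (P.nv.mem_iff.2 hx), P.rsd_mk (P.nv.mem_iff.2 hy),
    P.rsd_mk (P.nv.mem_iff.2 (P.nv.mul_left hx hy)), ← map_mul]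
  rfl

theorem rsd_neg {x : Qb} (hx : Bl w 0 x) : rsd A (-x) = - rsd A x := by
  rw [P.rsd_mk (P.nv.mem_iff.2 hx), P.rsd_mk (P.nv.mem_iff.2 (P.nv.neg hx)), ← map_neg]
  rfl

theorem rsd_zero : rsd A 0 = 0 := by
  rw [P.rsd_mk A.zero_mem]
  exact map_zero _

theorem rsd_one : rsd A 1 = 1 := by
  rw [P.rsd_mk A.one_mem]
  exact map_one _

theorem rsd_natCast (n : ℕ) : rsd A (n : Qb) = n := by
  rw [P.rsd_mk (natCast_mem A n)]
  exact map_natCast (IsLocalRing.residue A) n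

theorem rsd_pow {x : Qb} (hx : Bl w 0 x) (n : ℕ) : rsd A (x ^ n) = rsd A x ^ n := by
  induction n with
  | zero => rw [pow_zero, pow_zero, P.rsd_one]
  | succ n ih =>
    have := P.nv.pow hx n
    rw [mul_zero] at this
    rw [pow_succ, pow_succ, P.rsd_mul this hx, ih]

theorem rsd_eq_zero_iff {x : Qb} (hx : Bl w 0 x) : rsd A x = 0 ↔ Bs w 0 x := by
  rw [← P.rsd_zero, P.rsd_eq_iff hx (NVal.zero 0), sub_zero]

theorem rsd_surj (c : IsLocalRing.ResidueField A) : ∃ r, Te p r ∧ rsd A r = c := by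
  obtain ⟨x, rfl⟩ := IsLocalRing.residue_surjective c
  obtain ⟨r, hr, hr1⟩ := P.te_exists (x := (x : Qb)) (P.nv.mem_iff.1 x.2)
  refine ⟨r, hr, ?_⟩
  have h1 : rsd A (x : Qb) = IsLocalRing.residue A x := P.rsd_mk x.2
  rw [← h1]
  exact (P.rsd_eq_iff (P.te_Bl hr) (P.nv.mem_iff.1 x.2)).2 (P.nv.Bs_comm hr1)

theorem rsd_inertia {σ : GQ} (hσ : σ ∈ A.inertiaSubgroupIn ℚ) {x : Qb} (hx : Bl w 0 x) :
    rsd A (σ x) = rsd A x :=
  (P.rsd_eq_iff ((Bl_smul P.nv (P.inertia_le_dec hσ)).2 hx) hx).2 (P.inertia_sub hσ hx)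

theorem rsd_frob {φ : GQ} (hφ : A.IsFrobeniusAt φ p) {x : Qb} (hx : Bl w 0 x) :
    rsd A (φ x) = rsd A x ^ p := by
  have h1 : Bl w 0 (x ^ p) := by
    have := P.nv.pow hx p
    rwa [mul_zero] at this
  rw [← P.rsd_pow hx]
  exact (P.rsd_eq_iff ((Bl_smul P.nv (σ := φ) hφ.1).2 hx) h1).2 (P.frob_sub hφ hx)

theorem charP : CharP (IsLocalRing.ResidueField A) p := by
  obtain ⟨q, hq⟩ := CharP.exists (IsLocalRing.ResidueField A)
  have h1 : ((p : ℕ) : IsLocalRing.ResidueField A) = 0 := by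
    rw [← P.rsd_natCast, P.rsd_eq_zero_iff (P.nv.natCast p)]
    exact P.Bs_p
  have h2 : q ∣ p := (CharP.cast_eq_zero_iff _ q p).1 h1
  rcases (Nat.dvd_prime P.prime).1 h2 with h3 | h3
  · exact absurd h3 (CharP.char_ne_one (IsLocalRing.ResidueField A) q)
  · rw [← h3]; exact hq

end PL

namespace UF

open NVal

variable {A : ValuationSubring Qb} {p : ℕ} {w : Qb → ℝ}
  {J : Subgroup GQ} {e : ℕ} {π : Qb}

theorem KR_eqOn {ζ : Qb} {j : ℕ} {b b' : GQ → ZMod p} (hbb' : ∀ σ ∈ J, b σ = b' σ) {r : Qb}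
    (h : KR w J ζ π e j b r) : KR w J ζ π e j b' r := by
  obtain ⟨u, hu, hur⟩ := h
  exact ⟨u, ⟨hu.1, fun σ hσ => by rw [← hbb' σ hσ]; exact hu.2 σ hσ⟩, hur⟩

/-- leading coefficients of an additive family of classes -/
theorem exists_lead (P : PL p A w) (U : UF p A w J e π) {ζ : Qb} {x : GQ → ZMod p} (C : CY p ζ x)
    {j : ℕ} (hj0 : 0 < j) (hpj : ¬ p ∣ j) (hj : j * (p - 1) < p * e) {V : Type*} [AddCommGroup V]
    (b : V → GQ → ZMod p) (hadd : ∀ z z' σ, b (z + z') σ = b z σ + b z' σ)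
    (h : ∀ z, KL w J ζ (j / e) (b z)) :
    ∃ R : V →+ IsLocalRing.ResidueField A, ∀ z r, Bl w 0 r →
      (KR w J ζ π e j (b z) r ↔ rsd A r = R z) := by
  choose r hrT hr using fun z => U.KR_exists P (h z)
  have key : ∀ z r', Bl w 0 r' → (KR w J ζ π e j (b z) r' ↔ rsd A r' = rsd A (r z)) := by
    intro z r' hr'
    rw [P.rsd_eq_iff hr' (P.te_Bl (hrT z))]
    constructor
    · intro h'
      exact U.KR_unique P C hj0 hpj hj hr' (P.te_Bl (hrT z)) h' (hr z)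
    · intro h'
      exact U.KR_congr P (hr z) (P.nv.Bs_comm h')
  refine ⟨AddMonoidHom.mk' (fun z => rsd A (r z)) fun z z' => ?_, key⟩
  have h1 := U.KR_add P C hj0 (P.te_Bl (hrT z)) (P.te_Bl (hrT z')) (hr z) (hr z')
  have h2 := KR_eqOn (fun σ _ => (hadd z z' σ).symm) h1
  have h3 := (key (z + z') _ (P.nv.add (P.te_Bl (hrT z)) (P.te_Bl (hrT z')))).1 h2
  rw [P.rsd_add (P.te_Bl (hrT z)) (P.te_Bl (hrT z'))] at h3
  exact h3.symm

end UF

end Fermat.Agent.TW
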