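import Fermat.Agent.TW.LHDef
import Fermat.Agent.TW.Lead
import Fermat.Agent.H19.HopfA

/-!
# Hopf orders over inertia: integrality of operators
-/

set_option autoImplicit false
set_option linter.unusedSectionVars false

namespace Fermat.Agent.TW

open Fermat.Agent.CC NVal

variable {A : ValuationSubring Qb} {p : ℕ} {w : Qb → ℝ} {M : Type*} [AddCommGroup M]
  {act : A.inertiaSubgroupIn ℚ →* AddMonoid.End M} {H : Subalgebra (RI A) (M → Qb)}

theorem RI_bl (P : PL p A w) (r : RI A) : Bl w 0 (r : Qb) := P.nv.mem_iff.1 r.2.1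

theorem RI_smul_eq (r : RI A) (φ : M → Qb) : r • φ = (r : Qb) • φ := rfl

/-- bounded powers -/
theorem bl_of_pow (P : PL p A w) {D s : ℝ} {z c : Qb} (hc : c ≠ 0)
    (h : ∀ n : ℕ, Bl w (D + n * s) (z ^ n * c)) : Bl w s z := by
  by_cases hz : z = 0
  · exact Or.inl hz
  right
  by_contra hlt
  rw [not_le] at hlt
  obtain ⟨n, hn⟩ := exists_nat_gt ((w c - D) / (s - w z))
  have h1 := (h n).resolve_left (mul_ne_zero (pow_ne_zero _ hz) hc)
  rw [P.nv.w_mul (pow_ne_zero _ hz) hc, P.nv.w_pow hz] at h1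
  rw [div_lt_iff₀ (by linarith)] at hn
  nlinarith

theorem LH_forall (P : PL p A w) {S : Finset (M → Qb)}
    (hS : Submodule.span (RI A) (S : Set (M → Qb)) = Subalgebra.toSubmodule H)
    (T : (M → Qb) →ₗ[Qb] Qb) {r : ℝ} (h : ∀ φ ∈ S, Bl w r (T φ)) : ∀ φ ∈ H, Bl w r (T φ) := by
  intro φ hφ
  have h1 : φ ∈ Submodule.span (RI A) (S : Set (M → Qb)) := by rw [hS]; exact hφ
  induction h1 using Submodule.span_induction with
  | mem x hx => exact h x hx
  | zero => rw [map_zero]; exact NVal.zero _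
  | add x y hx hy h1 h2 =>
    rw [hS] at hx hy
    rw [map_add]
    exact P.nv.add (h1 hx) (h2 hy)
  | smul c x hx h1 =>
    rw [hS] at hx
    rw [RI_smul_eq, map_smul, smul_eq_mul]
    exact P.nv.mul_left (RI_bl P c) (h1 hx)

/-- a minimum over a finitely generated module -/
theorem LH.exists_min (hH : LH A act H) (P : PL p A w) (T : (M → Qb) →ₗ[Qb] Qb)
    (hT : ∃ φ ∈ H, T φ ≠ 0) :
    ∃ r, (∀ φ ∈ H, Bl w r (T φ)) ∧ ∃ φ ∈ H, T φ ≠ 0 ∧ w (T φ) = r := by
  classical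
  obtain ⟨S, hS⟩ := hH.fg
  have hne : (S.filter fun φ => T φ ≠ 0).Nonempty := by
    by_contra hemp
    rw [Finset.not_nonempty_iff_eq_empty, Finset.filter_eq_empty_iff] at hemp
    obtain ⟨φ, hφ, hφ0⟩ := hT
    have h0 : ∀ φ ∈ S, T φ = 0 := fun φ hφ => not_not.1 (hemp hφ)
    have h1 := LH_forall P hS T (r := w (T φ) + 1) (fun ψ hψ => Or.inl (h0 ψ hψ)) φ hφ
    have h2 := h1.resolve_left hφ0
    linarith
  obtain ⟨φ, hφ, hmin⟩ := Finset.exists_min_image _ (fun φ => w (T φ)) hne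
  rw [Finset.mem_filter] at hφ
  refine ⟨w (T φ), LH_forall P hS T fun ψ hψ => ?_, φ, ?_, hφ.2, rfl⟩
  · by_cases h0 : T ψ = 0
    · exact Or.inl h0
    · exact Or.inr (hmin ψ (Finset.mem_filter.2 ⟨hψ, h0⟩))
  · have : φ ∈ Subalgebra.toSubmodule H := by rw [← hS]; exact Submodule.subset_span hφ.1
    exact this

/-- strict positivity on a finitely generated module -/
theorem LH.exists_pos (hH : LH A act H) (P : PL p A w) (T : (M → Qb) →ₗ[Qb] Qb) {s : ℝ}
    (hT : ∀ φ ∈ H, Bs w s (T φ)) : ∃ r, s < r ∧ ∀ φ ∈ H, Bl w r (T φ) := by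
  by_cases h : ∃ φ ∈ H, T φ ≠ 0
  · obtain ⟨r, h1, φ, hφ, h2, h3⟩ := hH.exists_min P T h
    refine ⟨r, ?_, h1⟩
    have := (hT φ hφ).resolve_left h2
    rwa [h3] at this
  · push Not at h
    exact ⟨s + 1, by linarith, fun φ hφ => Or.inl (h φ hφ)⟩

theorem LH.mem_A (hH : LH A act H) (P : PL p A w) {φ : M → Qb} (hφ : φ ∈ H) (x : M) :
    Bl w 0 (φ x) := by
  obtain ⟨r, h1, -⟩ := hH.exists_min P (LinearMap.proj x)
    ⟨1, H.one_mem, by change (1 : Qb) ≠ 0; exact one_ne_zero⟩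
  refine bl_of_pow P (D := r) (c := 1) one_ne_zero fun n => ?_
  rw [mul_zero, add_zero, mul_one]
  exact h1 _ (H.pow_mem hφ n)

/-- translation invariant operators -/
def TI (T : (M → Qb) →ₗ[Qb] (M → Qb)) : Prop := ∀ f x, T f x = T (fun y => f (x + y)) 0

theorem TI.mul {T T' : (M → Qb) →ₗ[Qb] (M → Qb)} (hT : TI T) (hT' : TI T') :
    TI (T ∘ₗ T') := by
  intro f x
  change T (T' f) x = T (T' fun y => f (x + y)) 0
  have e : (fun y => T' f (x + y)) = T' (fun y => f (x + y)) := by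
    funext y
    rw [hT' f, hT' (fun y => f (x + y))]
    simp only [add_assoc]
  rw [hT, e]

variable (w H) in
/-- functions of the form `∑ c φ` with `c` of valuation `≥ r` and `φ ∈ H` -/
noncomputable def LA (r : ℝ) : AddSubgroup (M → Qb) :=
  AddSubgroup.closure {f | ∃ (c : Qb) (φ : M → Qb), Bl w r c ∧ φ ∈ H ∧ f = c • φ}

theorem LA_of {r : ℝ} {c : Qb} {φ : M → Qb} (hc : Bl w r c) (hφ : φ ∈ H) : c • φ ∈ LA w H r :=
  AddSubgroup.subset_closure ⟨c, φ, hc, hφ, rfl⟩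

theorem LA_mem (P : PL p A w) {φ : M → Qb} (hφ : φ ∈ H) : φ ∈ LA w H 0 := by
  have := LA_of (w := w) P.nv.one hφ
  rwa [one_smul] at this

theorem LA_smul (P : PL p A w) {r s : ℝ} {c : Qb} (hc : Bl w s c) {f : M → Qb}
    (hf : f ∈ LA w H r) : c • f ∈ LA w H (s + r) := by
  induction hf using AddSubgroup.closure_induction with
  | mem x hx =>
    obtain ⟨d, φ, hd, hφ, rfl⟩ := hx
    rw [smul_smul]
    exact LA_of (P.nv.mul hc hd) hφ
  | zero => rw [smul_zero]; exact AddSubgroup.zero_mem _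
  | add x y _ _ h1 h2 => rw [smul_add]; exact AddSubgroup.add_mem _ h1 h2
  | neg x _ h1 => rw [smul_neg]; exact AddSubgroup.neg_mem _ h1

theorem LA_mono {r s : ℝ} (hrs : r ≤ s) : LA w H s ≤ LA w H r := by
  refine AddSubgroup.closure_mono ?_
  rintro f ⟨c, φ, hc, hφ, rfl⟩
  exact ⟨c, φ, NVal.mono hrs hc, hφ, rfl⟩

theorem LA_bl (hH : LH A act H) (P : PL p A w) {r : ℝ} {f : M → Qb} (hf : f ∈ LA w H r)
    (x : M) : Bl w r (f x) := by
  induction hf using AddSubgroup.closure_induction with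
  | mem f hx =>
    obtain ⟨d, φ, hd, hφ, rfl⟩ := hx
    exact P.nv.mul_right hd (hH.mem_A P hφ x)
  | zero => exact NVal.zero _
  | add x y _ _ h1 h2 => exact P.nv.add h1 h2
  | neg x _ h1 => exact P.nv.neg h1

theorem LA_op (hH : LH A act H) (P : PL p A w) {T : (M → Qb) →ₗ[Qb] (M → Qb)} (hT : TI T)
    {s : ℝ} (h : ∀ φ ∈ H, Bl w s (T φ 0)) {r : ℝ} {f : M → Qb} (hf : f ∈ LA w H r) :
    T f ∈ LA w H (r + s) := by
  induction hf using AddSubgroup.closure_induction with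
  | mem f hx =>
    obtain ⟨d, φ, hd, hφ, rfl⟩ := hx
    rw [map_smul]
    refine LA_smul P hd ?_
    obtain ⟨n, a, b, ha, hb, hab⟩ := hH.comul φ hφ
    have e1 : T φ = ∑ i, T (b i) 0 • a i := by
      funext x
      rw [hT]
      have e2 : (fun y => φ (x + y)) = ∑ i, a i x • b i := by
        funext y
        rw [hab, Finset.sum_apply]
        rfl
      rw [e2, map_sum, Finset.sum_apply, Finset.sum_apply]
      refine Finset.sum_congr rfl fun i _ => ?_
      rw [map_smul, Pi.smul_apply, Pi.smul_apply, smul_eq_mul, smul_eq_mul, mul_comm]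
    rw [e1]
    exact AddSubgroup.sum_mem _ fun i _ => LA_of (h _ (hb i)) (ha i)
  | zero => rw [map_zero]; exact AddSubgroup.zero_mem _
  | add x y _ _ h1 h2 => rw [map_add]; exact AddSubgroup.add_mem _ h1 h2
  | neg x _ h1 => rw [map_neg]; exact AddSubgroup.neg_mem _ h1

theorem LA_exists [Finite M] (hH : LH A act H) (P : PL p A w) (f : M → Qb) :
    ∃ D, f ∈ LA w H D := by
  have h1 : f ∈ Submodule.span Qb (H : Set (M → Qb)) := by
    rw [H19.span_eq_top H hH.sep]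
    trivial
  induction h1 using Submodule.span_induction with
  | mem x hx => exact ⟨0, LA_mem P hx⟩
  | zero => exact ⟨0, AddSubgroup.zero_mem _⟩
  | add x y _ _ h1 h2 =>
    obtain ⟨D1, h1⟩ := h1
    obtain ⟨D2, h2⟩ := h2
    exact ⟨min D1 D2, AddSubgroup.add_mem _ (LA_mono (min_le_left _ _) h1)
      (LA_mono (min_le_right _ _) h2)⟩
  | smul c x _ h1 =>
    obtain ⟨D, h1⟩ := h1
    exact ⟨w c + D, LA_smul P (Or.inr le_rfl) h1⟩

/-- **eigenvalues of integral operators are integral** -/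
theorem LH.meas [Finite M] (hH : LH A act H) (P : PL p A w) {T : (M → Qb) →ₗ[Qb] (M → Qb)}
    (hT : TI T) {s : ℝ} (h : ∀ φ ∈ H, Bl w s (T φ 0)) {ψ : M → Qb} (hψ : ψ ≠ 0) {c : Qb}
    (hc : T ψ = c • ψ) : Bl w s c := by
  obtain ⟨D, hD⟩ := LA_exists hH P ψ
  have h1 : ∀ n : ℕ, c ^ n • ψ ∈ LA w H (D + n * s) := by
    intro n
    induction n with
    | zero => rwa [pow_zero, one_smul, Nat.cast_zero, zero_mul, add_zero]
    | succ n ih =>
      have h2 := LA_op hH P hT h ih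
      rw [map_smul, hc, smul_smul, ← pow_succ] at h2
      have e1 : D + n * s + s = D + (n + 1 : ℕ) * s := by push_cast; ring
      rwa [e1] at h2
  obtain ⟨x, hx⟩ := Function.ne_iff.1 hψ
  refine bl_of_pow P (D := D) (c := ψ x) hx fun n => ?_
  exact LA_bl hH P (h1 n) x

end Fermat.Agent.TW
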