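import Fermat.Agent.TW.LH1

/-!
# Hopf orders over inertia: distance of points
-/

set_option autoImplicit false
set_option linter.unusedSectionVars false

namespace Fermat.Agent.TW

open Fermat.Agent.CC NVal

variable {A : ValuationSubring Qb} {p : ℕ} {w : Qb → ℝ} {M : Type*} [AddCommGroup M]
  {act : A.inertiaSubgroupIn ℚ →* AddMonoid.End M} {H : Subalgebra (RI A) (M → Qb)}

variable (w H) in
/-- `x` is at distance at least `r` from `0` -/
def TD (r : ℝ) (x : M) : Prop := ∀ φ ∈ H, Bl w r (φ x - φ 0)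

variable (w H) in
/-- `x` is at distance more than `r` from `0` -/
def TDS (r : ℝ) (x : M) : Prop := ∀ φ ∈ H, Bs w r (φ x - φ 0)

theorem TD.mono {r s : ℝ} {x : M} (hrs : s ≤ r) (h : TD w H r x) : TD w H s x :=
  fun φ hφ => NVal.mono hrs (h φ hφ)

theorem TDS.mono {r s : ℝ} {x : M} (hrs : s ≤ r) (h : TDS w H r x) : TDS w H s x :=
  fun φ hφ => Bs_mono hrs (h φ hφ)

theorem TDS.td {r : ℝ} {x : M} (h : TDS w H r x) : TD w H r x := fun φ hφ => Bs_bl (h φ hφ)

theorem TD.tds {r s : ℝ} {x : M} (h : TD w H r x) (hrs : s < r) : TDS w H s x :=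
  fun φ hφ => Bs_of (h φ hφ) hrs

theorem TD_zero (r : ℝ) : TD w H r (0 : M) := fun φ _ => by rw [sub_self]; exact NVal.zero _

theorem TDS_zero (r : ℝ) : TDS w H r (0 : M) := fun φ _ => by rw [sub_self]; exact Bs_zero _

section

variable (hH : LH A act H) (P : PL p A w)
include hH P

theorem TD.trans {r : ℝ} {x : M} (h : TD w H r x) {φ : M → Qb} (hφ : φ ∈ H) (z : M) :
    Bl w r (φ (z + x) - φ z) := by
  obtain ⟨n, a, b, ha, hb, hab⟩ := hH.comul φ hφ
  have e1 : φ (z + x) - φ z = ∑ i, a i z * (b i x - b i 0) := by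
    conv_lhs => rw [hab, ← add_zero z, hab, ← Finset.sum_sub_distrib]
    refine Finset.sum_congr rfl fun i _ => ?_
    rw [add_zero]
    ring
  rw [e1]
  exact P.nv.sum _ _ fun i _ => P.nv.mul_left (hH.mem_A P (ha i) z) (h _ (hb i))

theorem TDS.trans {r : ℝ} {x : M} (h : TDS w H r x) {φ : M → Qb} (hφ : φ ∈ H) (z : M) :
    Bs w r (φ (z + x) - φ z) := by
  obtain ⟨n, a, b, ha, hb, hab⟩ := hH.comul φ hφ
  have e1 : φ (z + x) - φ z = ∑ i, a i z * (b i x - b i 0) := by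
    conv_lhs => rw [hab, ← add_zero z, hab, ← Finset.sum_sub_distrib]
    refine Finset.sum_congr rfl fun i _ => ?_
    rw [add_zero]
    ring
  rw [e1]
  exact Bs_sum P.nv _ _ fun i _ => Bs_mul_left P.nv (hH.mem_A P (ha i) z) (h _ (hb i))

theorem TD.of_trans {r : ℝ} {x : M} (z : M) (h : ∀ φ ∈ H, Bl w r (φ (z + x) - φ z)) :
    TD w H r x := by
  intro φ hφ
  obtain ⟨n, a, b, ha, hb, hab⟩ := hH.comul φ hφ
  have e1 : φ x - φ 0 = ∑ i, a i (-z) * (b i (z + x) - b i z) := by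
    have h1 := hab (-z) (z + x)
    have h2 := hab (-z) z
    rw [neg_add_cancel_left] at h1
    rw [neg_add_cancel] at h2
    rw [h1, h2, ← Finset.sum_sub_distrib]
    exact Finset.sum_congr rfl fun i _ => by ring
  rw [e1]
  exact P.nv.sum _ _ fun i _ => P.nv.mul_left (hH.mem_A P (ha i) _) (h _ (hb i))

theorem TDS.of_trans {r : ℝ} {x : M} (z : M) (h : ∀ φ ∈ H, Bs w r (φ (z + x) - φ z)) :
    TDS w H r x := by
  intro φ hφ
  obtain ⟨n, a, b, ha, hb, hab⟩ := hH.comul φ hφ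
  have e1 : φ x - φ 0 = ∑ i, a i (-z) * (b i (z + x) - b i z) := by
    have h1 := hab (-z) (z + x)
    have h2 := hab (-z) z
    rw [neg_add_cancel_left] at h1
    rw [neg_add_cancel] at h2
    rw [h1, h2, ← Finset.sum_sub_distrib]
    exact Finset.sum_congr rfl fun i _ => by ring
  rw [e1]
  exact Bs_sum P.nv _ _ fun i _ => Bs_mul_left P.nv (hH.mem_A P (ha i) _) (h _ (hb i))

theorem TD.add {r : ℝ} {x y : M} (hx : TD w H r x) (hy : TD w H r y) : TD w H r (x + y) := by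
  intro φ hφ
  have := P.nv.add (hy.trans hH P hφ x) (hx φ hφ)
  rwa [sub_add_sub_cancel] at this

theorem TDS.add {r : ℝ} {x y : M} (hx : TDS w H r x) (hy : TDS w H r y) :
    TDS w H r (x + y) := by
  intro φ hφ
  have := Bs_add P.nv (hy.trans hH P hφ x) (hx φ hφ)
  rwa [sub_add_sub_cancel] at this

theorem TD.neg {r : ℝ} {x : M} (hx : TD w H r x) : TD w H r (-x) := by
  refine TD.of_trans hH P x fun φ hφ => ?_
  rw [add_neg_cancel, ← neg_sub]
  exact P.nv.neg (hx φ hφ)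

theorem TDS.neg {r : ℝ} {x : M} (hx : TDS w H r x) : TDS w H r (-x) := by
  refine TDS.of_trans hH P x fun φ hφ => ?_
  rw [add_neg_cancel, ← neg_sub]
  exact Bs_neg P.nv (hx φ hφ)

theorem TD.nsmul {r : ℝ} {x : M} (hx : TD w H r x) (n : ℕ) : TD w H r (n • x) := by
  induction n with
  | zero => rw [zero_smul]; exact TD_zero _
  | succ n ih => rw [succ_nsmul]; exact ih.add hH P hx

theorem TDS.nsmul {r : ℝ} {x : M} (hx : TDS w H r x) (n : ℕ) : TDS w H r (n • x) := by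
  induction n with
  | zero => rw [zero_smul]; exact TDS_zero _
  | succ n ih => rw [succ_nsmul]; exact ih.add hH P hx

/-- the subgroup of points at distance `> r` -/
def tds (r : ℝ) : AddSubgroup M where
  carrier := {x | TDS w H r x}
  zero_mem' := TDS_zero _
  add_mem' := fun hx hy => hx.add hH P hy
  neg_mem' := fun hx => hx.neg hH P

/-- second difference -/
theorem TD.cross {r s : ℝ} {x y : M} (hx : TD w H r x) (hy : TD w H s y) {φ : M → Qb}
    (hφ : φ ∈ H) : Bl w (r + s) (φ (x + y) - φ x - φ y + φ 0) := by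
  obtain ⟨n, a, b, ha, hb, hab⟩ := hH.comul φ hφ
  have e1 : φ (x + y) - φ x - φ y + φ 0 = ∑ i, (a i x - a i 0) * (b i y - b i 0) := by
    have h1 := hab x 0
    have h2 := hab 0 y
    have h3 := hab 0 0
    rw [add_zero] at h1 h3
    rw [zero_add] at h2
    rw [hab x y, h1, h2, h3, ← Finset.sum_sub_distrib, ← Finset.sum_sub_distrib,
      ← Finset.sum_add_distrib]
    exact Finset.sum_congr rfl fun i _ => by ring
  rw [e1]
  exact P.nv.sum _ _ fun i _ => P.nv.mul (hx _ (ha i)) (hy _ (hb i))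

/-- iterated differences -/
theorem TD.fwd {r : ℝ} {x : M} (hx : TD w H r x) (j : ℕ) :
    ∀ φ ∈ H, ∀ z, Bl w (j * r) ((fwdDiff x)^[j] φ z) := by
  induction j with
  | zero =>
    intro φ hφ z
    rw [Nat.cast_zero, zero_mul]
    exact hH.mem_A P hφ z
  | succ j ih =>
    intro φ hφ z
    rw [Function.iterate_succ_apply]
    obtain ⟨n, a, b, ha, hb, hab⟩ := hH.comul φ hφ
    have e1 : fwdDiff x φ = ∑ i, (b i x - b i 0) • a i := by
      funext z
      rw [Finset.sum_apply]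
      change φ (z + x) - φ z = _
      conv_lhs => rw [hab, ← add_zero z, hab, ← Finset.sum_sub_distrib]
      refine Finset.sum_congr rfl fun i _ => ?_
      rw [add_zero, Pi.smul_apply, smul_eq_mul]
      ring
    rw [e1, fwdDiff_iter_finsetSum, Finset.sum_apply]
    refine P.nv.sum _ _ fun i _ => ?_
    rw [fwdDiff_iter_const_smul, Pi.smul_apply, smul_eq_mul]
    have e2 : ((j + 1 : ℕ) : ℝ) * r = r + j * r := by push_cast; ring
    rw [e2]
    exact P.nv.mul (hx _ (hb i)) (ih _ (ha i) z)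

/-- existence of the distance of a point -/
theorem LH.exists_td {x : M} (hx : x ≠ 0) :
    ∃ r, TD w H r x ∧ ∃ φ ∈ H, φ x ≠ φ 0 ∧ w (φ x - φ 0) = r := by
  obtain ⟨φ, hφ, hne⟩ := hH.sep x 0 hx
  obtain ⟨r, h1, ψ, hψ, h2, h3⟩ := hH.exists_min P
    ((LinearMap.proj x : (M → Qb) →ₗ[Qb] Qb) - LinearMap.proj 0)
    ⟨φ, hφ, by
      change φ x - φ 0 ≠ 0
      exact sub_ne_zero.2 hne⟩
  exact ⟨r, h1, ψ, hψ, sub_ne_zero.1 h2, h3⟩

/-- points of order `p` too close to `0` vanish -/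
theorem LH.eq_zero {x : M} (hpx : p • x = 0) (h : TDS w H (1 / (p - 1)) x) : x = 0 := by
  by_contra hx
  obtain ⟨r, h1, φ, hφ, hne, hr⟩ := hH.exists_td P hx
  have hp1 : (1 : ℝ) < p := by exact_mod_cast P.prime.one_lt
  have h2 : 1 / ((p : ℝ) - 1) < r := by
    have := (h φ hφ).resolve_left (sub_ne_zero.2 hne)
    rwa [hr] at this
  have h3 : 1 + r < p * r := by
    rw [div_lt_iff₀ (by linarith)] at h2
    linarith
  have hr0 : 0 < r := lt_trans (by apply div_pos one_pos; linarith) h2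
  have h4 := shift_eq_sum_fwdDiff_iter x φ p 0
  rw [hpx, add_zero] at h4
  rw [Finset.sum_range_succ', Nat.choose_zero_right, one_smul, Function.iterate_zero, id,
    right_eq_add] at h4
  obtain ⟨q, hq⟩ : ∃ q, p = q + 1 := ⟨p - 1, (Nat.succ_pred_eq_of_pos P.prime.pos).symm⟩
  rw [hq, Finset.sum_range_succ', ← hq] at h4
  rw [zero_add, Nat.choose_one_right, Function.iterate_one] at h4
  have h5 : Bs w (1 + r) (∑ k ∈ Finset.range q, p.choose (k + 1 + 1) •
      (fwdDiff x)^[k + 1 + 1] φ 0) := by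
    refine Bs_sum P.nv _ _ fun k hk => ?_
    have hk' := Finset.mem_range.1 hk
    have h6 := h1.fwd hH P (k + 1 + 1) φ hφ 0
    rw [nsmul_eq_mul]
    rcases Nat.lt_or_ge (k + 1 + 1) p with hlt | hge
    · have hd : p ∣ p.choose (k + 1 + 1) := P.prime.dvd_choose_self (by omega) hlt
      obtain ⟨c, hc⟩ := hd
      rw [hc, Nat.cast_mul, mul_assoc]
      refine Bs_of (P.nv.mul P.Bl_p (P.nv.mul_left (P.nv.natCast c) h6)) ?_
      push_cast
      nlinarith [Nat.cast_nonneg (α := ℝ) k]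
    · have : k + 1 + 1 = p := by omega
      rw [this, Nat.choose_self, Nat.cast_one, one_mul, ← this]
      refine Bs_of h6 ?_
      rw [this]
      exact h3
  have h7 : (p : Qb) * (φ x - φ 0) ≠ 0 := mul_ne_zero P.p_ne_zero (sub_ne_zero.2 hne)
  have h8 : Bs w (1 + r) ((p : Qb) * (φ x - φ 0)) := by
    have e1 : (p : Qb) * (φ x - φ 0) = -(∑ k ∈ Finset.range q, p.choose (k + 1 + 1) •
      (fwdDiff x)^[k + 1 + 1] φ 0) := by
      have e2 : p • fwdDiff x φ 0 = (p : Qb) * (φ x - φ 0) := by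
        rw [nsmul_eq_mul]
        change (p : Qb) * (φ (0 + x) - φ 0) = _
        rw [zero_add]
      rw [← e2]
      linear_combination h4
    rw [e1]
    exact Bs_neg P.nv h5
  have h9 := h8.resolve_left h7
  rw [P.nv.w_mul P.p_ne_zero (sub_ne_zero.2 hne), P.w_p, hr] at h9
  exact lt_irrefl _ h9

/-- inertia moves points by close points -/
theorem LH.tds_inertia (σ : A.inertiaSubgroupIn ℚ) (x : M) : TDS w H 0 (act σ x - x) := by
  refine TDS.of_trans hH P x fun φ hφ => ?_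
  rw [add_sub_cancel, hH.equiv φ hφ]
  exact P.inertia_sub σ.2 (hH.mem_A P hφ x)

theorem LH.act_td {r : ℝ} {x : M} (σ : A.inertiaSubgroupIn ℚ) (hx : TD w H r x) :
    TD w H r (act σ x) := by
  intro φ hφ
  have h0 : φ 0 = (σ : GQ) (φ 0) := by rw [← hH.equiv φ hφ, map_zero]
  rw [h0, hH.equiv φ hφ, ← map_sub]
  exact (P.nv.Bl_smul (inertia_le_decomposition A σ.2)).2 (hx φ hφ)

theorem LH.act_tds {r : ℝ} {x : M} (σ : A.inertiaSubgroupIn ℚ) (hx : TDS w H r x) :
    TDS w H r (act σ x) := by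
  intro φ hφ
  have h0 : φ 0 = (σ : GQ) (φ 0) := by rw [← hH.equiv φ hφ, map_zero]
  rw [h0, hH.equiv φ hφ, ← map_sub]
  exact (Bs_smul P.nv (inertia_le_decomposition A σ.2)).2 (hx φ hφ)

end

/-- leading coefficient -/
noncomputable def Tl (A : ValuationSubring Qb) (π : Qb) (m : ℕ) (φ : M → Qb) (x : M) :
    IsLocalRing.ResidueField A := rsd A ((φ x - φ 0) / π ^ m)

section lead

variable (hH : LH A act H) (P : PL p A w) {π : Qb} {e m : ℕ} (hπ : π ≠ 0) (he : 0 < e)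
  (hw : w π = 1 / e)
include P hπ hw

omit [AddCommGroup M] hw in
theorem bl_div_pow {t : ℝ} (hw' : w (π ^ m) = m / e) {z : Qb} (hz : Bl w t z) :
    Bl w (t - m / e) (z / π ^ m) := by
  have := Bl_div P.nv (pow_ne_zero m hπ) hz
  rwa [hw'] at this

theorem w_pi_pow : w (π ^ m) = m / e := by
  rw [P.nv.w_pow hπ, hw]
  ring

include hH

theorem TD.bl_lead {x : M} (hx : TD w H (m / e) x) {φ : M → Qb} (hφ : φ ∈ H) :
    Bl w 0 ((φ x - φ 0) / π ^ m) := by
  have := bl_div_pow (e := e) (m := m) P hπ (w_pi_pow P hπ hw) (hx φ hφ)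
  rwa [sub_self] at this

theorem Tl_add (he : 0 < e) (hm : 0 < m) {x y : M} (hx : TD w H (m / e) x)
    (hy : TD w H (m / e) y) {φ : M → Qb} (hφ : φ ∈ H) :
    Tl A π m φ (x + y) = Tl A π m φ x + Tl A π m φ y := by
  have h1 := hx.bl_lead hH P hπ hw hφ
  have h2 := hy.bl_lead hH P hπ hw hφ
  have h3 := (hx.add hH P hy).bl_lead hH P hπ hw hφ
  unfold Tl
  rw [← P.rsd_add h1 h2, P.rsd_eq_iff h3 (P.nv.add h1 h2)]
  have h4 := hx.cross hH P hy hφ
  have h5 := bl_div_pow (e := e) (m := m) P hπ (w_pi_pow P hπ hw) h4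
  have e1 : (φ (x + y) - φ 0) / π ^ m - ((φ x - φ 0) / π ^ m + (φ y - φ 0) / π ^ m) =
      (φ (x + y) - φ x - φ y + φ 0) / π ^ m := by
    field_simp
    ring
  rw [e1]
  refine Bs_of h5 ?_
  have : (0 : ℝ) < m / e := div_pos (Nat.cast_pos.2 hm) (Nat.cast_pos.2 he)
  linarith

theorem Tl_nsmul (he : 0 < e) (hm : 0 < m) {x : M} (hx : TD w H (m / e) x) {φ : M → Qb}
    (hφ : φ ∈ H) (n : ℕ) : Tl A π m φ (n • x) = n * Tl A π m φ x := by
  induction n with
  | zero =>
    rw [zero_smul, Nat.cast_zero, zero_mul]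
    unfold Tl
    rw [sub_self, zero_div, P.rsd_zero]
  | succ n ih =>
    rw [succ_nsmul, Tl_add hH P hπ hw he hm (hx.nsmul hH P n) hx hφ, ih]
    push_cast
    ring

theorem Tl_act {x : M} (hx : TD w H (m / e) x) {φ : M → Qb} (hφ : φ ∈ H)
    (σ : A.inertiaSubgroupIn ℚ) :
    Tl A π m φ (act σ x) = rsd A ((σ : GQ) π / π) ^ m * Tl A π m φ x := by
  have h1 := hx.bl_lead hH P hπ hw hφ
  have h0 : φ 0 = (σ : GQ) (φ 0) := by rw [← hH.equiv φ hφ, map_zero]
  have hσD := inertia_le_decomposition A σ.2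
  have hσπ : (σ : GQ) π ≠ 0 := (map_ne_zero _).2 hπ
  have hθ : Bl w 0 ((σ : GQ) π / π) := by
    right
    rw [P.nv.w_div hσπ hπ, P.nv.w_smul hσD, sub_self]
  unfold Tl
  have e1 : (φ (act σ x) - φ 0) / π ^ m =
      ((σ : GQ) π / π) ^ m * (σ : GQ) ((φ x - φ 0) / π ^ m) := by
    rw [hH.equiv φ hφ, map_div₀, map_sub, ← h0, map_pow, div_pow]
    field_simp
  have hpow : Bl w 0 (((σ : GQ) π / π) ^ m) := by
    have := P.nv.pow hθ m
    rwa [mul_zero] at this
  rw [e1, P.rsd_mul hpow ((P.nv.Bl_smul hσD).2 h1), P.rsd_pow hθ, P.rsd_inertia σ.2 h1]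

theorem tds_of_Tl {x : M} (hx : TD w H (m / e) x) (h : ∀ φ ∈ H, Tl A π m φ x = 0) :
    TDS w H (m / e) x := by
  intro φ hφ
  have h1 := (P.rsd_eq_zero_iff (hx.bl_lead hH P hπ hw hφ)).1 (h φ hφ)
  rcases h1 with h1 | h1
  · left
    exact (div_eq_zero_iff.1 h1).resolve_right (pow_ne_zero m hπ)
  · by_cases h0 : φ x - φ 0 = 0
    · exact Or.inl h0
    right
    rw [P.nv.w_div h0 (pow_ne_zero m hπ), w_pi_pow (e := e) P hπ hw] at h1
    linarith

end lead

end Fermat.Agent.TW
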