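import Fermat.Agent.TW.LH2

/-!
# Hopf orders over inertia: multiplicative points
-/

set_option autoImplicit false
set_option linter.unusedSectionVars false

namespace Fermat.Agent.TW

open Fermat.Agent.CC NVal

section sums

theorem sum_choose_one (j N : ℕ) :
    ∑ n ∈ Finset.range N, ((n.choose j : ℕ) : Qb) = (N.choose (j + 1) : ℕ) := by
  induction N with
  | zero => simp
  | succ N ih =>
    rw [Finset.sum_range_succ, ih, Nat.choose_succ_succ]
    push_cast
    ring

theorem sum_choose_rec (y : Qb) (j N : ℕ) :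
    (1 - y) * ∑ n ∈ Finset.range N, y ^ n * (n.choose (j + 1) : Qb) =
      y * ∑ n ∈ Finset.range N, y ^ n * (n.choose j : Qb) - y ^ N * (N.choose (j + 1) : Qb) := by
  induction N with
  | zero => simp
  | succ N ih =>
    rw [Finset.sum_range_succ, Finset.sum_range_succ, mul_add, ih, Nat.choose_succ_succ]
    push_cast
    ring

variable {A : ValuationSubring Qb} {p : ℕ} {w : Qb → ℝ}

theorem sum_choose_bl (P : PL p A w) {y : Qb} (hy : y ^ p = 1) {j : ℕ} (hj : j + 1 ≤ p) :
    Bl w (1 - j / (p - 1)) (∑ n ∈ Finset.range p, y ^ n * (n.choose j : Qb)) := by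
  have hp1 : (1 : ℝ) < p := by exact_mod_cast P.prime.one_lt
  by_cases h1 : y = 1
  · subst h1
    simp only [one_pow, one_mul]
    rw [sum_choose_one]
    rcases Nat.lt_or_ge (j + 1) p with h2 | h2
    · obtain ⟨c, hc⟩ := P.prime.dvd_choose_self (by omega : j + 1 ≠ 0) h2
      rw [hc, Nat.cast_mul]
      refine NVal.mono ?_ (P.nv.mul_right P.Bl_p (P.nv.natCast c))
      have : (0 : ℝ) ≤ j / (p - 1) := div_nonneg (Nat.cast_nonneg _) (by linarith)
      linarith
    · have h3 : j + 1 = p := le_antisymm hj h2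
      rw [h3, Nat.choose_self, Nat.cast_one]
      refine NVal.mono ?_ P.nv.one
      have : ((j : ℕ) : ℝ) = p - 1 := by rw [← h3]; push_cast; ring
      rw [this, div_self (by linarith), sub_self]
  · have hf : Fact p.Prime := ⟨P.prime⟩
    have hprim : IsPrimitiveRoot y p := by
      have := IsPrimitiveRoot.orderOf y
      rwa [orderOf_eq_prime hy h1] at this
    have hw := P.nv.w_one_sub P.prime hprim
    have hne : (1 : Qb) - y ≠ 0 := sub_ne_zero.2 (Ne.symm h1)
    have hwy : Bl w 0 y := Or.inr (P.nv.w_eq_zero_of_pow P.prime.ne_zero hy).ge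
    induction j with
    | zero =>
      left
      have h2 := mul_neg_geom_sum y p
      rw [hy, sub_self] at h2
      simp only [Nat.choose_zero_right, Nat.cast_one, mul_one]
      exact (mul_eq_zero.1 h2).resolve_left hne
    | succ j ih =>
      have h2 := sum_choose_rec y j p
      rw [hy, one_mul] at h2
      have h3 : ∑ n ∈ Finset.range p, y ^ n * (n.choose (j + 1) : Qb) =
          (y * ∑ n ∈ Finset.range p, y ^ n * (n.choose j : Qb) -
            (p.choose (j + 1) : Qb)) / (1 - y) := by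
        rw [← h2, mul_div_cancel_left₀ _ hne]
      rw [h3]
      obtain ⟨c, hc⟩ := P.prime.dvd_choose_self (by omega : j + 1 ≠ 0) (by omega : j + 1 < p)
      have h4 : Bl w (1 - j / (p - 1)) (p.choose (j + 1) : Qb) := by
        rw [hc, Nat.cast_mul]
        refine NVal.mono ?_ (P.nv.mul_right P.Bl_p (P.nv.natCast c))
        have : (0 : ℝ) ≤ j / (p - 1) := div_nonneg (Nat.cast_nonneg _) (by linarith)
        linarith
      have h5 := Bl_div P.nv hne (P.nv.sub (P.nv.mul_left hwy (ih (by omega))) h4)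
      rw [hw] at h5
      refine NVal.mono (le_of_eq ?_) h5
      push_cast
      field_simp
      ring

end sums

section ops

variable {A : ValuationSubring Qb} {p : ℕ} {w : Qb → ℝ} {M : Type*} [AddCommGroup M]
  {act : A.inertiaSubgroupIn ℚ →* AddMonoid.End M} {H : Subalgebra (RI A) (M → Qb)}

/-- the projector to an eigenspace of the translation by `v` -/
noncomputable def opv (p : ℕ) (y : Qb) (v : M) : (M → Qb) →ₗ[Qb] (M → Qb) where
  toFun f x := (p : Qb)⁻¹ * ∑ n ∈ Finset.range p, y ^ n * f (x + n • v)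
  map_add' f g := by
    funext x
    simp only [Pi.add_apply, mul_add, Finset.sum_add_distrib]
  map_smul' c f := by
    funext x
    simp only [Pi.smul_apply, smul_eq_mul, RingHom.id_apply, Finset.mul_sum]
    exact Finset.sum_congr rfl fun i _ => by ring

theorem opv_apply (y : Qb) (v : M) (f : M → Qb) (x : M) :
    opv p y v f x = (p : Qb)⁻¹ * ∑ n ∈ Finset.range p, y ^ n * f (x + n • v) := rfl

theorem opv_ti (y : Qb) (v : M) : TI (opv p y v) := by
  intro f x
  rw [opv_apply, opv_apply]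
  simp only [zero_add]

/-- periodic sums -/
theorem sum_periodic (g : ℕ → Qb) (hg : g p = g 0) :
    ∑ n ∈ Finset.range p, g (n + 1) = ∑ n ∈ Finset.range p, g n := by
  have h1 := Finset.sum_range_succ g p
  rw [Finset.sum_range_succ', hg] at h1
  exact add_right_cancel h1

theorem opv_shift {y : Qb} (hy : y ^ p = 1) {v : M} (hv : p • v = 0)
    (f : M → Qb) (x : M) : y * opv p y v f (x + v) = opv p y v f x := by
  rw [opv_apply, opv_apply, ← sum_periodic (fun n => y ^ n * f (x + n • v))
    (by simp only [hy, hv, pow_zero, zero_smul]), mul_left_comm, Finset.mul_sum]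
  congr 1
  refine Finset.sum_congr rfl fun n _ => ?_
  rw [← mul_assoc, ← pow_succ', succ_nsmul, add_assoc, add_comm v]

/-- integrality of the projector -/
theorem opv_bl (hH : LH A act H) (P : PL p A w) {y : Qb} (hy : y ^ p = 1) {v : M}
    (hv : TD w H (1 / (p - 1)) v) : ∀ φ ∈ H, Bl w 0 (opv p y v φ 0) := by
  intro φ hφ
  have hp1 : (1 : ℝ) < p := by exact_mod_cast P.prime.one_lt
  rw [opv_apply]
  have e1 : ∑ n ∈ Finset.range p, y ^ n * φ (0 + n • v) =
      ∑ j ∈ Finset.range p, (fwdDiff v)^[j] φ 0 *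
        ∑ n ∈ Finset.range p, y ^ n * (n.choose j : Qb) := by
    have e2 : ∀ n ∈ Finset.range p, y ^ n * φ (0 + n • v) =
        ∑ j ∈ Finset.range p, (fwdDiff v)^[j] φ 0 * (y ^ n * (n.choose j : Qb)) := by
      intro n hn
      rw [shift_eq_sum_fwdDiff_iter v φ n 0, Finset.mul_sum]
      have hn' := Finset.mem_range.1 hn
      rw [← Finset.sum_subset (Finset.range_subset_range.2 hn')]
      · refine Finset.sum_congr rfl fun j _ => ?_
        rw [nsmul_eq_mul]
        ring
      · intro j _ hj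
        rw [Finset.mem_range, not_lt] at hj
        rw [Nat.choose_eq_zero_of_lt (by omega), Nat.cast_zero, mul_zero, mul_zero]
    rw [Finset.sum_congr rfl e2, Finset.sum_comm]
    refine Finset.sum_congr rfl fun j _ => ?_
    rw [Finset.mul_sum]
  rw [e1, Finset.mul_sum]
  refine P.nv.sum _ _ fun j hj => ?_
  have hj' := Finset.mem_range.1 hj
  have h1 := P.nv.mul (hv.fwd hH P j φ hφ 0) (sum_choose_bl P hy (j := j) (by omega))
  have h2 := Bl_div P.nv P.p_ne_zero h1
  rw [P.w_p] at h2
  rw [inv_mul_eq_div]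
  refine NVal.mono (le_of_eq ?_) h2
  field_simp
  ring

theorem sum_periodic_mul (hp : p.Prime) {g : ℕ → Qb} (hg : ∀ k, g (k % p) = g k) {a : ZMod p}
    (ha : a ≠ 0) : ∑ n ∈ Finset.range p, g (a.val * n) = ∑ n ∈ Finset.range p, g n := by
  have hf : Fact p.Prime := ⟨hp⟩
  have hcop : Nat.gcd p a.val = 1 := by
    rw [← Nat.coprime_iff_gcd_eq_one, hp.coprime_iff_not_dvd]
    intro h
    have h1 := Nat.eq_zero_of_dvd_of_lt h (ZMod.val_lt a)
    exact ha ((ZMod.val_eq_zero a).1 h1)
  have hinj : Set.InjOn (fun n => (a.val * n) % p) (Finset.range p : Set ℕ) := by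
    intro n hn m hm h
    have h1 : n ≡ m [MOD p] := Nat.ModEq.cancel_left_of_coprime hcop h
    exact Nat.ModEq.eq_of_lt_of_lt h1 (Finset.mem_range.1 hn) (Finset.mem_range.1 hm)
  have hmaps : Set.MapsTo (fun n => (a.val * n) % p) (Finset.range p : Set ℕ)
      (Finset.range p : Set ℕ) := fun n _ => by
    rw [Finset.mem_coe, Finset.mem_range]
    exact Nat.mod_lt _ hp.pos
  refine Finset.sum_nbij (fun n => (a.val * n) % p) hmaps hinj
    (Finset.surjOn_of_injOn_of_card_le _ hmaps hinj le_rfl) fun n _ => (hg _).symm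

variable (hH : LH A act H) (P : PL p A w) {ζ : Qb} {x : GQ → ZMod p} (C : CY p ζ x)
include hH P C

/-- **projectors for multiplicative points** -/
theorem exists_op {S : Set M} (h1 : ∀ c ∈ S, TD w H (1 / (p - 1)) c)
    (h2 : ∀ c ∈ S, ∀ σ : A.inertiaSubgroupIn ℚ, act σ c = (x σ).val • c)
    (h3 : ∀ c ∈ S, p • c = 0) (l : M →+ ZMod p) (s : Finset M) (hs : (s : Set M) ⊆ S) :
    ∃ T : (M → Qb) →ₗ[Qb] (M → Qb), TI T ∧ (∀ φ ∈ H, Bl w 0 (T φ 0)) ∧
      T (fun z => zp ζ (l z)) = (fun z => zp ζ (l z)) ∧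
      (∀ f, ∀ c ∈ s, ∀ z, T f (z + c) = zp ζ (l c) * T f z) ∧
      (∀ f : M → Qb, (∀ (σ : A.inertiaSubgroupIn ℚ) z, f (act σ z) = (σ : GQ) (f z)) →
        ∀ (σ : A.inertiaSubgroupIn ℚ) z, T f (act σ z) = (σ : GQ) (T f z)) := by
  classical
  have hf : Fact p.Prime := ⟨P.prime⟩
  induction s using Finset.induction with
  | empty =>
    refine ⟨LinearMap.id, fun f z => ?_, fun φ hφ => hH.mem_A P hφ 0, rfl,
      fun f c hc => absurd hc (Finset.notMem_empty c), fun f hf => hf⟩
    rw [LinearMap.id_apply, LinearMap.id_apply, add_zero]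
  | insert c s hcs ih =>
    rw [Finset.coe_insert, Set.insert_subset_iff] at hs
    obtain ⟨T, t1, t2, t3, t4, t5⟩ := ih hs.2
    obtain ⟨y, hy⟩ : ∃ y, y = (zp ζ (l c))⁻¹ := ⟨_, rfl⟩
    have hyp : y ^ p = 1 := by rw [hy, inv_pow, C.zp_pow, inv_one]
    have hyne : y ≠ 0 := by rw [hy]; exact inv_ne_zero (C.zp_ne _)
    have hyc : y * zp ζ (l c) = 1 := by rw [hy]; exact inv_mul_cancel₀ (C.zp_ne _)
    have hbl := opv_bl hH P hyp (h1 c hs.1)
    refine ⟨opv p y c ∘ₗ T, (opv_ti y c).mul t1, fun φ hφ => ?_, ?_, fun f c' hc' z => ?_,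
      fun f hf σ z => ?_⟩
    · have e1 := LA_op hH P (opv_ti y c) hbl (LA_op hH P t1 t2 (LA_mem P hφ))
      rw [add_zero, add_zero] at e1
      exact LA_bl hH P e1 0
    · rw [LinearMap.comp_apply, t3]
      funext z
      rw [opv_apply]
      have e2 : ∀ n : ℕ, zp ζ (l (n • c)) = zp ζ (l c) ^ n := by
        intro n
        induction n with
        | zero => rw [zero_smul, map_zero, C.zp_zero, pow_zero]
        | succ n ih => rw [succ_nsmul, map_add, C.zp_add, ih, pow_succ]
      have e1 : ∀ n ∈ Finset.range p, y ^ n * zp ζ (l (z + n • c)) = zp ζ (l z) := by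
        intro n _
        rw [map_add, C.zp_add, e2, mul_left_comm, ← mul_pow, hyc, one_pow, mul_one]
      rw [Finset.sum_congr rfl e1, Finset.sum_const, Finset.card_range, nsmul_eq_mul,
        inv_mul_cancel_left₀ P.p_ne_zero]
    · rw [LinearMap.comp_apply]
      rcases Finset.mem_insert.1 hc' with rfl | hc''
      · have e1 := opv_shift hyp (h3 _ hs.1) (T f) z
        rw [← e1, ← mul_assoc, mul_comm (zp ζ (l c')) y, hyc, one_mul]
      · rw [opv_apply, opv_apply, mul_left_comm (zp ζ (l c'))]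
        congr 1
        rw [Finset.mul_sum]
        refine Finset.sum_congr rfl fun n _ => ?_
        rw [add_right_comm, t4 f c' hc'']
        ring
    · rw [LinearMap.comp_apply, opv_apply, opv_apply, map_mul, map_inv₀, map_natCast, map_sum]
      congr 1
      have e1 : ∀ n ∈ Finset.range p, (σ : GQ) (y ^ n * T f (z + n • c)) =
          (fun k => y ^ k * T f (act σ z + k • c)) ((x σ).val * n) := by
        intro n _
        have e2 : (σ : GQ) y = y ^ (x σ).val := by
          rw [hy, map_inv₀, C.act_zp, C.zp_mul, inv_pow]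
        rw [map_mul, map_pow, e2, ← t5 f hf, map_add, map_nsmul, h2 c hs.1 σ, ← pow_mul]
        simp only [smul_smul]
        rw [mul_comm n]
      rw [Finset.sum_congr rfl e1]
      refine (sum_periodic_mul P.prime (fun k => ?_) (C.x_ne _)).symm
      have e3 : y ^ (k % p) = y ^ k := by
        conv_rhs => rw [← Nat.mod_add_div k p, pow_add, pow_mul, hyp, one_pow, mul_one]
      have e4 : (k % p) • c = k • c := by
        conv_rhs => rw [← Nat.mod_add_div k p, add_smul, mul_comm p, mul_smul, h3 c hs.1,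
          smul_zero, add_zero]
      rw [e3, e4]

/-- **unit type** -/
theorem LH.exists_unit [Finite M] {S : Set M} (h1 : ∀ c ∈ S, TD w H (1 / (p - 1)) c)
    (h2 : ∀ c ∈ S, ∀ σ : A.inertiaSubgroupIn ℚ, act σ c = (x σ).val • c)
    (h3 : ∀ c ∈ S, p • c = 0) (l : M →+ ZMod p) (z : M)
    (hz : ∀ σ : A.inertiaSubgroupIn ℚ, act σ z - z ∈ S) :
    ∃ u : Qb, u ≠ 0 ∧ w u = 0 ∧
      ∀ σ : A.inertiaSubgroupIn ℚ, (σ : GQ) u = zp ζ (l (act σ z - z)) * u := by
  classical
  have : Fintype M := Fintype.ofFinite M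
  obtain ⟨T, t1, t2, t3, t4, t5⟩ := exists_op hH P C h1 h2 h3 l
    (Finset.univ.filter fun c => c ∈ S) (fun c hc => by simpa using hc)
  have hex : ∃ φ ∈ H, T φ z ≠ 0 ∧ w (T φ z) = 0 := by
    by_contra hno
    push Not at hno
    have hbl : ∀ φ ∈ H, Bs w 0 (T φ z) := by
      intro φ hφ
      have e1 := LA_op hH P t1 t2 (LA_mem P hφ)
      rw [add_zero] at e1
      rcases LA_bl hH P e1 z with h | h
      · exact Or.inl h
      · by_cases h0 : T φ z = 0
        · exact Or.inl h0
        · exact Or.inr (lt_of_le_of_ne h (Ne.symm (hno φ hφ h0)))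
    obtain ⟨r, hr0, hr⟩ := hH.exists_pos P ((LinearMap.proj z).comp T) hbl
    -- translate
    let sh : (M → Qb) →ₗ[Qb] (M → Qb) :=
      { toFun := fun f y => f (y + z)
        map_add' := fun _ _ => rfl
        map_smul' := fun _ _ => rfl }
    have hsh : TI sh := by
      intro f y
      change f (y + z) = f (y + (0 + z))
      rw [zero_add]
    have e2 : ∀ f, (T ∘ₗ sh) f 0 = T f z := by
      intro f
      rw [t1 f z]
      change T (fun y => f (y + z)) 0 = _
      simp only [add_comm z]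
    have e3 : (T ∘ₗ sh) (fun y => zp ζ (l y)) = zp ζ (l z) • (fun y => zp ζ (l y)) := by
      have e4 : sh (fun y => zp ζ (l y)) = zp ζ (l z) • (fun y => zp ζ (l y)) := by
        funext y
        change zp ζ (l (y + z)) = zp ζ (l z) * zp ζ (l y)
        rw [map_add, C.zp_add, mul_comm]
      rw [LinearMap.comp_apply, e4, map_smul, t3]
    have h5 := hH.meas P (t1.mul hsh) (s := r) (fun φ hφ => by rw [e2]; exact hr φ hφ)
      (ψ := fun y => zp ζ (l y)) (Function.ne_iff.2 ⟨0, C.zp_ne _⟩) e3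
    have h6 := h5.resolve_left (C.zp_ne _)
    rw [P.nv.w_eq_zero_of_pow P.prime.ne_zero (C.zp_pow _)] at h6
    linarith
  obtain ⟨φ, hφ, hne, hw⟩ := hex
  refine ⟨T φ z, hne, hw, fun σ => ?_⟩
  rw [← t5 φ (hH.equiv φ hφ) σ z]
  have e1 : act σ z = z + (act σ z - z) := by abel
  conv_lhs => rw [e1]
  exact t4 φ _ (Finset.mem_filter.2 ⟨Finset.mem_univ _, hz σ⟩) z

end ops

end Fermat.Agent.TW
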