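import Fermat.Agent.TW.LH3

/-!
# Hopf orders over inertia: characters of points
-/

set_option autoImplicit false
set_option linter.unusedSectionVars false

namespace Fermat.Agent.TW

open Fermat.Agent.CC NVal

section theta

variable {A : ValuationSubring Qb} {p : ℕ} {w : Qb → ℝ} (P : PL p A w) {ζ : Qb}
  {x : GQ → ZMod p} (C : CY p ζ x) {π : Qb} (hπ : π ^ (p - 1) = p)
include P C hπ

theorem not_dvd_pred : ¬ p ∣ p - 1 := by
  intro h
  have h1 := P.prime.one_lt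
  exact absurd (Nat.le_of_dvd (by omega) h) (by omega)

theorem theta_eq_x {σ : GQ} (hσ : σ ∈ A.inertiaSubgroupIn ℚ) :
    rsd A (σ π / π) = ((x σ).val : IsLocalRing.ResidueField A) := by
  have hp1 := P.prime.one_lt
  have hne := not_dvd_pred P C hπ
  have hπ0 : π ≠ 0 := P.tame_ne hne hπ
  have hσD := inertia_le_decomposition A hσ
  obtain ⟨l, hl⟩ : ∃ l, l = 1 - ζ := ⟨_, rfl⟩
  have hζ1 : ζ ≠ 1 := C.prim.ne_one hp1
  have hl0 : l ≠ 0 := by rw [hl]; exact sub_ne_zero.2 hζ1.symm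
  have hwl : w l = 1 / ((p : ℝ) - 1) := by rw [hl]; exact P.nv.w_one_sub P.prime C.prim
  have hwπ : w π = 1 / ((p : ℝ) - 1) := by
    rw [P.tame_w hne hπ, Nat.cast_sub hp1.le, Nat.cast_one]
  -- `l / π` is a unit
  have hu : Bl w 0 (l / π) := Or.inr (by rw [P.nv.w_div hl0 hπ0, hwl, hwπ, sub_self])
  have hu' : Bl w 0 (π / l) := Or.inr (by rw [P.nv.w_div hπ0 hl0, hwl, hwπ, sub_self])
  have hσπ0 : σ π ≠ 0 := (map_ne_zero _).2 hπ0
  have hθ : Bl w 0 (σ π / π) := Or.inr (by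
    rw [P.nv.w_div hσπ0 hπ0, P.nv.w_smul hσD, sub_self])
  -- `σ l / l`
  have e1 : σ l / l = ∑ i ∈ Finset.range (x σ).val, ζ ^ i := by
    rw [div_eq_iff hl0, hl, map_sub, map_one, C.act, zp, ← mul_neg_geom_sum]
    ring
  have e2 : rsd A (σ l / l) = ((x σ).val : IsLocalRing.ResidueField A) := by
    have hζ : Bl w 0 ζ := Or.inr (P.nv.w_eq_zero_of_pow P.prime.ne_zero C.prim.pow_eq_one).ge
    have hζ1 : rsd A ζ = 1 := by
      rw [← P.rsd_one, P.rsd_eq_iff hζ P.nv.one]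
      refine Bs_comm P.nv ?_
      rw [← hl]
      right
      rw [hwl]
      have : (1 : ℝ) < p := by exact_mod_cast hp1
      exact div_pos one_pos (by linarith)
    rw [e1]
    obtain ⟨N, hN⟩ : ∃ N, N = (x σ).val := ⟨_, rfl⟩
    rw [← hN]
    clear hN e1
    have hbl : ∀ i : ℕ, Bl w 0 (ζ ^ i) := fun i => by
      have := P.nv.pow hζ i
      rwa [mul_zero] at this
    induction N with
    | zero => rw [Finset.range_zero, Finset.sum_empty, P.rsd_zero, Nat.cast_zero]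
    | succ N ih =>
      rw [Finset.sum_range_succ, P.rsd_add (P.nv.sum _ _ fun i _ => hbl i) (hbl N), ih,
        P.rsd_pow hζ, hζ1, one_pow]
      push_cast
      rfl
  rw [← e2]
  have e3 : σ l / l = (σ π / π) * ((π / l) * σ (l / π)) := by
    rw [map_div₀]
    field_simp
  rw [e3, P.rsd_mul hθ (P.nv.mul_left hu' ((P.nv.Bl_smul hσD).2 hu)),
    P.rsd_mul hu' ((P.nv.Bl_smul hσD).2 hu), P.rsd_inertia hσ hu, ← P.rsd_mul hu' hu]
  have e4 : π / l * (l / π) = 1 := by field_simp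
  rw [e4, P.rsd_one, mul_one]

theorem mem_Jt_iff_x {σ : GQ} : σ ∈ Jt A π ↔ σ ∈ A.inertiaSubgroupIn ℚ ∧ x σ = 1 := by
  have hf : Fact p.Prime := ⟨P.prime⟩
  have hp1 := P.prime.one_lt
  have hne := not_dvd_pred P C hπ
  have hπ0 : π ≠ 0 := P.tame_ne hne hπ
  have hcp := P.charP
  rw [mem_Jt]
  refine and_congr_right fun hσ => ?_
  have h1 := theta_eq_x P C hπ hσ
  constructor
  · intro h
    rw [h, div_self hπ0, P.rsd_one] at h1
    have h2 : (((x σ).val : ℕ) : IsLocalRing.ResidueField A) = ((1 : ℕ) : _) := by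
      rw [Nat.cast_one, h1]
    rw [CharP.natCast_eq_natCast _ p] at h2
    have h3 := Nat.ModEq.eq_of_lt_of_lt h2 (ZMod.val_lt _) hp1
    exact (ZMod.val_eq_one hp1 _).1 h3
  · intro h
    rw [h, ZMod.val_one, Nat.cast_one] at h1
    have hσπ0 : σ π ≠ 0 := (map_ne_zero _).2 hπ0
    have hθ : Bl w 0 (σ π / π) := Or.inr (by
      rw [P.nv.w_div hσπ0 hπ0, P.nv.w_smul (inertia_le_decomposition A hσ), sub_self])
    rw [← P.rsd_one, P.rsd_eq_iff hθ P.nv.one] at h1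
    have h2 := P.te_unique hne (P.theta_pow hπ σ) (one_pow _) h1
    rwa [div_eq_one_iff_eq hπ0] at h2

end theta

section points

variable {A : ValuationSubring Qb} {p : ℕ} {w : Qb → ℝ} {M : Type*} [AddCommGroup M]
  {act : A.inertiaSubgroupIn ℚ →* AddMonoid.End M} {H : Subalgebra (RI A) (M → Qb)}
  (hH : LH A act H) (P : PL p A w)
include hH P

theorem LH.fix_sub {J : Subgroup GQ} (hJ : J ≤ A.inertiaSubgroupIn ℚ) {z : M}
    (hz : ∀ σ (hσ : σ ∈ J), act ⟨σ, hJ hσ⟩ z = z) {φ : M → Qb} (hφ : φ ∈ H) :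
    ∀ σ ∈ J, σ (φ z - φ 0) = φ z - φ 0 := by
  intro σ hσ
  have h1 := hH.equiv φ hφ ⟨σ, hJ hσ⟩ z
  have h2 := hH.equiv φ hφ ⟨σ, hJ hσ⟩ 0
  rw [hz σ hσ] at h1
  rw [map_zero] at h2
  rw [map_sub]
  exact congrArg₂ _ h1.symm h2.symm

theorem LH.td_of_fix {J : Subgroup GQ} {e : ℕ} {π : Qb} (U : UF p A w J e π) {z : M}
    (hz : ∀ σ (hσ : σ ∈ J), act ⟨σ, U.le hσ⟩ z = z) {m : ℤ} (h : TDS w H (m / e) z) :
    TD w H ((m + 1 : ℤ) / e) z := by
  intro φ hφ
  by_cases h0 : φ z - φ 0 = 0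
  · exact Or.inl h0
  obtain ⟨n, hn⟩ := U.val _ h0 (hH.fix_sub P U.le hz hφ)
  have h1 := (h φ hφ).resolve_left h0
  right
  have he : (0 : ℝ) < e := U.e_pos'
  rw [hn, div_lt_div_iff_of_pos_right he] at h1
  rw [hn]
  have h2 : m < n := by exact_mod_cast h1
  refine div_le_div_of_nonneg_right ?_ he.le
  exact_mod_cast h2

/-- inertia acts on multiplicative points through the cyclotomic character -/
theorem LH.act_eq_nsmul {ζ : Qb} {x : GQ → ZMod p} (C : CY p ζ x) {π : Qb}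
    (hπ : π ^ (p - 1) = p) {z : M} (hpz : p • z = 0) (h0 : TDS w H 0 z)
    (hz : ∀ σ (hσ : σ ∈ Jt A π), act ⟨σ, hσ.1⟩ z = z) (σ : A.inertiaSubgroupIn ℚ) :
    TD w H (1 / (p - 1)) z ∧ act σ z = (x σ).val • z := by
  have hp1 := P.prime.one_lt
  have hne := not_dvd_pred P C hπ
  have hπ0 : π ≠ 0 := P.tame_ne hne hπ
  obtain ⟨U, -, -⟩ := P.uf_tame hne hπ
  have he : ((p - 1 : ℕ) : ℝ) = (p : ℝ) - 1 := by rw [Nat.cast_sub hp1.le, Nat.cast_one]
  have h1 : TD w H ((1 : ℕ) / ((p - 1 : ℕ) : ℝ)) z := by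
    have h2 := hH.td_of_fix P U hz (m := 0) (by rw [Int.cast_zero, zero_div]; exact h0)
    have e1 : (((0 : ℤ) + 1 : ℤ) : ℝ) = ((1 : ℕ) : ℝ) := by norm_num
    rwa [e1] at h2
  refine ⟨by rwa [he, Nat.cast_one] at h1, ?_⟩
  have h3 := hH.act_td P σ h1
  have h4 := h1.nsmul hH P (x σ).val
  have hw : w π = 1 / ((p - 1 : ℕ) : ℝ) := P.tame_w hne hπ
  have hpos : 0 < p - 1 := by omega
  have h5 : act σ z - (x σ).val • z = 0 := by
    refine hH.eq_zero P ?_ ?_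
    · have e1 : p • act σ z = 0 := by
        rw [← map_nsmul, hpz, map_zero]
      rw [smul_sub, e1, smul_smul, mul_comm, mul_smul, hpz, smul_zero, sub_zero]
    · have h6 : TD w H ((1 : ℕ) / ((p - 1 : ℕ) : ℝ)) (act σ z - (x σ).val • z) := by
        rw [sub_eq_add_neg]
        exact h3.add hH P (h4.neg hH P)
      have h7 := tds_of_Tl hH P hπ0 hw h6 (fun φ hφ => ?_)
      · rwa [he, Nat.cast_one] at h7
      · have h8 := Tl_add hH P hπ0 hw hpos one_pos h6 h4 hφ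
        rw [sub_add_cancel, Tl_act hH P hπ0 hw h1 hφ σ,
          Tl_nsmul hH P hπ0 hw hpos one_pos h1 hφ, theta_eq_x P C hπ σ.2, pow_one] at h8
        exact (add_eq_right.1 h8.symm)
  exact sub_eq_zero.1 h5

theorem LH.eq_zero_of_trivial (hp2 : p ≠ 2) {z : M} (hpz : p • z = 0) (h0 : TDS w H 0 z)
    (hz : ∀ σ : A.inertiaSubgroupIn ℚ, act σ z = z) : z = 0 := by
  refine hH.eq_zero P hpz ?_
  have h2 := hH.td_of_fix P P.uf_inertia (fun σ hσ => hz ⟨σ, hσ⟩) (m := 0)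
    (by rw [Int.cast_zero, zero_div]; exact h0)
  refine h2.tds ?_
  have h3 : (3 : ℝ) ≤ p := by
    have h4 := P.prime.two_le
    have : 3 ≤ p := by omega
    exact_mod_cast this
  rw [div_lt_iff₀ (by linarith)]
  push_cast
  linarith

end points

end Fermat.Agent.TW
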