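import Fermat.Agent.TW.LH5

/-!
# Flat deformations of reducible type: the adapted basis
-/

set_option autoImplicit false
set_option linter.unusedSectionVars false

namespace Fermat.Agent.TW

open Matrix Fermat.Agent.CC NVal IsLocalRing
open Fermat.Agent.H04 (DN M2 ofMat IsCont)

variable {𝒪 : Type} [CommRing 𝒪] [IsLocalRing 𝒪] {A : ValuationSubring Qb} {p : ℕ} {w : Qb → ℝ}
  {rb : GQ →* Mt (ResidueField 𝒪)} {s : GQ →* M2 (DN 𝒪)} {Q Q' : Mt (ResidueField 𝒪)}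

/-- the submodule `[I, V]` -/
noncomputable def NV (A : ValuationSubring Qb) (s : GQ →* M2 (DN 𝒪)) : Submodule (DN 𝒪) (Fin 2 → DN 𝒪) :=
  Submodule.span (DN 𝒪) {y | ∃ (σ : A.inertiaSubgroupIn ℚ) (m : Fin 2 → DN 𝒪),
    y = actV A s σ m - m}

theorem sub_mem_NV (σ : A.inertiaSubgroupIn ℚ) (m : Fin 2 → DN 𝒪) :
    actV A s σ m - m ∈ NV A s := Submodule.subset_span ⟨σ, m, rfl⟩

theorem finite_DN [Finite (ResidueField 𝒪)] : Finite (DN 𝒪) := by
  refine Finite.of_injective (fun x : DN 𝒪 => (fs x, sn x)) fun x y h => ?_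
  have h1 := Prod.ext_iff.1 h
  exact dn_ext h1.1 h1.2

section

variable [Finite (ResidueField 𝒪)] [CharP (ResidueField 𝒪) p] (P : PL p A w) (hp2 : p ≠ 2)
  {H : Subalgebra (RI A) ((Fin 2 → DN 𝒪) → Qb)} (hH : LH A (actV A s) H)
include P hp2 hH

theorem p_smul_V (z : Fin 2 → DN 𝒪) : p • z = 0 := by
  have : (p : DN 𝒪) = 0 := dn_natCast_eq_zero
  funext j
  rw [Pi.smul_apply, nsmul_eq_mul, this, zero_mul]
  rfl

theorem mem_NV_iff {z : Fin 2 → DN 𝒪} : z ∈ NV A s ↔ TDS w H 0 z := by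
  have hfin := finite_DN (𝒪 := 𝒪)
  constructor
  · intro hz
    unfold NV at hz
    induction hz using Submodule.closure_induction with
    | zero => exact TDS_zero _
    | add x y _ _ hx hy => exact hx.add hH P hy
    | smul_mem c y hy =>
      obtain ⟨σ, m, rfl⟩ := hy
      have e1 : c • (actV A s σ m - m) = actV A s σ (c • m) - c • m := by
        rw [actV_apply, actV_apply, Matrix.mulVec_smul, smul_sub]
      rw [e1]
      exact hH.tds_inertia P σ _
  · intro hz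
    have h1 := hH.mem_closure P hp2 (p_smul_V P hp2 hH) hz
    refine (AddSubgroup.closure_le (K := (NV A s).toAddSubgroup)).2 ?_ h1
    rintro y ⟨σ, m, rfl⟩
    exact sub_mem_NV σ m

end

/-- `[I, k²]` -/
noncomputable def NR (A : ValuationSubring Qb) (rb : GQ →* Mt (ResidueField 𝒪)) :
    Submodule (ResidueField 𝒪) (Fin 2 → ResidueField 𝒪) :=
  Submodule.span (ResidueField 𝒪) {y | ∃ (σ : A.inertiaSubgroupIn ℚ)
    (m : Fin 2 → ResidueField 𝒪), y = actR A rb σ m - m}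

theorem exists_redv (y : Fin 2 → ResidueField 𝒪) : ∃ v : Fin 2 → DN 𝒪, redv v = y :=
  ⟨fun j => DN.mk 𝒪 (y j) 0, rfl⟩

theorem exists_fs (y : ResidueField 𝒪) : ∃ v : DN 𝒪, fs v = y := ⟨DN.mk 𝒪 y 0, rfl⟩

theorem redv_NV (hs : ∀ σ, FM (s σ) = rb σ) {y : Fin 2 → ResidueField 𝒪} (hy : y ∈ NR A rb) :
    ∃ z ∈ NV A s, redv z = y := by
  unfold NR at hy
  induction hy using Submodule.span_induction with
  | mem y hy =>
    obtain ⟨σ, m, rfl⟩ := hy
    obtain ⟨v, rfl⟩ := exists_redv m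
    refine ⟨_, sub_mem_NV σ v, ?_⟩
    rw [map_sub, actV_apply, redv_mulVec, hs]
    rfl
  | zero => exact ⟨0, Submodule.zero_mem _, map_zero _⟩
  | add x y _ _ hx hy =>
    obtain ⟨v, hv, rfl⟩ := hx
    obtain ⟨v', hv', rfl⟩ := hy
    exact ⟨v + v', Submodule.add_mem _ hv hv', map_add _ _ _⟩
  | smul c x _ hx =>
    obtain ⟨v, hv, rfl⟩ := hx
    obtain ⟨c', rfl⟩ := exists_fs c
    exact ⟨c' • v, Submodule.smul_mem _ _ hv, redv_smul _ _⟩

theorem NR_redv (hs : ∀ σ, FM (s σ) = rb σ) {z : Fin 2 → DN 𝒪} (hz : z ∈ NV A s) :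
    redv z ∈ NR A rb := by
  unfold NV at hz
  induction hz using Submodule.span_induction with
  | mem y hy =>
    obtain ⟨σ, m, rfl⟩ := hy
    refine Submodule.subset_span ⟨σ, redv m, ?_⟩
    rw [map_sub, actV_apply, redv_mulVec, hs]
    rfl
  | zero => rw [map_zero]; exact Submodule.zero_mem _
  | add x y _ _ hx hy => rw [map_add]; exact Submodule.add_mem _ hx hy
  | smul c x _ hx => rw [redv_smul]; exact Submodule.smul_mem _ _ hx

section

variable [Finite (ResidueField 𝒪)] [CharP (ResidueField 𝒪) p] (P : PL p A w) (hp2 : p ≠ 2)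
  {H : Subalgebra (RI A) ((Fin 2 → DN 𝒪) → Qb)} (hH : LH A (actV A s) H)
  (hs : ∀ σ, FM (s σ) = rb σ)
include P hp2 hH hs

/-- `V⁰ ∩ εV = εV⁰` -/
theorem NR_of_epsv {y : Fin 2 → ResidueField 𝒪} (hy : epsv y ∈ NV A s) : y ∈ NR A rb := by
  have hfin := finite_DN (𝒪 := 𝒪)
  obtain ⟨H₁, hH₁, hrel⟩ := H09.LHopf.exists_lh_injective hH
    (act₁ := actR A rb) (epsv (𝒪 := 𝒪)) (fun σ m => by
      rw [actV_apply, mulVec_epsv, hs]
      rfl) epsv_inj
  have h1 : TDS w H₁ 0 y := by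
    intro ψ hψ
    obtain ⟨φ, hφ, rfl⟩ := (hrel ψ).1 hψ
    have := (mem_NV_iff P hp2 hH).1 hy φ hφ
    rwa [← map_zero (epsv (𝒪 := 𝒪))] at this
  have hp : ∀ z : Fin 2 → ResidueField 𝒪, p • z = 0 := by
    intro z
    funext j
    rw [Pi.smul_apply, nsmul_eq_mul, CharP.cast_eq_zero, zero_mul]
    rfl
  have h2 := hH₁.mem_closure P hp2 hp h1
  refine (AddSubgroup.closure_le (K := (NR A rb).toAddSubgroup)).2 ?_ h2
  rintro y ⟨σ, m, rfl⟩
  exact Submodule.subset_span ⟨σ, m, rfl⟩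

theorem epsv_NR {y : Fin 2 → ResidueField 𝒪} (hy : y ∈ NR A rb) : epsv y ∈ NV A s := by
  obtain ⟨z, hz, rfl⟩ := redv_NV hs hy
  have := epsv_redv z 1
  rw [one_smul] at this
  rw [this]
  exact Submodule.smul_mem _ _ hz

end

end Fermat.Agent.TW
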