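import Fermat.Agent.TW.Local1

/-!
# Local cohomology of `ad⁰` at Taylor-Wiles primes
-/

set_option autoImplicit false
set_option linter.unusedSectionVars false

namespace Fermat.Agent.TW

open Matrix Fermat.Agent.CC
open scoped Pointwise

variable {k : Type*} [Field k]

theorem smooth_Ad0 {r : GQ →* Mt k} {χ : GQ →* k} (hr : lev.isOpen r.ker)
    (hχ : ∀ g, r g = 1 → χ g = 1) : lev.Smooth (Ad0 r χ) := fun X =>
  ⟨r.ker, hr, fun _ hs => Ad0.smul_of_trivial hs (hχ _ hs) X⟩

/-- a trace zero matrix commuting with a matrix with distinct eigenvalues is determined by one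
coordinate -/
theorem eq_zero_of_comm (h2 : (2 : k) ≠ 0) {C X : Mt k} (hC : C.det = 1) (ht : C.trace ^ 2 ≠ 4)
    (hX : X.trace = 0) (hc : C * X = X * C) (h0 : (X * C).trace = 0) : X = 0 := by
  have h3 := anticomm (C := X) (H := C) hX
  rw [hc, h0, zero_smul, add_zero, ← two_smul k (X * C)] at h3
  -- `2 X C = tr C • X`
  have h4 : (2 : k) • (X * C * C) = C.trace • (X * C) := by
    have := congrArg (fun Y => Y * C) h3
    simpa only [smul_mul_assoc] using this
  have h5 : C * C = C.trace • C - (1 : Mt k) := by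
    rw [cayley, hC, one_smul]
  rw [mul_assoc, h5, mul_sub, mul_smul_comm, mul_one, smul_sub] at h4
  have h6 : (C.trace ^ 2 - 4) • X = 0 := by
    have h7 : (2 : k) • (C.trace • (X * C)) = C.trace • (C.trace • X) := by
      rw [smul_comm, h3]
    rw [h7] at h4
    have h8 : (2 : k) • (C.trace • (C.trace • X) - (2 : k) • X) =
        C.trace • (C.trace • X) := by
      rw [h4, ← h7]
    have h9 : (C.trace ^ 2 - 4) • X = (2 : k) • (C.trace • (C.trace • X) - (2 : k) • X) -
        C.trace • (C.trace • X) := by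
      simp only [smul_smul, smul_sub]
      rw [sub_smul]
      have : (2 : k) * 2 = 4 := by norm_num
      rw [this, ← sub_smul, ← sub_smul, ← sub_smul]
      congr 1
      ring
    rw [h9, h8, sub_self]
  rcases smul_eq_zero.1 h6 with h7 | h7
  · exact absurd (sub_eq_zero.1 h7) ht
  · exact h7

/-- **(LB) at Taylor-Wiles primes** -/
theorem card_H1_TW [Finite k] {p : ℕ} [CharP k p] (hp : p.Prime) (hp2 : p ≠ 2)
    {r : GQ →* Mt k} (hr : lev.isOpen r.ker) {q : ℕ} (hq : q.Prime) (hpq : p ∣ q - 1)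
    {A : ValuationSubring Qb} (hA : A.LiesOverPrime q)
    (hI : ∀ τ ∈ A.inertiaSubgroupIn ℚ, r τ = 1)
    (hφ : ∀ φ : GQ, A.IsFrobeniusAt φ q → (r φ).det = 1 ∧ (r φ).trace ^ 2 ≠ 4) :
    Finite (H1 (lev.sub (A.decompositionSubgroup ℚ)) (Ad0 r (1 : GQ →* k))) ∧
    Nat.card (H1 (lev.sub (A.decompositionSubgroup ℚ)) (Ad0 r (1 : GQ →* k))) ≤
      Nat.card k * Nat.card (H0 (A.decompositionSubgroup ℚ) (Ad0 r (1 : GQ →* k))) := by
  have hgal := Fermat.Agent.H51.isGalois_Qbar
  obtain ⟨φ, hφA⟩ := H05.exists_isFrobeniusAt hq hA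
  obtain ⟨hd, ht⟩ := hφ φ hφA
  have hne : p ≠ q := by
    rintro rfl
    have h1 := Nat.le_of_dvd (Nat.sub_pos_of_lt hp.one_lt) hpq
    have := hp.pos
    omega
  have : Fact p.Prime := ⟨hp⟩
  have h2 : (2 : k) ≠ 0 := by simpa using cast_ne_zero (k := k) (p := p) Nat.prime_two hp2
  have hpM : ∀ m : Ad0 r (1 : GQ →* k), p • m = 0 := by
    intro m
    have : (p : k) • m = 0 := by rw [CharP.cast_eq_zero, zero_smul]
    rwa [Nat.cast_smul_eq_nsmul] at this
  obtain ⟨h3, h4⟩ := card_tame_le (M := Ad0 r (1 : GQ →* k)) hq hA hφA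
    (smooth_Ad0 hr fun g _ => rfl) hp hne hpM
    (fun τ hτ m => Ad0.smul_of_trivial (hI τ hτ) rfl m)
  refine ⟨h3, h4.trans ?_⟩
  rw [mul_comm]
  refine Nat.mul_le_mul_right _ ?_
  refine Nat.card_le_card_of_injective (fun m => (m.1.val * r φ).trace) ?_
  have key : ∀ m : Ad0 r (1 : GQ →* k), φ • m = q • m → r φ * m.val = m.val * r φ := by
    intro m hm
    have hqm : q • m = m := by
      obtain ⟨c, hc⟩ := hpq
      have h5 : q = p * c + 1 := by have := hq.pos; omega
      rw [h5, add_smul, one_smul, mul_comm, mul_smul, hpM, smul_zero, zero_add]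
    rw [hqm] at hm
    have h6 := congrArg (fun x => x.val * r φ) hm
    beta_reduce at h6
    rw [Ad0.val_gsmul, MonoidHom.one_apply, one_smul, mul_assoc, r_inv_mul, mul_one] at h6
    exact h6
  intro m m' hmm
  have h5 : (m.1 - m'.1).val = 0 := by
    apply eq_zero_of_comm h2 hd ht (m.1 - m'.1).trace_val
    · rw [Ad0.val_sub, mul_sub, sub_mul, key m.1 m.2, key m'.1 m'.2]
    · rw [Ad0.val_sub, sub_mul, Matrix.trace_sub, sub_eq_zero]
      exact hmm
  apply Subtype.ext
  rw [← sub_eq_zero]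
  exact Ad0.ext h5

end Fermat.Agent.TW
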