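import Fermat.Agent.TW.CharCount
import Fermat.Agent.TW.Local2

/-!
# Local conditions at `p`: Borel type
-/

set_option autoImplicit false
set_option linter.unusedSectionVars false

namespace Fermat.Agent.TW

open Matrix Fermat.Agent.CC
open scoped Pointwise

/-- counting classes by counting cocycles -/
theorem card_map_le {G : Type*} [Group G] {𝓛 : Lev G} {M : Type*} [AddCommGroup M]
    [DistribMulAction G M] [Finite M] (Zs : AddSubgroup (Z1 𝓛 M)) {N : ℕ} (hfin : Finite Zs)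
    (hN : Nat.card Zs ≤ N) (B : AddSubgroup M)
    (hB : ∀ m ∈ B, ∃ f ∈ Zs, ∀ g, f.1 g = g • m - m) :
    Finite (Zs.map (H1.mk 𝓛 M)) ∧
    Nat.card (Zs.map (H1.mk 𝓛 M)) * Nat.card B ≤ Nat.card (H0 G M) * N := by
  classical
  obtain ⟨T, hT⟩ : ∃ T : Zs →+ H1 𝓛 M, T = (H1.mk 𝓛 M).comp Zs.subtype := ⟨_, rfl⟩
  have hrange : T.range = Zs.map (H1.mk 𝓛 M) := by
    ext x
    rw [AddMonoidHom.mem_range, AddSubgroup.mem_map, hT]
    constructor
    · rintro ⟨y, rfl⟩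
      exact ⟨y.1, y.2, rfl⟩
    · rintro ⟨y, hy, rfl⟩
      exact ⟨⟨y, hy⟩, rfl⟩
  have hfr : Finite T.range := by
    have : Finite (Set.range T) := Set.finite_range T
    exact this
  rw [← hrange]
  refine ⟨hfr, ?_⟩
  choose! F hF hF' using hB
  obtain ⟨δ, hδ⟩ : ∃ δ : B →+ Zs, ∀ m g, (δ m).1.1 g = g • (m : M) - m := by
    refine ⟨AddMonoidHom.mk' (fun m => ⟨F m, hF m m.2⟩) fun m m' => ?_, fun m g => hF' m m.2 g⟩
    apply Subtype.ext
    apply Subtype.ext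
    funext g
    change (F ((m + m' : B) : M)).1 g = (F (m : M)).1 g + (F (m' : M)).1 g
    rw [hF' _ (m + m').2, hF' _ m.2, hF' _ m'.2, AddSubgroup.coe_add, smul_add]
    abel
  have h1 : Nat.card B = Nat.card δ.ker * Nat.card δ.range := card_eq_ker_range δ
  have h2 : Nat.card δ.ker ≤ Nat.card (H0 G M) := by
    refine Nat.card_le_card_of_injective (fun m => (⟨(m : B), fun g => ?_⟩ : H0 G M)) ?_
    · have h3 : (δ m).1.1 g = 0 := by rw [AddMonoidHom.mem_ker.1 m.2]; rfl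
      rw [hδ] at h3
      exact sub_eq_zero.1 h3
    · intro m m' hmm
      exact Subtype.ext (Subtype.ext (congrArg (fun y : H0 G M => (y : M)) hmm))
  have hle : δ.range ≤ T.ker := by
    rintro _ ⟨m, rfl⟩
    rw [AddMonoidHom.mem_ker, hT, AddMonoidHom.comp_apply]
    change H1.mk 𝓛 M (δ m).1 = 0
    rw [H1.mk_eq_zero]
    exact ⟨m, hδ m⟩
  have h3 : Nat.card δ.range ≤ Nat.card T.ker :=
    Nat.card_le_card_of_injective _ (AddSubgroup.inclusion_injective hle)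
  have h4 := card_eq_ker_range T
  calc Nat.card T.range * Nat.card B ≤ Nat.card T.range * (Nat.card (H0 G M) * Nat.card T.ker) := by
        rw [h1]
        exact Nat.mul_le_mul_left _ (Nat.mul_le_mul h2 h3)
    _ = Nat.card (H0 G M) * Nat.card Zs := by rw [h4]; ring
    _ ≤ _ := Nat.mul_le_mul_left _ hN

/-- the decomposition group at `A` acts through upper triangular matrices in the basis given by
the columns of `Q` -/
structure BData {k : Type*} [Field k] (A : ValuationSubring Qb) (r : GQ →* Mt k) (Q Q' : Mt k) :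
    Prop where
  inv : Q * Q' = 1
  inv' : Q' * Q = 1
  tri : ∀ g ∈ A.decompositionSubgroup ℚ, (Q' * r g * Q) 1 0 = 0

section tri

variable {k : Type*} [Field k]

theorem tri_inv {T T' : Mt k} (h : T * T' = 1) (h0 : T 1 0 = 0) :
    T' 1 0 = 0 ∧ T 0 0 * T' 0 0 = 1 ∧ T 1 1 * T' 1 1 = 1 := by
  have e1 : T 1 0 * T' 0 0 + T 1 1 * T' 1 0 = 0 := by
    have := congrFun (congrFun h 1) 0
    simpa [Matrix.mul_apply, Fin.sum_univ_two] using this
  have e2 : T 1 0 * T' 0 1 + T 1 1 * T' 1 1 = 1 := by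
    have := congrFun (congrFun h 1) 1
    simpa [Matrix.mul_apply, Fin.sum_univ_two] using this
  have e3 : T 0 0 * T' 0 0 + T 0 1 * T' 1 0 = 1 := by
    have := congrFun (congrFun h 0) 0
    simpa [Matrix.mul_apply, Fin.sum_univ_two] using this
  rw [h0, zero_mul, zero_add] at e1 e2
  have h1 : T 1 1 ≠ 0 := by
    intro h2
    rw [h2, zero_mul] at e2
    exact zero_ne_one e2
  have h2 : T' 1 0 = 0 := (mul_eq_zero.1 e1).resolve_left h1
  rw [h2, mul_zero, add_zero] at e3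
  exact ⟨h2, e3, e2⟩

/-- upper triangular conjugation of a strictly upper triangular matrix -/
theorem tri_conj {T T' X : Mt k} (h : T * T' = 1) (h0 : T 1 0 = 0)
    (hX0 : X 0 0 = 0) (hX1 : X 1 0 = 0) (hX2 : X 1 1 = 0) :
    (T * X * T') 0 0 = 0 ∧ (T * X * T') 1 0 = 0 ∧ (T * X * T') 1 1 = 0 ∧
      (T * X * T') 0 1 = T 0 0 * (T 1 1)⁻¹ * X 0 1 := by
  obtain ⟨h1, h2, h3⟩ := tri_inv h h0
  have h4 : T 1 1 ≠ 0 := by
    intro h5
    rw [h5, zero_mul] at h3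
    exact zero_ne_one h3
  have h5 : T' 1 1 = (T 1 1)⁻¹ := by
    apply eq_inv_of_mul_eq_one_left
    rw [mul_comm]; exact h3
  simp only [Matrix.mul_apply, Fin.sum_univ_two, hX0, hX1, hX2, h0, h1, h5]
  refine ⟨by ring, by ring, by ring, by ring⟩

/-- upper triangular conjugation of an upper triangular matrix -/
theorem tri_conj' {T T' X : Mt k} (h : T * T' = 1) (h0 : T 1 0 = 0)
    (hX1 : X 1 0 = 0) :
    (T * X * T') 0 0 = X 0 0 ∧ (T * X * T') 1 0 = 0 ∧ (T * X * T') 1 1 = X 1 1 := by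
  obtain ⟨h1, h2, h3⟩ := tri_inv h h0
  simp only [Matrix.mul_apply, Fin.sum_univ_two, hX1, h0, h1]
  refine ⟨by linear_combination X 0 0 * h2, by ring, by linear_combination X 1 1 * h3⟩

end tri

section strict

variable {k : Type*} [Field k] {A : ValuationSubring Qb} {r : GQ →* Mt k} {Q Q' : Mt k}

/-- cocycles strictly upper triangular in the basis `Q` -/
def ZS (A : ValuationSubring Qb) (r : GQ →* Mt k) (Q Q' : Mt k) :
    AddSubgroup (Z1 (lev.sub (A.decompositionSubgroup ℚ)) (Ad0 r (1 : GQ →* k))) where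
  carrier := {f | ∀ g, (Q' * (f.1 g).val * Q) 1 0 = 0 ∧ (Q' * (f.1 g).val * Q) 0 0 = 0 ∧
    (Q' * (f.1 g).val * Q) 1 1 = 0}
  add_mem' := by
    intro f f' hf hf' g
    have e : Q' * ((f + f').1 g).val * Q = Q' * (f.1 g).val * Q + Q' * (f'.1 g).val * Q := by
      rw [← add_mul, ← mul_add]
      rfl
    rw [e]
    simp only [Matrix.add_apply]
    rw [(hf g).1, (hf' g).1, (hf g).2.1, (hf' g).2.1, (hf g).2.2, (hf' g).2.2]
    simp
  zero_mem' := by
    intro g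
    have e : ((0 : Z1 (lev.sub (A.decompositionSubgroup ℚ)) (Ad0 r (1 : GQ →* k))).1 g).val
      = (0 : Mt k) := rfl
    rw [e]
    simp
  neg_mem' := by
    intro f hf g
    have e : Q' * ((-f).1 g).val * Q = - (Q' * (f.1 g).val * Q) := by
      rw [← neg_mul, ← mul_neg]
      rfl
    rw [e]
    simp only [Matrix.neg_apply, neg_eq_zero]
    exact hf g

/-- upper triangular matrices of trace zero -/
def BorelSub (r : GQ →* Mt k) (Q Q' : Mt k) : AddSubgroup (Ad0 r (1 : GQ →* k)) where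
  carrier := {X | (Q' * X.val * Q) 1 0 = 0}
  add_mem' := by
    intro X Y hX hY
    change (Q' * (X.val + Y.val) * Q) 1 0 = 0
    rw [mul_add, add_mul, Matrix.add_apply, hX, hY, add_zero]
  zero_mem' := by
    change (Q' * (0 : Mt k) * Q) 1 0 = 0
    simp
  neg_mem' := by
    intro X hX
    change (Q' * (-X.val) * Q) 1 0 = 0
    rw [mul_neg, neg_mul, Matrix.neg_apply, hX, neg_zero]

theorem card_BorelSub (h' : Q' * Q = 1) [Finite k] :
    Nat.card k ^ 2 ≤ Nat.card (BorelSub r Q Q') := by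
  have e : Nat.card (k × k) = Nat.card k ^ 2 := by rw [Nat.card_prod, pow_two]
  rw [← e]
  refine Nat.card_le_card_of_injective (fun c => (⟨Ad0.mk (Q * !![c.1, c.2; 0, -c.1] * Q') ?_, ?_⟩ :
    BorelSub r Q Q')) ?_
  · rw [Matrix.trace_mul_comm, ← mul_assoc, h', one_mul]
    simp [Matrix.trace, Fin.sum_univ_two]
  · change (Q' * (Q * !![c.1, c.2; 0, -c.1] * Q') * Q) 1 0 = 0
    have : Q' * (Q * !![c.1, c.2; 0, -c.1] * Q') * Q = !![c.1, c.2; 0, -c.1] := by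
      rw [mul_assoc Q, ← mul_assoc Q', h', one_mul, mul_assoc, h', mul_one]
    rw [this]
    simp
  · intro c d hcd
    have h1 : Q * !![c.1, c.2; 0, -c.1] * Q' = Q * !![d.1, d.2; 0, -d.1] * Q' :=
      congrArg (fun y : BorelSub r Q Q' => (y : Ad0 r (1 : GQ →* k)).val) hcd
    have h2 : !![c.1, c.2; 0, -c.1] = !![d.1, d.2; 0, -d.1] := by
      have h3 := congrArg (fun Y => Q' * Y * Q) h1
      beta_reduce at h3
      rwa [mul_assoc Q, ← mul_assoc Q', h', one_mul, mul_assoc, h', mul_one,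
        mul_assoc Q, ← mul_assoc Q', h', one_mul, mul_assoc, h', mul_one] at h3
    have h4 := congrFun (congrFun h2 0) 0
    have h5 := congrFun (congrFun h2 0) 1
    simp at h4 h5
    exact Prod.ext h4 h5

namespace BData

variable (B : BData A r Q Q')
include B

theorem conj_mul (X Y : Mt k) : Q' * (X * Y) * Q = (Q' * X * Q) * (Q' * Y * Q) := by
  have : (Q' * X * Q) * (Q' * Y * Q) = Q' * X * (Q * Q') * Y * Q := by noncomm_ring
  rw [this, B.inv, mul_one]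
  noncomm_ring

theorem conj_r (g : GQ) : (Q' * r g * Q) * (Q' * r g⁻¹ * Q) = 1 := by
  rw [← B.conj_mul, r_mul_inv, mul_one, B.inv']

theorem conj_r' (g : GQ) : (Q' * r g⁻¹ * Q) * (Q' * r g * Q) = 1 := by
  rw [← B.conj_mul, r_inv_mul, mul_one, B.inv']

theorem conj_smul (g : GQ) (X : Ad0 r (1 : GQ →* k)) :
    Q' * (g • X).val * Q = (Q' * r g * Q) * (Q' * X.val * Q) * (Q' * r g⁻¹ * Q) := by
  rw [Ad0.val_gsmul, MonoidHom.one_apply, one_smul, B.conj_mul, B.conj_mul]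

theorem eq_zero {X : Ad0 r (1 : GQ →* k)} (h00 : (Q' * X.val * Q) 0 0 = 0)
    (h01 : (Q' * X.val * Q) 0 1 = 0) (h10 : (Q' * X.val * Q) 1 0 = 0)
    (h11 : (Q' * X.val * Q) 1 1 = 0) : X = 0 := by
  apply Ad0.ext
  have h1 : Q' * X.val * Q = 0 := by
    ext i j
    fin_cases i <;> fin_cases j
    · exact h00
    · exact h01
    · exact h10
    · exact h11
  have h2 : X.val = Q * (Q' * X.val * Q) * Q' := by
    have : Q * (Q' * X.val * Q) * Q' = (Q * Q') * X.val * (Q * Q') := by noncomm_ring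
    rw [this, B.inv, one_mul, mul_one]
  rw [h2, h1]
  simp

theorem trace (X : Ad0 r (1 : GQ →* k)) : (Q' * X.val * Q) 1 1 = - (Q' * X.val * Q) 0 0 := by
  have h1 : (Q' * X.val * Q).trace = 0 := by
    rw [Matrix.trace_mul_comm, ← mul_assoc, B.inv, one_mul, X.trace_val]
  rw [Matrix.trace_fin_two] at h1
  exact eq_neg_of_add_eq_zero_right h1

theorem ne_zero {g : GQ} (hg : g ∈ A.decompositionSubgroup ℚ) :
    (Q' * r g * Q) 0 0 ≠ 0 ∧ (Q' * r g * Q) 1 1 ≠ 0 := by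
  obtain ⟨-, h2, h3⟩ := tri_inv (B.conj_r g) (B.tri g hg)
  constructor
  · intro h; rw [h, zero_mul] at h2; exact zero_ne_one h2
  · intro h; rw [h, zero_mul] at h3; exact zero_ne_one h3

end BData

open Classical in
/-- the upper right entry of a cocycle -/
noncomputable def evB (A : ValuationSubring Qb) (r : GQ →* Mt k) (Q Q' : Mt k) :
    Z1 (lev.sub (A.decompositionSubgroup ℚ)) (Ad0 r (1 : GQ →* k)) →+ (GQ → k) :=
  AddMonoidHom.mk' (fun f g => if h : g ∈ A.decompositionSubgroup ℚ then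
    (Q' * (f.1 ⟨g, h⟩).val * Q) 0 1 else 0) fun f f' => by
      funext g
      rw [Pi.add_apply]
      split_ifs with h
      · rw [← Matrix.add_apply, ← add_mul, ← mul_add]
        rfl
      · rw [add_zero]

theorem evB_apply (f : Z1 (lev.sub (A.decompositionSubgroup ℚ)) (Ad0 r (1 : GQ →* k))) {g : GQ}
    (h : g ∈ A.decompositionSubgroup ℚ) :
    evB A r Q Q' f g = (Q' * (f.1 ⟨g, h⟩).val * Q) 0 1 := dif_pos h

theorem ZS_coc (B : BData A r Q Q')
    {f : Z1 (lev.sub (A.decompositionSubgroup ℚ)) (Ad0 r (1 : GQ →* k))} (hf : f ∈ ZS A r Q Q')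
    {g h : GQ} (hg : g ∈ A.decompositionSubgroup ℚ) (hh : h ∈ A.decompositionSubgroup ℚ) :
    evB A r Q Q' f (g * h) = evB A r Q Q' f g +
      (Q' * r g * Q) 0 0 * ((Q' * r g * Q) 1 1)⁻¹ * evB A r Q Q' f h := by
  rw [evB_apply f (mul_mem hg hh), evB_apply f hg, evB_apply f hh]
  have h1 := f.2.2 ⟨g, hg⟩ ⟨h, hh⟩
  have h2 : (f.1 ⟨g * h, mul_mem hg hh⟩).val = (f.1 ⟨g, hg⟩).val +
      ((g : GQ) • (f.1 ⟨h, hh⟩)).val := congrArg Ad0.val h1
  rw [h2, mul_add, add_mul, Matrix.add_apply, B.conj_smul]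
  obtain ⟨h3, h4, h5⟩ := hf ⟨h, hh⟩
  rw [(tri_conj (B.conj_r g) (B.tri g hg) h4 h3 h5).2.2.2]

theorem ZS_inj (B : BData A r Q Q')
    {f : Z1 (lev.sub (A.decompositionSubgroup ℚ)) (Ad0 r (1 : GQ →* k))} (hf : f ∈ ZS A r Q Q')
    (h : ∀ g ∈ A.decompositionSubgroup ℚ, evB A r Q Q' f g = 0) : f = 0 := by
  apply Subtype.ext
  funext g
  have h1 := h g g.2
  rw [evB_apply f g.2] at h1
  obtain ⟨h3, h4, h5⟩ := hf g
  exact B.eq_zero h4 h1 h3 h5

theorem evB_lev (f : Z1 (lev.sub (A.decompositionSubgroup ℚ)) (Ad0 r (1 : GQ →* k))) :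
    ∃ U : Subgroup GQ, IsOpen (U : Set GQ) ∧
      ∀ σ ∈ A.inertiaSubgroupIn ℚ, σ ∈ U → evB A r Q Q' f σ = 0 := by
  obtain ⟨U, ⟨V, hV, hVU⟩, h⟩ := f.2.1
  refine ⟨V, lev_isOpen_iff.1 hV, fun σ hσ hσV => ?_⟩
  have hσD := inertia_le_decomposition A hσ
  have h1 := h 1 ⟨σ, hσD⟩ (hVU hσV)
  rw [one_mul, Z1.map_one] at h1
  rw [evB_apply f hσD, h1]
  simp

theorem coboundary_mem_ZS (B : BData A r Q Q') (hr : lev.isOpen r.ker) {m : Ad0 r (1 : GQ →* k)}
    (hm : m ∈ BorelSub r Q Q') :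
    ∃ f ∈ ZS A r Q Q', ∀ g : A.decompositionSubgroup ℚ, f.1 g = g • m - m := by
  have hsm : lev.Smooth (Ad0 r (1 : GQ →* k)) := smooth_Ad0 hr fun _ _ => rfl
  have hsm' : (lev.sub (A.decompositionSubgroup ℚ)).Smooth (Ad0 r (1 : GQ →* k)) :=
    smooth_sub hsm
  refine ⟨coboundary1 hsm' m, fun g => ?_, fun g => rfl⟩
  have h1 : ((coboundary1 hsm' m).1 g).val =
      ((g : GQ) • m).val - m.val := rfl
  rw [h1, mul_sub, sub_mul, B.conj_smul]
  obtain ⟨h2, h3, h4⟩ := tri_conj' (B.conj_r g) (B.tri g g.2) hm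
  simp only [Matrix.sub_apply]
  rw [h2, h3, h4]
  refine ⟨?_, sub_self _, sub_self _⟩
  rw [zero_sub, neg_eq_zero]
  exact hm

/-- **strict ordinary local condition: bound** -/
theorem card_strict [Finite k] {p : ℕ} [Algebra (ZMod p) k] {w : Qb → ℝ} (P : PL p A w)
    (hp2 : p ≠ 2) {ζ : Qb} {x : GQ → ZMod p} (C : CY p ζ x) (hr : lev.isOpen r.ker)
    (B : BData A r Q Q')
    (hω : ∀ σ ∈ A.inertiaSubgroupIn ℚ,
      (Q' * r σ * Q) 0 0 * ((Q' * r σ * Q) 1 1)⁻¹ = algebraMap (ZMod p) k (x σ)) :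
    Finite ((ZS A r Q Q').map (H1.mk _ _)) ∧
    Nat.card ((ZS A r Q Q').map (H1.mk _ _)) ≤
      Nat.card k * Nat.card (H0 (A.decompositionSubgroup ℚ) (Ad0 r (1 : GQ →* k))) := by
  have hf : Fact p.Prime := ⟨P.prime⟩
  obtain ⟨l, hl⟩ := exists_functional (p := p) k
  obtain ⟨h1, h2⟩ := P.card_all (Y := ZS A r Q Q') C
    ((evB A r Q Q').comp (ZS A r Q Q').subtype) hp2 hl
    (ω := fun g => (Q' * r g * Q) 0 0 * ((Q' * r g * Q) 1 1)⁻¹) hω
    (fun g hg => mul_ne_zero (B.ne_zero hg).1 (inv_ne_zero (B.ne_zero hg).2))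
    (fun y g hg h hh => ZS_coc B y.2 hg hh)
    (fun y hy => Subtype.ext (ZS_inj B y.2 hy)) (fun y => evB_lev y.1)
  obtain ⟨h3, h4⟩ := card_map_le (ZS A r Q Q') h1 h2 (BorelSub r Q Q')
    (fun m hm => coboundary_mem_ZS B hr hm)
  refine ⟨h3, ?_⟩
  have h5 := card_BorelSub (r := r) B.inv'
  have h6 : 0 < Nat.card k ^ 2 := pow_pos Nat.card_pos 2
  have h7 : Nat.card ((ZS A r Q Q').map (H1.mk _ _)) * Nat.card k ^ 2 ≤
      (Nat.card k * Nat.card (H0 (A.decompositionSubgroup ℚ) (Ad0 r (1 : GQ →* k)))) *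
        Nat.card k ^ 2 := by
    calc _ ≤ Nat.card ((ZS A r Q Q').map (H1.mk _ _)) * Nat.card (BorelSub r Q Q') :=
          Nat.mul_le_mul_left _ h5
      _ ≤ _ := h4
      _ = _ := by ring
  exact Nat.le_of_mul_le_mul_right h7 h6

end strict

section flat

open NVal

variable {k : Type*} [Field k] {A : ValuationSubring Qb} {r : GQ →* Mt k} {Q Q' : Mt k}

/-- `b` (with values in `k`) is of unit type on the inertia group -/
def UnitType {p : ℕ} [Algebra (ZMod p) k] (A : ValuationSubring Qb) (w : Qb → ℝ) (ζ : Qb)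
    (l : k →ₗ[ZMod p] ZMod p) (b : GQ → k) : Prop :=
  ∀ z : k, ∃ u, Km (A.inertiaSubgroupIn ℚ) ζ (fun σ => l (z * b σ)) u ∧ ∃ n : ℤ, w u = n

/-- cocycles upper triangular in the basis `Q`, strictly on inertia, of unit type -/
def ZF {p : ℕ} [Algebra (ZMod p) k] {w : Qb → ℝ} (P : PL p A w) {ζ : Qb} {x : GQ → ZMod p}
    (C : CY p ζ x) (l : k →ₗ[ZMod p] ZMod p) (r : GQ →* Mt k) (Q Q' : Mt k) :
    AddSubgroup (Z1 (lev.sub (A.decompositionSubgroup ℚ)) (Ad0 r (1 : GQ →* k))) where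
  carrier := {f | (∀ g, (Q' * (f.1 g).val * Q) 1 0 = 0) ∧
    (∀ g : A.decompositionSubgroup ℚ, (g : GQ) ∈ A.inertiaSubgroupIn ℚ →
      (Q' * (f.1 g).val * Q) 0 0 = 0) ∧ UnitType A w ζ l (evB A r Q Q' f)}
  add_mem' := by
    rintro f f' ⟨h1, h2, h3⟩ ⟨h1', h2', h3'⟩
    have e : ∀ g, Q' * ((f + f').1 g).val * Q =
        Q' * (f.1 g).val * Q + Q' * (f'.1 g).val * Q := by
      intro g
      rw [← add_mul, ← mul_add]
      rfl
    refine ⟨fun g => ?_, fun g hg => ?_, fun z => ?_⟩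
    · rw [e, Matrix.add_apply, h1, h1', add_zero]
    · rw [e, Matrix.add_apply, h2 g hg, h2' g hg, add_zero]
    · obtain ⟨u, hu, n, hn⟩ := h3 z
      obtain ⟨u', hu', n', hn'⟩ := h3' z
      refine ⟨u * u', Km_congr (fun σ _ => ?_) (Km.mul C hu hu'), n + n', ?_⟩
      · rw [map_add, Pi.add_apply, mul_add, map_add]
      · rw [P.nv.w_mul hu.1 hu'.1, hn, hn']; push_cast; rfl
  zero_mem' := by
    have e : ∀ g, ((0 : Z1 (lev.sub (A.decompositionSubgroup ℚ)) (Ad0 r (1 : GQ →* k))).1 g).val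
      = (0 : Mt k) := fun g => rfl
    refine ⟨fun g => by rw [e]; simp, fun g hg => by rw [e]; simp, fun z => ?_⟩
    refine ⟨1, ⟨one_ne_zero, fun σ _ => ?_⟩, 0, ?_⟩
    · have e0 : l (z * (evB A r Q Q' 0) σ) = 0 := by
        rw [map_zero, Pi.zero_apply, mul_zero, map_zero]
      beta_reduce
      rw [e0, C.zp_zero, map_one, one_mul]
    · rw [P.nv.log.one]; simp
  neg_mem' := by
    rintro f ⟨h1, h2, h3⟩
    have e : ∀ g, Q' * ((-f).1 g).val * Q = - (Q' * (f.1 g).val * Q) := by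
      intro g
      rw [← neg_mul, ← mul_neg]
      rfl
    refine ⟨fun g => ?_, fun g hg => ?_, fun z => ?_⟩
    · rw [e, Matrix.neg_apply, h1, neg_zero]
    · rw [e, Matrix.neg_apply, h2 g hg, neg_zero]
    · obtain ⟨u, hu, n, hn⟩ := h3 z
      refine ⟨u⁻¹, Km_congr (fun σ _ => ?_) (Km.neg C hu), -n, ?_⟩
      · rw [map_neg, Pi.neg_apply, mul_neg, map_neg]
      · rw [P.nv.log.inv hu.1, hn]; push_cast; rfl

theorem coboundary_mem_ZF {p : ℕ} [Algebra (ZMod p) k] {w : Qb → ℝ} (P : PL p A w) {ζ : Qb}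
    {x : GQ → ZMod p} (C : CY p ζ x) (l : k →ₗ[ZMod p] ZMod p) (B : BData A r Q Q')
    (hr : lev.isOpen r.ker)
    (h00 : ∀ σ ∈ A.inertiaSubgroupIn ℚ, (Q' * r σ * Q) 0 0 = algebraMap (ZMod p) k (x σ))
    (h11 : ∀ σ ∈ A.inertiaSubgroupIn ℚ, (Q' * r σ * Q) 1 1 = 1)
    (hres : UnitType A w ζ l (fun σ => (Q' * r σ * Q) 0 1))
    {m : Ad0 r (1 : GQ →* k)} (hm : m ∈ BorelSub r Q Q') :
    ∃ f ∈ ZF P C l r Q Q', ∀ g : A.decompositionSubgroup ℚ, f.1 g = g • m - m := by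
  obtain ⟨f, hf, hfm⟩ := coboundary_mem_ZS B hr hm
  refine ⟨f, ⟨fun g => (hf g).1, fun g _ => (hf g).2.1, fun z => ?_⟩, hfm⟩
  obtain ⟨c, hc⟩ : ∃ c, c = (Q' * m.val * Q) 0 0 := ⟨_, rfl⟩
  obtain ⟨d, hd⟩ : ∃ d, d = (Q' * m.val * Q) 0 1 := ⟨_, rfl⟩
  obtain ⟨u, hu, n, hn⟩ := hres (z * (-2 * c))
  refine ⟨u * zp ζ (l (z * d)), ⟨mul_ne_zero hu.1 (C.zp_ne _), fun σ hσ => ?_⟩, n, ?_⟩
  · have hσD := inertia_le_decomposition A hσ
    have e1 : evB A r Q Q' f σ = (algebraMap (ZMod p) k (x σ) - 1) * d -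
        2 * c * (Q' * r σ * Q) 0 1 := by
      rw [evB_apply f hσD, hfm]
      have e2 : ((⟨σ, hσD⟩ : A.decompositionSubgroup ℚ) • m - m).val =
        (σ • m).val - m.val := rfl
      rw [e2, mul_sub, sub_mul, B.conj_smul, Matrix.sub_apply, ← hd]
      have h1 := B.conj_r σ
      obtain ⟨h2, h3, h4⟩ := tri_inv h1 (B.tri σ hσD)
      have h5 : (Q' * r σ * Q) 0 0 * (Q' * r σ⁻¹ * Q) 0 1 +
          (Q' * r σ * Q) 0 1 * (Q' * r σ⁻¹ * Q) 1 1 = 0 := by
        have := congrFun (congrFun h1 0) 1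
        simpa [Matrix.mul_apply, Fin.sum_univ_two] using this
      have h6 : (Q' * r σ⁻¹ * Q) 1 1 = 1 := by
        rw [h11 σ hσ, one_mul] at h4; exact h4
      have hm' : (Q' * m.val * Q) 1 0 = 0 := hm
      have h7 := B.trace m
      obtain ⟨T, hT⟩ : ∃ T, T = Q' * r σ * Q := ⟨_, rfl⟩
      obtain ⟨T', hT'⟩ : ∃ T', T' = Q' * r σ⁻¹ * Q := ⟨_, rfl⟩
      obtain ⟨Y, hY⟩ : ∃ Y, Y = Q' * m.val * Q := ⟨_, rfl⟩
      have h8 := B.tri σ hσD
      have h9 := h00 σ hσ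
      rw [← hT] at h5 h8 h9 ⊢
      rw [← hT'] at h5 h6 ⊢
      rw [← hY] at hm' h7 hc hd ⊢
      simp only [Matrix.mul_apply, Fin.sum_univ_two]
      rw [hm', h7, h6, ← hd, ← hc, h9]
      rw [h9, h6] at h5
      linear_combination c * h5
    have e3 : l (z * evB A r Q Q' f σ) = l (z * (-2 * c) * (Q' * r σ * Q) 0 1) +
        (x σ * l (z * d) - l (z * d)) := by
      have e4 : x σ * l (z * d) = l (algebraMap (ZMod p) k (x σ) * (z * d)) := by
        rw [← Algebra.smul_def, map_smul, smul_eq_mul]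
      rw [e4, ← map_sub, ← map_add, e1]
      congr 1
      ring
    have e6 : σ u = zp ζ (l (z * (-2 * c) * (Q' * r σ * Q) 0 1)) * u := hu.2 σ hσ
    have e7 : (fun σ => l (z * evB A r Q Q' f σ)) σ =
      l (z * (-2 * c) * (Q' * r σ * Q) 0 1) + (x σ * l (z * d) - l (z * d)) := e3
    rw [map_mul, e6, C.act_zp, e7]
    have e5 : zp ζ (l (z * (-2 * c) * (Q' * r σ * Q) 0 1)) * zp ζ (x σ * l (z * d)) =
      zp ζ (l (z * (-2 * c) * (Q' * r σ * Q) 0 1) + (x σ * l (z * d) - l (z * d))) *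
        zp ζ (l (z * d)) := by
      rw [← C.zp_add, ← C.zp_add]
      congr 1
      ring
    linear_combination u * e5
  · rw [P.nv.w_mul hu.1 (C.zp_ne _), hn,
      P.nv.w_eq_zero_of_pow (n := p) P.prime.ne_zero (C.zp_pow _), add_zero]

/-- **flat local condition, reducible case: bound** -/
theorem card_flat_red [Finite k] {p : ℕ} [Algebra (ZMod p) k] {w : Qb → ℝ} (P : PL p A w)
    (hp2 : p ≠ 2) {ζ : Qb} {x : GQ → ZMod p} (C : CY p ζ x) {l : k →ₗ[ZMod p] ZMod p}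
    (hl : ∀ a : k, (∀ z, l (z * a) = 0) → a = 0) (hr : lev.isOpen r.ker)
    (B : BData A r Q Q')
    (h00 : ∀ σ ∈ A.inertiaSubgroupIn ℚ, (Q' * r σ * Q) 0 0 = algebraMap (ZMod p) k (x σ))
    (h11 : ∀ σ ∈ A.inertiaSubgroupIn ℚ, (Q' * r σ * Q) 1 1 = 1)
    (hres : UnitType A w ζ l (fun σ => (Q' * r σ * Q) 0 1)) :
    Finite ((ZF P C l r Q Q').map (H1.mk _ _)) ∧
    Nat.card ((ZF P C l r Q Q').map (H1.mk _ _)) ≤
      Nat.card k * Nat.card (H0 (A.decompositionSubgroup ℚ) (Ad0 r (1 : GQ →* k))) := by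
  have hf : Fact p.Prime := ⟨P.prime⟩
  have hg := Fermat.Agent.H51.isGalois_Qbar
  obtain ⟨φ, hφ⟩ := H05.exists_isFrobeniusAt P.prime P.lies
  have hφD : φ ∈ A.decompositionSubgroup ℚ := hφ.1
  have hω : ∀ σ ∈ A.inertiaSubgroupIn ℚ,
      (Q' * r σ * Q) 0 0 * ((Q' * r σ * Q) 1 1)⁻¹ = algebraMap (ZMod p) k (x σ) := by
    intro σ hσ
    rw [h00 σ hσ, h11 σ hσ, inv_one, mul_one]
  -- the diagonal part
  obtain ⟨T, hT⟩ : ∃ T : ZF P C l r Q Q' →+ k,
      ∀ f, T f = (Q' * (f.1.1 ⟨φ, hφD⟩).val * Q) 0 0 :=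
    ⟨AddMonoidHom.mk' (fun f => (Q' * (f.1.1 ⟨φ, hφD⟩).val * Q) 0 0) fun f f' => by
      rw [← Matrix.add_apply, ← add_mul, ← mul_add]
      rfl, fun _ => rfl⟩
  have hmul : ∀ f : ZF P C l r Q Q', ∀ g h : A.decompositionSubgroup ℚ,
      (Q' * (f.1.1 (g * h)).val * Q) 0 0 =
      (Q' * (f.1.1 g).val * Q) 0 0 + (Q' * (f.1.1 h).val * Q) 0 0 := by
    intro f g h
    have h1 := f.1.2.2 g h
    have h2 : (f.1.1 (g * h)).val = (f.1.1 g).val +
        ((g : GQ) • (f.1.1 h)).val := congrArg Ad0.val h1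
    rw [h2, mul_add, add_mul, Matrix.add_apply, B.conj_smul,
      (tri_conj' (B.conj_r g) (B.tri g g.2) (f.2.1 h)).1]
  have hker : ∀ f : T.ker, f.1.1 ∈ ZS A r Q Q' := by
    intro f g
    have h0 : (Q' * (f.1.1.1 g).val * Q) 0 0 = 0 := by
      obtain ⟨U, hU, hUf⟩ := f.1.1.2.1
      obtain ⟨V, hVn, hV, hVU⟩ := (lev.sub (A.decompositionSubgroup ℚ)).nor U hU
      obtain ⟨V0, hV0, hV0V⟩ := hV
      obtain ⟨V1, hV1n, hV1, hV1V⟩ := lev.nor V0 hV0
      obtain ⟨n, σ, hσ, h, hh, hhD, e⟩ := exists_dec P.prime P.lies hφ g.2 hV1n hV1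
      have hσD := inertia_le_decomposition A hσ
      have e1 : g = (⟨φ, hφD⟩ : A.decompositionSubgroup ℚ) ^ n * ⟨σ, hσD⟩ * ⟨h, hhD⟩ :=
        Subtype.ext e
      have h1 : f.1.1.1 g = f.1.1.1 ((⟨φ, hφD⟩ : A.decompositionSubgroup ℚ) ^ n * ⟨σ, hσD⟩) := by
        rw [e1]
        exact hUf _ _ (hVU (hV0V (hV1V hh)))
      rw [h1, hmul, f.1.2.2.1 ⟨σ, hσD⟩ hσ, add_zero]
      have h2 : (Q' * (f.1.1.1 ⟨φ, hφD⟩).val * Q) 0 0 = 0 := by
        rw [← hT, AddMonoidHom.mem_ker.1 f.2]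
      clear h1 e1 e
      induction n with
      | zero =>
        rw [pow_zero, Z1.map_one]
        simp
      | succ n ih => rw [pow_succ, hmul, ih, h2, add_zero]
    refine ⟨f.1.2.1 g, h0, ?_⟩
    rw [B.trace, h0, neg_zero]
  obtain ⟨h1, h2⟩ := P.card_unit (Y := T.ker) C
    ((evB A r Q Q').comp ((ZF P C l r Q Q').subtype.comp T.ker.subtype)) hp2 hl
    (ω := fun g => (Q' * r g * Q) 0 0 * ((Q' * r g * Q) 1 1)⁻¹) hω
    (fun g hg => mul_ne_zero (B.ne_zero hg).1 (inv_ne_zero (B.ne_zero hg).2))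
    (fun y g hg h hh => ZS_coc B (hker y) hg hh)
    (fun y hy => Subtype.ext (Subtype.ext (ZS_inj B (hker y) hy)))
    (fun y z => y.1.2.2.2 z)
  have hfinZ : Finite (ZF P C l r Q Q') := finite_of_ker T
  have hcardZ : Nat.card (ZF P C l r Q Q') ≤ Nat.card k ^ 3 := by
    rw [card_eq_ker_range T, pow_succ]
    exact Nat.mul_le_mul h2 (Nat.card_le_card_of_injective _ Subtype.val_injective)
  obtain ⟨h3, h4⟩ := card_map_le (ZF P C l r Q Q') hfinZ hcardZ (BorelSub r Q Q')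
    (fun m hm => coboundary_mem_ZF P C l B hr h00 h11 hres hm)
  refine ⟨h3, ?_⟩
  have h5 := card_BorelSub (r := r) B.inv'
  have h6 : 0 < Nat.card k ^ 2 := pow_pos Nat.card_pos 2
  have h7 : Nat.card ((ZF P C l r Q Q').map (H1.mk _ _)) * Nat.card k ^ 2 ≤
      (Nat.card k * Nat.card (H0 (A.decompositionSubgroup ℚ) (Ad0 r (1 : GQ →* k)))) *
        Nat.card k ^ 2 := by
    calc _ ≤ Nat.card ((ZF P C l r Q Q').map (H1.mk _ _)) * Nat.card (BorelSub r Q Q') :=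
          Nat.mul_le_mul_left _ h5
      _ ≤ _ := h4
      _ = _ := by ring
  exact Nat.le_of_mul_le_mul_right h7 h6

end flat

end Fermat.Agent.TW
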