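import Fermat.Agent.TW.LocP

/-!
# Deformations to the dual numbers in an adapted basis
-/

set_option autoImplicit false
set_option linter.unusedSectionVars false

namespace Fermat.Agent.TW

open Matrix Fermat.Agent.CC IsLocalRing
open Fermat.Agent.H04 (DN M2)
open scoped Pointwise

variable {𝒪 : Type} [CommRing 𝒪] [IsLocalRing 𝒪] {rb : GQ →* Mt (ResidueField 𝒪)}
  {s : GQ →* M2 (DN 𝒪)} {A : ValuationSubring Qb} {Q Q' : Mt (ResidueField 𝒪)}

/-- restriction of the class of `s` to a decomposition group, in an adapted basis -/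
theorem exists_adapted (h2 : (2 : ResidueField 𝒪) ≠ 0) {S' : Finset Nat.Primes}
    (hs : ∀ σ, FM (s σ) = rb σ)
    (hU : (levS S').isOpen s.ker) (htr : ∀ σ, sn (s σ).det = 0)
    (B : BData A rb Q Q') {M M' : M2 (DN 𝒪)} (hMM : M * M' = 1) (hM : FM M = Q) :
    ∃ f : Z1 (lev.sub (A.decompositionSubgroup ℚ)) (Ad0 rb (1 : GQ →* ResidueField 𝒪)),
      H1.mk _ _ f = resD S' (A.decompositionSubgroup ℚ) _ (H1.mk _ _ (cls S' hs hU htr)) ∧
      ∀ g : A.decompositionSubgroup ℚ,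
        (Q' * (f.1 g).val * Q) * (Q' * rb g * Q) = SM (M' * s g * M) := by
  have hM'M : M' * M = 1 := by
    exact mul_eq_one_comm.1 hMM
  have hFM' : FM M' = Q' := by
    have h3 : FM M * FM M' = 1 := by rw [← FM_mul, hMM, FM_one]
    rw [hM] at h3
    calc FM M' = (Q' * Q) * FM M' := by rw [B.inv', one_mul]
      _ = Q' := by rw [mul_assoc, h3, mul_one]
  obtain ⟨Y, hY⟩ : ∃ Y : Mt (ResidueField 𝒪), Y = SM M * Q' -
    (2⁻¹ * (SM M * Q').trace) • (1 : Mt (ResidueField 𝒪)) := ⟨_, rfl⟩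
  have htY : Y.trace = 0 := by
    rw [hY, Matrix.trace_sub, Matrix.trace_smul, Matrix.trace_one]
    simp only [Fintype.card_fin, Nat.cast_ofNat, smul_eq_mul]
    field_simp
    ring
  have hsm : lev.Smooth (Ad0 rb (1 : GQ →* ResidueField 𝒪)) := by
    refine smooth_Ad0 ?_ (fun _ _ => rfl)
    refine lev.mono _ _ (lev_isOpen_of_levS hU) fun t ht => ?_
    have : s t = 1 := ht
    change rb t = 1
    rw [← hs, this, FM_one]
  have hsm' : (lev.sub (A.decompositionSubgroup ℚ)).Smooth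
    (Ad0 rb (1 : GQ →* ResidueField 𝒪)) := smooth_sub hsm
  obtain ⟨c, hc⟩ : ∃ c : Z1 (lev.sub (A.decompositionSubgroup ℚ))
      (Ad0 rb (1 : GQ →* ResidueField 𝒪)),
      H1.mk _ _ c = resD S' (A.decompositionSubgroup ℚ) _ (H1.mk _ _ (cls S' hs hU htr)) ∧
      ∀ g : A.decompositionSubgroup ℚ, (c.1 g).val = xi rb s g := by
    unfold resD
    rw [H1map_mk]
    exact ⟨_, rfl, fun g => rfl⟩
  refine ⟨c + coboundary1 hsm' (Ad0.mk Y htY), ?_, fun g => ?_⟩
  · rw [map_add, hc.1]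
    have : H1.mk _ _ (coboundary1 hsm' (Ad0.mk Y htY)) = 0 := by
      rw [H1.mk_eq_zero]
      exact ⟨_, fun g => rfl⟩
    rw [this, add_zero]
  · have e1 : ((c + coboundary1 hsm' (Ad0.mk Y htY)).1 g).val =
        xi rb s g + (rb g * Y * rb (g : GQ)⁻¹ - Y) := by
      have e2 : ((c + coboundary1 hsm' (Ad0.mk Y htY)).1 g).val = (c.1 g).val +
        (((g : GQ) • (Ad0.mk Y htY : Ad0 rb (1 : GQ →* ResidueField 𝒪))).val - Y) := rfl
      rw [e2, hc.2, Ad0.val_gsmul, MonoidHom.one_apply, one_smul, Ad0.val_mk]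
    rw [e1]
    -- the identity `s M = M s'`
    have e3 : SM (s g * M) = SM (M * (M' * s g * M)) := by
      congr 1
      rw [← mul_assoc, ← mul_assoc, hMM, one_mul]
    rw [SM_mul, SM_mul, hs, hM, FM_mul, FM_mul, hM, hFM', hs] at e3
    have e4 : rb (g : GQ)⁻¹ * rb g = 1 := r_inv_mul rb g
    have e5 : SM (s g) = xi rb s g * rb g := (xi_mul_rb _).symm
    rw [e5] at e3
    have e6 : (Q' * (xi rb s g + (rb g * Y * rb (g : GQ)⁻¹ - Y)) * Q) * (Q' * rb g * Q) =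
        Q' * (xi rb s g * rb g * Q) + Q' * (rb g * (Y * Q)) - Q' * (Y * (rb g * Q)) := by
      have e7 : (Q' * (xi rb s g + (rb g * Y * rb (g : GQ)⁻¹ - Y)) * Q) * (Q' * rb g * Q) =
          Q' * (xi rb s g + (rb g * Y * rb (g : GQ)⁻¹ - Y)) * (Q * Q') * (rb g * Q) := by
        noncomm_ring
      rw [e7, B.inv, mul_one]
      have e8 : Q' * (xi rb s g + (rb g * Y * rb (g : GQ)⁻¹ - Y)) * (rb g * Q) =
          Q' * (xi rb s g * rb g * Q) + Q' * (rb g * (Y * ((rb (g : GQ)⁻¹ * rb g) * Q))) -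
            Q' * (Y * (rb g * Q)) := by
        noncomm_ring
      rw [e8, e4, one_mul]
    rw [e6]
    have e9 : Y * Q = SM M - (2⁻¹ * (SM M * Q').trace) • Q := by
      rw [hY, sub_mul, mul_assoc, B.inv', mul_one, smul_mul_assoc, one_mul]
    have e10 : Y * (rb g * Q) = SM M * (Q' * rb g * Q) -
        (2⁻¹ * (SM M * Q').trace) • (rb g * Q) := by
      rw [hY, sub_mul, smul_mul_assoc, one_mul]
      noncomm_ring
    rw [e9, e10]
    have e11 : Q' * (xi rb s g * rb g * Q) + Q' * (rb g * (SM M -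
        (2⁻¹ * (SM M * Q').trace) • Q)) - Q' * (SM M * (Q' * rb g * Q) -
        (2⁻¹ * (SM M * Q').trace) • (rb g * Q)) =
        Q' * (rb g * SM M + xi rb s g * rb g * Q) - Q' * (SM M * (Q' * rb g * Q)) := by
      simp only [mul_sub, mul_add, mul_smul_comm]
      abel
    rw [e11, e3, mul_add, ← mul_assoc, B.inv', one_mul]
    abel

section transfer

variable {k : Type*} [Field k] {r : GQ →* Mt k} {R R' T T' : Mt k}

theorem conj_transfer {Q Q' R R' : Mt k} (hR : R * R' = 1) (X : Mt k) :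
    Q' * X * Q = (Q' * R) * (R' * X * R) * (R' * Q) := by
  have : (Q' * R) * (R' * X * R) * (R' * Q) = Q' * (R * R') * X * (R * R') * Q := by
    noncomm_ring
  rw [this, hR, mul_one, mul_one]

theorem tri_factor {Q Q' R R' : Mt k} (hQ : Q * Q' = 1) (hR : R * R' = 1) : (Q' * R) * (R' * Q) = 1 := by
  have : (Q' * R) * (R' * Q) = Q' * (R * R') * Q := by noncomm_ring
  rw [this, hR, mul_one]
  exact mul_eq_one_comm.1 hQ

/-- the two adapted lines coincide -/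
theorem line_unique {Q Q' : Mt k} (B : BData A r Q Q') (B' : BData A r R R') {σ : GQ}
    (hσ : σ ∈ A.decompositionSubgroup ℚ)
    (h1 : (Q' * r σ * Q) 0 0 ≠ (Q' * r σ * Q) 1 1)
    (h2 : (R' * r σ * R) 0 0 = (Q' * r σ * Q) 0 0) : (Q' * R) 1 0 = 0 := by
  have e1 : (Q' * r σ * Q) * (Q' * R) = (Q' * R) * (R' * r σ * R) := by
    have a1 : (Q' * r σ * Q) * (Q' * R) = Q' * r σ * (Q * Q') * R := by noncomm_ring
    have a2 : (Q' * R) * (R' * r σ * R) = Q' * (R * R') * r σ * R := by noncomm_ring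
    rw [a1, a2, B.inv, B'.inv, mul_one, mul_one]
  obtain ⟨T, hT⟩ : ∃ T, T = Q' * R := ⟨_, rfl⟩
  obtain ⟨X, hX⟩ : ∃ X, X = Q' * r σ * Q := ⟨_, rfl⟩
  obtain ⟨Y, hY⟩ : ∃ Y, Y = R' * r σ * R := ⟨_, rfl⟩
  have h3 := B.tri σ hσ
  have h4 := B'.tri σ hσ
  rw [← hX] at h1 h2 h3 e1
  rw [← hY] at h2 h4 e1
  rw [← hT] at e1 ⊢
  have e2 := congrFun (congrFun e1 1) 0
  simp only [Matrix.mul_apply, Fin.sum_univ_two] at e2
  rw [h3, h4, h2, zero_mul, zero_add, mul_zero, add_zero] at e2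
  have e3 : (X 0 0 - X 1 1) * T 1 0 = 0 := by linear_combination -e2
  exact (mul_eq_zero.1 e3).resolve_left (sub_ne_zero.2 h1)

theorem ZS_transfer {Q Q' : Mt k} (B : BData A r Q Q') (B' : BData A r R R')
    (hT : (Q' * R) 1 0 = 0)
    {f : Z1 (lev.sub (A.decompositionSubgroup ℚ)) (Ad0 r (1 : GQ →* k))}
    (hf : f ∈ ZS A r R R') : f ∈ ZS A r Q Q' := by
  intro g
  obtain ⟨h1, h2, h3⟩ := hf g
  rw [conj_transfer (Q := Q) (Q' := Q') B'.inv]
  have h4 := tri_factor B.inv B'.inv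
  obtain ⟨a1, a2, a3, -⟩ := tri_conj h4 hT h2 h1 h3
  exact ⟨a2, a1, a3⟩

theorem ZF_transfer {Q Q' : Mt k} {p : ℕ} [Algebra (ZMod p) k] {w : Qb → ℝ} (P : PL p A w)
    {ζ : Qb} {x : GQ → ZMod p} (C : CY p ζ x) (l : k →ₗ[ZMod p] ZMod p)
    (B : BData A r Q Q') (B' : BData A r R R') (hT : (Q' * R) 1 0 = 0)
    {f : Z1 (lev.sub (A.decompositionSubgroup ℚ)) (Ad0 r (1 : GQ →* k))}
    (hf : f ∈ ZF P C l r R R') : f ∈ ZF P C l r Q Q' := by
  have h4 := tri_factor B.inv B'.inv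
  refine ⟨fun g => ?_, fun g hg => ?_, fun z => ?_⟩
  · rw [conj_transfer (Q := Q) (Q' := Q') B'.inv]
    exact (tri_conj' h4 hT (hf.1 g)).2.1
  · rw [conj_transfer (Q := Q) (Q' := Q') B'.inv, (tri_conj' h4 hT (hf.1 g)).1]
    exact hf.2.1 g hg
  · obtain ⟨u, hu, n, hn⟩ := hf.2.2 (z * ((Q' * R) 0 0 * ((Q' * R) 1 1)⁻¹))
    refine ⟨u, Km_congr (fun σ hσ => ?_) hu, n, hn⟩
    have hσD := inertia_le_decomposition A hσ
    have h00 := hf.2.1 ⟨σ, hσD⟩ hσ
    have h11 := B'.trace (f.1 ⟨σ, hσD⟩)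
    rw [h00, neg_zero] at h11
    rw [evB_apply f hσD, evB_apply f hσD, conj_transfer (Q := Q) (Q' := Q') B'.inv,
      (tri_conj h4 hT h00 (hf.1 _) h11).2.2.2]
    congr 1
    ring

end transfer

section mem

variable {R R' : Mt (ResidueField 𝒪)}

theorem BData.of_adapted {M M' : M2 (DN 𝒪)} (hs : ∀ σ, FM (s σ) = rb σ) (hMM : M * M' = 1)
    (h10 : ∀ g ∈ A.decompositionSubgroup ℚ, (M' * s g * M) 1 0 = 0) :
    BData A rb (FM M) (FM M') where
  inv := by rw [← FM_mul, hMM, FM_one]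
  inv' := by rw [← FM_mul, mul_eq_one_comm.1 hMM, FM_one]
  tri g hg := by
    have : FM M' * rb g * FM M = FM (M' * s g * M) := by rw [FM_mul, FM_mul, hs]
    rw [this]
    change fs ((M' * s g * M) 1 0) = 0
    rw [h10 g hg, map_zero]

/-- membership in the strictly upper triangular classes -/
theorem mem_ZS_of_adapted (h2 : (2 : ResidueField 𝒪) ≠ 0) {S' : Finset Nat.Primes}
    (hs : ∀ σ, FM (s σ) = rb σ)
    (hU : (levS S').isOpen s.ker) (htr : ∀ σ, sn (s σ).det = 0)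
    (B : BData A rb Q Q') {M M' : M2 (DN 𝒪)} (hMM : M * M' = 1)
    (h10 : ∀ g ∈ A.decompositionSubgroup ℚ, (M' * s g * M) 1 0 = 0)
    (h00 : ∀ g ∈ A.decompositionSubgroup ℚ, sn ((M' * s g * M) 0 0) = 0)
    (hT : (Q' * FM M) 1 0 = 0) :
    resD S' (A.decompositionSubgroup ℚ) _ (H1.mk _ _ (cls S' hs hU htr)) ∈
      (ZS A rb Q Q').map (H1.mk _ _) := by
  have B' := BData.of_adapted hs hMM h10
  obtain ⟨f, hf1, hf2⟩ := exists_adapted h2 hs hU htr B' hMM rfl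
  rw [← hf1]
  refine AddSubgroup.mem_map_of_mem _ (ZS_transfer B B' hT ?_)
  intro g
  have h3 := hf2 g
  have h4 : (FM M' * rb g * FM M) 1 0 = 0 := B'.tri g g.2
  have h5 := (B'.ne_zero g.2).1
  have e1 := congrFun (congrFun h3 1) 0
  have e2 := congrFun (congrFun h3 0) 0
  rw [Matrix.mul_apply, Fin.sum_univ_two, h4, mul_zero, add_zero] at e1 e2
  have e3 : SM (M' * s g * M) 1 0 = 0 := by
    change sn ((M' * s g * M) 1 0) = 0
    rw [h10 g g.2, sn_zero]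
  have e4 : SM (M' * s g * M) 0 0 = 0 := h00 g g.2
  rw [e3] at e1
  rw [e4] at e2
  have e5 := (mul_eq_zero.1 e1).resolve_right h5
  have e6 := (mul_eq_zero.1 e2).resolve_right h5
  exact ⟨e5, e6, by rw [B'.trace, e6, neg_zero]⟩

/-- membership in the flat classes -/
theorem mem_ZF_of_adapted (h2 : (2 : ResidueField 𝒪) ≠ 0) {S' : Finset Nat.Primes}
    {p : ℕ} [Algebra (ZMod p) (ResidueField 𝒪)] {w : Qb → ℝ} (P : PL p A w)
    {ζ : Qb} {x : GQ → ZMod p} (C : CY p ζ x) (l : ResidueField 𝒪 →ₗ[ZMod p] ZMod p)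
    (hs : ∀ σ, FM (s σ) = rb σ)
    (hU : (levS S').isOpen s.ker) (htr : ∀ σ, sn (s σ).det = 0)
    (B : BData A rb Q Q') {M M' : M2 (DN 𝒪)} (hMM : M * M' = 1)
    (h10 : ∀ g ∈ A.decompositionSubgroup ℚ, (M' * s g * M) 1 0 = 0)
    (h00 : ∀ g ∈ A.inertiaSubgroupIn ℚ, sn ((M' * s g * M) 0 0) = 0)
    (h11 : ∀ g ∈ A.inertiaSubgroupIn ℚ, (M' * s g * M) 1 1 = 1)
    (hun : UnitType A w ζ l (fun g => sn ((M' * s g * M) 0 1)))
    (hT : (Q' * FM M) 1 0 = 0) :
    resD S' (A.decompositionSubgroup ℚ) _ (H1.mk _ _ (cls S' hs hU htr)) ∈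
      (ZF P C l rb Q Q').map (H1.mk _ _) := by
  have B' := BData.of_adapted hs hMM h10
  obtain ⟨f, hf1, hf2⟩ := exists_adapted h2 hs hU htr B' hMM rfl
  rw [← hf1]
  refine AddSubgroup.mem_map_of_mem _ (ZF_transfer P C l B B' hT ?_)
  have key1 : ∀ g : A.decompositionSubgroup ℚ, (FM M' * (f.1 g).val * FM M) 1 0 = 0 := by
    intro g
    have h3 := hf2 g
    have h4 : (FM M' * rb g * FM M) 1 0 = 0 := B'.tri g g.2
    have h5 := (B'.ne_zero g.2).1
    have e1 := congrFun (congrFun h3 1) 0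
    rw [Matrix.mul_apply, Fin.sum_univ_two, h4, mul_zero, add_zero] at e1
    have e3 : SM (M' * s g * M) 1 0 = 0 := by
      change sn ((M' * s g * M) 1 0) = 0
      rw [h10 g g.2, sn_zero]
    rw [e3] at e1
    exact (mul_eq_zero.1 e1).resolve_right h5
  have key2 : ∀ g : A.decompositionSubgroup ℚ, (g : GQ) ∈ A.inertiaSubgroupIn ℚ →
      (FM M' * (f.1 g).val * FM M) 0 0 = 0 := by
    intro g hg
    have h3 := hf2 g
    have h4 : (FM M' * rb g * FM M) 1 0 = 0 := B'.tri g g.2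
    have h5 := (B'.ne_zero g.2).1
    have e2 := congrFun (congrFun h3 0) 0
    rw [Matrix.mul_apply, Fin.sum_univ_two, h4, mul_zero, add_zero] at e2
    have e4 : SM (M' * s g * M) 0 0 = 0 := h00 g hg
    rw [e4] at e2
    exact (mul_eq_zero.1 e2).resolve_right h5
  refine ⟨key1, key2, fun z => ?_⟩
  obtain ⟨u, hu, n, hn⟩ := hun z
  refine ⟨u, Km_congr (fun σ hσ => ?_) hu, n, hn⟩
  have hσD := inertia_le_decomposition A hσ
  have h3 := hf2 ⟨σ, hσD⟩
  have h5 : (FM M' * rb σ * FM M) 1 1 = 1 := by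
    have : FM M' * rb σ * FM M = FM (M' * s σ * M) := by rw [FM_mul, FM_mul, hs]
    rw [this]
    change fs ((M' * s σ * M) 1 1) = 1
    rw [h11 σ hσ, map_one]
  have e1 := congrFun (congrFun h3 0) 1
  have e6 := key2 ⟨σ, hσD⟩ hσ
  rw [Matrix.mul_apply, Fin.sum_univ_two, e6, zero_mul, zero_add, h5, mul_one] at e1
  rw [evB_apply f hσD, e1]
  rfl

end mem

end Fermat.Agent.TW
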