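import Fermat.Agent.TW.Good
import Fermat.Agent.H25.Density
import Fermat.Agent.CC.GQ
import Fermat.Agent.H05_Cyclo
set_option autoImplicit false

/-!
# Taylor-Wiles primes
-/

namespace Fermat.Agent.TW

open Matrix Fermat.Agent.CC
open scoped Pointwise

/-- subgroup fixing the `n`-th roots of unity -/
def NN (n : ℕ) : Subgroup GQ where
  carrier := {σ | ∀ x : Qb, x ^ n = 1 → σ x = x}
  one_mem' := fun x _ => rfl
  mul_mem' := by
    intro a b ha hb x hx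
    rw [AlgEquiv.mul_apply, hb x hx, ha x hx]
  inv_mem' := by
    intro a ha x hx
    have h := ha x hx
    calc a⁻¹ x = a⁻¹ (a x) := by rw [h]
      _ = x := by rw [← AlgEquiv.mul_apply, inv_mul_cancel, AlgEquiv.one_apply]

theorem mem_NN {n : ℕ} {σ : GQ} : σ ∈ NN n ↔ ∀ x : Qb, x ^ n = 1 → σ x = x := Iff.rfl

theorem exists_cyc (n : ℕ) [NeZero n] : ∃ f : GQ →* (ZMod n)ˣ, ∀ σ, f σ = 1 → σ ∈ NN n := by
  have hc : Nat.card (rootsOfUnity n Qb) = n := by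
    have : NeZero (n : Qb) := ⟨Nat.cast_ne_zero.mpr (NeZero.ne n)⟩
    exact HasEnoughRootsOfUnity.natCard_rootsOfUnity Qb n
  refine ⟨MonoidHom.mk' (fun σ => modularCyclotomicCharacter Qb hc (σ : Qb ≃+* Qb))
    (fun a b => by rw [← map_mul]; congr 1), fun σ hσ x hx => ?_⟩
  have hx0 : x ≠ 0 := by
    rintro rfl
    rw [zero_pow (NeZero.ne n)] at hx
    exact zero_ne_one hx
  have ht : Units.mk0 x hx0 ∈ rootsOfUnity n Qb := by
    rw [mem_rootsOfUnity]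
    ext
    simpa using hx
  have h1 := modularCyclotomicCharacter.spec Qb hc (σ : Qb ≃+* Qb) ht
  have h2 : modularCyclotomicCharacter Qb hc (σ : Qb ≃+* Qb) = 1 := hσ
  rw [h2] at h1
  have h3 : (((1 : (ZMod n)ˣ) : ZMod n).val : ℕ) ≡ 1 [MOD n] := by
    rw [← ZMod.natCast_eq_natCast_iff, ZMod.natCast_val, ZMod.cast_id]
    simp
  have h4 : x ^ ((1 : (ZMod n)ˣ) : ZMod n).val = x ^ 1 := by
    have := (pow_eq_pow_mod (M := Qb) ((1 : (ZMod n)ˣ) : ZMod n).val hx)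
    rw [this, h3, ← pow_eq_pow_mod _ hx]
  have h5 : (σ : Qb ≃+* Qb) x = x ^ ((1 : (ZMod n)ˣ) : ZMod n).val := by
    simpa using h1
  rw [h4, pow_one] at h5
  exact h5

instance NN_normal (n : ℕ) : (NN n).Normal := by
  constructor
  intro σ hσ g x hx
  have h1 : (g⁻¹ x) ^ n = 1 := by rw [← map_pow, hx, map_one]
  rw [AlgEquiv.mul_apply, AlgEquiv.mul_apply, hσ _ h1, ← AlgEquiv.mul_apply, mul_inv_cancel,
    AlgEquiv.one_apply]

theorem commutator_mem_NN (n : ℕ) [NeZero n] (x y : GQ) : x * y * x⁻¹ * y⁻¹ ∈ NN n := by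
  obtain ⟨f, hf⟩ := exists_cyc n
  apply hf
  rw [map_mul, map_mul, map_mul, map_inv, map_inv, mul_comm (f x) (f y)]
  simp

theorem exists_generator {p : ℕ} (hp : p.Prime) (hp2 : p ≠ 2) (n : ℕ) :
    ∃ γ₁ : GQ, ∀ γ : GQ, ∃ i : ℤ, ∃ x ∈ NN (p ^ n), γ = γ₁ ^ i * x := by
  have : NeZero (p ^ n) := ⟨pow_ne_zero _ hp.ne_zero⟩
  obtain ⟨f, hf⟩ := exists_cyc (p ^ n)
  have hcyc : IsCyclic (ZMod (p ^ n))ˣ := ZMod.isCyclic_units_of_prime_pow p hp hp2 n
  have hr : IsCyclic f.range := inferInstance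
  obtain ⟨⟨g, γ₁, hγ₁⟩, hg⟩ := hr.exists_generator
  refine ⟨γ₁, fun γ => ?_⟩
  obtain ⟨i, hi⟩ := Subgroup.mem_zpowers_iff.1 (hg ⟨f γ, γ, rfl⟩)
  refine ⟨i, (γ₁ ^ i)⁻¹ * γ, hf _ ?_, by group⟩
  have h1 : f γ = g ^ i := (congrArg Subtype.val hi).symm
  rw [map_mul, map_inv, map_zpow, hγ₁, h1, inv_mul_cancel]

/-- `p ^ n ∣ q - 1` if a Frobenius at `q` fixes the `p ^ n`-th roots of unity -/
theorem dvd_of_frobenius {m q : ℕ} (hm : m ≠ 0) (hq : q.Prime) (hqm : ¬ q ∣ m)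
    {A : ValuationSubring Qb} (hA : A.LiesOverPrime q) {φ : GQ} (hφ : A.IsFrobeniusAt φ q)
    (h : φ ∈ NN m) : m ∣ q - 1 := by
  have : NeZero m := ⟨hm⟩
  have : NeZero (m : Qb) := ⟨Nat.cast_ne_zero.mpr hm⟩
  obtain ⟨ζ, hζ⟩ := HasEnoughRootsOfUnity.exists_primitiveRoot Qb m
  have h1 := H05.IsFrobeniusAt.apply_rootOfUnity hq hA hqm hφ hζ.pow_eq_one
  rw [h ζ hζ.pow_eq_one] at h1
  have h2 : ζ ^ (q - 1) = 1 := by
    have h3 : ζ ^ (q - 1) * ζ = 1 * ζ := by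
      rw [← pow_succ, Nat.sub_add_cancel hq.one_le, ← h1, one_mul]
    exact mul_right_cancel₀ (hζ.ne_zero hm) h3
  exact hζ.dvd_of_pow_eq_one _ h2

section Rep

variable {k : Type*} [Field k]

/-- tau of powers vanish when tau vanishes -/
theorem IsCoc.tau_pow_zero {Γ : Type*} [Group Γ] {r : Γ →* Mt k} {χ : Γ →* k} {c : Γ → Mt k}
    (hc : IsCoc r χ c) (htr : ∀ g, (c g).trace = 0)
    {g : Γ} (hg : χ g = 1) (hd : (r g).det = 1) (h0 : tau r c g = 0) (j : ℕ) :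
    tau r c (g ^ j) = 0 := by
  have key : ∀ j : ℕ, tau r c (g ^ j) = 0 ∧ tau r c (g ^ (j + 1)) = 0 := by
    intro j
    induction j with
    | zero => simp [tau, hc.one]; exact h0
    | succ j ih =>
      refine ⟨ih.2, ?_⟩
      have h3 := hc.tau_mul_add htr (g := g ^ (j + 1)) (h := g)
        (by rw [map_pow, hg, one_pow]) hg hd
      have e1 : g ^ (j + 1) * g⁻¹ = g ^ j := by rw [pow_succ, mul_assoc, mul_inv_cancel, mul_one]
      rw [← pow_succ, e1, ih.1, ih.2, h0] at h3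
      simpa using h3
  exact (key j).1

/-- powers of matrices with a double eigenvalue `±1` -/
theorem trace_sq_pow {A : Mt k} (hd : A.det = 1) (ht : A.trace ^ 2 = 4) (j : ℕ) :
    (A ^ j).trace ^ 2 = 4 := by
  have : ∃ e : k, e ^ 2 = 1 ∧ A.trace = 2 * e := by
    have : (A.trace - 2) * (A.trace + 2) = 0 := by linear_combination ht
    rcases mul_eq_zero.1 this with h | h
    · exact ⟨1, by norm_num, by linear_combination h⟩
    · exact ⟨-1, by norm_num, by linear_combination h⟩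
  obtain ⟨e, he, hte⟩ := this
  obtain ⟨n, hn⟩ : ∃ n, n = A - e • (1 : Mt k) := ⟨_, rfl⟩
  have hA : A = e • (1 : Mt k) + n := by rw [hn]; abel
  have hnn : n * n = 0 := by
    rw [hn, sub_mul, mul_sub, mul_sub, cayley, hte, hd]
    simp only [mul_smul_comm, smul_mul_assoc, mul_one, one_mul, smul_smul]
    rw [← pow_two, he, two_mul, add_smul, one_smul]
    abel
  have hnt : n.trace = 0 := by
    rw [hn, Matrix.trace_sub, Matrix.trace_smul, Matrix.trace_one, hte]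
    simp only [Fintype.card_fin, Nat.cast_ofNat, smul_eq_mul]
    ring
  have key : ∃ a : k, A ^ j = e ^ j • (1 : Mt k) + a • n := by
    induction j with
    | zero => exact ⟨0, by simp⟩
    | succ j ih =>
      obtain ⟨a, ha⟩ := ih
      refine ⟨e ^ j + a * e, ?_⟩
      rw [pow_succ, ha]
      conv_lhs => rw [hA]
      rw [add_mul, mul_add, mul_add, smul_mul_smul_comm, smul_mul_smul_comm, smul_mul_assoc,
        smul_mul_assoc, hnn]
      simp only [one_mul, mul_one, smul_zero, add_zero]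
      rw [← pow_succ]
      module
  obtain ⟨a, ha⟩ := key
  rw [ha, Matrix.trace_add, Matrix.trace_smul, Matrix.trace_smul, hnt, Matrix.trace_one,
    smul_zero, add_zero]
  simp only [Fintype.card_fin, Nat.cast_ofNat, smul_eq_mul]
  calc (e ^ j * 2) ^ 2 = (e ^ 2) ^ j * 4 := by rw [mul_pow, ← pow_mul, ← pow_mul, mul_comm j]; norm_num
    _ = 4 := by rw [he, one_pow, one_mul]

variable {r : GQ →* Mt k} {χ : GQ →* k} {c : GQ → Mt k}

/-- transfer of a good element to a Frobenius element -/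
theorem exists_frobenius_of_good {p n : ℕ} (hp : p.Prime) {U : Subgroup GQ} (hU : lev.isOpen U)
    (hrU : ∀ s ∈ U, r s = 1) (hcU : ∀ g, ∀ s ∈ U, c (g * s) = c g)
    (hdet : ∀ σ, (r σ).det = χ σ) (hχ : ∀ σ ∈ NN (p ^ n), χ σ = 1)
    (hc : IsCoc r χ c) (htr : ∀ g, (c g).trace = 0)
    (T : Finset ℕ) (hpT : p ∈ T) {σ : GQ} (hσ : σ ∈ NN (p ^ n)) (hσ4 : (r σ).trace ^ 2 ≠ 4) :
    ∃ q : ℕ, q.Prime ∧ q ∉ T ∧ p ^ n ∣ q - 1 ∧ ∃ A : ValuationSubring Qb, A.LiesOverPrime q ∧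
      ∃ φ : GQ, A.IsFrobeniusAt φ q ∧ χ φ = 1 ∧ (r φ).trace ^ 2 ≠ 4 ∧
        (tau r c σ ≠ 0 → tau r c φ ≠ 0) := by
  obtain ⟨F, hF, hFU⟩ := hU
  have hp0 : p ^ n ≠ 0 := pow_ne_zero _ hp.ne_zero
  have : NeZero (p ^ n) := ⟨hp0⟩
  have : NeZero ((p ^ n : ℕ) : Qb) := ⟨Nat.cast_ne_zero.mpr hp0⟩
  obtain ⟨ζ, hζ⟩ := HasEnoughRootsOfUnity.exists_primitiveRoot Qb (p ^ n)
  let E : IntermediateField ℚ Qb := F ⊔ IntermediateField.adjoin ℚ {ζ}
  have hint : IsIntegral ℚ ζ := Algebra.IsIntegral.isIntegral ζ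
  have hfd : FiniteDimensional ℚ (IntermediateField.adjoin ℚ {ζ}) :=
    IntermediateField.adjoin.finiteDimensional hint
  have hE : FiniteDimensional ℚ E := IntermediateField.finiteDimensional_sup _ _
  obtain ⟨q, hq, hqT, A, hA, φ, hφ, m, l, h1, h2⟩ := H25.exists_frobenius E T σ
  have hfix : ∀ s : GQ, (∀ x ∈ E, s x = x) → s ∈ U ∧ s ∈ NN (p ^ n) := by
    intro s hs
    constructor
    · apply hFU
      rw [IntermediateField.mem_fixingSubgroup_iff]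
      exact fun x hx => hs x ((le_sup_left : F ≤ E) hx)
    · intro x hx
      obtain ⟨i, -, rfl⟩ := hζ.eq_pow_of_pow_eq_one hx
      rw [map_pow, hs ζ ((le_sup_right : _ ≤ E) (IntermediateField.mem_adjoin_simple_self ℚ ζ))]
  obtain ⟨s, hs⟩ : ∃ s, s = (σ ^ m)⁻¹ * φ := ⟨_, rfl⟩
  obtain ⟨t, ht⟩ : ∃ t, t = (φ ^ l)⁻¹ * σ := ⟨_, rfl⟩
  have hs' := hfix s (by
    intro x hx
    rw [hs, AlgEquiv.mul_apply, h1 x hx, ← AlgEquiv.mul_apply, inv_mul_cancel,
      AlgEquiv.one_apply])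
  have ht' := hfix t (by
    intro x hx
    rw [ht, AlgEquiv.mul_apply, h2 x hx, ← AlgEquiv.mul_apply, inv_mul_cancel,
      AlgEquiv.one_apply])
  have eφ : φ = σ ^ m * s := by rw [hs]; group
  have eσ : σ = φ ^ l * t := by rw [ht]; group
  have hφN : φ ∈ NN (p ^ n) := by
    rw [eφ]; exact (NN _).mul_mem ((NN _).pow_mem hσ m) hs'.2
  have hχφ : χ φ = 1 := hχ φ hφN
  have hrσ : r σ = r φ ^ l := by
    conv_lhs => rw [eσ]
    rw [map_mul, hrU t ht'.1, mul_one, map_pow]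
  have hdφ : (r φ).det = 1 := by rw [hdet, hχφ]
  have hqp : q ≠ p := by rintro rfl; exact hqT hpT
  refine ⟨q, hq, hqT, dvd_of_frobenius hp0 hq ?_ hA hφ hφN, A, hA, φ, hφ, hχφ, ?_, ?_⟩
  · intro h
    exact hqp ((Nat.prime_dvd_prime_iff_eq hq hp).1 (hq.dvd_of_dvd_pow h))
  · intro h4
    apply hσ4
    rw [hrσ]
    exact trace_sq_pow hdφ h4 l
  · intro h5 h6
    apply h5
    have h7 : tau r c σ = tau r c (φ ^ l) := by
      unfold tau
      conv_lhs => rw [eσ]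
      rw [hcU _ t ht'.1, map_mul, hrU t ht'.1, mul_one]
    rw [h7]
    exact hc.tau_pow_zero htr hχφ hdφ h6 l

end Rep

end Fermat.Agent.TW
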