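import Fermat.Agent.TW.LocMain
import Fermat.Agent.TW.Count
import Fermat.Agent.TW.Select
import Fermat.Agent.H19.Trans

/-!
# Residual data for the Taylor-Wiles argument
-/

set_option autoImplicit false
set_option linter.unusedSectionVars false

noncomputable section

namespace Fermat.Agent.TW

open Matrix Fermat.Agent.CC IsLocalRing
open scoped TensorProduct
open Fermat.Agent.H04 (DN M2 ofMat IsCont)

section res

variable {k : Type} [Field k] (ρbar : ResidualGaloisRep k) (b : Module.Basis (Fin 2) k ρbar.V)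

/-- the residual representation in matrix form -/
def rbM : GQ →* Mt k :=
  (LinearMap.toMatrixAlgEquiv b).toAlgHom.toRingHom.toMonoidHom.comp ρbar.ρ

theorem rbM_apply (σ : GQ) : rbM ρbar b σ = LinearMap.toMatrix b b (ρbar.ρ σ) := rfl

theorem rbM_eq_one {σ : GQ} (h : ρbar.ρ σ = 1) : rbM ρbar b σ = 1 := by
  change (LinearMap.toMatrixAlgEquiv b) (ρbar.ρ σ) = 1
  rw [h, map_one]

theorem eq_one_of_rbM {σ : GQ} (h : rbM ρbar b σ = 1) : ρbar.ρ σ = 1 := by
  apply (LinearMap.toMatrixAlgEquiv b).injective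
  rw [map_one]
  exact h

/-- absence of stable lines -/
theorem noLine_of (K : Type) [Field K] [Algebra k K] (N : Subgroup GQ)
    (h : ∀ V : Submodule K (ρbar.baseChange K).V,
      (∀ σ ∈ N, ∀ x ∈ V, (ρbar.baseChange K).ρ σ x ∈ V) → V = ⊥ ∨ V = ⊤) :
    NoLine (ext K (rbM ρbar b)) N := by
  intro v hv
  by_contra hcon
  push Not at hcon
  obtain ⟨bK, hbK⟩ : ∃ bK : Module.Basis (Fin 2) K (K ⊗[k] ρbar.V),
      bK = Algebra.TensorProduct.basis K b := ⟨_, rfl⟩
  obtain ⟨u, hu⟩ : ∃ u : K ⊗[k] ρbar.V, bK.equivFun u = v :=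
    ⟨bK.equivFun.symm v, LinearEquiv.apply_symm_apply _ _⟩
  have hact : ∀ σ, bK.equivFun ((ρbar.ρ σ).baseChange K u) = ext K (rbM ρbar b) σ *ᵥ v := by
    intro σ
    have e1 : LinearMap.toMatrix bK bK ((ρbar.ρ σ).baseChange K) = ext K (rbM ρbar b) σ := by
      rw [hbK]
      exact LinearMap.toMatrix_baseChange K (ρbar.ρ σ) b b
    rw [← hu, ← e1]
    exact (LinearMap.toMatrix_mulVec_repr bK bK ((ρbar.ρ σ).baseChange K) u).symm
  have hst : ∀ σ ∈ N, ∀ x ∈ (Submodule.span K {u} : Submodule K (K ⊗[k] ρbar.V)),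
      (ρbar.ρ σ).baseChange K x ∈ Submodule.span K {u} := by
    intro σ hσ x hx
    obtain ⟨c, rfl⟩ := Submodule.mem_span_singleton.1 hx
    obtain ⟨a, ha⟩ := hcon σ hσ
    rw [map_smul]
    refine Submodule.smul_mem _ _ ?_
    rw [Submodule.mem_span_singleton]
    refine ⟨a, ?_⟩
    apply bK.equivFun.injective
    rw [hact, ha, map_smul, hu]
  have hu0 : u ≠ 0 := by
    rintro rfl
    rw [map_zero] at hu
    exact hv hu.symm
  rcases h (Submodule.span K {u}) hst with h1 | h1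
  · exact hu0 (Submodule.span_singleton_eq_bot.1 h1)
  · have h2 := (ρbar.baseChange K).finrank_eq
    rw [← finrank_top, ← h1, finrank_span_singleton hu0] at h2
    omega

/-- the kernel is open at level `S₁` -/
theorem isOpen_rbM {S₁ : Finset Nat.Primes}
    (hunr : ∀ q : Nat.Primes, q ∉ S₁ → ρbar.IsUnramifiedAt q) :
    (levS S₁).isOpen (rbM ρbar b).ker := by
  refine levS_isOpen_of ?_ fun q hq A hA τ hτ => rbM_eq_one ρbar b (hunr q hq A hA τ hτ)
  obtain ⟨L, hL, h⟩ := ρbar.factorsThroughFiniteLevel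
  refine ⟨L, hL, fun σ hσ => rbM_eq_one ρbar b (h σ fun x hx => ?_)⟩
  exact (IntermediateField.mem_fixingSubgroup_iff L σ).1 hσ x hx

theorem det_rbM (σ : GQ) : (rbM ρbar b σ).det = LinearMap.det (ρbar.ρ σ) := by
  rw [rbM_apply, LinearMap.det_toMatrix]

theorem charpoly_rbM (σ : GQ) : (rbM ρbar b σ).charpoly = LinearMap.charpoly (ρbar.ρ σ) := by
  rw [rbM_apply, LinearMap.charpoly_toMatrix]

/-- the residual determinant -/
def chiM : GQ →* k := (Matrix.detMonoidHom : Mt k →* k).comp (rbM ρbar b)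

theorem twData (p : ℕ) (hp : p.Prime) (hp2 : p ≠ 2) (habs : ρbar.IsAbsolutelyIrreducible)
    (hdet : (GaloisRepAdic.ofResidualGaloisRep ρbar).DetIsCyclotomic p)
    (hTW : ∀ (K : Type) [Field K] [Algebra k K]
      (G : Subgroup (AlgebraicClosure ℚ ≃ₐ[ℚ] AlgebraicClosure ℚ)), G.index = 2 →
      ∀ V : Submodule K (ρbar.baseChange K).V,
        (∀ σ ∈ G, ∀ x ∈ V, (ρbar.baseChange K).ρ σ x ∈ V) → V = ⊥ ∨ V = ⊤)
    {S₁ : Finset Nat.Primes} (hunr : ∀ q : Nat.Primes, q ∉ S₁ → ρbar.IsUnramifiedAt q) :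
    TWData p S₁ (rbM ρbar b) (chiM ρbar b) where
  prime := hp
  ne_two := hp2
  open_ker := isOpen_rbM ρbar b hunr
  det _ := rfl
  chi σ a ha := by
    have h1 := hdet.2 1 σ a (fun μ hμ => ha μ (by rwa [pow_one] at hμ))
    have hp0 : (p : k) = 0 := by
      have h2 := hdet.1
      rw [IsLocalRing.mem_maximalIdeal, mem_nonunits_iff, isUnit_iff_ne_zero, not_not] at h2
      exact h2
    rw [pow_one, hp0, Ideal.mem_span_singleton', ] at h1
    obtain ⟨c, hc⟩ := h1
    rw [mul_zero, eq_comm, sub_eq_zero] at hc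
    change (rbM ρbar b σ).det = _
    rw [det_rbM]
    exact hc
  noLine := noLine_of ρbar b _ ⊤ fun V hV => habs V fun σ x hx => hV σ trivial x hx
  noLine2 G' hG' := noLine_of ρbar b _ G' (hTW _ G' hG')

theorem charP_of (p : ℕ) (hp : p.Prime)
    (hdet : (GaloisRepAdic.ofResidualGaloisRep ρbar).DetIsCyclotomic p) : CharP k p := by
  have hp0 : (p : k) = 0 := by
    have h2 := hdet.1
    rw [IsLocalRing.mem_maximalIdeal, mem_nonunits_iff, isUnit_iff_ne_zero, not_not] at h2
    exact h2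
  obtain ⟨q, hq⟩ := CharP.exists k
  rcases CharP.char_is_prime_or_zero k q with h1 | h1
  · have h2 : q ∣ p := (CharP.cast_eq_zero_iff k q p).1 hp0
    rwa [← (Nat.prime_dvd_prime_iff_eq h1 hp).1 h2]
  · subst h1
    have := (CharP.cast_eq_zero_iff k 0 p).1 hp0
    exact absurd (zero_dvd_iff.1 this) hp.ne_zero

/-- distinct eigenvalues -/
theorem exists_distinct {M : Mt k} (hd : M.det = 1) (ht : M.trace ^ 2 ≠ 4) {α β : k}
    (h : M.charpoly = (Polynomial.X - Polynomial.C α) * (Polynomial.X - Polynomial.C β)) :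
    α ≠ β := by
  rintro rfl
  apply ht
  rw [Matrix.charpoly_fin_two] at h
  have h0 := congrArg (fun P => Polynomial.coeff P 0) h
  have h1 := congrArg (fun P => Polynomial.coeff P 1) h
  have e : (Polynomial.X - Polynomial.C α) * (Polynomial.X - Polynomial.C α) =
      Polynomial.X ^ 2 - Polynomial.C (2 * α) * Polynomial.X + Polynomial.C (α * α) := by
    rw [map_mul, map_mul, map_ofNat]
    ring
  rw [e] at h0 h1
  simp [Polynomial.coeff_X, Polynomial.coeff_C] at h0 h1
  rw [h1]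
  rw [hd] at h0
  have : (2 * α) ^ 2 = 4 * (α * α) := by ring
  rw [this, ← h0, mul_one]

end res

end Fermat.Agent.TW

end
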