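import Fermat.Agent.TW.S56B
import Fermat.Agent.TW.PowSurj
import Fermat.Agent.DefRing.Burnside

/-!
# Taylor-Wiles primes and the number of generators of universal deformation rings
-/

set_option autoImplicit false
set_option linter.unusedSectionVars false

noncomputable section

namespace Fermat.Agent.TW

open Matrix Fermat.Agent.CC IsLocalRing Polynomial
open scoped TensorProduct
open Fermat.Agent.H04 (DN M2 ofMat IsCont)
open Fermat.Agent.H25.SB (Sel mem_Sel Dq HD LocF GWad exists_TW_Sel)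
open Fermat.Agent.H25.TR (plv plv_over frv_spec)

/-- the type of a deformation problem -/
def Ty (𝒪 : Type) [CommRing 𝒪] (p : ℕ) (Smin T : Finset ℕ)
    (E : ∀ ⦃A : Type⦄ [CommRing A] [IsLocalRing A], GaloisRepAdic A → Prop) :
    ∀ ⦃A : Type⦄ [CommRing A] [IsLocalRing A] [Algebra 𝒪 A], GaloisRepAdic A → Prop :=
  fun _A _ _ _ ρ => (ρ.DetIsCyclotomic p ∧ E ρ ∧
    ∀ q : ℕ, q.Prime → q ∉ T → ρ.IsUnramifiedAt q) ∧
      ∀ q ∈ Smin, q.Prime → q ≠ p → ρ.IsUnipotentOnInertiaAt q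

open scoped Classical in
theorem frame {𝒪 : Type} [CommRing 𝒪] [IsDomain 𝒪] [IsDiscreteValuationRing 𝒪]
    [IsAdicComplete (maximalIdeal 𝒪) 𝒪] [Finite (ResidueField 𝒪)]
    (p : ℕ) [Fact p.Prime] (hp2 : p ≠ 2)
    (ρbar : ResidualGaloisRep (ResidueField 𝒪))
    (habs : ρbar.IsAbsolutelyIrreducible)
    (hdet : (GaloisRepAdic.ofResidualGaloisRep ρbar).DetIsCyclotomic p)
    (hsplit : ∀ σ : AlgebraicClosure ℚ ≃ₐ[ℚ] AlgebraicClosure ℚ,
      ∃ α β : ResidueField 𝒪, LinearMap.charpoly (ρbar.ρ σ) = (X - C α) * (X - C β))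
    (hTW : ∀ (K : Type) [Field K] [Algebra (ResidueField 𝒪) K]
      (G : Subgroup (AlgebraicClosure ℚ ≃ₐ[ℚ] AlgebraicClosure ℚ)), G.index = 2 →
      ∀ V : Submodule K (ρbar.baseChange K).V,
        (∀ σ ∈ G, ∀ x ∈ V, (ρbar.baseChange K).ρ σ x ∈ V) → V = ⊥ ∨ V = ⊤)
    (S Smin : Finset ℕ) (hpSmin : p ∈ Smin) (hSmin : Smin ⊆ S) (hS : ∀ q ∈ S, q.Prime)
    (hmin : ∀ q : ℕ, q.Prime → q ≠ p → (q ∈ Smin ↔ ¬ ρbar.IsUnramifiedAt q))
    (hGW : GWad p) {pp : Nat.Primes} (hppv : (pp : ℕ) = p)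
    (E : ∀ ⦃A : Type⦄ [CommRing A] [IsLocalRing A], GaloisRepAdic A → Prop)
    (hEiso : ∀ ρ ρ' : GaloisRepAdic (DN 𝒪), ρ.IsEquiv ρ' → E ρ → E ρ')
    (hEbc : ∀ (R : Type) [CommRing R] [IsLocalRing R] (ρ : GaloisRepAdic R) (φ : R →+* DN 𝒪)
      (hφ : IsLocalHom φ), E ρ → E (ρ.baseChangeAlong φ hφ))
    (hE : ∀ rb : GQ →* Mt (ResidueField 𝒪), lev.isOpen rb.ker →
      (∀ σ, ∃ α β : ResidueField 𝒪, (rb σ).charpoly = (X - C α) * (X - C β)) →
      ∃ L : AddSubgroup (H1 (lev.sub (Dq pp))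
        (Ad0 rb (1 : GQ →* ResidueField 𝒪))), Finite L ∧
        Nat.card L ≤ Nat.card (ResidueField 𝒪) * Nat.card (H0 (Dq pp)
          (Ad0 rb (1 : GQ →* ResidueField 𝒪))) ∧
        ∀ (S' : Finset Nat.Primes) (s : GQ →* M2 (DN 𝒪)) (hs : IsCont s)
          (hF : ∀ σ, FM (s σ) = rb σ)
          (hU : (levS S').isOpen s.ker) (htr : ∀ σ, sn (s σ).det = 0),
          (ofMat s hs).DetIsCyclotomic p → E (ofMat s hs) →
          resD S' (Dq pp) _ (H1.mk _ _ (cls S' hF hU htr)) ∈ L) :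
    ∃ r : ℕ, ∀ n : ℕ, ∃ qv : Fin r → ℕ, Function.Injective qv ∧
      (∀ i, (qv i).Prime ∧ qv i ∉ S ∧ p ^ (n + 1) ∣ qv i - 1) ∧
      (∀ i, ∀ P : ValuationSubring (AlgebraicClosure ℚ), P.LiesOverPrime (qv i) →
        ∀ φ : AlgebraicClosure ℚ ≃ₐ[ℚ] AlgebraicClosure ℚ, P.IsFrobeniusAt φ (qv i) →
          ∃ α β : ResidueField 𝒪, α ≠ β ∧ LinearMap.charpoly (ρbar.ρ φ) = (X - C α) * (X - C β)) ∧
      ∀ DQ : GaloisRep.DeformationRingData 𝒪 ρbar
          (Ty 𝒪 p Smin (Smin ∪ Finset.univ.image qv) E),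
        ∃ γ : MvPowerSeries (Fin r) 𝒪 →ₐ[𝒪] DQ.R, Function.Surjective γ := by
  have hp : p.Prime := Fact.out
  have hcharP : CharP (ResidueField 𝒪) p := charP_of ρbar p hp hdet
  obtain ⟨b, D, hD⟩ := Fermat.Agent.H04.exists_dat ρbar habs
  obtain ⟨S₁, hS₁⟩ : ∃ S₁ : Finset Nat.Primes, ∀ q : Nat.Primes, q ∈ S₁ ↔ (q : ℕ) ∈ Smin :=
    ⟨Smin.subtype Nat.Prime, fun q => Finset.mem_subtype⟩
  have hunr : ∀ q : Nat.Primes, q ∉ S₁ → ρbar.IsUnramifiedAt q := by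
    intro q hq
    rw [hS₁] at hq
    have hqp : (q : ℕ) ≠ p := fun h => hq (h ▸ hpSmin)
    by_contra h
    exact hq ((hmin q q.2 hqp).2 h)
  have hT := twData ρbar b p hp hp2 habs hdet hTW hunr
  have hppS : pp ∈ S₁ := by
    rw [hS₁, hppv]
    exact hpSmin
  have hrbo : lev.isOpen (rbM ρbar b).ker := lev_isOpen_of_levS hT.open_ker
  obtain ⟨Lp, hLpf, hLpc, hLpm⟩ := hE (rbM ρbar b) hrbo fun σ => by
    rw [charpoly_rbM]
    exact hsplit σ
  obtain ⟨m, hm⟩ := exists_TW_Sel hGW ⟨pp, hppS, hppv⟩ hT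
  refine ⟨m, fun n => ?_⟩
  obtain ⟨qv, h1, h2, h3⟩ := hm (n + 1) (Nat.succ_ne_zero n) S
  refine ⟨fun i => (qv i : ℕ), fun i j hij => h1 (Subtype.ext hij), fun i =>
    ⟨(qv i).2, (h2 i).1, (h2 i).2.2.2.1⟩, fun i P hP φ hφ => ?_, fun DQ => ?_⟩
  · obtain ⟨α, β, hαβ⟩ := hsplit φ
    obtain ⟨h4, h5⟩ := (h2 i).2.2.2.2 P hP φ hφ
    refine ⟨α, β, ?_, hαβ⟩
    rw [← charpoly_rbM ρbar b] at hαβ
    exact exists_distinct (by rw [hT.det, h4]) h5 hαβ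
  -- the local conditions
  let L : LocF (rbM ρbar b) := fun q => if h : q = pp then h ▸ Lp else
    if q ∈ S₁ then unr (plv q q.2) (Ad0 (rbM ρbar b) (1 : GQ →* ResidueField 𝒪)) else ⊤
  have hLpp : L pp = Lp := by simp only [L, dif_pos]
  have hLS : ∀ q ∈ S₁, q ≠ pp →
      L q = unr (plv q q.2) (Ad0 (rbM ρbar b) (1 : GQ →* ResidueField 𝒪)) := by
    intro q hq hqp
    simp only [L]
    rw [dif_neg hqp, if_pos hq]
  have hLQ : ∀ j, L (qv j) = ⊤ := by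
    intro j
    have h4 := (h2 j).2.1
    have h5 : qv j ≠ pp := fun h => h4 (h ▸ hppS)
    simp only [L]
    rw [dif_neg h5, if_neg h4]
  obtain ⟨h5, h6⟩ := h3 L hLQ
  obtain ⟨S', hS'⟩ : ∃ S' : Finset Nat.Primes, S' = S₁ ∪ Finset.univ.image qv := ⟨_, rfl⟩
  rw [← hS'] at h5 h6
  have hmemS' : ∀ q : Nat.Primes, q ∉ S' →
      (q : ℕ) ∉ Smin ∪ Finset.univ.image (fun i => (qv i : ℕ)) := by
    intro q hq hq'
    apply hq
    rw [hS']
    rw [Finset.mem_union] at hq' ⊢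
    rcases hq' with h | h
    · exact Or.inl ((hS₁ q).2 h)
    · right
      obtain ⟨i, -, hi⟩ := Finset.mem_image.1 h
      exact Finset.mem_image.2 ⟨i, Finset.mem_univ _, Subtype.ext hi⟩
  have hDNfin := finite_DN (𝒪 := 𝒪)
  obtain ⟨ζ, hζ⟩ : ∃ ζ : Qb, IsPrimitiveRoot ζ p := by
    have : NeZero (p : Qb) := ⟨Nat.cast_ne_zero.2 hp.ne_zero⟩
    exact HasEnoughRootsOfUnity.exists_primitiveRoot Qb p
  obtain ⟨x, CY⟩ := exists_CY hp hζ
  have hlev : ∀ (s : GQ →* M2 (DN 𝒪)) (hs : IsCont s), (∀ σ, FM (s σ) = rbM ρbar b σ) →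
      Ty 𝒪 p Smin (Smin ∪ Finset.univ.image fun i => (qv i : ℕ)) E (ofMat s hs) →
      (levS S').isOpen s.ker ∧ ∀ σ, sn (s σ).det = 0 := by
    intro s hs hF hty
    refine ⟨level_of_unr hs hty.1.2.2 hmemS', fun σ => ?_⟩
    rw [det_of_cyc CY hs hty.1.1, sn_natCast]
  have hSel : ∀ (s : GQ →* M2 (DN 𝒪)) (hs : IsCont s) (hF : ∀ σ, FM (s σ) = rbM ρbar b σ)
      (hU : (levS S').isOpen s.ker) (htr : ∀ σ, sn (s σ).det = 0),
      Ty 𝒪 p Smin (Smin ∪ Finset.univ.image fun i => (qv i : ℕ)) E (ofMat s hs) →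
      H1.mk _ _ (cls S' hF hU htr) ∈ Sel S' (rbM ρbar b) L := by
    intro s hs hF hU htr hty
    rw [mem_Sel]
    intro q hq
    by_cases hqp : q = pp
    · subst hqp
      rw [hLpp]
      exact hLpm S' s hs hF hU htr hty.1.1 hty.1.2.1
    by_cases hq1 : q ∈ S₁
    · rw [hLS q hq1 hqp]
      have hqS : (q : ℕ) ∈ Smin := (hS₁ q).1 hq1
      have hqp' : (q : ℕ) ≠ p := fun h => hqp (Subtype.ext (h.trans hppv.symm))
      have hunip := hty.2 q hqS q.2 hqp' (plv q q.2) (plv_over q q.2)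
      refine cls_mem_unr hp hp2 hF hU htr q.2 (fun h => hqp' h.symm) (plv_over q q.2)
        (fun τ hτ => ?_) (fun τ hτ => trace_of_unip hs (hunip τ hτ)) ?_
      · rw [← hF τ]
        have h7 := det_of_unip hs (hunip τ hτ)
        have h8 := congrArg fs h7
        rw [map_one] at h8
        rw [← h8]
        exact (RingHom.map_det fs (s τ)).symm
      · by_contra hcon
        push Not at hcon
        apply (hmin q q.2 hqp').1 hqS
        intro A hA τ hτ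
        obtain ⟨g, rfl⟩ := H05.exists_smul_eq q.2 (plv_over q q.2) hA
        have h7 : g⁻¹ * τ * g ∈ (plv q q.2).inertiaSubgroupIn ℚ := H09.inertia_conj hτ
        have h8 := eq_one_of_rbM ρbar b (hcon _ h7)
        have h9 : τ = g * (g⁻¹ * τ * g) * g⁻¹ := by group
        rw [h9, map_mul, map_mul, h8, mul_one, ← map_mul, mul_inv_cancel, map_one]
    · have hq2 : q ∈ Finset.univ.image qv := by
        rw [hS'] at hq
        exact (Finset.mem_union.1 hq).resolve_left hq1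
      obtain ⟨j, -, rfl⟩ := Finset.mem_image.1 hq2
      rw [hLQ]
      trivial
  obtain ⟨hfin, hcard⟩ := card_hom_le DQ hD (rb := rbM ρbar b) (fun σ => rfl) S'
    (CC.levS_mono (hS' ▸ Finset.subset_union_left) hT.open_ker) (Sel S' (rbM ρbar b) L)
    (fun ρ ρ' e h => ⟨⟨H19.detIsCyclotomic_of_isEquiv e h.1.1, hEiso ρ ρ' e h.1.2.1,
      fun q hq hqS => H19.isUnramifiedAt_of_isEquiv e (h.1.2.2 q hq hqS)⟩,
      fun q hq hqp hqp' => H19.isUnipotent_of_isEquiv e (h.2 q hq hqp hqp')⟩)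
    (fun φ hφ _ => ⟨⟨H19.detIsCyclotomic_baseChangeAlong _ hφ DQ.isOfType.1.1,
      hEbc _ _ _ hφ DQ.isOfType.1.2.1, fun q hq hqS =>
        H19.isUnramifiedAt_baseChangeAlong _ hφ (DQ.isOfType.1.2.2 q hq hqS)⟩,
      fun q hq hqp hqp' => H19.isUnipotent_baseChangeAlong _ hφ (DQ.isOfType.2 q hq hqp hqp')⟩)
    hlev hSel
  · refine exists_surjective_powerSeries (Fermat.Agent.H04.preTest_iff.mpr
      ⟨DQ.instIsLocalHom, DQ.residue_surjective⟩) m hfin (hcard.trans ?_)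
    have hX : ∏ q ∈ S₁, Nat.card (L q) ≤ Nat.card (ResidueField 𝒪) *
        ∏ q ∈ S₁, Nat.card (H0 (Dq q) (Ad0 (rbM ρbar b) (1 : GQ →* ResidueField 𝒪))) := by
      rw [← Finset.mul_prod_erase S₁ _ hppS, ← Finset.mul_prod_erase S₁ (fun q =>
        Nat.card (H0 (Dq q) (Ad0 (rbM ρbar b) (1 : GQ →* ResidueField 𝒪)))) hppS, hLpp,
        ← mul_assoc]
      refine Nat.mul_le_mul hLpc (Finset.prod_le_prod' fun q hq => ?_)
      obtain ⟨hq1, hq2⟩ := Finset.mem_erase.1 hq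
      rw [hLS q hq2 hq1]
      exact (card_unr_le q.2 (plv_over q q.2) (frv_spec q q.2)
        (smooth_Ad0 hrbo (fun _ _ => rfl))).2
    have hpos : 0 < Nat.card (ResidueField 𝒪) *
        ∏ q ∈ S₁, Nat.card (H0 (Dq q) (Ad0 (rbM ρbar b) (1 : GQ →* ResidueField 𝒪))) :=
      Nat.mul_pos Nat.card_pos (Finset.prod_pos fun q _ => Nat.card_pos)
    refine Nat.le_of_mul_le_mul_right ?_ hpos
    refine h6.trans ?_
    rw [mul_comm]
    exact Nat.mul_le_mul_left _ hX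

end Fermat.Agent.TW

end
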