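import Fermat.Agent.TW.Lead

/-!
# Ramification of Kummer extensions of degree `p`
-/

set_option autoImplicit false
set_option linter.unusedSectionVars false

namespace Fermat.Agent.TW

open Fermat.Agent.CC NVal
open scoped Pointwise

/-- the stabiliser of `u` in `J` -/
def Ju (J : Subgroup GQ) (u : Qb) : Subgroup GQ where
  carrier := {σ | σ ∈ J ∧ σ u = u}
  mul_mem' {a b} ha hb := ⟨mul_mem ha.1 hb.1, by rw [AlgEquiv.mul_apply, hb.2, ha.2]⟩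
  one_mem' := ⟨one_mem _, rfl⟩
  inv_mem' {a} ha := ⟨inv_mem ha.1, by
    have h := ha.2
    conv_lhs => rw [← h]
    exact a.symm_apply_apply u⟩

theorem mem_Ju {J : Subgroup GQ} {u : Qb} {σ : GQ} : σ ∈ Ju J u ↔ σ ∈ J ∧ σ u = u := Iff.rfl

section

variable {A : ValuationSubring Qb} {p : ℕ} {w : Qb → ℝ}
  {J : Subgroup GQ} {e : ℕ} {π : Qb}

theorem mem_Ju_iff {ζ : Qb} {x : GQ → ZMod p} (C : CY p ζ x) {β : GQ → ZMod p} {u : Qb}
    (hu : Km J ζ β u) {σ : GQ} : σ ∈ Ju J u ↔ σ ∈ J ∧ β σ = 0 := by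
  rw [mem_Ju]
  refine and_congr_right fun hσ => ?_
  rw [hu.2 σ hσ]
  constructor
  · intro h
    have h1 : zp ζ (β σ) * u = zp ζ (0 : ZMod p) * u := by rw [h, C.zp_zero, one_mul]
    exact C.zp_inj (mul_right_cancel₀ hu.1 h1)
  · intro h
    rw [h, C.zp_zero, one_mul]

/-- units of the form `(1 + δ)^b - 1` -/
theorem w_one_add_pow (P : PL p A w) {δ : Qb} (hδ : δ ≠ 0) (hwδ : 0 < w δ) {b : ℕ}
    (hb : ¬ p ∣ b) : (1 + δ) ^ b - 1 ≠ 0 ∧ w ((1 + δ) ^ b - 1) = w δ := by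
  have h1 : (1 + δ) ^ b - 1 = (∑ i ∈ Finset.range b, (1 + δ) ^ i) * δ := by
    rw [← geom_sum_mul, add_sub_cancel_left]
  have hδs : Bs w 0 δ := Or.inr hwδ
  have hbl : Bl w 0 (1 + δ) := P.nv.add P.nv.one (Bs_bl hδs)
  have h2 : Bs w 0 ((∑ i ∈ Finset.range b, (1 + δ) ^ i) - b) := by
    have e1 : (∑ i ∈ Finset.range b, (1 + δ) ^ i) - (b : Qb) =
        ∑ i ∈ Finset.range b, ((1 + δ) ^ i - 1) := by
      rw [Finset.sum_sub_distrib]
      simp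
    rw [e1]
    refine Bs_sum P.nv _ _ fun i _ => ?_
    have e2 : (1 + δ) ^ i - 1 = (∑ m ∈ Finset.range i, (1 + δ) ^ m) * δ := by
      rw [← geom_sum_mul, add_sub_cancel_left]
    rw [e2]
    refine Bs_mul_left P.nv (P.nv.sum _ _ fun m _ => ?_) hδs
    have := P.nv.pow hbl m
    rwa [mul_zero] at this
  have hb0 : (b : Qb) ≠ 0 := Nat.cast_ne_zero.2 (by rintro rfl; exact hb (dvd_zero _))
  have hwb : w (b : Qb) = 0 := by
    have := P.nv.w_intCast P.prime P.lies (n := (b : ℤ)) (by exact_mod_cast hb)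
    rwa [Int.cast_natCast] at this
  obtain ⟨h3, h4⟩ := P.nv.unit_of_Bs hb0 hwb h2
  rw [h1]
  exact ⟨mul_ne_zero h3 hδ, by rw [P.nv.w_mul h3 hδ, h4, zero_add]⟩

/-- **the Kummer extension of level `j`** -/
theorem uf_kummer (P : PL p A w) (U : UF p A w J e π) {ζ : Qb} {x : GQ → ZMod p} (C : CY p ζ x)
    {β : GQ → ZMod p} {u : Qb} (hu : Km J ζ β u) {j : ℕ} (hj0 : 0 < j) (hpj : ¬ p ∣ j)
    (hj : j * (p - 1) < p * e) {r : Qb} (hr : Te p r) (hr0 : r ≠ 0)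
    (hur : Bs w (j / e) (u ^ p - 1 - r * π ^ j))
    (hβ : ∀ σ ∈ J, ∀ τ ∈ J, β (σ * τ) = β σ + β τ) :
    ∃ ϖ1, UF p A w (Ju J u) (p * e) ϖ1 ∧ ∀ g ∈ J, β g ≠ 0 → g ϖ1 ≠ ϖ1 ∧
      w (g ϖ1 - ϖ1) = 1 / (p * e) + 1 / (p - 1) - j / (p * e) := by
  have hf : Fact p.Prime := ⟨P.prime⟩
  have he := U.e_pos'
  have hp0 : (0 : ℝ) < p := Nat.cast_pos.2 P.prime.pos
  have hp1 : (1 : ℝ) < p := by exact_mod_cast P.prime.one_lt
  have hje : (0 : ℝ) < j / e := div_pos (Nat.cast_pos.2 hj0) he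
  have hπj : π ^ j ≠ 0 := pow_ne_zero _ U.ne
  have hwrπ : w (r * π ^ j) = j / e := by
    rw [P.nv.w_mul hr0 hπj, P.te_w hr hr0, U.w_pow P, zero_add]
  obtain ⟨hup1, hwup1⟩ := w_eq_of_Bs_sub P.nv (x := u ^ p - 1) (y := r * π ^ j)
    (mul_ne_zero hr0 hπj) (by rw [hwrπ]; exact hur)
  rw [hwrπ] at hwup1
  obtain ⟨hu0, hwu⟩ := P.pow_sub_one_unit (Or.inr (by rw [hwup1]; exact hje))
  have hu1 := P.sub_one_of_pow (t := u) (Or.inr (by rw [hwup1]; exact hje))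
  obtain ⟨s, hs⟩ : ∃ s, s = u - 1 := ⟨_, rfl⟩
  rw [← hs] at hu1
  have hs0 : s ≠ 0 := by
    intro h0
    have h1 : u = 1 := by rw [h0] at hs; exact (sub_eq_zero.1 hs.symm)
    rw [h1, one_pow, sub_self] at hup1
    exact hup1 rfl
  have hws := hu1.resolve_left hs0
  -- the valuation of `s`
  have hwsv : w s = j / (p * e) := by
    obtain ⟨c, hc, h2⟩ := P.one_add_pow (Bs_bl hu1)
    have h3 : u ^ p - 1 = s ^ p + p * s * c := by
      have : 1 + s = u := by rw [hs]; ring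
      rw [this] at h2
      rw [h2]
      ring
    have h4 : Bl w (1 + w s) (p * s * c) := P.nv.mul_right (P.nv.mul P.Bl_p (Or.inr le_rfl)) hc
    have h5 : s ^ p ≠ 0 := pow_ne_zero _ hs0
    have h6 : w (s ^ p) = p * w s := P.nv.w_pow hs0 p
    rcases lt_or_ge (p * w s) (1 + w s) with h7 | h7
    · have h8 : Bs w (w (s ^ p)) ((u ^ p - 1) - s ^ p) := by
        rw [h3, add_sub_cancel_left, h6]
        exact Bs_of h4 h7
      have h9 := (w_eq_of_Bs_sub P.nv h5 h8).2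
      rw [hwup1, h6] at h9
      field_simp
      field_simp at h9
      linarith
    · exfalso
      have h8 : Bl w (1 + w s) (u ^ p - 1) := by
        rw [h3]
        exact P.nv.add (Or.inr (by rw [h6]; exact h7)) h4
      have h9 := h8.resolve_left hup1
      rw [hwup1] at h9
      have h10 : 1 / ((p : ℝ) - 1) ≤ w s := by
        rw [div_le_iff₀ (by linarith)]
        linarith
      have h11 : (j : ℝ) * (p - 1) < p * e := by
        have h12 : ((j * (p - 1) : ℕ) : ℝ) < ((p * e : ℕ) : ℝ) := Nat.cast_lt.2 hj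
        rw [Nat.cast_mul, Nat.cast_mul, Nat.cast_sub P.prime.one_lt.le, Nat.cast_one] at h12
        exact h12
      have h12 : (j : ℝ) / e < p / (p - 1) := by
        rw [div_lt_div_iff₀ he (by linarith)]
        exact h11
      have h13 : (p : ℝ) / (p - 1) = 1 + 1 / (p - 1) := by
        have : (p : ℝ) - 1 ≠ 0 := by linarith
        field_simp
        ring
      linarith
  -- Bezout
  obtain ⟨b, hb0, hbj⟩ : ∃ b : ℕ, ¬ p ∣ b ∧ (p : ℤ) ∣ 1 - b * j := by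
    have hj' : (j : ZMod p) ≠ 0 := by
      rw [Ne, ZMod.natCast_eq_zero_iff]
      exact hpj
    refine ⟨((j : ZMod p)⁻¹).val, fun h => ?_, ?_⟩
    · have h1 : (((j : ZMod p)⁻¹).val : ZMod p) = 0 := (ZMod.natCast_eq_zero_iff _ _).2 h
      rw [ZMod.natCast_zmod_val] at h1
      exact inv_ne_zero hj' h1
    · rw [← ZMod.intCast_zmod_eq_zero_iff_dvd]
      push_cast
      rw [ZMod.natCast_zmod_val, inv_mul_cancel₀ hj', sub_self]
  obtain ⟨a, ha⟩ := hbj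
  obtain ⟨ϖ1, hϖ⟩ : ∃ ϖ1, ϖ1 = π ^ a * s ^ b := ⟨_, rfl⟩
  have hπa : π ^ a ≠ 0 := zpow_ne_zero _ U.ne
  have hsb : s ^ b ≠ 0 := pow_ne_zero _ hs0
  have hϖ0 : ϖ1 ≠ 0 := by rw [hϖ]; exact mul_ne_zero hπa hsb
  have hwϖ : w ϖ1 = 1 / (p * e) := by
    rw [hϖ, P.nv.w_mul hπa hsb, U.w_zpow P, P.nv.w_pow hs0, hwsv]
    have h1 : (1 : ℝ) - b * j = p * a := by exact_mod_cast congrArg (fun z : ℤ => (z : ℝ)) ha
    field_simp
    linarith
  have hsfix : ∀ σ ∈ Ju J u, σ s = s := by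
    intro σ hσ
    rw [hs, map_sub, hσ.2, map_one]
  have hϖfix : ∀ σ ∈ Ju J u, σ ϖ1 = ϖ1 := by
    intro σ hσ
    rw [hϖ, map_mul, map_pow, hsfix σ hσ, U.fix_zpow a hσ.1]
  have hle : Ju J u ≤ J := fun σ hσ => hσ.1
  obtain ⟨hfi, hidx⟩ := relIndex_le (J0 := J) (J1 := Ju J u) (α := ZMod p) β (by
    intro σ hσ τ hτ h
    rw [mem_Ju_iff C hu]
    refine ⟨mul_mem (inv_mem hσ) hτ, ?_⟩
    have h1 := hβ σ hσ (σ⁻¹ * τ) (mul_mem (inv_mem hσ) hτ)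
    rw [mul_inv_cancel_left, h] at h1
    exact (left_eq_add.1 h1))
  rw [Nat.card_zmod] at hidx
  obtain ⟨U1, -⟩ := U.of_index P hle p P.prime.pos (hfin := hfi) hidx hϖfix hϖ0 hwϖ
  refine ⟨ϖ1, U1, fun g hg hβg => ?_⟩
  -- the action of `g`
  have hζg : zp ζ (β g) ≠ 1 := by
    intro h
    exact hβg (C.zp_inj (by rw [h, C.zp_zero]))
  have hprim : IsPrimitiveRoot (zp ζ (β g)) p := by
    have := IsPrimitiveRoot.orderOf (zp ζ (β g))
    rwa [orderOf_eq_prime (C.zp_pow _) hζg] at this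
  have hwζ : w (zp ζ (β g) - 1) = 1 / (p - 1) := by
    rw [← P.nv.w_neg, neg_sub]
    exact P.nv.w_one_sub P.prime hprim
  have hζ0 : zp ζ (β g) - 1 ≠ 0 := sub_ne_zero.2 hζg
  obtain ⟨δ, hδ⟩ : ∃ δ, δ = (zp ζ (β g) - 1) * u / s := ⟨_, rfl⟩
  have hδ0 : δ ≠ 0 := by rw [hδ]; exact div_ne_zero (mul_ne_zero hζ0 hu0) hs0
  have hwδ : w δ = 1 / (p - 1) - j / (p * e) := by
    rw [hδ, P.nv.w_div (mul_ne_zero hζ0 hu0) hs0, P.nv.w_mul hζ0 hu0, hwζ, hwu, hwsv, add_zero]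
  have hwδpos : 0 < w δ := by
    rw [hwδ, sub_pos, div_lt_div_iff₀ (by positivity) (by linarith)]
    have h12 : ((j * (p - 1) : ℕ) : ℝ) < ((p * e : ℕ) : ℝ) := Nat.cast_lt.2 hj
    rw [Nat.cast_mul, Nat.cast_mul, Nat.cast_sub P.prime.one_lt.le, Nat.cast_one] at h12
    linarith
  have hgs : g s = s * (1 + δ) := by
    rw [hδ, mul_add, mul_one, mul_div_cancel₀ _ hs0, hs, map_sub, map_one, hu.2 g hg]
    ring
  have hgϖ : g ϖ1 - ϖ1 = ϖ1 * ((1 + δ) ^ b - 1) := by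
    rw [hϖ, map_mul, map_pow, hgs, U.fix_zpow a hg, mul_pow]
    ring
  obtain ⟨h1, h2⟩ := w_one_add_pow P hδ0 hwδpos hb0
  refine ⟨fun h => ?_, ?_⟩
  · rw [h, sub_self] at hgϖ
    exact (mul_ne_zero hϖ0 h1) hgϖ.symm
  · rw [hgϖ, P.nv.w_mul hϖ0 h1, hwϖ, h2, hwδ]
    ring

end

end Fermat.Agent.TW
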