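import Fermat.Agent.TW.SS2

/-!
# Supersingular case: semilinear maps and their number
-/

set_option autoImplicit false
set_option linter.unusedSectionVars false

namespace Fermat.Agent.TW

open Fermat.Agent.CC NVal
open scoped Pointwise

variable {A : ValuationSubring Qb} {p : ℕ} {w : Qb → ℝ} {k : Type*} [Field k]

section semi

variable [Finite k] [hf : Fact p.Prime] [Algebra (ZMod p) k] {π : Qb} {α : GQ → k}
  {K : Subfield k} {τ : K →+* IsLocalRing.ResidueField A} (S : SR p A π α K τ) (P : PL p A w)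
include S P

/-- every element of `K` is `u + v a` with `u, v ∈ 𝔽_p`, if `a ∈ K`, `a ∉ 𝔽_p` -/
theorem SR.exists_uv {a : K} (ha : (a : k) ^ p ≠ a) (b : K) : ∃ u v : ZMod p,
    (b : k) = algebraMap (ZMod p) k u + algebraMap (ZMod p) k v * a := by
  classical
  have := Fintype.ofFinite K
  have hck := S.charP P
  have hmem : ∀ u : ZMod p, algebraMap (ZMod p) k u ∈ K := by
    intro u
    rw [← ZMod.natCast_zmod_val u, map_natCast]
    exact natCast_mem K _
  let F : ZMod p × ZMod p → K := fun uv => ⟨algebraMap (ZMod p) k uv.1 +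
    algebraMap (ZMod p) k uv.2 * a, K.add_mem (hmem _) (K.mul_mem (hmem _) a.2)⟩
  have hexp : ExpChar k p := ExpChar.prime hf.out
  have hfp : ∀ u : ZMod p, (algebraMap (ZMod p) k u) ^ p = algebraMap (ZMod p) k u := by
    intro u
    rw [← map_pow, ZMod.pow_card]
  have hinj : Function.Injective F := by
    rintro ⟨u, v⟩ ⟨u', v'⟩ h
    have h1 : algebraMap (ZMod p) k u + algebraMap (ZMod p) k v * a =
      algebraMap (ZMod p) k u' + algebraMap (ZMod p) k v' * a := congrArg Subtype.val h
    have h2 := congrArg (· ^ p) h1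
    simp only [add_pow_expChar, mul_pow, hfp] at h2
    have h3 : (algebraMap (ZMod p) k v - algebraMap (ZMod p) k v') * ((a : k) ^ p - a) = 0 := by
      linear_combination h2 - h1
    have h4 := (mul_eq_zero.1 h3).resolve_right (sub_ne_zero.2 ha)
    have h5 : v = v' := (algebraMap (ZMod p) k).injective (sub_eq_zero.1 h4)
    subst h5
    have h6 : u = u' := (algebraMap (ZMod p) k).injective (add_right_cancel h1)
    rw [h6]
  have hbij : Function.Bijective F := by
    rw [Fintype.bijective_iff_injective_and_card]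
    refine ⟨hinj, ?_⟩
    rw [Fintype.card_prod, ZMod.card, ← Nat.card_eq_fintype_card, S.card, pow_two]
  obtain ⟨⟨u, v⟩, huv⟩ := hbij.2 b
  exact ⟨u, v, (congrArg Subtype.val huv).symm⟩

theorem SR.semilin (hp2 : p ≠ 2) (R : k →+ IsLocalRing.ResidueField A) {g : GQ}
    (hg : g ∈ A.inertiaSubgroupIn ℚ) (hprim : IsPrimitiveRoot (rsd A (g π / π)) (p ^ 2 - 1))
    (hR : ∀ z, R (α g ^ (2 * p) * z) = rsd A (g π / π) ^ (p ^ 2 + 1) * R z) (b : K) (z : k) :
    R (b * z) = τ b ^ p * R z := by
  have hp1 := P.prime.two_le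
  have hcp := P.charP
  have hck := S.charP P
  have hexp : ExpChar (IsLocalRing.ResidueField A) p := ExpChar.prime hf.out
  obtain ⟨t, ht⟩ : ∃ t, t = rsd A (g π / π) := ⟨_, rfl⟩
  rw [← ht] at hR hprim
  obtain ⟨a, ha⟩ : ∃ a : K, a = ⟨α g, S.mem g hg⟩ ^ (2 * p) := ⟨_, rfl⟩
  have hτa : τ a = t ^ (2 * p) := by rw [ha, map_pow, S.tau g hg, ← ht]
  have hak : (a : k) = α g ^ (2 * p) := by rw [ha]; rfl
  have hsq : 2 * p ≤ p ^ 2 - 1 + 1 := by nlinarith [Nat.sub_add_cancel (Nat.one_le_pow 2 p P.prime.pos)]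
  have hne : NeZero (p ^ 2 - 1) := ⟨by
    have := Nat.pow_lt_pow_left (show 1 < p by omega) (two_ne_zero)
    omega⟩
  have ht1 : t ^ (p ^ 2 - 1) = 1 := hprim.pow_eq_one
  have hpe : p ^ 2 = (p ^ 2 - 1) + 1 := (Nat.sub_add_cancel (Nat.one_le_pow 2 p P.prime.pos)).symm
  have ht2 : t ^ (p ^ 2) = t := by rw [hpe, pow_succ, ht1, one_mul]
  have hta : τ a ^ p = t ^ (p ^ 2 + 1) := by
    rw [hτa, ← pow_mul, pow_succ, ht2]
    have : 2 * p * p = p ^ 2 * 2 := by ring
    rw [this, pow_mul, ht2, pow_two]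
  have hanf : (a : k) ^ p ≠ a := by
    intro h
    have h1 : a ^ p = a := Subtype.ext h
    have h2 := congrArg τ h1
    rw [map_pow, hta, hτa, pow_succ, ht2, ← pow_two] at h2
    have h3 := prim_pow_eq hprim h2
    have h4 : 2 ≤ 2 * p := by omega
    have h5 := (Nat.modEq_iff_dvd' h4).1 h3
    have h6 := Nat.le_of_dvd (by omega) h5
    have h7 : 3 ≤ p := by omega
    have h8 : p ^ 2 - 1 + 1 = p ^ 2 := Nat.sub_add_cancel (Nat.one_le_pow 2 p P.prime.pos)
    have h9 : 3 * p ≤ p ^ 2 := by rw [pow_two]; exact Nat.mul_le_mul_right p h7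
    omega
  obtain ⟨u, v, huv⟩ := S.exists_uv P hanf b
  have hval : ∀ c : ZMod p, ∀ d : K, algebraMap (ZMod p) k c = d →
      ((c.val : ℕ) : IsLocalRing.ResidueField A) = τ d := by
    intro c d hcd
    have h1 : d = ((c.val : ℕ) : K) := by
      apply Subtype.ext
      rw [← hcd]
      conv_lhs => rw [← ZMod.natCast_zmod_val c]
      rw [map_natCast]
      rfl
    rw [h1, map_natCast]
  have hτb : τ b = (u.val : IsLocalRing.ResidueField A) + (v.val : IsLocalRing.ResidueField A) *
      τ a := by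
    have h1 : b = ((u.val : ℕ) : K) + ((v.val : ℕ) : K) * a := by
      apply Subtype.ext
      rw [huv]
      conv_lhs => rw [← ZMod.natCast_zmod_val u, ← ZMod.natCast_zmod_val v]
      rw [map_natCast, map_natCast]
      rfl
    rw [h1, map_add, map_mul, map_natCast, map_natCast]
  have hnp : ∀ n : ℕ, (n : IsLocalRing.ResidueField A) ^ p = n := by
    intro n
    have := map_natCast (frobenius (IsLocalRing.ResidueField A) p) n
    exact this
  rw [huv, hτb, add_pow_expChar, mul_pow, hnp, hnp, hta, add_mul, map_add, add_zmod_smul,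
    mul_assoc, add_zmod_smul, hak, hR, add_mul, mul_assoc]

/-- the number of semilinear maps with values in the zeros of a polynomial -/
theorem SR.card_semilin {ρ d : IsLocalRing.ResidueField A} (hρ : ρ ≠ 0) :
    Finite {R : k →+ IsLocalRing.ResidueField A // (∀ (b : K) z, R (b * z) = τ b ^ p * R z) ∧
      ∀ z, ρ * R z ^ (p ^ 2) = d * R z} ∧
    Nat.card {R : k →+ IsLocalRing.ResidueField A // (∀ (b : K) z, R (b * z) = τ b ^ p * R z) ∧
      ∀ z, ρ * R z ^ (p ^ 2) = d * R z} ≤ Nat.card k := by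
  classical
  have hp1 := P.prime.two_le
  -- the possible values
  obtain ⟨E, hE⟩ : ∃ E : Set (IsLocalRing.ResidueField A), E = {r | ρ * r ^ (p ^ 2) = d * r} :=
    ⟨_, rfl⟩
  obtain ⟨F, hF⟩ : ∃ F : Polynomial (IsLocalRing.ResidueField A), F =
    Polynomial.C ρ * Polynomial.X ^ (p ^ 2) - Polynomial.C d * Polynomial.X := ⟨_, rfl⟩
  have hp21 : 1 < p ^ 2 := by
    have := Nat.pow_lt_pow_left (show 1 < p by omega) (two_ne_zero)
    simpa using this
  have hFdeg : F.natDegree = p ^ 2 := by
    rw [hF]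
    rw [Polynomial.natDegree_sub_eq_left_of_natDegree_lt]
    · exact Polynomial.natDegree_C_mul_X_pow _ _ hρ
    · rw [Polynomial.natDegree_C_mul_X_pow _ _ hρ]
      exact (Polynomial.natDegree_C_mul_le _ _).trans_lt (by
        rw [Polynomial.natDegree_X]; exact hp21)
  have hF0 : F ≠ 0 := by
    intro h
    rw [h, Polynomial.natDegree_zero] at hFdeg
    omega
  have hEF : E ⊆ (F.roots.toFinset : Set (IsLocalRing.ResidueField A)) := by
    intro r hr
    rw [hE] at hr
    change ρ * r ^ (p ^ 2) = d * r at hr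
    rw [Finset.mem_coe, Multiset.mem_toFinset, Polynomial.mem_roots hF0, Polynomial.IsRoot, hF]
    simp only [Polynomial.eval_sub, Polynomial.eval_mul, Polynomial.eval_C, Polynomial.eval_pow,
      Polynomial.eval_X]
    rw [hr, sub_self]
  have hEfin : Finite E := (Finset.finite_toSet _).subset hEF
  have hEcard : Nat.card E ≤ p ^ 2 := by
    calc Nat.card E ≤ Nat.card (F.roots.toFinset : Set (IsLocalRing.ResidueField A)) :=
          Nat.card_mono (Finset.finite_toSet _) hEF
      _ = F.roots.toFinset.card := by rw [Nat.card_coe_set_eq, Set.ncard_coe_finset]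
      _ ≤ Multiset.card F.roots := Multiset.toFinset_card_le _
      _ ≤ F.natDegree := Polynomial.card_roots' F
      _ = p ^ 2 := hFdeg
  -- a basis of `k` over `K`
  have hfd : Module.Finite K k := Module.Finite.of_finite
  let v := Module.finBasis K k
  let ev : {R : k →+ IsLocalRing.ResidueField A // (∀ (b : K) z, R (b * z) = τ b ^ p * R z) ∧
      ∀ z, ρ * R z ^ (p ^ 2) = d * R z} → (Fin (Module.finrank K k) → E) :=
    fun R i => ⟨R.1 (v i), by rw [hE]; exact R.2.2 _⟩
  have hinj : Function.Injective ev := by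
    intro R R' h
    apply Subtype.ext
    ext z
    rw [← v.sum_repr z, map_sum, map_sum]
    refine Finset.sum_congr rfl fun i _ => ?_
    have h1 : R.1 (v i) = R'.1 (v i) := congrArg Subtype.val (congrFun h i)
    have h2 : v.repr z i • v i = ((v.repr z i : K) : k) * v i := rfl
    rw [h2, R.2.1, R'.2.1, h1]
  refine ⟨Finite.of_injective ev hinj, ?_⟩
  calc _ ≤ Nat.card (Fin (Module.finrank K k) → E) := Nat.card_le_card_of_injective ev hinj
    _ = Nat.card E ^ Module.finrank K k := by rw [Nat.card_fun, Nat.card_fin]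
    _ ≤ (p ^ 2) ^ Module.finrank K k := Nat.pow_le_pow_left hEcard _
    _ = Nat.card K ^ Module.finrank K k := by rw [S.card]
    _ = Nat.card k := by rw [← Module.natCard_eq_pow_finrank (K := K) (V := k)]

end semi

end Fermat.Agent.TW
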