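import Fermat.Agent.TW.SS3
import Fermat.Agent.TW.LocP

/-!
# Supersingular case: the local condition
-/

set_option autoImplicit false
set_option linter.unusedSectionVars false

namespace Fermat.Agent.TW

open Matrix Fermat.Agent.CC NVal
open scoped Pointwise

variable {A : ValuationSubring Qb} {p : ℕ} {w : Qb → ℝ} {k : Type*} [Field k]

/-- residual data in the supersingular case -/
structure SD (p : ℕ) (A : ValuationSubring Qb) (π : Qb) (α : GQ → k) (K : Subfield k)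
    (τ : K →+* IsLocalRing.ResidueField A) (r : GQ →* Mt k) (Q Q' : Mt k) : Prop where
  sr : SR p A π α K τ
  inv : Q * Q' = 1
  inv' : Q' * Q = 1
  diag : ∀ σ ∈ A.inertiaSubgroupIn ℚ, Q' * r σ * Q = Matrix.diagonal ![α σ, α σ ^ p]
  anti : ∀ φ, A.IsFrobeniusAt φ p → (Q' * r φ * Q) 0 0 = 0 ∧ (Q' * r φ * Q) 1 1 = 0

open Classical in
/-- matrix entries of a cocycle -/
noncomputable def evM (A : ValuationSubring Qb) (r : GQ →* Mt k) (Q Q' : Mt k) (i j : Fin 2) :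
    Z1 (lev.sub (A.decompositionSubgroup ℚ)) (Ad0 r (1 : GQ →* k)) →+ (GQ → k) :=
  AddMonoidHom.mk' (fun f g => if h : g ∈ A.decompositionSubgroup ℚ then
    (Q' * (f.1 ⟨g, h⟩).val * Q) i j else 0) fun f f' => by
      funext g
      rw [Pi.add_apply]
      split_ifs with h
      · rw [← Matrix.add_apply, ← add_mul, ← mul_add]
        rfl
      · rw [add_zero]

theorem evM_apply {r : GQ →* Mt k} {Q Q' : Mt k} {i j : Fin 2}
    (f : Z1 (lev.sub (A.decompositionSubgroup ℚ)) (Ad0 r (1 : GQ →* k))) {g : GQ}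
    (h : g ∈ A.decompositionSubgroup ℚ) :
    evM A r Q Q' i j f g = (Q' * (f.1 ⟨g, h⟩).val * Q) i j := dif_pos h

section

variable {π : Qb} {α : GQ → k} {K : Subfield k} {τ : K →+* IsLocalRing.ResidueField A}
  {r : GQ →* Mt k} {Q Q' : Mt k} (S : SD p A π α K τ r Q Q') (P : PL p A w)
include S

theorem SD.conj_mul (X Y : Mt k) : Q' * (X * Y) * Q = (Q' * X * Q) * (Q' * Y * Q) := by
  have : (Q' * X * Q) * (Q' * Y * Q) = Q' * X * (Q * Q') * Y * Q := by noncomm_ring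
  rw [this, S.inv, mul_one]
  noncomm_ring

theorem SD.conj_smul (g : GQ) (X : Ad0 r (1 : GQ →* k)) :
    Q' * (g • X).val * Q = (Q' * r g * Q) * (Q' * X.val * Q) * (Q' * r g⁻¹ * Q) := by
  rw [Ad0.val_gsmul, MonoidHom.one_apply, one_smul, S.conj_mul, S.conj_mul]

theorem SD.conj_r (g : GQ) : (Q' * r g * Q) * (Q' * r g⁻¹ * Q) = 1 := by
  rw [← S.conj_mul, ← map_mul, mul_inv_cancel, map_one, mul_one, S.inv']

theorem SD.trace (X : Ad0 r (1 : GQ →* k)) : (Q' * X.val * Q) 1 1 = - (Q' * X.val * Q) 0 0 := by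
  have h1 : (Q' * X.val * Q).trace = 0 := by
    rw [Matrix.trace_mul_comm, ← mul_assoc, S.inv, one_mul, X.trace_val]
  rw [Matrix.trace_fin_two] at h1
  exact eq_neg_of_add_eq_zero_right h1

theorem SD.eq_zero {X : Ad0 r (1 : GQ →* k)} (h00 : (Q' * X.val * Q) 0 0 = 0)
    (h01 : (Q' * X.val * Q) 0 1 = 0) (h10 : (Q' * X.val * Q) 1 0 = 0) : X = 0 := by
  apply Ad0.ext
  have h1 : Q' * X.val * Q = 0 := by
    ext i j
    fin_cases i <;> fin_cases j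
    · exact h00
    · exact h01
    · exact h10
    · change (Q' * X.val * Q) 1 1 = 0
      rw [S.trace, h00, neg_zero]
  have h2 : X.val = Q * (Q' * X.val * Q) * Q' := by
    have : Q * (Q' * X.val * Q) * Q' = (Q * Q') * X.val * (Q * Q') := by noncomm_ring
    rw [this, S.inv, one_mul, mul_one]
  rw [h2, h1]
  simp

include P

theorem SD.alpha_one {σ : GQ} (hσ : σ ∈ Jt A π) : α σ = 1 := by
  have h0 := P.tame_ne (not_dvd_sq_sub_one P.prime) S.sr.pi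
  have h1 := S.sr.tau σ hσ.1
  have h2 : rsd A (σ π / π) = 1 := by rw [hσ.2, div_self h0, P.rsd_one]
  rw [h2, ← map_one τ] at h1
  exact congrArg Subtype.val (τ.injective h1)

theorem SD.r_one {σ : GQ} (hσ : σ ∈ Jt A π) : r σ = 1 := by
  have h1 := S.diag σ hσ.1
  rw [S.alpha_one P hσ, one_pow] at h1
  have h2 : Matrix.diagonal ![(1 : k), 1] = 1 := by
    ext i j
    fin_cases i <;> fin_cases j <;> rfl
  have h3 : r σ = Q * (Q' * r σ * Q) * Q' := by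
    have : Q * (Q' * r σ * Q) * Q' = (Q * Q') * r σ * (Q * Q') := by noncomm_ring
    rw [this, S.inv, one_mul, mul_one]
  rw [h3, h1, h2, mul_one, S.inv]

theorem SD.smul_J {σ : GQ} (hσ : σ ∈ Jt A π) (X : Ad0 r (1 : GQ →* k)) : σ • X = X := by
  apply Ad0.ext
  have h1 : r σ⁻¹ = 1 := S.r_one P (inv_mem hσ)
  rw [Ad0.val_gsmul, MonoidHom.one_apply, one_smul, S.r_one P hσ, h1, one_mul, mul_one]

theorem SD.J_le : Jt A π ≤ A.decompositionSubgroup ℚ :=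
  fun _ hσ => inertia_le_decomposition A hσ.1

variable (f : Z1 (lev.sub (A.decompositionSubgroup ℚ)) (Ad0 r (1 : GQ →* k)))

theorem SD.ev_add (i j : Fin 2) {σ σ' : GQ} (hσ : σ ∈ Jt A π) (hσ' : σ' ∈ Jt A π) :
    evM A r Q Q' i j f (σ * σ') = evM A r Q Q' i j f σ + evM A r Q Q' i j f σ' := by
  have h1 := S.J_le P hσ
  have h2 := S.J_le P hσ'
  rw [evM_apply f (mul_mem h1 h2), evM_apply f h1, evM_apply f h2]
  have h3 : f.1 ⟨σ * σ', mul_mem h1 h2⟩ = f.1 ⟨σ, h1⟩ + σ • f.1 ⟨σ', h2⟩ :=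
    f.2.2 ⟨σ, h1⟩ ⟨σ', h2⟩
  rw [h3, S.smul_J P hσ, ← Matrix.add_apply, ← add_mul, ← mul_add]
  rfl

theorem SD.ev_lev (i j : Fin 2) :
    ∃ U : Subgroup GQ, IsOpen (U : Set GQ) ∧
      ∀ σ ∈ Jt A π, σ ∈ U → evM A r Q Q' i j f σ = 0 := by
  obtain ⟨U, ⟨V, hV, hVU⟩, h⟩ := f.2.1
  refine ⟨V, lev_isOpen_iff.1 hV, fun σ hσ hσV => ?_⟩
  have hσD := S.J_le P hσ
  have h1 := h 1 ⟨σ, hσD⟩ (hVU hσV)
  rw [one_mul, Z1.map_one] at h1
  rw [evM_apply f hσD, h1]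
  simp

/-- conjugation -/
theorem SD.f_conj {g σ : GQ} (hg : g ∈ A.decompositionSubgroup ℚ) (hσ : σ ∈ Jt A π)
    (hm : g * σ * g⁻¹ ∈ A.decompositionSubgroup ℚ) :
    f.1 ⟨g * σ * g⁻¹, hm⟩ = g • f.1 ⟨σ, S.J_le P hσ⟩ := by
  have hσD := S.J_le P hσ
  have e1 : (⟨g * σ * g⁻¹, hm⟩ : A.decompositionSubgroup ℚ) =
    ⟨g, hg⟩ * (⟨σ, hσD⟩ * ⟨g, hg⟩⁻¹) := by
    apply Subtype.ext
    change g * σ * g⁻¹ = g * (σ * g⁻¹)
    rw [mul_assoc]
  have h1 : f.1 ⟨g * σ * g⁻¹, hm⟩ = f.1 ⟨g, hg⟩ + g • (f.1 ⟨σ, hσD⟩ + σ • f.1 (⟨g, hg⟩⁻¹)) := by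
    rw [e1, f.2.2, f.2.2]
    rfl
  have h2 : f.1 ⟨g, hg⟩ + g • f.1 (⟨g, hg⟩⁻¹) = 0 := by
    have := f.2.2 ⟨g, hg⟩ ⟨g, hg⟩⁻¹
    rw [mul_inv_cancel, Z1.map_one] at this
    exact this.symm
  rw [h1, S.smul_J P hσ, smul_add, ← add_assoc, add_right_comm, h2, zero_add]

theorem SD.ev_conj {g σ : GQ} (hg : g ∈ A.decompositionSubgroup ℚ) (hσ : σ ∈ Jt A π)
    (i j : Fin 2) : evM A r Q Q' i j f (g * σ * g⁻¹) =
    ((Q' * r g * Q) * (Q' * (f.1 ⟨σ, S.J_le P hσ⟩).val * Q) * (Q' * r g⁻¹ * Q)) i j := by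
  have hm : g * σ * g⁻¹ ∈ A.decompositionSubgroup ℚ :=
    mul_mem (mul_mem hg (S.J_le P hσ)) (inv_mem hg)
  rw [evM_apply f hm, S.f_conj P f hg hσ hm, S.conj_smul]


section ent

omit f in
theorem SD.T_I {g : GQ} (hg : g ∈ A.inertiaSubgroupIn ℚ) :
    α g⁻¹ * α g = 1 ∧ Q' * r g⁻¹ * Q = Matrix.diagonal ![α g⁻¹, α g⁻¹ ^ p] := by
  have h1 := S.diag _ (inv_mem hg)
  refine ⟨?_, h1⟩
  have h2 := S.conj_r g
  rw [h1, S.diag g hg] at h2
  have h3 := congrFun (congrFun h2 0) 0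
  rw [Matrix.mul_apply, Fin.sum_univ_two, Matrix.one_apply_eq] at h3
  simp only [Matrix.diagonal_apply_eq, ne_eq, zero_ne_one, not_false_eq_true, Matrix.diagonal_apply_ne,
    zero_mul, add_zero] at h3
  rw [mul_comm]
  exact h3

omit f in
theorem SD.det_I [hf : Fact p.Prime] [Algebra (ZMod p) k] {x : GQ → ZMod p}
    (hdet : ∀ σ, (r σ).det = algebraMap (ZMod p) k (x σ)) {g : GQ}
    (hg : g ∈ A.inertiaSubgroupIn ℚ) : algebraMap (ZMod p) k (x g) = α g ^ (p + 1) := by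
  have h1 : (Q' * r g * Q).det = (r g).det := by
    rw [Matrix.det_mul, Matrix.det_mul, mul_comm, ← mul_assoc, ← Matrix.det_mul, S.inv,
      Matrix.det_one, one_mul]
  rw [hdet, S.diag g hg, Matrix.det_diagonal, Fin.prod_univ_two] at h1
  rw [← h1, pow_succ']
  rfl

/-- inertia conjugation on the entries -/
theorem SD.ent_I {g σ : GQ} (hg : g ∈ A.inertiaSubgroupIn ℚ) (hσ : σ ∈ Jt A π) :
    evM A r Q Q' 0 0 f (g⁻¹ * σ * g) = evM A r Q Q' 0 0 f σ ∧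
    α g * evM A r Q Q' 0 1 f (g⁻¹ * σ * g) = α g ^ p * evM A r Q Q' 0 1 f σ ∧
    α g ^ p * evM A r Q Q' 1 0 f (g⁻¹ * σ * g) = α g * evM A r Q Q' 1 0 f σ := by
  have hgD := inertia_le_decomposition A hg
  obtain ⟨h1, h2⟩ := S.T_I P hg
  have h3 := S.diag g hg
  have h4 := S.ev_conj P f (inv_mem hgD) hσ
  rw [inv_inv] at h4
  rw [h4, h4, h4, h2, h3, evM_apply f (S.J_le P hσ), evM_apply f (S.J_le P hσ),
    evM_apply f (S.J_le P hσ)]
  obtain ⟨N, hN⟩ : ∃ N, N = Q' * (f.1 ⟨σ, S.J_le P hσ⟩).val * Q := ⟨_, rfl⟩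
  rw [← hN]
  have h5 : α g⁻¹ ^ p * α g ^ p = 1 := by rw [← mul_pow, h1, one_pow]
  simp only [Matrix.mul_apply, Fin.sum_univ_two, Matrix.diagonal_apply_eq, ne_eq, zero_ne_one,
    one_ne_zero, not_false_eq_true, Matrix.diagonal_apply_ne, Matrix.cons_val_zero,
    Matrix.cons_val_one, zero_mul, mul_zero, add_zero, zero_add]
  refine ⟨?_, ?_, ?_⟩
  · linear_combination N 0 0 * h1
  · linear_combination N 0 1 * α g ^ p * h1
  · linear_combination N 1 0 * α g * h5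

/-- Frobenius conjugation on the entries -/
theorem SD.ent_F {φ : GQ} (hφ : A.IsFrobeniusAt φ p) :
    ∃ s : k, s ≠ 0 ∧ ∀ σ ∈ Jt A π, evM A r Q Q' 0 0 f (φ * σ * φ⁻¹) = - evM A r Q Q' 0 0 f σ ∧
    evM A r Q Q' 1 0 f (φ * σ * φ⁻¹) = s * evM A r Q Q' 0 1 f σ ∧
    evM A r Q Q' 0 1 f (φ * σ * φ⁻¹) = s⁻¹ * evM A r Q Q' 1 0 f σ := by
  have hφD : φ ∈ A.decompositionSubgroup ℚ := hφ.1
  obtain ⟨T, hT⟩ : ∃ T, T = Q' * r φ * Q := ⟨_, rfl⟩
  obtain ⟨T', hT'⟩ : ∃ T', T' = Q' * r φ⁻¹ * Q := ⟨_, rfl⟩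
  obtain ⟨h1, h2⟩ := S.anti φ hφ
  have h3 := S.conj_r φ
  rw [← hT] at h1 h2 h3
  rw [← hT'] at h3
  have h4 : T' * T = 1 := mul_eq_one_comm.1 h3
  have e00 := congrFun (congrFun h3 0) 0
  have e11 := congrFun (congrFun h3 1) 1
  have e01 := congrFun (congrFun h3 0) 1
  have e10 := congrFun (congrFun h3 1) 0
  simp only [Matrix.mul_apply, Fin.sum_univ_two, h1, h2, zero_mul, zero_add, add_zero,
    Matrix.one_apply_eq, ne_eq, zero_ne_one, one_ne_zero, not_false_eq_true,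
    Matrix.one_apply_ne] at e00 e11 e01 e10
  have t01 : T 0 1 ≠ 0 := left_ne_zero_of_mul_eq_one e00
  have t10 : T 1 0 ≠ 0 := left_ne_zero_of_mul_eq_one e11
  have f11 : T' 1 1 = 0 := (mul_eq_zero.1 e01).resolve_left t01
  have f00 : T' 0 0 = 0 := (mul_eq_zero.1 e10).resolve_left t10
  refine ⟨T 1 0 / T 0 1, div_ne_zero t10 t01, fun σ hσ => ?_⟩
  rw [S.ev_conj P f hφD hσ, S.ev_conj P f hφD hσ, S.ev_conj P f hφD hσ,
    evM_apply f (S.J_le P hσ), evM_apply f (S.J_le P hσ), evM_apply f (S.J_le P hσ)]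
  have htr := S.trace (f.1 ⟨σ, S.J_le P hσ⟩)
  obtain ⟨N, hN⟩ : ∃ N, N = Q' * (f.1 ⟨σ, S.J_le P hσ⟩).val * Q := ⟨_, rfl⟩
  rw [← hN] at htr ⊢
  rw [← hT, ← hT']
  simp only [Matrix.mul_apply, Fin.sum_univ_two, h1, h2, f00, f11, htr, zero_mul, mul_zero,
    add_zero, zero_add]
  have g1 : T' 1 0 = (T 0 1)⁻¹ := eq_inv_of_mul_eq_one_right e00
  have g2 : T' 0 1 = (T 1 0)⁻¹ := eq_inv_of_mul_eq_one_right e11
  rw [g1, g2]
  refine ⟨?_, ?_, ?_⟩ <;> field_simp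

end ent

end

end Fermat.Agent.TW
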