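import Mathlib.Data.Nat.ModEq
import Mathlib.Tactic
set_option autoImplicit false
namespace Fermat.Agent.TW

theorem mod_lem {e j c : ℕ} (hc : c ≤ j) (h : j ≡ c [MOD e]) : ∃ d, j = c + e * d := by
  obtain ⟨d, hd⟩ := (Nat.modEq_iff_dvd' hc).1 h.symm
  exact ⟨d, by omega⟩

theorem mod_lem2 {e j c : ℕ} (h : j ≡ c [MOD e]) (hj : j < c + e) (hc : c < j + e)
    : j = c := by
  rcases le_total c j with h1 | h1
  · obtain ⟨d, hd⟩ := mod_lem h1 h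
    rcases Nat.eq_zero_or_pos d with h2 | h2
    · rw [hd, h2, mul_zero, add_zero]
    · have : e * 1 ≤ e * d := Nat.mul_le_mul_left e h2
      omega
  · obtain ⟨d, hd⟩ := mod_lem h1 h.symm
    rcases Nat.eq_zero_or_pos d with h2 | h2
    · rw [hd, h2, mul_zero, add_zero]
    · have : e * 1 ≤ e * d := Nat.mul_le_mul_left e h2
      omega

theorem two_sq_mod {p : ℕ} (hp : 3 ≤ p) : 2 * p * p ≡ 2 [MOD (p ^ 2 - 1)] := by
  have h1 : 1 ≤ p ^ 2 := Nat.one_le_pow _ _ (by omega)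
  have h2 : 2 * p * p = 2 + (p ^ 2 - 1) * 2 := by
    have h3 : 2 * p * p = p ^ 2 * 2 := by ring
    rw [h3]
    omega
  rw [h2, Nat.ModEq, Nat.add_mul_mod_self_left]

theorem lev_b {p j : ℕ} (hp : 3 ≤ p) (h3 : 3 ≤ j) (hj : j < p * (p + 1)) (hne : j ≠ p ^ 2 + 1) :
    p ∣ j ∨ (¬ j ≡ 2 * p [MOD (p ^ 2 - 1)] ∧ ¬ j ≡ 2 * p * p [MOD (p ^ 2 - 1)]) := by
  have h1 : 3 * p ≤ p ^ 2 := by rw [pow_two]; exact Nat.mul_le_mul_right p hp
  have h2 : p * (p + 1) = p ^ 2 + p := by ring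
  rw [h2] at hj
  by_cases hd : p ∣ j
  · exact Or.inl hd
  right
  refine ⟨fun h => ?_, fun h => ?_⟩
  · have h4 := mod_lem2 h (by omega) (by omega)
    exact hd ⟨2, by rw [h4, mul_comm]⟩
  · have h4 := h.trans (two_sq_mod hp)
    obtain ⟨d, hdd⟩ := mod_lem (by omega : 2 ≤ j) h4
    rcases Nat.lt_or_ge d 2 with h5 | h5
    · interval_cases d <;> omega
    · have : (p ^ 2 - 1) * 2 ≤ (p ^ 2 - 1) * d := Nat.mul_le_mul_left _ h5
      omega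

theorem lev_b1 {p : ℕ} (hp : 3 ≤ p) : ¬ 1 ≡ 2 * p [MOD (p ^ 2 - 1)] ∧
    ¬ 1 ≡ 2 * p * p [MOD (p ^ 2 - 1)] := by
  have h1 : 3 * p ≤ p ^ 2 := by rw [pow_two]; exact Nat.mul_le_mul_right p hp
  refine ⟨fun h => ?_, fun h => ?_⟩
  · have h4 := mod_lem2 h (by omega) (by omega)
    omega
  · have h4 := mod_lem2 (h.trans (two_sq_mod hp)) (by omega) (by omega)
    omega

theorem psq_mod {p : ℕ} (hp : 3 ≤ p) : (p + 1) * p ≡ p + 1 [MOD (p ^ 2 - 1)] := by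
  have h1 : 1 ≤ p ^ 2 := Nat.one_le_pow _ _ (by omega)
  have h2 : (p + 1) * p = p + 1 + (p ^ 2 - 1) * 1 := by
    have h3 : (p + 1) * p = p ^ 2 + p := by ring
    rw [h3]
    omega
  rw [h2, Nat.ModEq, Nat.add_mul_mod_self_left]

theorem lev_a {p j : ℕ} (hp : 3 ≤ p) (hj : j < p * (p + 1)) (hne : j ≠ p + 1) :
    ¬ j ≡ p + 1 [MOD (p ^ 2 - 1)] ∧ ¬ j ≡ (p + 1) * p [MOD (p ^ 2 - 1)] := by
  have h1 : 3 * p ≤ p ^ 2 := by rw [pow_two]; exact Nat.mul_le_mul_right p hp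
  have h2 : p * (p + 1) = p ^ 2 + p := by ring
  rw [h2] at hj
  have key : ¬ j ≡ p + 1 [MOD (p ^ 2 - 1)] := fun h =>
    hne (mod_lem2 h (by omega) (by omega))
  exact ⟨key, fun h => key (h.trans (psq_mod hp))⟩

end Fermat.Agent.TW
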