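import Fermat.Agent.TW.SS4
import Fermat.Agent.TW.SSnt

/-!
# Supersingular case: bound for the local condition
-/

set_option autoImplicit false
set_option linter.unusedSectionVars false

namespace Fermat.Agent.TW

open Matrix Fermat.Agent.CC NVal
open scoped Pointwise

section KL

variable {A : ValuationSubring Qb} {p : ℕ} {w : Qb → ℝ} {J : Subgroup GQ}

theorem KL_eqOn {ζ : Qb} {t : ℝ} {b b' : GQ → ZMod p} (hbb' : ∀ σ ∈ J, b σ = b' σ)
    (h : KL w J ζ t b) : KL w J ζ t b' := by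
  obtain ⟨u, hu, hur⟩ := h
  exact ⟨u, ⟨hu.1, fun σ hσ => by rw [← hbb' σ hσ]; exact hu.2 σ hσ⟩, hur⟩

theorem KL_add (P : PL p A w) {ζ : Qb} {x : GQ → ZMod p} (C : CY p ζ x) {t : ℝ} (ht : 0 ≤ t)
    {b b' : GQ → ZMod p} (h : KL w J ζ t b) (h' : KL w J ζ t b') :
    KL w J ζ t (fun σ => b σ + b' σ) := by
  obtain ⟨u, hu, hur⟩ := h
  obtain ⟨u', hu', hur'⟩ := h'
  refine ⟨u * u', Km.mul C hu hu', ?_⟩
  have h1 : (u * u') ^ p - 1 = (u ^ p - 1) * u' ^ p + (u' ^ p - 1) := by rw [mul_pow]; ring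
  have h2 : Bl w 0 (u' ^ p) := by
    have := P.nv.add (NVal.mono ht hur') P.nv.one
    rwa [sub_add_cancel] at this
  rw [h1]
  exact P.nv.add (P.nv.mul_right hur h2) hur'

theorem KL_neg (P : PL p A w) {ζ : Qb} {x : GQ → ZMod p} (C : CY p ζ x) {t : ℝ} (ht : 0 < t)
    {b : GQ → ZMod p} (h : KL w J ζ t b) : KL w J ζ t (fun σ => - b σ) := by
  obtain ⟨u, hu, hur⟩ := h
  refine ⟨u⁻¹, Km.neg C hu, ?_⟩
  obtain ⟨h1, h2⟩ := P.nv.unit_of_Bs (x := u ^ p) one_ne_zero P.nv.log.one (Bs_of hur ht)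
  have h3 : u⁻¹ ^ p - 1 = -((u ^ p - 1) / u ^ p) := by
    rw [inv_pow]
    field_simp
    ring
  rw [h3]
  have h4 := Bl_div P.nv h1 hur
  rw [h2, sub_zero] at h4
  exact P.nv.neg h4

theorem KL_zero {ζ : Qb} {x : GQ → ZMod p} (C : CY p ζ x) (t : ℝ) :
    KL w J ζ t (fun _ => (0 : ZMod p)) := by
  refine ⟨1, ⟨one_ne_zero, fun σ _ => by rw [map_one, C.zp_zero, one_mul]⟩, ?_⟩
  rw [one_pow, sub_self]
  exact NVal.zero _

end KL

variable {A : ValuationSubring Qb} {p : ℕ} {w : Qb → ℝ} {k : Type*} [Field k]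
  {π : Qb} {α : GQ → k} {K : Subfield k} {τ : K →+* IsLocalRing.ResidueField A}
  {r : GQ →* Mt k} {Q Q' : Mt k}

/-- the supersingular local condition -/
def ZSS [Algebra (ZMod p) k] (P : PL p A w) {ζ : Qb} {x : GQ → ZMod p}
    (C : CY p ζ x) (l : k →ₗ[ZMod p] ZMod p) (π : Qb) (r : GQ →* Mt k) (Q Q' : Mt k) :
    AddSubgroup (Z1 (lev.sub (A.decompositionSubgroup ℚ)) (Ad0 r (1 : GQ →* k))) where
  carrier := {f | (∀ σ ∈ Jt A π, evM A r Q Q' 0 0 f σ = 0) ∧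
    (∀ z, KL w (Jt A π) ζ ((p ^ 2 + 1 : ℕ) / ((p ^ 2 - 1 : ℕ) : ℝ))
      (fun σ => l (z * evM A r Q Q' 0 1 f σ))) ∧
    (∀ z, KL w (Jt A π) ζ ((p ^ 2 + 1 : ℕ) / ((p ^ 2 - 1 : ℕ) : ℝ))
      (fun σ => l (z * evM A r Q Q' 1 0 f σ)))}
  add_mem' := by
    rintro f f' ⟨h1, h2, h3⟩ ⟨h1', h2', h3'⟩
    have ht : (0 : ℝ) ≤ (p ^ 2 + 1 : ℕ) / ((p ^ 2 - 1 : ℕ) : ℝ) := by positivity
    refine ⟨fun σ hσ => ?_, fun z => ?_, fun z => ?_⟩
    · rw [map_add, Pi.add_apply, h1 σ hσ, h1' σ hσ, add_zero]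
    · refine KL_eqOn (fun σ _ => ?_) (KL_add P C ht (h2 z) (h2' z))
      rw [map_add, Pi.add_apply, mul_add, map_add]
    · refine KL_eqOn (fun σ _ => ?_) (KL_add P C ht (h3 z) (h3' z))
      rw [map_add, Pi.add_apply, mul_add, map_add]
  zero_mem' := by
    refine ⟨fun σ hσ => ?_, fun z => ?_, fun z => ?_⟩
    · rw [map_zero, Pi.zero_apply]
    · refine KL_eqOn (fun σ _ => ?_) (KL_zero C _)
      rw [map_zero, Pi.zero_apply, mul_zero, map_zero]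
    · refine KL_eqOn (fun σ _ => ?_) (KL_zero C _)
      rw [map_zero, Pi.zero_apply, mul_zero, map_zero]
  neg_mem' := by
    rintro f ⟨h1, h2, h3⟩
    have ht : (0 : ℝ) < (p ^ 2 + 1 : ℕ) / ((p ^ 2 - 1 : ℕ) : ℝ) := by
      have h4 : 0 < p ^ 2 - 1 := Nat.sub_pos_of_lt (Nat.one_lt_pow two_ne_zero P.prime.one_lt)
      have h5 : (0 : ℝ) < ((p ^ 2 - 1 : ℕ) : ℝ) := Nat.cast_pos.2 h4
      exact div_pos (Nat.cast_pos.2 (Nat.succ_pos _)) h5
    refine ⟨fun σ hσ => ?_, fun z => ?_, fun z => ?_⟩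
    · rw [map_neg, Pi.neg_apply, h1 σ hσ, neg_zero]
    · refine KL_eqOn (fun σ _ => ?_) (KL_neg P C ht (h2 z))
      rw [map_neg, Pi.neg_apply, mul_neg, map_neg]
    · refine KL_eqOn (fun σ _ => ?_) (KL_neg P C ht (h3 z))
      rw [map_neg, Pi.neg_apply, mul_neg, map_neg]

section

variable [Finite k] [hf : Fact p.Prime] [Algebra (ZMod p) k] (S : SD p A π α K τ r Q Q')
  (P : PL p A w) (hp2 : p ≠ 2) {ζ : Qb} {x : GQ → ZMod p} (C : CY p ζ x)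
  (hdet : ∀ σ, (r σ).det = algebraMap (ZMod p) k (x σ)) (l : k →ₗ[ZMod p] ZMod p)
include S P hdet

theorem SD.hconj01 (f : Z1 (lev.sub (A.decompositionSubgroup ℚ)) (Ad0 r (1 : GQ →* k))) :
    ∀ g ∈ A.inertiaSubgroupIn ℚ, ∀ σ ∈ Jt A π,
      algebraMap (ZMod p) k (x g) * evM A r Q Q' 0 1 f (g⁻¹ * σ * g) =
        α g ^ (2 * p) * evM A r Q Q' 0 1 f σ := by
  intro g hg σ hσ
  rw [S.det_I P hdet hg]
  have h1 := (S.ent_I P f hg hσ).2.1
  linear_combination α g ^ p * h1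

theorem SD.hconj10 (f : Z1 (lev.sub (A.decompositionSubgroup ℚ)) (Ad0 r (1 : GQ →* k))) :
    ∀ g ∈ A.inertiaSubgroupIn ℚ, ∀ σ ∈ Jt A π,
      algebraMap (ZMod p) k (x g) * evM A r Q Q' 1 0 f (g⁻¹ * σ * g) =
        α g ^ 2 * evM A r Q Q' 1 0 f σ := by
  intro g hg σ hσ
  rw [S.det_I P hdet hg]
  have h1 := (S.ent_I P f hg hσ).2.2
  linear_combination α g * h1

include C in
/-- relation between the leading coefficients of the two entries -/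
theorem SD.lead_F (f : Z1 (lev.sub (A.decompositionSubgroup ℚ)) (Ad0 r (1 : GQ →* k)))
    {j : ℕ} {φ : GQ} (hφ : A.IsFrobeniusAt φ p)
    (hb : ∀ z, KL w (Jt A π) ζ ((j : ℕ) / ((p ^ 2 - 1 : ℕ) : ℝ))
      (fun σ => l (z * evM A r Q Q' 0 1 f σ)))
    (hc : ∀ z, KL w (Jt A π) ζ ((j : ℕ) / ((p ^ 2 - 1 : ℕ) : ℝ))
      (fun σ => l (z * evM A r Q Q' 1 0 f σ)))
    {R R' : k →+ IsLocalRing.ResidueField A}
    (hR : ∀ z r, Bl w 0 r → (KR w (Jt A π) ζ π (p ^ 2 - 1) j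
      (fun σ => l (z * evM A _ Q Q' 0 1 f σ)) r ↔ rsd A r = R z))
    (hR' : ∀ z r, Bl w 0 r → (KR w (Jt A π) ζ π (p ^ 2 - 1) j
      (fun σ => l (z * evM A _ Q Q' 1 0 f σ)) r ↔ rsd A r = R' z)) (z : k) :
    (rsd A (φ π / π) ^ j) ^ (p + 1) * R z ^ (p ^ 2) =
      ((x φ).val : IsLocalRing.ResidueField A) ^ 2 * R z := by
  obtain ⟨U, -, -⟩ := P.uf_tame (S.sr.ndvd P) S.sr.pi
  have h0 := P.tame_ne (S.sr.ndvd P) S.sr.pi
  have hφD : φ ∈ A.decompositionSubgroup ℚ := hφ.1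
  have hθ : Bl w 0 (φ π / π) := Or.inr (by
    rw [P.nv.w_div ((map_ne_zero _).2 h0) h0, P.nv.w_smul hφD, sub_self])
  have hθj : Bl w 0 ((φ π / π) ^ j) := by
    have := P.nv.pow hθ j
    rwa [mul_zero] at this
  obtain ⟨s, hs0, hs⟩ := S.ent_F P f hφ
  obtain ⟨ρ, hρ⟩ : ∃ ρ, ρ = rsd A (φ π / π) ^ j := ⟨_, rfl⟩
  have hback : ∀ σ, φ * (φ⁻¹ * σ * φ) * φ⁻¹ = σ := fun σ => by group
  have h1 : ∀ z, R' (algebraMap (ZMod p) k (x φ) * s⁻¹ * z) = R z ^ p * ρ := by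
    intro z
    obtain ⟨t, ht, htz⟩ := U.KR_exists P (hb z)
    have h2 := U.KR_conj P C htz hφD (fun σ hσ => S.sr.conj_mem P hφD hσ)
    have h3 : KR w (Jt A π) ζ π (p ^ 2 - 1) j
        (fun σ => l (algebraMap (ZMod p) k (x φ) * s⁻¹ * z * evM A r Q Q' 1 0 f σ))
        (φ t * (φ π / π) ^ j) := by
      refine UF.KR_eqOn (fun σ hσ => ?_) h2
      have h4 := (hs _ (S.sr.conj_mem P hφD hσ)).2.1
      rw [hback] at h4
      have h5 : x φ * l (z * evM A r Q Q' 0 1 f (φ⁻¹ * σ * φ)) =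
          l (algebraMap (ZMod p) k (x φ) * (z * evM A r Q Q' 0 1 f (φ⁻¹ * σ * φ))) := by
        rw [← Algebra.smul_def, map_smul, smul_eq_mul]
      rw [h5, h4]
      congr 1
      field_simp
    rw [P.te_frob ht hφ] at h3
    have h6 := (hR' _ _ (P.nv.mul_left (P.te_Bl (P.te_pow ht p)) hθj)).1 h3
    rw [← h6, P.rsd_mul (P.te_Bl (P.te_pow ht p)) hθj, P.rsd_pow hθ, P.rsd_pow (P.te_Bl ht), hρ,
      (hR z t (P.te_Bl ht)).1 htz]
  have h1' : ∀ z, R (algebraMap (ZMod p) k (x φ) * s * z) = R' z ^ p * ρ := by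
    intro z
    obtain ⟨t, ht, htz⟩ := U.KR_exists P (hc z)
    have h2 := U.KR_conj P C htz hφD (fun σ hσ => S.sr.conj_mem P hφD hσ)
    have h3 : KR w (Jt A π) ζ π (p ^ 2 - 1) j
        (fun σ => l (algebraMap (ZMod p) k (x φ) * s * z * evM A r Q Q' 0 1 f σ))
        (φ t * (φ π / π) ^ j) := by
      refine UF.KR_eqOn (fun σ hσ => ?_) h2
      have h4 := (hs _ (S.sr.conj_mem P hφD hσ)).2.2
      rw [hback] at h4
      have h5 : x φ * l (z * evM A r Q Q' 1 0 f (φ⁻¹ * σ * φ)) =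
          l (algebraMap (ZMod p) k (x φ) * (z * evM A r Q Q' 1 0 f (φ⁻¹ * σ * φ))) := by
        rw [← Algebra.smul_def, map_smul, smul_eq_mul]
      rw [h5, h4]
      congr 1
      field_simp
    rw [P.te_frob ht hφ] at h3
    have h6 := (hR _ _ (P.nv.mul_left (P.te_Bl (P.te_pow ht p)) hθj)).1 h3
    rw [← h6, P.rsd_mul (P.te_Bl (P.te_pow ht p)) hθj, P.rsd_pow hθ, P.rsd_pow (P.te_Bl ht), hρ,
      (hR' z t (P.te_Bl ht)).1 htz]
  have hcp := P.charP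
  have h7 := h1' (algebraMap (ZMod p) k (x φ) * s⁻¹ * z)
  rw [h1] at h7
  have h8 : algebraMap (ZMod p) k (x φ) * s * (algebraMap (ZMod p) k (x φ) * s⁻¹ * z) =
      algebraMap (ZMod p) k (x φ) * (algebraMap (ZMod p) k (x φ) * z) := by
    field_simp
  rw [h8, add_zmod_smul, add_zmod_smul] at h7
  rw [← hρ]
  have h9 : ρ ^ (p + 1) * R z ^ p ^ 2 = (R z ^ p * ρ) ^ p * ρ := by
    rw [mul_pow, ← pow_mul, ← pow_two]
    ring
  rw [h9, ← h7]
  ring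

include hp2 C in
/-- **supersingular local condition: bound** -/
theorem SD.card_ss (hl : ∀ a : k, (∀ z, l (z * a) = 0) → a = 0)
    (hrig : ∀ f : Z1 (lev.sub (A.decompositionSubgroup ℚ)) (Ad0 r (1 : GQ →* k)),
      (∀ σ (hσ : σ ∈ Jt A π), f.1 ⟨σ, S.J_le P hσ⟩ = 0) → H1.mk _ _ f = 0) :
    Finite ((ZSS P C l π r Q Q').map (H1.mk _ _)) ∧
    Nat.card ((ZSS P C l π r Q Q').map (H1.mk _ _)) ≤ Nat.card k := by
  classical
  have hg := Fermat.Agent.H51.isGalois_Qbar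
  obtain ⟨φ, hφ⟩ : ∃ φ : GQ, A.IsFrobeniusAt φ p := H05.exists_isFrobeniusAt P.prime P.lies
  have hcp := P.charP
  have h0 := P.tame_ne (S.sr.ndvd P) S.sr.pi
  obtain ⟨U, -, -⟩ := P.uf_tame (S.sr.ndvd P) S.sr.pi
  have hp1 := P.prime.one_lt
  have hj0 : 0 < p ^ 2 + 1 := Nat.succ_pos _
  have hpj : ¬ p ∣ p ^ 2 + 1 := by
    intro h
    have h1 : p ∣ p ^ 2 := dvd_pow_self p two_ne_zero
    exact hp1.ne' (Nat.dvd_one.1 ((Nat.dvd_add_right h1).1 h))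
  have hj : p ^ 2 + 1 < p * (p + 1) := by nlinarith
  obtain ⟨g, hg, hprim⟩ := exists_theta_gen P (S.sr.ndvd P) S.sr.pi
  -- leading coefficients
  have hlead : ∀ f : ZSS P C l π r Q Q', ∃ R : k →+ IsLocalRing.ResidueField A,
      (∀ z t, Bl w 0 t → (KR w (Jt A π) ζ π (p ^ 2 - 1) (p ^ 2 + 1)
        (fun σ => l (z * evM A r Q Q' 0 1 f.1 σ)) t ↔ rsd A t = R z)) ∧
      ((∀ (b : K) z, R (b * z) = τ b ^ p * R z) ∧
      ∀ z, (rsd A (φ π / π) ^ (p ^ 2 + 1)) ^ (p + 1) * R z ^ (p ^ 2) =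
        ((x φ).val : IsLocalRing.ResidueField A) ^ 2 * R z) := by
    intro f
    obtain ⟨R, hR, hReig⟩ := S.sr.lead P C l (S.hconj01 P hdet f.1) hj0 hpj hj f.2.2.1
    obtain ⟨R', hR', -⟩ := S.sr.lead P C l (S.hconj10 P hdet f.1) hj0 hpj hj f.2.2.2
    refine ⟨R, hR, S.sr.semilin P hp2 R hg hprim (hReig g hg), fun z => ?_⟩
    exact S.lead_F P C hdet l f.1 hφ f.2.2.1 f.2.2.2 hR hR' z
  choose R hR hR2 using hlead
  have hradd : ∀ f f', R (f + f') = R f + R f' := by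
    intro f f'
    ext z
    obtain ⟨t, ht, htz⟩ := U.KR_exists P (f.2.2.1 z)
    obtain ⟨t', ht', htz'⟩ := U.KR_exists P (f'.2.2.1 z)
    have h1 := U.KR_add P C hj0 (P.te_Bl ht) (P.te_Bl ht') htz htz'
    have h2 : KR w (Jt A π) ζ π (p ^ 2 - 1) (p ^ 2 + 1)
        (fun σ => l (z * evM A r Q Q' 0 1 (f + f').1 σ)) (t + t') := by
      refine UF.KR_eqOn (fun σ _ => ?_) h1
      have : evM A r Q Q' 0 1 (f + f').1 σ = evM A r Q Q' 0 1 f.1 σ +
          evM A r Q Q' 0 1 f'.1 σ := by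
        change evM A r Q Q' 0 1 (f.1 + f'.1) σ = _
        rw [map_add, Pi.add_apply]
      rw [this, mul_add, map_add]
    have h3 := (hR _ _ _ (P.nv.add (P.te_Bl ht) (P.te_Bl ht'))).1 h2
    rw [P.rsd_add (P.te_Bl ht) (P.te_Bl ht'), (hR _ _ _ (P.te_Bl ht)).1 htz,
      (hR _ _ _ (P.te_Bl ht')).1 htz'] at h3
    exact h3.symm
  -- injectivity
  have hinj : ∀ f, R f = 0 → H1.mk _ _ f.1 = 0 := by
    intro f hf0
    have hne : NeZero (p ^ 2 - 1) :=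
      ⟨(Nat.sub_pos_of_lt (Nat.one_lt_pow two_ne_zero hp1)).ne'⟩
    have hb0 : ∀ σ ∈ Jt A π, evM A r Q Q' 0 1 f.1 σ = 0 := by
      have hstart : ∀ z, KL w (Jt A π) ζ ((p ^ 2 + 1 + 1 : ℕ) / ((p ^ 2 - 1 : ℕ) : ℝ))
          (fun σ => l (z * evM A r Q Q' 0 1 f.1 σ)) := by
        intro z
        refine U.KL_succ P C ((hR f z 0 (NVal.zero _)).2 ?_)
        rw [P.rsd_zero, hf0]
        rfl
      have h3 : 3 ≤ p := by
        have := P.prime.two_le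
        omega
      have h6 : p * (p + 1) = p ^ 2 + p := by ring
      have h9 : 3 * p ≤ p ^ 2 := by rw [pow_two]; exact Nat.mul_le_mul_right p h3
      have hchain : ∀ m : ℕ, p ^ 2 + 2 + m ≤ p * (p + 1) →
          ∀ z, KL w (Jt A π) ζ ((p ^ 2 + 2 + m : ℕ) / ((p ^ 2 - 1 : ℕ) : ℝ))
          (fun σ => l (z * evM A r Q Q' 0 1 f.1 σ)) := by
        intro m
        induction m with
        | zero => exact fun _ => hstart
        | succ m ih =>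
          intro hm
          have g1 : 0 < p ^ 2 + 2 + m := by omega
          have g2 : p ^ 2 + 2 + m < p * (p + 1) := by omega
          have g3 := lev_b h3 (j := p ^ 2 + 2 + m) (by omega) g2 (by omega)
          exact S.sr.CL_step (β := evM A r Q Q' 0 1 f.1) (n := 2 * p) P C l
            (S.hconj01 P hdet f.1) hp2 g1 g2 g3 (ih g2.le)
      have h7 := hchain (p - 2) (by omega)
      have h8 : p ^ 2 + 2 + (p - 2) = p * (p + 1) := by omega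
      rw [h8] at h7
      exact S.sr.CL_top (β := evM A r Q Q' 0 1 f.1) P C l h7 hl
    refine hrig f.1 fun σ hσ => ?_
    have h1 := f.2.1 σ hσ
    have h2 := hb0 σ hσ
    have h3 : evM A r Q Q' 1 0 f.1 σ = 0 := by
      obtain ⟨s, -, hs⟩ := S.ent_F P f.1 hφ
      have h4 := S.sr.conj_mem P (show φ ∈ A.decompositionSubgroup ℚ from hφ.1) hσ
      have h5 := (hs _ h4).2.1
      have hback : φ * (φ⁻¹ * σ * φ) * φ⁻¹ = σ := by group
      rw [hback, hb0 _ h4, mul_zero] at h5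
      exact h5
    rw [evM_apply f.1 (S.J_le P hσ)] at h1 h2 h3
    exact S.eq_zero h1 h2 h3
  -- conclusion
  have hρ : (rsd A (φ π / π) ^ (p ^ 2 + 1)) ^ (p + 1) ≠ 0 := by
    refine pow_ne_zero _ (pow_ne_zero _ ?_)
    have hφD : φ ∈ A.decompositionSubgroup ℚ := hφ.1
    have hφ0 : φ π ≠ 0 := (map_ne_zero _).2 h0
    have hw0 : w (φ π / π) = 0 := by
      rw [P.nv.w_div hφ0 h0, P.nv.w_smul hφD, sub_self]
    rw [Ne, P.rsd_eq_zero_iff (Or.inr hw0.ge)]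
    rintro (h | h)
    · exact (div_ne_zero hφ0 h0) h
    · rw [hw0] at h
      exact lt_irrefl _ h
  obtain ⟨hfin, hcard⟩ := S.sr.card_semilin P (ρ := (rsd A (φ π / π) ^ (p ^ 2 + 1)) ^ (p + 1))
    (d := ((x φ).val : IsLocalRing.ResidueField A) ^ 2) hρ
  have hpre : ∀ c : (ZSS P C l π r Q Q').map (H1.mk _ _), ∃ f : ZSS P C l π r Q Q',
      H1.mk _ _ f.1 = c.1 := by
    rintro ⟨c, ⟨f, hf, rfl⟩⟩
    exact ⟨⟨f, hf⟩, rfl⟩
  choose F hF using hpre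
  let G : (ZSS P C l π r Q Q').map (H1.mk _ _) →
      {R : k →+ IsLocalRing.ResidueField A // (∀ (b : K) z, R (b * z) = τ b ^ p * R z) ∧
      ∀ z, (rsd A (φ π / π) ^ (p ^ 2 + 1)) ^ (p + 1) * R z ^ (p ^ 2) =
        ((x φ).val : IsLocalRing.ResidueField A) ^ 2 * R z} := fun c => ⟨R (F c), hR2 _⟩
  have hG : Function.Injective G := by
    intro c c' h
    have h1 : R (F c) = R (F c') := congrArg Subtype.val h
    have h2 : R (F c - F c') = 0 := by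
      have h3 := hradd (F c - F c') (F c')
      rw [sub_add_cancel, h1] at h3
      exact (add_eq_right.1 h3.symm)
    have h3 := hinj _ h2
    apply Subtype.ext
    rw [← hF c, ← hF c', ← sub_eq_zero, ← map_sub]
    exact h3
  refine ⟨@Finite.of_injective _ _ hfin G hG, ?_⟩
  exact (@Nat.card_le_card_of_injective _ _ hfin G hG).trans hcard

end

end Fermat.Agent.TW
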