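import Fermat.Agent.TW.SS5

/-!
# Supersingular case: flat classes satisfy the local condition
-/

set_option autoImplicit false
set_option linter.unusedSectionVars false

namespace Fermat.Agent.TW

open Matrix Fermat.Agent.CC NVal
open scoped Pointwise

variable {A : ValuationSubring Qb} {p : ℕ} {w : Qb → ℝ} {k : Type*} [Field k]
  {π : Qb} {α : GQ → k} {K : Subfield k} {τ : K →+* IsLocalRing.ResidueField A}
  {r : GQ →* Mt k} {Q Q' : Mt k}

theorem KL_conj {J : Subgroup GQ} (P : PL p A w) {ζ : Qb} {x : GQ → ZMod p} (C : CY p ζ x)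
    {t : ℝ} {b : GQ → ZMod p} (h : KL w J ζ t b) {g : GQ}
    (hgD : g ∈ A.decompositionSubgroup ℚ) (hg : ∀ σ ∈ J, g⁻¹ * σ * g ∈ J) :
    KL w J ζ t (fun σ => x g * b (g⁻¹ * σ * g)) := by
  obtain ⟨u, hu, hur⟩ := h
  refine ⟨g u, Km.conj C hu hg, ?_⟩
  rw [← map_pow, ← map_one g, ← map_sub, Bl_smul P.nv hgD]
  exact hur

theorem KL_nsmul {J : Subgroup GQ} (P : PL p A w) {ζ : Qb} {x : GQ → ZMod p} (C : CY p ζ x)
    {t : ℝ} (ht : 0 ≤ t) {b : GQ → ZMod p} (h : KL w J ζ t b) (n : ℕ) :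
    KL w J ζ t (fun σ => (n : ZMod p) * b σ) := by
  induction n with
  | zero => exact KL_eqOn (fun σ _ => by rw [Nat.cast_zero, zero_mul]) (KL_zero C t)
  | succ n ih =>
    exact KL_eqOn (fun σ _ => by push_cast; ring) (KL_add P C ht ih h)

section

variable [Finite k] [hf : Fact p.Prime] [Algebra (ZMod p) k] (S : SD p A π α K τ r Q Q')
  (P : PL p A w) (hp2 : p ≠ 2) {ζ : Qb} {x : GQ → ZMod p} (C : CY p ζ x)
  (hdet : ∀ σ, (r σ).det = algebraMap (ZMod p) k (x σ)) (l : k →ₗ[ZMod p] ZMod p)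
include S P

theorem SD.gen_ne {g : GQ} (hg : g ∈ A.inertiaSubgroupIn ℚ)
    (hprim : IsPrimitiveRoot (rsd A (g π / π)) (p ^ 2 - 1)) {n : ℕ} (hn0 : 0 < n)
    (hn : n < p ^ 2 - 1) : α g ^ n ≠ 1 := by
  intro h
  have h1 : (⟨α g, S.sr.mem g hg⟩ : K) ^ n = 1 := Subtype.ext h
  have h2 := congrArg τ h1
  rw [map_pow, S.sr.tau g hg, map_one] at h2
  exact hprim.pow_ne_one_of_pos_of_lt hn0.ne' hn h2

include hdet

theorem SD.hconj00 (f : Z1 (lev.sub (A.decompositionSubgroup ℚ)) (Ad0 r (1 : GQ →* k))) :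
    ∀ g ∈ A.inertiaSubgroupIn ℚ, ∀ σ ∈ Jt A π,
      algebraMap (ZMod p) k (x g) * evM A r Q Q' 0 0 f (g⁻¹ * σ * g) =
        α g ^ (p + 1) * evM A r Q Q' 0 0 f σ := by
  intro g hg σ hσ
  rw [S.det_I P hdet hg, (S.ent_I P f hg hσ).1]

omit S hdet in
theorem SD.three_le (hp2 : p ≠ 2) : 3 ≤ p := by
  have := P.prime.two_le
  omega

include hp2 C

omit hdet in
/-- chain of levels for classes with trivial inertia conjugation -/
theorem SD.chain_a {β : GQ → k}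
    (hconj : ∀ g ∈ A.inertiaSubgroupIn ℚ, ∀ σ ∈ Jt A π,
      algebraMap (ZMod p) k (x g) * β (g⁻¹ * σ * g) = α g ^ (p + 1) * β σ)
    {i : ℕ} (hi0 : 0 < i) {j : ℕ} (hij : i ≤ j) (hj : j ≤ p * (p + 1))
    (hcase : j ≤ p + 1 ∨ p + 1 < i)
    (h : ∀ z, KL w (Jt A π) ζ ((i : ℕ) / ((p ^ 2 - 1 : ℕ) : ℝ)) (fun σ => l (z * β σ))) :
    ∀ z, KL w (Jt A π) ζ ((j : ℕ) / ((p ^ 2 - 1 : ℕ) : ℝ)) (fun σ => l (z * β σ)) := by
  obtain ⟨N, hN⟩ : ∃ N, N = p * (p + 1) := ⟨_, rfl⟩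
  rw [← hN] at hj
  obtain ⟨m, rfl⟩ := Nat.exists_eq_add_of_le hij
  induction m with
  | zero => exact h
  | succ m ih =>
    have g1 : 0 < i + m := by omega
    have g2 : i + m < N := by omega
    have g4 : i + m ≠ p + 1 := by omega
    have g5 : i + m ≤ p + 1 ∨ p + 1 < i := by omega
    have g6 : i ≤ i + m := by omega
    rw [hN] at g2
    have g3 := lev_a (SD.three_le P hp2) g2 g4
    exact S.sr.CL_step (β := β) (n := p + 1) P C l hconj hp2 g1 g2 (Or.inr g3)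
      (ih g6 g5 (g2.le.trans hN.ge))

/-- **the diagonal part of a flat class vanishes on wild inertia** -/
theorem SD.a_zero (hl : ∀ a : k, (∀ z, l (z * a) = 0) → a = 0)
    (f : Z1 (lev.sub (A.decompositionSubgroup ℚ)) (Ad0 r (1 : GQ →* k)))
    (hflat : ∀ z : k, ∀ t, Te p t → t ≠ 0 →
      KR w (Jt A π) ζ π (p ^ 2 - 1) (p + 1) (fun σ => l (z * evM A r Q Q' 0 0 f σ)) t →
      ¬ Nat.card {y : k | ∃ σ ∈ Jt A π, evM A r Q Q' 0 0 f σ = y} ≤ p) :
    ∀ σ ∈ Jt A π, evM A r Q Q' 0 0 f σ = 0 := by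
  classical
  have hg := Fermat.Agent.H51.isGalois_Qbar
  have hp1 := P.prime.one_lt
  have h3 := SD.three_le P hp2
  have hcp := P.charP
  have h9 : 3 * p ≤ p ^ 2 := by rw [pow_two]; exact Nat.mul_le_mul_right p h3
  have h6 : p * (p + 1) = p ^ 2 + p := by ring
  obtain ⟨U, -, -⟩ := P.uf_tame (S.sr.ndvd P) S.sr.pi
  obtain ⟨g, hg, hprim⟩ := exists_theta_gen P (S.sr.ndvd P) S.sr.pi
  obtain ⟨β, hβ⟩ : ∃ β, β = evM A r Q Q' 0 0 f := ⟨_, rfl⟩
  have hadd : ∀ σ ∈ Jt A π, ∀ σ' ∈ Jt A π, β (σ * σ') = β σ + β σ' := by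
    intro σ hσ σ' hσ'
    rw [hβ]
    exact S.ev_add P f 0 0 hσ hσ'
  obtain ⟨Uo, hUo, hβU⟩ := S.ev_lev P f 0 0
  rw [← hβ] at hβU
  have hconj := S.hconj00 P hdet f
  rw [← hβ] at hconj hflat ⊢
  have h1 := S.sr.CL_one (β := β) (n := p + 1) P C l hadd hUo hβU hconj hg
    (S.gen_ne P hg hprim (Nat.succ_pos p) (by omega))
  have h2 := S.chain_a P hp2 C l (β := β) hconj (i := 1) Nat.one_pos (j := p + 1) (by omega)
    (by omega) (Or.inl le_rfl) h1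
  have hpj : ¬ p ∣ p + 1 := by
    intro h
    exact hp1.ne' (Nat.dvd_one.1 ((Nat.dvd_add_right (dvd_refl p)).1 h))
  have hjlt : p + 1 < p * (p + 1) := by omega
  obtain ⟨R, hR, -⟩ := S.sr.lead (β := β) (n := p + 1) P C l hconj (Nat.succ_pos p) hpj hjlt h2
  -- classes with vanishing leading coefficient are trivial
  have htriv : ∀ z, R z = 0 → ∀ σ ∈ Jt A π, l (z * β σ) = 0 := by
    intro z hz
    have e1 := U.KL_succ P C ((hR z 0 (NVal.zero _)).2 (by rw [P.rsd_zero, hz]))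
    obtain ⟨β', hβ'⟩ : ∃ β' : GQ → k, β' = fun σ => algebraMap (ZMod p) k (l (z * β σ)) :=
      ⟨_, rfl⟩
    have hconj' : ∀ g ∈ A.inertiaSubgroupIn ℚ, ∀ σ ∈ Jt A π,
        algebraMap (ZMod p) k (x g) * β' (g⁻¹ * σ * g) = α g ^ (p + 1) * β' σ := by
      intro g hg σ hσ
      have e2 : β (g⁻¹ * σ * g) = β σ := by rw [hβ]; exact (S.ent_I P f hg hσ).1
      rw [hβ', S.det_I P hdet hg]
      simp only [e2]
    have e3 : ∀ z', KL w (Jt A π) ζ ((p + 1 + 1 : ℕ) / ((p ^ 2 - 1 : ℕ) : ℝ))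
        (fun σ => l (z' * β' σ)) := by
      intro z'
      refine KL_eqOn (fun σ _ => ?_) (KL_nsmul P C (by positivity) e1 (l z').val)
      rw [ZMod.natCast_zmod_val, hβ']
      simp only []
      rw [mul_comm z', ← Algebra.smul_def, map_smul, smul_eq_mul, mul_comm]
    have e4 := S.chain_a P hp2 C l (β := β') hconj' (i := p + 1 + 1) (Nat.succ_pos _)
      (j := p * (p + 1)) (by omega) le_rfl (Or.inr (Nat.lt_succ_self _)) e3
    have e5 := S.sr.CL_top (β := β') P C l e4 hl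
    intro σ hσ
    have e6 := e5 σ hσ
    rw [hβ'] at e6
    exact (map_eq_zero_iff _ (algebraMap (ZMod p) k).injective).1 e6
  by_cases hR0 : ∀ z, R z = 0
  · intro σ hσ
    exact hl _ fun z => htriv z (hR0 z) σ hσ
  exfalso
  push Not at hR0
  obtain ⟨z1, hz1⟩ := hR0
  obtain ⟨t, ht, htz⟩ := U.KR_exists P (h2 z1)
  have ht0 : t ≠ 0 := by
    rintro rfl
    rw [hR z1 0 (NVal.zero _), P.rsd_zero] at htz
    exact hz1 htz.symm
  refine hflat z1 t ht ht0 htz ?_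
  -- Frobenius
  obtain ⟨φ, hφ⟩ : ∃ φ : GQ, A.IsFrobeniusAt φ p := H05.exists_isFrobeniusAt P.prime P.lies
  have hφD : φ ∈ A.decompositionSubgroup ℚ := hφ.1
  have h0 := P.tame_ne (S.sr.ndvd P) S.sr.pi
  have hφ0 : φ π ≠ 0 := (map_ne_zero _).2 h0
  have hw0 : w (φ π / π) = 0 := by rw [P.nv.w_div hφ0 h0, P.nv.w_smul hφD, sub_self]
  have hθ : Bl w 0 (φ π / π) := Or.inr hw0.ge
  have hθj : Bl w 0 ((φ π / π) ^ (p + 1)) := by
    have := P.nv.pow hθ (p + 1)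
    rwa [mul_zero] at this
  obtain ⟨ρ, hρ⟩ : ∃ ρ, ρ = rsd A (φ π / π) ^ (p + 1) := ⟨_, rfl⟩
  have hρ0 : ρ ≠ 0 := by
    rw [hρ]
    refine pow_ne_zero _ ?_
    rw [Ne, P.rsd_eq_zero_iff hθ]
    rintro (h | h)
    · exact (div_ne_zero hφ0 h0) h
    · rw [hw0] at h
      exact lt_irrefl _ h
  have hFrob : ∀ z, -(((x φ).val : IsLocalRing.ResidueField A) * R z) = R z ^ p * ρ := by
    intro z
    obtain ⟨t, ht, htz⟩ := U.KR_exists P (h2 z)
    have g2 := U.KR_conj P C htz hφD (fun σ hσ => S.sr.conj_mem P hφD hσ)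
    have g3 : KR w (Jt A π) ζ π (p ^ 2 - 1) (p + 1)
        (fun σ => l (-(algebraMap (ZMod p) k (x φ) * z) * β σ)) (φ t * (φ π / π) ^ (p + 1)) := by
      refine UF.KR_eqOn (fun σ hσ => ?_) g2
      obtain ⟨s, -, hs⟩ := S.ent_F P f hφ
      have g4 := (hs _ (S.sr.conj_mem P hφD hσ)).1
      have hback : φ * (φ⁻¹ * σ * φ) * φ⁻¹ = σ := by group
      rw [hback, ← hβ] at g4
      have g5 : x φ * l (z * β (φ⁻¹ * σ * φ)) =
          l (algebraMap (ZMod p) k (x φ) * (z * β (φ⁻¹ * σ * φ))) := by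
        rw [← Algebra.smul_def, map_smul, smul_eq_mul]
      rw [g5, g4]
      congr 1
      ring
    rw [P.te_frob ht hφ] at g3
    have g6 := (hR _ _ (P.nv.mul_left (P.te_Bl (P.te_pow ht p)) hθj)).1 g3
    rw [map_neg, add_zmod_smul] at g6
    rw [← g6, P.rsd_mul (P.te_Bl (P.te_pow ht p)) hθj, P.rsd_pow hθ, P.rsd_pow (P.te_Bl ht), hρ,
      (hR z t (P.te_Bl ht)).1 htz]
  have hxne : ((x φ).val : IsLocalRing.ResidueField A) ≠ 0 := by
    rw [Ne, CharP.cast_eq_zero_iff (IsLocalRing.ResidueField A) p]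
    intro hd
    have g5 := ZMod.val_lt (x φ)
    have g6 : (x φ).val = 0 := by
      by_contra g7
      exact absurd (Nat.le_of_dvd (Nat.pos_of_ne_zero g7) hd) (not_le.2 g5)
    exact C.x_ne φ ((ZMod.val_eq_zero _).1 g6)
  let _ : Algebra (ZMod p) (IsLocalRing.ResidueField A) := ZMod.algebra _ p
  have hline : ∀ z, ∃ c : ZMod p, ∀ σ ∈ Jt A π, l (z * β σ) = c * l (z1 * β σ) := by
    intro z
    have g1 : (R z / R z1) ^ p = R z / R z1 := by
      have e1 := hFrob z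
      have e2 := hFrob z1
      rw [div_pow, div_eq_div_iff (pow_ne_zero _ hz1) hz1]
      have e3 : ρ * ((x φ).val : IsLocalRing.ResidueField A) ≠ 0 := mul_ne_zero hρ0 hxne
      apply mul_left_cancel₀ e3
      linear_combination (-(((x φ).val : IsLocalRing.ResidueField A) * R z1)) * e1 +
        (((x φ).val : IsLocalRing.ResidueField A) * R z) * e2
    obtain ⟨c, hc⟩ := exists_zmod_of_pow_eq g1
    refine ⟨c, fun σ hσ => ?_⟩
    have g2 : R (z - algebraMap (ZMod p) k c * z1) = 0 := by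
      rw [map_sub, add_zmod_smul]
      have g3 : ((c.val : ℕ) : IsLocalRing.ResidueField A) = algebraMap (ZMod p) _ c := by
        conv_rhs => rw [← ZMod.natCast_zmod_val c]
        rw [map_natCast]
      rw [g3, hc, div_mul_cancel₀ _ hz1, sub_self]
    have g3 := htriv _ g2 σ hσ
    rw [sub_mul, map_sub, sub_eq_zero, mul_assoc, ← Algebra.smul_def, map_smul,
      smul_eq_mul] at g3
    exact g3
  -- count
  let F : {y : k | ∃ σ ∈ Jt A π, β σ = y} → ZMod p := fun y => l (z1 * y.1)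
  have hF : Function.Injective F := by
    rintro ⟨y, σ, hσ, rfl⟩ ⟨y', σ', hσ', rfl⟩ h
    apply Subtype.ext
    change β σ = β σ'
    rw [← sub_eq_zero]
    refine hl _ fun z => ?_
    obtain ⟨c, hc⟩ := hline z
    rw [mul_sub, map_sub, hc σ hσ, hc σ' hσ', sub_eq_zero]
    exact congrArg _ h
  have := Nat.card_le_card_of_injective F hF
  rwa [Nat.card_zmod] at this

/-- levels of the upper right entry of a flat class -/
theorem SD.b_lev (f : Z1 (lev.sub (A.decompositionSubgroup ℚ)) (Ad0 r (1 : GQ →* k)))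
    (hflat : ∀ z : k, ∀ j : ℕ, 0 < j → ¬ p ∣ j → j < p * (p + 1) → ∀ t, Te p t → t ≠ 0 →
      KR w (Jt A π) ζ π (p ^ 2 - 1) j (fun σ => l (z * evM A r Q Q' 0 1 f σ)) t → p + 1 ≤ j) :
    ∀ z, KL w (Jt A π) ζ ((p ^ 2 + 1 : ℕ) / ((p ^ 2 - 1 : ℕ) : ℝ))
      (fun σ => l (z * evM A r Q Q' 0 1 f σ)) := by
  classical
  have hg := Fermat.Agent.H51.isGalois_Qbar
  have hp1 := P.prime.one_lt
  have h3 := SD.three_le P hp2
  have hcp := P.charP
  have h9 : 3 * p ≤ p ^ 2 := by rw [pow_two]; exact Nat.mul_le_mul_right p h3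
  have h6 : p * (p + 1) = p ^ 2 + p := by ring
  obtain ⟨U, -, -⟩ := P.uf_tame (S.sr.ndvd P) S.sr.pi
  obtain ⟨g, hg, hprim⟩ := exists_theta_gen P (S.sr.ndvd P) S.sr.pi
  obtain ⟨β, hβ⟩ : ∃ β, β = evM A r Q Q' 0 1 f := ⟨_, rfl⟩
  have hadd : ∀ σ ∈ Jt A π, ∀ σ' ∈ Jt A π, β (σ * σ') = β σ + β σ' := by
    intro σ hσ σ' hσ'
    rw [hβ]
    exact S.ev_add P f 0 1 hσ hσ'
  obtain ⟨Uo, hUo, hβU⟩ := S.ev_lev P f 0 1
  rw [← hβ] at hβU
  have hconj := S.hconj01 P hdet f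
  rw [← hβ] at hconj hflat ⊢
  have h1 := S.sr.CL_one (β := β) (n := 2 * p) P C l hadd hUo hβU hconj hg
    (S.gen_ne P hg hprim (by omega) (by omega))
  have h2 := S.sr.CL_step (β := β) (n := 2 * p) P C l hconj hp2 (j := 1) Nat.one_pos (by omega)
    (Or.inr (lev_b1 h3)) h1
  have hpj : ¬ p ∣ 2 := fun h => by
    have := Nat.le_of_dvd two_pos h
    omega
  obtain ⟨R, hR, -⟩ := S.sr.lead (β := β) (n := 2 * p) P C l hconj (j := 2) two_pos hpj
    (by omega) h2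
  have hR0 : ∀ z, R z = 0 := by
    intro z
    obtain ⟨t, ht, htz⟩ := U.KR_exists P (h2 z)
    rcases eq_or_ne t 0 with ht0 | ht0
    · rw [← (hR z t (P.te_Bl ht)).1 htz, ht0, P.rsd_zero]
    · have := hflat z 2 two_pos hpj (by omega) t ht ht0 htz
      omega
  have h4 : ∀ z, KL w (Jt A π) ζ ((2 + 1 : ℕ) / ((p ^ 2 - 1 : ℕ) : ℝ))
      (fun σ => l (z * β σ)) := by
    intro z
    exact U.KL_succ P C ((hR z 0 (NVal.zero _)).2 (by rw [P.rsd_zero, hR0]))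
  have hchain : ∀ m : ℕ, 3 + m ≤ p ^ 2 + 1 →
      ∀ z, KL w (Jt A π) ζ ((3 + m : ℕ) / ((p ^ 2 - 1 : ℕ) : ℝ)) (fun σ => l (z * β σ)) := by
    intro m
    induction m with
    | zero => exact fun _ => h4
    | succ m ih =>
      intro hm
      have g2 : 3 + m < p * (p + 1) := by omega
      have g3 := lev_b h3 (j := 3 + m) (by omega) g2 (by omega)
      exact S.sr.CL_step (β := β) (n := 2 * p) P C l hconj hp2 (j := 3 + m) (by omega) g2 g3
        (ih (by omega))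
  have h7 := hchain (p ^ 2 - 2) (by omega)
  have h8 : 3 + (p ^ 2 - 2) = p ^ 2 + 1 := by omega
  rw [h8] at h7
  exact h7

omit hdet hp2 in
/-- levels of the lower left entry -/
theorem SD.c_lev (f : Z1 (lev.sub (A.decompositionSubgroup ℚ)) (Ad0 r (1 : GQ →* k))) {t : ℝ}
    (hb : ∀ z, KL w (Jt A π) ζ t (fun σ => l (z * evM A r Q Q' 0 1 f σ))) :
    ∀ z, KL w (Jt A π) ζ t (fun σ => l (z * evM A r Q Q' 1 0 f σ)) := by
  intro z
  have hg := Fermat.Agent.H51.isGalois_Qbar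
  obtain ⟨φ, hφ⟩ : ∃ φ : GQ, A.IsFrobeniusAt φ p := H05.exists_isFrobeniusAt P.prime P.lies
  have hφD : φ ∈ A.decompositionSubgroup ℚ := hφ.1
  obtain ⟨s, hs0, hs⟩ := S.ent_F P f hφ
  have hx0 : algebraMap (ZMod p) k (x φ) ≠ 0 := (map_ne_zero _).2 (C.x_ne φ)
  refine KL_eqOn (fun σ hσ => ?_) (KL_conj P C (hb ((algebraMap (ZMod p) k (x φ))⁻¹ * z * s)) hφD
    (fun σ hσ => S.sr.conj_mem P hφD hσ))
  have g4 := (hs _ (S.sr.conj_mem P hφD hσ)).2.1
  have hback : φ * (φ⁻¹ * σ * φ) * φ⁻¹ = σ := by group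
  rw [hback] at g4
  rw [g4, ← smul_eq_mul (x φ), ← map_smul, Algebra.smul_def]
  congr 1
  field_simp

/-- **flat classes satisfy the supersingular local condition** -/
theorem SD.mem_ZSS (hl : ∀ a : k, (∀ z, l (z * a) = 0) → a = 0)
    (f : Z1 (lev.sub (A.decompositionSubgroup ℚ)) (Ad0 r (1 : GQ →* k)))
    (hflat : ∀ (i : Fin 2) (z : k), ∀ j : ℕ, 0 < j → ¬ p ∣ j → j < p * (p + 1) →
      ∀ t, Te p t → t ≠ 0 →
      KR w (Jt A π) ζ π (p ^ 2 - 1) j (fun σ => l (z * evM A r Q Q' 0 i f σ)) t →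
      p + 1 ≤ j ∧ (Nat.card {y : k | ∃ σ ∈ Jt A π, evM A r Q Q' 0 i f σ = y} ≤ p →
        p ^ 2 + 1 ≤ j)) :
    f ∈ ZSS P C l π r Q Q' := by
  have h3 := SD.three_le P hp2
  have h9 : 3 * p ≤ p ^ 2 := by rw [pow_two]; exact Nat.mul_le_mul_right p h3
  have h6 : p * (p + 1) = p ^ 2 + p := by ring
  have hpj : ¬ p ∣ p + 1 := by
    intro h
    exact P.prime.one_lt.ne' (Nat.dvd_one.1 ((Nat.dvd_add_right (dvd_refl p)).1 h))
  have hb := S.b_lev P hp2 C hdet l f fun z j h1 h2 h3 t ht ht0 htr =>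
    (hflat 1 z j h1 h2 h3 t ht ht0 htr).1
  refine ⟨S.a_zero P hp2 C hdet l hl f fun z t ht ht0 htr hc => ?_, hb, S.c_lev P C l f hb⟩
  have := (hflat 0 z (p + 1) (Nat.succ_pos _) hpj (by omega) t ht ht0 htr).2 hc
  omega

end

end Fermat.Agent.TW
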