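import Fermat.Agent.TW.Val2

/-!
# Subfields with a uniformiser (`UF`) of `ℚbar` containing the inertia field
-/

set_option autoImplicit false
set_option linter.unusedSectionVars false

namespace Fermat.Agent.TW

open Fermat.Agent.CC
open scoped Pointwise

/-- the fixed field of `J ≤ I` has value group `(1/e)ℤ`, with uniformiser `π` -/
structure UF (p : ℕ) (A : ValuationSubring Qb) (w : Qb → ℝ) (J : Subgroup GQ) (e : ℕ) (π : Qb) :
    Prop where
  le : J ≤ A.inertiaSubgroupIn ℚ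
  e_pos : 0 < e
  fix : ∀ σ ∈ J, σ π = π
  ne : π ≠ 0
  wpi : w π = 1 / e
  val : ∀ x : Qb, x ≠ 0 → (∀ σ ∈ J, σ x = x) → ∃ n : ℤ, w x = n / e

section index

theorem relIndex_le {J0 J1 : Subgroup GQ} {α : Type*} [Finite α] (f : GQ → α)
    (hf : ∀ σ ∈ J0, ∀ τ ∈ J0, f σ = f τ → σ⁻¹ * τ ∈ J1) :
    (J1.subgroupOf J0).FiniteIndex ∧ J1.relIndex J0 ≤ Nat.card α := by
  have hinj : Function.Injective (fun q : (J0 ⧸ J1.subgroupOf J0) => f ((q.out : J0) : GQ)) := by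
    intro q q' h
    have h1 := hf _ q.out.2 _ q'.out.2 h
    rw [← QuotientGroup.out_eq' q, ← QuotientGroup.out_eq' q', QuotientGroup.eq]
    exact h1
  have hfin : Finite (J0 ⧸ J1.subgroupOf J0) := Finite.of_injective _ hinj
  refine ⟨Subgroup.finiteIndex_of_finite_quotient, ?_⟩
  exact Nat.card_le_card_of_injective _ hinj

end index

namespace PL

open NVal

variable {A : ValuationSubring Qb} {p : ℕ} {w : Qb → ℝ} (P : PL p A w)
include P

theorem inertia_le_dec : A.inertiaSubgroupIn ℚ ≤ A.decompositionSubgroup ℚ :=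
  inertia_le_decomposition A

/-- the norm from the fixed field of `J1` to the fixed field of `J0` -/
theorem exists_norm {J0 J1 : Subgroup GQ} (h0 : J0 ≤ A.inertiaSubgroupIn ℚ)
    [hfin : (J1.subgroupOf J0).FiniteIndex] {x : Qb} (hx : x ≠ 0)
    (hfix : ∀ σ ∈ J1, σ x = x) :
    ∃ y, y ≠ 0 ∧ (∀ σ ∈ J0, σ y = y) ∧ w y = J1.relIndex J0 * w x := by
  classical
  have : Fintype (J0 ⧸ J1.subgroupOf J0) := Subgroup.fintypeQuotientOfFiniteIndex
  have hwd : ∀ (σ τ : J0), (QuotientGroup.mk σ : J0 ⧸ J1.subgroupOf J0) = QuotientGroup.mk τ →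
      (σ : GQ) x = (τ : GQ) x := by
    intro σ τ h
    rw [QuotientGroup.eq] at h
    have h1 : ((σ⁻¹ * τ : J0) : GQ) x = x := hfix _ h
    have h2 : (σ : GQ) (((σ⁻¹ * τ : J0) : GQ) x) = (τ : GQ) x := by
      rw [← AlgEquiv.mul_apply]
      congr 1
      push_cast
      group
    rw [← h2, h1]
  refine ⟨∏ q : J0 ⧸ J1.subgroupOf J0, ((q.out : J0) : GQ) x, ?_, ?_, ?_⟩
  · exact Finset.prod_ne_zero_iff.2 fun q _ => (map_ne_zero _).2 hx
  · intro σ hσ
    rw [map_prod]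
    refine Fintype.prod_equiv (MulAction.toPerm (⟨σ, hσ⟩ : J0)) _ _ fun q => ?_
    rw [← AlgEquiv.mul_apply]
    have : ((⟨σ, hσ⟩ * q.out : J0) : GQ) = σ * (q.out : J0) := rfl
    rw [← this]
    apply hwd
    rw [MulAction.toPerm_apply, QuotientGroup.out_eq']
    conv_rhs => rw [← QuotientGroup.out_eq' q]
    rfl
  · rw [P.nv.w_prod _ _ (fun q _ => (map_ne_zero _).2 hx)]
    rw [Finset.sum_congr rfl (fun q _ => P.nv.w_smul (P.inertia_le_dec (h0 q.out.2)) x)]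
    rw [Finset.sum_const, nsmul_eq_mul, Finset.card_univ, ← Nat.card_eq_fintype_card]
    rfl

theorem uf_inertia : UF p A w (A.inertiaSubgroupIn ℚ) 1 (p : Qb) where
  le := le_rfl
  e_pos := one_pos
  fix σ _ := map_natCast σ p
  ne := P.p_ne_zero
  wpi := by rw [P.w_p]; simp
  val x hx hfix := by
    obtain ⟨n, hn⟩ := P.int_of_fixed hx hfix
    exact ⟨n, by rw [hn]; simp⟩

end PL

namespace UF

open NVal

variable {A : ValuationSubring Qb} {p : ℕ} {w : Qb → ℝ}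
  {J : Subgroup GQ} {e : ℕ} {π : Qb}

theorem e_ne (U : UF p A w J e π) : (e : ℝ) ≠ 0 := Nat.cast_ne_zero.2 U.e_pos.ne'

theorem e_pos' (U : UF p A w J e π) : (0 : ℝ) < e := Nat.cast_pos.2 U.e_pos

theorem w_zpow (P : PL p A w) (U : UF p A w J e π) (n : ℤ) : w (π ^ n) = n / e := by
  rw [P.nv.w_zpow U.ne, U.wpi, mul_one_div]

theorem w_pow (P : PL p A w) (U : UF p A w J e π) (n : ℕ) : w (π ^ n) = n / e := by
  rw [P.nv.w_pow U.ne, U.wpi, mul_one_div]

theorem Bl_pow (P : PL p A w) (U : UF p A w J e π) (n : ℕ) : Bl w (n / e) (π ^ n) :=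
  Or.inr (U.w_pow P n).ge

theorem fix_zpow (U : UF p A w J e π) (n : ℤ) {σ : GQ} (hσ : σ ∈ J) : σ (π ^ n) = π ^ n := by
  rw [map_zpow₀, U.fix σ hσ]

/-- extension of finite degree -/
theorem of_index (P : PL p A w) (U : UF p A w J e π) {J1 : Subgroup GQ} (hJ : J1 ≤ J) (N : ℕ)
    (hN : 0 < N) [hfin : (J1.subgroupOf J).FiniteIndex] (hle : J1.relIndex J ≤ N) {ϖ : Qb}
    (hfix : ∀ σ ∈ J1, σ ϖ = ϖ) (h0 : ϖ ≠ 0) (hw : w ϖ = 1 / (N * e)) :
    UF p A w J1 (N * e) ϖ ∧ J1.relIndex J = N := by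
  have he := U.e_ne
  have hN' : (N : ℝ) ≠ 0 := Nat.cast_ne_zero.2 hN.ne'
  have hidx : J1.relIndex J = N := by
    obtain ⟨y, hy0, hy, hwy⟩ := P.exists_norm U.le h0 hfix
    obtain ⟨n, hn⟩ := U.val y hy0 hy
    rw [hwy, hw] at hn
    have h1 : (J1.relIndex J : ℝ) = n * N := by
      field_simp at hn
      rw [hn, mul_comm]
    have h2 : (J1.relIndex J : ℤ) = n * N := by exact_mod_cast h1
    have h3 : (J1.relIndex J : ℤ) ≠ 0 := by
      rw [Nat.cast_ne_zero]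
      exact hfin.index_ne_zero
    have h4 : (N : ℤ) ∣ (J1.relIndex J : ℤ) := ⟨n, by rw [h2, mul_comm]⟩
    rw [Int.natCast_dvd_natCast] at h4
    exact le_antisymm hle (Nat.le_of_dvd (Nat.pos_of_ne_zero (by exact_mod_cast h3)) h4)
  refine ⟨⟨hJ.trans U.le, Nat.mul_pos hN U.e_pos, hfix, h0, by rw [hw]; push_cast; rfl, ?_⟩, hidx⟩
  intro x hx hx1
  obtain ⟨y, hy0, hy, hwy⟩ := P.exists_norm U.le hx hx1
  obtain ⟨n, hn⟩ := U.val y hy0 hy
  refine ⟨n, ?_⟩
  rw [hwy, hidx] at hn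
  push_cast
  field_simp
  field_simp at hn
  linarith

/-- approximation by `r π ^ n` -/
theorem approx (P : PL p A w) (U : UF p A w J e π) {x : Qb} {n : ℤ} (hx : Bl w (n / e) x) :
    ∃ r, Te p r ∧ Bs w (n / e) (x - r * π ^ n) := by
  have hπn : π ^ n ≠ 0 := zpow_ne_zero _ U.ne
  have h1 : Bl w 0 (x / π ^ n) := by
    have := P.nv.Bl_div hπn hx
    rwa [U.w_zpow P, sub_self] at this
  obtain ⟨r, hr, hr1⟩ := P.te_exists h1
  refine ⟨r, hr, ?_⟩
  have h2 : x - r * π ^ n = (x / π ^ n - r) * π ^ n := by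
    rw [sub_mul, div_mul_cancel₀ _ hπn]
  rw [h2]
  have := P.nv.Bs_mul' hr1 (Or.inr (U.w_zpow P n).ge)
  rwa [zero_add] at this

theorem step (_P : PL p A w) (U : UF p A w J e π) {x : Qb} {n : ℤ} (hx : ∀ σ ∈ J, σ x = x)
    (hb : Bs w (n / e) x) : Bl w ((n + 1 : ℤ) / e) x := by
  rcases hb with h | h
  · exact Or.inl h
  by_cases hx0 : x = 0
  · exact Or.inl hx0
  obtain ⟨m, hm⟩ := U.val x hx0 hx
  right
  rw [hm] at h ⊢
  have h1 := U.e_pos'
  rw [div_lt_div_iff_of_pos_right h1] at h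
  rw [div_le_div_iff_of_pos_right h1]
  have h2 : n < m := by exact_mod_cast h
  exact_mod_cast h2

/-- natural number version of `step` -/
theorem step' (P : PL p A w) (U : UF p A w J e π) {x : Qb} {n : ℕ} (hx : ∀ σ ∈ J, σ x = x)
    (hb : Bs w (n / e) x) : Bl w ((n + 1 : ℕ) / e) x := by
  have := U.step P hx (n := n) (by rw [Int.cast_natCast]; exact hb)
  rw [Int.cast_add, Int.cast_natCast, Int.cast_one] at this
  rw [Nat.cast_add, Nat.cast_one]
  exact this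

/-- if `σ` moves `π` little it moves all integral elements little -/
theorem sub_gen (P : PL p A w) (U : UF p A w J e π) {σ : GQ} (hσ : σ ∈ A.inertiaSubgroupIn ℚ)
    {c : ℝ} (hc : Bl w c (σ π - π)) {x : Qb} (hx : ∀ τ ∈ J, τ x = x) (hx0 : Bl w 0 x) :
    Bl w c (σ x - x) := by
  have hσD := P.inertia_le_dec hσ
  have hπ0 : Bl w 0 π := Or.inr (by rw [U.wpi]; positivity)
  have hσπ0 : Bl w 0 (σ π) := (Bl_smul P.nv hσD).2 hπ0
  have hpow : ∀ n : ℕ, Bl w c (σ (π ^ n) - π ^ n) := by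
    intro n
    rw [map_pow, ← geom_sum₂_mul]
    refine P.nv.mul_left (P.nv.sum _ _ fun i _ => ?_) hc
    have h1 := P.nv.pow hσπ0 i
    have h2 := P.nv.pow hπ0 (n - 1 - i)
    rw [mul_zero] at h1 h2
    exact P.nv.mul_left h1 h2
  have key : ∀ m n : ℕ, ∀ x : Qb, (∀ τ ∈ J, τ x = x) → Bl w (n / e) x → c ≤ ((n + m : ℕ) : ℝ) / e →
      Bl w c (σ x - x) := by
    intro m
    induction m with
    | zero =>
      intro n x _ hx hcn
      rw [Nat.add_zero] at hcn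
      exact P.nv.sub ((Bl_smul P.nv hσD).2 (mono hcn hx)) (mono hcn hx)
    | succ m ih =>
      intro n x hxf hx hcn
      obtain ⟨r, hr, hr1⟩ := U.approx P (n := n) (x := x) (by rw [Int.cast_natCast]; exact hx)
      rw [zpow_natCast, Int.cast_natCast] at hr1
      have hfix' : ∀ τ ∈ J, τ (x - r * π ^ n) = x - r * π ^ n := by
        intro τ hτ
        rw [map_sub, map_mul, map_pow, hxf τ hτ, P.te_fixed hr (U.le hτ), U.fix τ hτ]
      have h1 := U.step' P (n := n) hfix' hr1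
      have h2 := ih (n + 1) _ hfix' h1 (by rw [Nat.add_right_comm] ; exact hcn)
      have h3 : σ x - x = (σ (x - r * π ^ n) - (x - r * π ^ n)) + r * (σ (π ^ n) - π ^ n) := by
        rw [map_sub, map_mul, P.te_fixed hr hσ]
        ring
      rw [h3]
      exact P.nv.add h2 (P.nv.mul_left (P.te_Bl hr) (hpow n))
  obtain ⟨m, hm⟩ := exists_nat_ge (c * e)
  refine key m 0 x hx (by rw [Nat.cast_zero, zero_div]; exact hx0) ?_
  rw [Nat.zero_add, le_div_iff₀ U.e_pos']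
  exact hm

end UF

/-- the subgroup of inertia fixing `π` -/
def Jt (A : ValuationSubring Qb) (π : Qb) : Subgroup GQ where
  carrier := {σ | σ ∈ A.inertiaSubgroupIn ℚ ∧ σ π = π}
  mul_mem' {a b} ha hb := ⟨mul_mem ha.1 hb.1, by rw [AlgEquiv.mul_apply, hb.2, ha.2]⟩
  one_mem' := ⟨one_mem _, rfl⟩
  inv_mem' {a} ha := ⟨inv_mem ha.1, by
    have h := ha.2
    conv_lhs => rw [← h]
    exact a.symm_apply_apply π⟩

theorem mem_Jt {A : ValuationSubring Qb} {π : Qb} {σ : GQ} :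
    σ ∈ Jt A π ↔ σ ∈ A.inertiaSubgroupIn ℚ ∧ σ π = π := Iff.rfl

namespace PL

open NVal

variable {A : ValuationSubring Qb} {p : ℕ} {w : Qb → ℝ} (P : PL p A w)
include P

theorem tame_ne {e : ℕ} (he : ¬ p ∣ e) {π : Qb} (hπ : π ^ e = p) : π ≠ 0 := by
  rintro rfl
  rw [zero_pow (by rintro rfl; exact he (dvd_zero _))] at hπ
  exact P.p_ne_zero hπ.symm

theorem tame_w {e : ℕ} (he : ¬ p ∣ e) {π : Qb} (hπ : π ^ e = p) : w π = 1 / e := by
  have he0 : (e : ℝ) ≠ 0 := Nat.cast_ne_zero.2 (by rintro rfl; exact he (dvd_zero _))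
  have h1 := P.nv.w_pow (P.tame_ne he hπ) e
  rw [hπ, P.w_p] at h1
  field_simp
  rw [mul_comm] at h1
  exact h1.symm

theorem theta_pow {e : ℕ} {π : Qb} (hπ : π ^ e = p) (σ : GQ) : (σ π / π) ^ e = 1 := by
  rw [div_pow, ← map_pow, hπ, map_natCast, div_self P.p_ne_zero]

theorem theta_te {e : ℕ} (he : ¬ p ∣ e) {π : Qb} (hπ : π ^ e = p) (σ : GQ) : Te p (σ π / π) :=
  Or.inr ⟨e, he, P.theta_pow hπ σ⟩

theorem theta_mul {e : ℕ} (he : ¬ p ∣ e) {π : Qb} (hπ : π ^ e = p) {σ τ : GQ}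
    (hσ : σ ∈ A.inertiaSubgroupIn ℚ) :
    (σ * τ) π / π = (σ π / π) * (τ π / π) := by
  have h0 := P.tame_ne he hπ
  have h1 : τ π = (τ π / π) * π := (div_mul_cancel₀ _ h0).symm
  rw [AlgEquiv.mul_apply]
  conv_lhs => rw [h1]
  rw [map_mul, P.te_fixed (P.theta_te he hπ τ) hσ]
  field_simp

theorem Jt_normal {e : ℕ} (he : ¬ p ∣ e) {π : Qb} (hπ : π ^ e = p) {g σ : GQ}
    (hg : g ∈ A.decompositionSubgroup ℚ) (hσ : σ ∈ Jt A π) : g * σ * g⁻¹ ∈ Jt A π := by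
  refine ⟨inertia_conj_mem hg hσ.1, ?_⟩
  have h0 := P.tame_ne he hπ
  have h1 : g⁻¹ π = (g⁻¹ π / π) * π := (div_mul_cancel₀ _ h0).symm
  rw [AlgEquiv.mul_apply, AlgEquiv.mul_apply, h1, map_mul,
    P.te_fixed (P.theta_te he hπ _) hσ.1, hσ.2, ← h1]
  exact g.apply_symm_apply π

/-- the tame extension `K(p^{1/e})` of the inertia field -/
theorem uf_tame {e : ℕ} (he : ¬ p ∣ e) {π : Qb} (hπ : π ^ e = p) :
    UF p A w (Jt A π) e π ∧ ((Jt A π).subgroupOf (A.inertiaSubgroupIn ℚ)).FiniteIndex ∧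
      (Jt A π).relIndex (A.inertiaSubgroupIn ℚ) = e := by
  have he0 : e ≠ 0 := by rintro rfl; exact he (dvd_zero _)
  have h0 := P.tame_ne he hπ
  have hle : Jt A π ≤ A.inertiaSubgroupIn ℚ := fun σ h => h.1
  have : NeZero e := ⟨he0⟩
  have : NeZero (e : Qb) := ⟨Nat.cast_ne_zero.2 he0⟩
  have hcard : Nat.card (rootsOfUnity e Qb) = e :=
    HasEnoughRootsOfUnity.natCard_rootsOfUnity Qb e
  have hne : ∀ σ : GQ, σ π / π ≠ 0 := fun σ => div_ne_zero ((map_ne_zero σ).2 h0) h0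
  obtain ⟨h1, h2⟩ := relIndex_le (J0 := A.inertiaSubgroupIn ℚ) (J1 := Jt A π)
    (α := rootsOfUnity e Qb)
    (fun σ => ⟨Units.mk0 (σ π / π) (hne σ), by
      rw [mem_rootsOfUnity]
      ext
      rw [Units.val_pow_eq_pow_val, Units.val_mk0, P.theta_pow hπ, Units.val_one]⟩) (by
      intro σ hσ τ hτ h
      refine ⟨mul_mem (inv_mem hσ) hτ, ?_⟩
      have h3 : σ π / π = τ π / π := congrArg (fun u : rootsOfUnity e Qb => ((u : Qbˣ) : Qb)) h
      rw [div_left_inj' h0] at h3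
      rw [AlgEquiv.mul_apply, ← h3]
      exact σ.symm_apply_apply π)
  rw [hcard] at h2
  have h3 := UF.of_index P P.uf_inertia hle e (Nat.pos_of_ne_zero he0) (hfin := h1) h2
    (ϖ := π) (fun σ hσ => hσ.2) h0 (by rw [P.tame_w he hπ]; simp)
  rw [mul_one] at h3
  exact ⟨h3.1, h1, h3.2⟩

/-- every `e`-th root of unity is a value of the tame character -/
theorem theta_surj {e : ℕ} (he : ¬ p ∣ e) {π : Qb} (hπ : π ^ e = p) {ζ : Qb} (hζ : ζ ^ e = 1) :
    ∃ σ ∈ A.inertiaSubgroupIn ℚ, σ π = ζ * π := by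
  classical
  have he0 : e ≠ 0 := by rintro rfl; exact he (dvd_zero _)
  have h0 := P.tame_ne he hπ
  have : NeZero e := ⟨he0⟩
  have : NeZero (e : Qb) := ⟨Nat.cast_ne_zero.2 he0⟩
  have hcard : Nat.card (rootsOfUnity e Qb) = e :=
    HasEnoughRootsOfUnity.natCard_rootsOfUnity Qb e
  have hne : ∀ σ : GQ, σ π / π ≠ 0 := fun σ => div_ne_zero ((map_ne_zero σ).2 h0) h0
  obtain ⟨-, h1, h2⟩ := P.uf_tame he hπ
  let f : (↥(A.inertiaSubgroupIn ℚ) ⧸ (Jt A π).subgroupOf (A.inertiaSubgroupIn ℚ)) →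
      rootsOfUnity e Qb := fun q => ⟨Units.mk0 ((q.out : GQ) π / π) (hne _), by
      rw [mem_rootsOfUnity]
      ext
      rw [Units.val_pow_eq_pow_val, Units.val_mk0, P.theta_pow hπ, Units.val_one]⟩
  have hinj : Function.Injective f := by
    intro q q' h
    have h3 : (q.out : GQ) π / π = (q'.out : GQ) π / π :=
      congrArg (fun u : rootsOfUnity e Qb => ((u : Qbˣ) : Qb)) h
    rw [div_left_inj' h0] at h3
    rw [← QuotientGroup.out_eq' q, ← QuotientGroup.out_eq' q', QuotientGroup.eq]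
    refine ⟨(q.out⁻¹ * q'.out).2, ?_⟩
    change ((q.out : GQ)⁻¹ * (q'.out : GQ)) π = π
    rw [AlgEquiv.mul_apply, ← h3]
    exact (q.out : GQ).symm_apply_apply π
  have hfq : Finite (↥(A.inertiaSubgroupIn ℚ) ⧸ (Jt A π).subgroupOf (A.inertiaSubgroupIn ℚ)) :=
    Subgroup.finite_quotient_of_finiteIndex
  have hc : Nat.card (↥(A.inertiaSubgroupIn ℚ) ⧸ (Jt A π).subgroupOf (A.inertiaSubgroupIn ℚ)) =
      Nat.card (rootsOfUnity e Qb) := by
    rw [hcard]; exact h2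
  have hbij := (Nat.bijective_iff_injective_and_card f).2 ⟨hinj, hc⟩
  have hζ0 : ζ ≠ 0 := by
    rintro rfl
    rw [zero_pow he0] at hζ
    exact zero_ne_one hζ
  obtain ⟨q, hq⟩ := hbij.2 ⟨Units.mk0 ζ hζ0, by
    rw [mem_rootsOfUnity]
    ext
    rw [Units.val_pow_eq_pow_val, Units.val_mk0, hζ, Units.val_one]⟩
  refine ⟨q.out, q.out.2, ?_⟩
  have h3 : (q.out : GQ) π / π = ζ :=
    congrArg (fun u : rootsOfUnity e Qb => ((u : Qbˣ) : Qb)) hq
  rw [← h3, div_mul_cancel₀ _ h0]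

end PL

end Fermat.Agent.TW
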