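import Fermat.Agent.TW.Trace
set_option autoImplicit false

/-!
# Vanishing of the trace function of a cocycle with values in `ad⁰(1)`
-/

namespace Fermat.Agent.TW

open Matrix

variable {Γ : Type*} [Group Γ] {k : Type*} [Field k]

theorem exists_line {n : Mt k} (hn : n ≠ 0) (h1 : n.trace = 0) (h2 : n.det = 0) :
    ∃ v : Fin 2 → k, v ≠ 0 ∧ ∀ γ : Mt k, (n * γ * n * γ.adjugate).trace = 0 →
      ∃ a : k, γ *ᵥ v = a • v := by
  have e1 : n 1 1 = - n 0 0 := by
    have : n 0 0 + n 1 1 = 0 := by simpa [Matrix.trace, Fin.sum_univ_two] using h1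
    linear_combination this
  have e2 : n 0 0 * n 0 0 + n 0 1 * n 1 0 = 0 := by
    rw [Matrix.det_fin_two, e1] at h2
    linear_combination -h2
  have hadj : ∀ γ : Mt k, (n * γ * n * γ.adjugate).trace
      = (n 0 0 * γ 0 0 + n 0 1 * γ 1 0) * (n 0 0 * γ 1 1 - n 0 1 * γ 1 0)
        + (n 0 0 * γ 0 1 + n 0 1 * γ 1 1) * (n 1 0 * γ 1 1 + n 0 0 * γ 1 0)
        + (n 1 0 * γ 0 0 - n 0 0 * γ 1 0) * (- n 0 0 * γ 0 1 + n 0 1 * γ 0 0)
        + (n 1 0 * γ 0 1 - n 0 0 * γ 1 1) * (- n 1 0 * γ 0 1 - n 0 0 * γ 0 0) := by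
    intro γ
    rw [mul_assoc (n * γ)]
    simp only [Matrix.trace, Fin.sum_univ_two, Matrix.diag_apply, Matrix.mul_apply,
      Matrix.adjugate_fin_two, Matrix.of_apply, Matrix.cons_val_zero, Matrix.cons_val_one,
      Matrix.cons_val', e1]
    simp
    ring
  by_cases hb : n 0 1 = 0
  · have ha : n 0 0 = 0 := by
      rw [hb, zero_mul, add_zero] at e2
      exact mul_self_eq_zero.1 e2
    have hc : n 1 0 ≠ 0 := by
      intro hc
      apply hn
      ext i j
      fin_cases i <;> fin_cases j <;> simp [ha, hb, hc, e1]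
    refine ⟨![0, 1], by intro h; have := congrFun h 1; simp at this, fun γ hγ => ?_⟩
    rw [hadj, ha, hb] at hγ
    have h3 : (n 1 0 * γ 0 1) ^ 2 = 0 := by linear_combination -hγ
    have h4 : γ 0 1 = 0 := by
      have := pow_eq_zero_iff (two_ne_zero) |>.1 h3
      exact (mul_eq_zero.1 this).resolve_left hc
    refine ⟨γ 1 1, ?_⟩
    ext i
    fin_cases i <;> simp [Matrix.mulVec, dotProduct, Fin.sum_univ_two, h4]
  · refine ⟨![n 0 1, - n 0 0], by intro h; have := congrFun h 0; simp at this; exact hb this,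
      fun γ hγ => ?_⟩
    rw [hadj] at hγ
    set φ : k := n 0 0 * (γ 0 0 * n 0 1 - γ 0 1 * n 0 0) + n 0 1 * (γ 1 0 * n 0 1 - γ 1 1 * n 0 0)
      with hφ
    have h3 : φ ^ 2 = 0 := by
      have e3 : n 0 1 * n 1 0 = - (n 0 0 * n 0 0) := by linear_combination e2
      have : φ ^ 2 = - (n 0 1) ^ 2 * ((n 0 0 * γ 0 0 + n 0 1 * γ 1 0) * (n 0 0 * γ 1 1 - n 0 1 * γ 1 0)
        + (n 0 0 * γ 0 1 + n 0 1 * γ 1 1) * (n 1 0 * γ 1 1 + n 0 0 * γ 1 0)
        + (n 1 0 * γ 0 0 - n 0 0 * γ 1 0) * (- n 0 0 * γ 0 1 + n 0 1 * γ 0 0)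
        + (n 1 0 * γ 0 1 - n 0 0 * γ 1 1) * (- n 1 0 * γ 0 1 - n 0 0 * γ 0 0)) := by
        have h10 : n 1 0 = - (n 0 0 * n 0 0) / n 0 1 := by
          rw [eq_div_iff hb, ← e3]; ring
        rw [hφ, h10]
        field_simp
        ring
      rw [this, hγ, mul_zero]
    have h4 : φ = 0 := pow_eq_zero_iff (two_ne_zero) |>.1 h3
    refine ⟨(γ 0 0 * n 0 1 - γ 0 1 * n 0 0) / n 0 1, ?_⟩
    ext i
    fin_cases i
    · simp only [Matrix.mulVec, dotProduct, Fin.sum_univ_two, Pi.smul_apply, smul_eq_mul]
      simp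
      field_simp
      ring
    · simp only [Matrix.mulVec, dotProduct, Fin.sum_univ_two, Pi.smul_apply, smul_eq_mul]
      simp
      field_simp
      linear_combination h4 + hφ - hφ

theorem det_sub_one (A : Mt k) : (A - 1).det = A.det - A.trace + 1 := by
  simp only [Matrix.det_fin_two, Matrix.sub_apply, Matrix.trace, Fin.sum_univ_two,
    Matrix.diag_apply, Matrix.one_apply_eq, ne_eq, zero_ne_one, not_false_eq_true,
    Matrix.one_apply_ne, one_ne_zero]
  ring

theorem trace_sub_one (A : Mt k) : (A - 1).trace = A.trace - 2 := by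
  rw [Matrix.trace_sub, Matrix.trace_one]
  norm_num

theorem sq_zero {n : Mt k} (h1 : n.trace = 0) (h2 : n.det = 0) : n * n = 0 := by
  rw [cayley, h1, h2, zero_smul, zero_smul, sub_zero]

theorem pow_unip {n : Mt k} (h : n * n = 0) (j : ℕ) : (1 + n) ^ j = 1 + (j : k) • n := by
  induction j with
  | zero => simp
  | succ j ih =>
    rw [pow_succ, ih, mul_add, mul_one, add_mul, one_mul, smul_mul_assoc, h, smul_zero, add_zero]
    push_cast
    rw [add_smul, one_smul]
    abel

variable {r : Γ →* Mt k} {χ : Γ →* k} {c : Γ → Mt k}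

theorem IsCoc.tau_pow (hc : IsCoc r χ c) (htr : ∀ g, (c g).trace = 0) {g : Γ} (hg : χ g = 1)
    (hd : (r g).det = 1) (ht : (r g).trace = 2) (j : ℕ) :
    tau r c (g ^ j) = (j : k) ^ 2 * tau r c g := by
  have hn : (r g - 1) * (r g - 1) = 0 := by
    apply sq_zero
    · rw [trace_sub_one, ht, sub_self]
    · rw [det_sub_one, ht, hd]; ring
  have htj : ∀ j, (r (g ^ j)).trace = 2 := by
    intro j
    have : r g = 1 + (r g - 1) := by abel
    rw [map_pow, this, pow_unip hn, Matrix.trace_add, Matrix.trace_smul, trace_sub_one, ht,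
      sub_self, smul_zero, add_zero, Matrix.trace_one]
    norm_num
  have key : ∀ j : ℕ, tau r c (g ^ j) = (j : k) ^ 2 * tau r c g ∧
      tau r c (g ^ (j + 1)) = ((j + 1 : ℕ) : k) ^ 2 * tau r c g := by
    intro j
    induction j with
    | zero => simp [tau, hc.one]
    | succ j ih =>
      refine ⟨ih.2, ?_⟩
      have h3 := hc.tau_mul_add htr (g := g ^ (j + 1)) (h := g)
        (by rw [map_pow, hg, one_pow]) hg hd
      have e1 : g ^ (j + 1) * g⁻¹ = g ^ j := by rw [pow_succ, mul_assoc, mul_inv_cancel, mul_one]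
      rw [← pow_succ, e1, ht, htj, ih.1, ih.2] at h3
      have : tau r c (g ^ (j + 1 + 1)) = 2 * (((j + 1 : ℕ) : k) ^ 2 * tau r c g) + 2 * tau r c g
          - (j : k) ^ 2 * tau r c g := by linear_combination h3
      rw [this]
      push_cast
      ring
  exact (key j).1

/-- Standing hypotheses on `r` and `χ`. -/
structure Hyp (p : ℕ) (r : Γ →* Mt k) (χ : Γ →* k) : Prop where
  det : ∀ g, (r g).det = χ g
  irr : ∀ v : Fin 2 → k, v ≠ 0 → ∃ γ, ∀ a : k, r γ *ᵥ v ≠ a • v
  h5 : p ≠ 3 → ∃ γ, χ γ ^ 2 ≠ 1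

variable {p : ℕ} [hp : Fact p.Prime] [CharP k p]

theorem cast_ne_zero {q : ℕ} (hq : q.Prime) (h : p ≠ q) : (q : k) ≠ 0 := by
  intro h0
  rw [CharP.cast_eq_zero_iff k p] at h0
  exact h ((Nat.prime_dvd_prime_iff_eq hp.out hq).1 h0)

theorem Hyp.tau_unip [Finite k] (H : Hyp p r χ) (hp2 : p ≠ 2) (hc : IsCoc r χ c)
    (htr : ∀ g, (c g).trace = 0) (hker : ∀ g, r g = 1 → c g = 0)
    {g : Γ} (hg : χ g = 1) (ht : (r g).trace = 2) (hr : r g ≠ 1) : tau r c g = 0 := by
  have h2 : (2 : k) ≠ 0 := by simpa using cast_ne_zero (k := k) (p := p) Nat.prime_two hp2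
  have hd : (r g).det = 1 := by rw [H.det, hg]
  obtain ⟨n, hn⟩ : ∃ n : Mt k, n = r g - 1 := ⟨_, rfl⟩
  have hn0 : n ≠ 0 := by rw [hn]; exact sub_ne_zero.2 hr
  have hn1 : n.trace = 0 := by rw [hn, trace_sub_one, ht, sub_self]
  have hn2 : n.det = 0 := by rw [hn, det_sub_one, ht, hd]; ring
  have hnn : n * n = 0 := sq_zero hn1 hn2
  have hrg : r g = 1 + n := by rw [hn]; abel
  by_cases hp3 : p = 3
  · subst hp3
    have h3 : (3 : k) = 0 := by
      have := (CharP.cast_eq_zero_iff k 3 3).2 dvd_rfl
      exact_mod_cast this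
    have h1 : r (g ^ 3) = 1 := by
      rw [map_pow, hrg, pow_unip hnn]
      have : ((3 : ℕ) : k) = 0 := by exact_mod_cast h3
      rw [this, zero_smul, add_zero]
    have h4 := hker _ h1
    have hi : r g⁻¹ = 1 - n := by
      rw [inv_eq (r_mul_inv r g) hd, ht, hrg]
      rw [two_smul]; abel
    have hi2 : r (g * g)⁻¹ = 1 - (2 : k) • n := by
      rw [_root_.mul_inv_rev, map_mul, hi]
      simp only [mul_sub, sub_mul, mul_one, one_mul, hnn, two_smul]
      abel
    have hg2 : r (g * g) = 1 + (2 : k) • n := by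
      rw [map_mul, hrg]
      simp only [mul_add, add_mul, mul_one, one_mul, hnn, two_smul]
      abel
    rw [pow_succ, pow_two, hc (g * g) g, hc g g, map_mul χ, hg, mul_one, one_smul, one_smul, hg2,
      hi2, hi, hrg] at h4
    have h5 : n * c g * n = 0 := by
      have e : c g + (1 + n) * c g * (1 - n) + (1 + (2 : k) • n) * c g * (1 - (2 : k) • n)
          = (3 : k) • (c g + n * c g - c g * n) - (5 : k) • (n * c g * n) := by
        simp only [add_mul, mul_sub, one_mul, mul_one, smul_mul_assoc, mul_smul_comm, smul_smul,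
          smul_sub, smul_add]
        module
      rw [e, h3, zero_smul, zero_sub, neg_eq_zero] at h4
      have h55 : (5 : k) ≠ 0 := by
        have : (5 : k) = 2 + 3 := by norm_num
        rw [this, h3, add_zero]; exact h2
      exact (smul_eq_zero.1 h4).resolve_left h55
    rw [nil_mul_mul hn1 hn2] at h5
    have h6 : (n * c g).trace = 0 := (smul_eq_zero.1 h5).resolve_right hn0
    unfold tau
    rw [hrg, mul_add, mul_one, Matrix.trace_add, htr, zero_add, Matrix.trace_mul_comm]
    exact h6
  · have h3 : (3 : k) ≠ 0 := by simpa using cast_ne_zero (k := k) (p := p) Nat.prime_three hp3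
    by_contra hτ
    obtain ⟨v, hv, hline⟩ := exists_line hn0 hn1 hn2
    -- main relation
    have main : ∀ γ : Γ, (∀ a : k, r γ *ᵥ v ≠ a • v) → ∃ s : k, s ≠ 0 ∧
        ∀ i : ℕ, (i : k) ≠ 0 → ((i : k) * s) ^ 2 ≠ 16 → (i : k) ^ 2 = - χ γ := by
      intro γ hγ
      set m : Mt k := r γ * n * r γ⁻¹ with hm
      have hs : (n * m).trace ≠ 0 := by
        intro h0
        have hdet : (r γ).det ≠ 0 := by
          intro h
          have h7 : (r γ * r γ⁻¹).det = 1 := by rw [r_mul_inv, Matrix.det_one]
          rw [Matrix.det_mul, h, zero_mul] at h7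
          exact zero_ne_one h7
        have hadj : (r γ).adjugate = (r γ).det • r γ⁻¹ := by
          calc (r γ).adjugate = (r γ).adjugate * (r γ * r γ⁻¹) := by rw [r_mul_inv, mul_one]
            _ = ((r γ).adjugate * r γ) * r γ⁻¹ := by rw [mul_assoc]
            _ = _ := by rw [Matrix.adjugate_mul, smul_mul_assoc, one_mul]
        obtain ⟨a, ha⟩ := hline (r γ) (by
          rw [hadj, mul_smul_comm, Matrix.trace_smul]
          have : n * r γ * n * r γ⁻¹ = n * m := by rw [hm]; simp only [mul_assoc]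
          rw [this, h0, smul_zero])
        exact hγ a ha
      set h : Γ := γ * g * γ⁻¹ with hh
      have hrh : r h = 1 + m := by
        rw [hh, map_mul, map_mul, hrg, mul_add, mul_one, add_mul, r_mul_inv, hm]
      have hm1 : m.trace = 0 := by rw [hm, trace_conj, hn1]
      have hχh : χ h = 1 := by
        have : χ γ * χ γ⁻¹ = 1 := by rw [← map_mul, mul_inv_cancel, map_one]
        rw [hh, map_mul, map_mul, hg, mul_one, this]
      have hdh : (r h).det = 1 := by rw [H.det, hχh]
      have hth : (r h).trace = 2 := by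
        rw [hrh, Matrix.trace_add, hm1, add_zero, Matrix.trace_one]; norm_num
      have hih : r h⁻¹ = 1 - m := by
        rw [inv_eq (r_mul_inv r h) hdh, hth, hrh, two_smul]; abel
      refine ⟨(n * m).trace, hs, fun i hi hi16 => ?_⟩
      set s := (n * m).trace with hs'
      have hgi : r (g ^ i) = 1 + (i : k) • n := by rw [map_pow, hrg, pow_unip hnn]
      have hχi : χ (g ^ i) = 1 := by rw [map_pow, hg, one_pow]
      have t1 : (r (g ^ i * h)).trace = 2 + i * s := by
        rw [map_mul, hgi, hrh]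
        simp only [add_mul, mul_add, one_mul, mul_one, smul_mul_assoc, Matrix.trace_add,
          Matrix.trace_smul, hn1, hm1, Matrix.trace_one, ← hs', smul_eq_mul]
        norm_num
      have t2 : (r (g ^ i * h⁻¹)).trace = 2 - i * s := by
        rw [map_mul, hgi, hih]
        simp only [add_mul, mul_sub, one_mul, mul_one, smul_mul_assoc, Matrix.trace_add,
          Matrix.trace_sub, Matrix.trace_smul, hn1, hm1, Matrix.trace_one, ← hs', smul_eq_mul]
        norm_num
      have his : (i : k) * s ≠ 0 := mul_ne_zero hi hs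
      have h16a : (i : k) * s + 4 ≠ 0 := by
        intro h0
        apply hi16
        have : (i : k) * s = -4 := by linear_combination h0
        rw [this]; norm_num
      have h16b : (i : k) * s - 4 ≠ 0 := by
        intro h0
        apply hi16
        have : (i : k) * s = 4 := by linear_combination h0
        rw [this]; norm_num
      have hz : ∀ x : Γ, χ x = 1 → (r x).trace ^ 2 ≠ 4 → tau r c x = 0 := by
        intro x hx hx'
        obtain ⟨N, hN, hN'⟩ := exists_pow_coprime p (A := r x) (by rw [H.det, hx]) hx'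
        exact hc.tau_eq_zero_of_pow hx hker hN hN'
      have z1 : tau r c (g ^ i * h) = 0 := by
        apply hz
        · rw [map_mul, hχi, hχh, mul_one]
        · rw [t1]
          intro h0
          have : ((i : k) * s) * ((i : k) * s + 4) = 0 := by linear_combination h0
          exact (mul_ne_zero his h16a) this
      have z2 : tau r c (g ^ i * h⁻¹) = 0 := by
        apply hz
        · rw [map_mul, hχi, one_mul]
          have : χ h * χ h⁻¹ = 1 := by rw [← map_mul, mul_inv_cancel, map_one]
          rwa [hχh, one_mul] at this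
        · rw [t2]
          intro h0
          have : ((i : k) * s) * ((i : k) * s - 4) = 0 := by linear_combination h0
          exact (mul_ne_zero his h16b) this
      have h7 := hc.tau_mul_add htr (g := g ^ i) (h := h) hχi hχh hdh
      rw [z1, z2, hth, hc.tau_pow htr hg hd ht i, hh, hc.tau_conj γ g hg] at h7
      have t3 : (r (g ^ i)).trace = 2 := by
        rw [hgi, Matrix.trace_add, Matrix.trace_smul, hn1, smul_zero, add_zero, Matrix.trace_one]
        norm_num
      rw [t3] at h7
      have h8 : (2 * tau r c g) * ((i : k) ^ 2 + χ γ) = 0 := by linear_combination -h7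
      have h9 := (mul_eq_zero.1 h8).resolve_left (mul_ne_zero h2 hτ)
      linear_combination h9
    -- consequences
    have sq : ∀ γ : Γ, (∀ a : k, r γ *ᵥ v ≠ a • v) → χ γ ^ 2 = 1 := by
      intro γ hγ
      obtain ⟨s, hs, hi⟩ := main γ hγ
      have i1 := hi 1
      have i2 := hi 2
      have i3 := hi 3
      simp only [Nat.cast_one, Nat.cast_ofNat, one_mul, one_pow] at i1 i2 i3
      have i1' := i1 one_ne_zero
      have i2' := i2 h2
      have i3' := i3 h3
      have h4 : (4 : k) ≠ 0 := by
        have : (4 : k) = 2 * 2 := by norm_num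
        rw [this]; exact mul_ne_zero h2 h2
      by_cases h5 : (5 : k) = 0
      · by_cases hs16 : s ^ 2 = 16
        · have hs2 : (2 * s) ^ 2 ≠ 16 := by
            intro h0
            have : (3 : k) * s ^ 2 = 0 := by linear_combination h0 - hs16
            exact (mul_ne_zero h3 (pow_ne_zero 2 hs)) this
          have := i2' hs2
          have h6 : χ γ = -4 := by linear_combination this
          rw [h6]
          linear_combination 3 * h5
        · have := i1' hs16
          have h6 : χ γ = -1 := by linear_combination this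
          rw [h6]; norm_num
      · exfalso
        by_cases hs16 : s ^ 2 = 16
        · have hs2 : (2 * s) ^ 2 ≠ 16 := by
            intro h0
            have : (3 : k) * s ^ 2 = 0 := by linear_combination h0 - hs16
            exact (mul_ne_zero h3 (pow_ne_zero 2 hs)) this
          have hs3 : (3 * s) ^ 2 ≠ 16 := by
            intro h0
            have : (4 * 2 : k) * s ^ 2 = 0 := by linear_combination h0 - hs16
            exact (mul_ne_zero (mul_ne_zero h4 h2) (pow_ne_zero 2 hs)) this
          apply h5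
          linear_combination i3' hs3 - i2' hs2
        · by_cases hs2 : (2 * s) ^ 2 = 16
          · have hs3 : (3 * s) ^ 2 ≠ 16 := by
              intro h0
              have : (5 : k) * s ^ 2 = 0 := by linear_combination h0 - hs2
              exact (mul_ne_zero h5 (pow_ne_zero 2 hs)) this
            have : (4 * 2 : k) = 0 := by linear_combination i3' hs3 - i1' hs16
            exact (mul_ne_zero h4 h2) this
          · apply h3
            linear_combination i2' hs2 - i1' hs16
    obtain ⟨γ₀, hγ₀⟩ := H.h5 hp3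
    obtain ⟨γ₁, hγ₁⟩ := H.irr v hv
    have hstab : ∃ a : k, r γ₀ *ᵥ v = a • v := by
      by_contra hcon
      push Not at hcon
      exact hγ₀ (sq γ₀ hcon)
    obtain ⟨a, ha⟩ := hstab
    have ha0 : a ≠ 0 := by
      intro h0
      rw [h0, zero_smul] at ha
      have : v = 0 := by
        calc v = (r γ₀⁻¹ * r γ₀) *ᵥ v := by rw [r_inv_mul, Matrix.one_mulVec]
          _ = r γ₀⁻¹ *ᵥ (r γ₀ *ᵥ v) := by rw [Matrix.mulVec_mulVec]
          _ = 0 := by rw [ha, Matrix.mulVec_zero]
      exact hv this
    have h10 : χ (γ₁ * γ₀) ^ 2 = 1 := by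
      apply sq
      intro b hb
      rw [map_mul, ← Matrix.mulVec_mulVec, ha, Matrix.mulVec_smul] at hb
      apply hγ₁ (a⁻¹ * b)
      rw [mul_smul, ← hb, smul_smul, inv_mul_cancel₀ ha0, one_smul]
    have h11 := sq γ₁ hγ₁
    rw [map_mul, mul_pow, h11, one_mul] at h10
    exact hγ₀ h10

end Fermat.Agent.TW
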