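import Fermat.Agent.TW.Local1
import Fermat.Agent.H08.RankOne
import Fermat.Agent.H08.Inertia

/-!
# Normalised real valuations on `ℚbar`
-/

set_option autoImplicit false
set_option linter.unusedSectionVars false

namespace Fermat.Agent.TW

open Fermat.Agent.CC
open scoped Pointwise

/-- normalised additive valuation attached to a place over `p` -/
structure NVal (A : ValuationSubring Qb) (p : ℕ) (w : Qb → ℝ) : Prop where
  log : H08.IsLogVal A.valuation w
  norm : w p = 1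

theorem exists_NVal {A : ValuationSubring Qb} {p : ℕ} (hp : p.Prime) (hA : A.LiesOverPrime p) :
    ∃ w, NVal A p w := by
  have hg := Fermat.Agent.H51.isGalois_Qbar
  have hal : Algebra.IsAlgebraic ℚ Qb := inferInstance
  obtain ⟨w, hw⟩ := H08.exists_isLogVal hp hA
  have hp0 : (p : Qb) ≠ 0 := Nat.cast_ne_zero.2 hp.ne_zero
  have hpos : 0 < w p := (hw.pos_iff hp0).1 (H08.val_prime_lt_one hA)
  refine ⟨fun x => w x / w p, ⟨⟨fun x y hx hy => ?_, fun x y hx hy => ?_⟩, ?_⟩⟩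
  · rw [hw.map_mul x y hx hy, add_div]
  · rw [hw.lt_iff x y hx hy, div_lt_div_iff_of_pos_right hpos]
  · exact div_self hpos.ne'

/-- `x` has valuation at least `t` -/
def Bl (w : Qb → ℝ) (t : ℝ) (x : Qb) : Prop := x = 0 ∨ t ≤ w x

namespace NVal

variable {A : ValuationSubring Qb} {p : ℕ} {w : Qb → ℝ}

theorem mem_iff (h : NVal A p w) {x : Qb} : x ∈ A ↔ Bl w 0 x := by
  by_cases hx : x = 0
  · subst hx
    exact ⟨fun _ => Or.inl rfl, fun _ => A.zero_mem⟩
  · rw [← A.valuation_le_one_iff, h.log.nonneg_iff hx]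
    exact ⟨fun h => Or.inr h, fun h => h.resolve_left hx⟩

theorem zero (t : ℝ) : Bl w t 0 := Or.inl rfl

theorem mono {t s : ℝ} {x : Qb} (hts : s ≤ t) (hx : Bl w t x) : Bl w s x := by
  rcases hx with hx | hx
  · exact Or.inl hx
  · exact Or.inr (hts.trans hx)

theorem mul (h : NVal A p w) {t s : ℝ} {x y : Qb} (hx : Bl w t x) (hy : Bl w s y) :
    Bl w (t + s) (x * y) := by
  rcases hx with rfl | hx
  · exact Or.inl (zero_mul _)
  rcases hy with rfl | hy
  · exact Or.inl (mul_zero _)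
  by_cases hx0 : x = 0
  · rw [hx0]; exact Or.inl (zero_mul _)
  by_cases hy0 : y = 0
  · rw [hy0]; exact Or.inl (mul_zero _)
  · right
    rw [h.log.map_mul x y hx0 hy0]
    exact add_le_add hx hy

theorem add (h : NVal A p w) {t : ℝ} {x y : Qb} (hx : Bl w t x) (hy : Bl w t y) :
    Bl w t (x + y) := by
  by_cases hx0 : x = 0
  · rw [hx0, zero_add]; exact hy
  by_cases hy0 : y = 0
  · rw [hy0, add_zero]; exact hx
  by_cases hxy : x + y = 0
  · exact Or.inl hxy
  · right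
    have hx := hx.resolve_left hx0
    have hy := hy.resolve_left hy0
    have h1 := A.valuation.map_add x y
    rcases le_total (A.valuation x) (A.valuation y) with h2 | h2
    · rw [max_eq_right h2, h.log.le_iff hxy hy0] at h1
      exact hy.trans h1
    · rw [max_eq_left h2, h.log.le_iff hxy hx0] at h1
      exact hx.trans h1

theorem w_neg (h : NVal A p w) (x : Qb) : w (-x) = w x := by
  by_cases hx : x = 0
  · rw [hx, neg_zero]
  · have h1 : (-1 : Qb) ≠ 0 := neg_ne_zero.2 one_ne_zero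
    have h2 : w (-1) = 0 := by
      have h3 := h.log.map_mul (-1) (-1) h1 h1
      rw [neg_mul_neg, one_mul, h.log.one] at h3
      linarith
    have h3 := h.log.map_mul (-1) x h1 hx
    rw [neg_one_mul, h2, zero_add] at h3
    exact h3

theorem neg (h : NVal A p w) {t : ℝ} {x : Qb} (hx : Bl w t x) : Bl w t (-x) := by
  rcases hx with rfl | hx
  · left; exact neg_zero
  · right; rwa [h.w_neg]

theorem sub (h : NVal A p w) {t : ℝ} {x y : Qb} (hx : Bl w t x) (hy : Bl w t y) :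
    Bl w t (x - y) := by
  rw [sub_eq_add_neg]
  exact h.add hx (h.neg hy)

theorem sum (h : NVal A p w) {ι : Type*} (s : Finset ι) (f : ι → Qb) {t : ℝ}
    (hf : ∀ i ∈ s, Bl w t (f i)) : Bl w t (∑ i ∈ s, f i) := by
  classical
  induction s using Finset.induction_on with
  | empty => rw [Finset.sum_empty]; exact zero t
  | insert a s ha ih =>
    rw [Finset.sum_insert ha]
    exact h.add (hf a (Finset.mem_insert_self _ _))
      (ih fun i hi => hf i (Finset.mem_insert_of_mem hi))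

theorem natCast (h : NVal A p w) (n : ℕ) : Bl w 0 (n : Qb) :=
  h.mem_iff.1 (natCast_mem A n)

theorem intCast (h : NVal A p w) (n : ℤ) : Bl w 0 (n : Qb) :=
  h.mem_iff.1 (intCast_mem A n)

theorem one (h : NVal A p w) : Bl w 0 (1 : Qb) := h.mem_iff.1 A.one_mem

theorem pow (h : NVal A p w) {t : ℝ} {x : Qb} (hx : Bl w t x) (n : ℕ) :
    Bl w (n * t) (x ^ n) := by
  induction n with
  | zero => rw [pow_zero, Nat.cast_zero, zero_mul]; exact h.one
  | succ n ih =>
    rw [pow_succ]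
    have := h.mul ih hx
    refine mono (le_of_eq ?_) this
    push_cast
    ring

theorem mul_left (h : NVal A p w) {t : ℝ} {x y : Qb} (hx : Bl w 0 x) (hy : Bl w t y) :
    Bl w t (x * y) := by
  have := h.mul hx hy
  rwa [zero_add] at this

theorem mul_right (h : NVal A p w) {t : ℝ} {x y : Qb} (hx : Bl w t x) (hy : Bl w 0 y) :
    Bl w t (x * y) := by
  have := h.mul hx hy
  rwa [add_zero] at this

/-- the valuation of a sum of elements of different valuations -/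
theorem w_add_eq (h : NVal A p w) {x y : Qb} (hx : x ≠ 0) (hy : y ≠ 0) (hxy : w x < w y) :
    x + y ≠ 0 ∧ w (x + y) = w x := by
  have h1 : x + y ≠ 0 := by
    intro h0
    have h2 : y = -x := eq_neg_of_add_eq_zero_right h0
    rw [h2, h.w_neg] at hxy
    exact lt_irrefl _ hxy
  refine ⟨h1, le_antisymm ?_ ?_⟩
  · by_contra hcon
    push Not at hcon
    have h2 : Bl w (min (w (x + y)) (w y)) ((x + y) - y) :=
      h.sub (mono (min_le_left _ _) (Or.inr le_rfl)) (mono (min_le_right _ _) (Or.inr le_rfl))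
    rw [add_sub_cancel_right] at h2
    have h3 := h2.resolve_left hx
    have h4 := lt_min hcon hxy
    exact absurd h3 (not_le.2 h4)
  · have h2 : Bl w (w x) (x + y) := h.add (Or.inr le_rfl) (Or.inr hxy.le)
    exact h2.resolve_left h1

theorem Bl_add_cancel (h : NVal A p w) {t : ℝ} {x y : Qb} (hxy : Bl w t (x + y)) (hy : Bl w t y) :
    Bl w t x := by
  have := h.sub hxy hy
  rwa [add_sub_cancel_right] at this

theorem exists_pow_fix (σ : GQ) (x : Qb) : ∃ n : ℕ, 0 < n ∧ (σ ^ n) x = x := by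
  have hg := Fermat.Agent.H51.isGalois_Qbar
  have hint : IsIntegral ℚ x := Algebra.IsIntegral.isIntegral x
  have hne : minpoly ℚ x ≠ 0 := minpoly.ne_zero hint
  have hfin : ((minpoly ℚ x).rootSet Qb).Finite := Polynomial.rootSet_finite _ _
  have hmaps : ∀ n : ℕ, (σ ^ n) x ∈ (minpoly ℚ x).rootSet Qb := by
    intro n
    rw [Polynomial.mem_rootSet]
    refine ⟨hne, ?_⟩
    have h1 := Polynomial.aeval_algHom_apply ((σ ^ n : GQ) : Qb →ₐ[ℚ] Qb) x (minpoly ℚ x)
    rw [minpoly.aeval, map_zero] at h1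
    exact h1
  obtain ⟨m, n, hmn, he⟩ : ∃ m n : ℕ, m < n ∧ (σ ^ m) x = (σ ^ n) x := by
    have h2 : ¬ Function.Injective (fun n : ℕ => (⟨(σ ^ n) x, hmaps n⟩ :
        (minpoly ℚ x).rootSet Qb)) := by
      intro hinj
      have := hfin.to_subtype
      have := Finite.of_injective _ hinj
      exact not_finite ℕ
    rw [Function.Injective] at h2
    push Not at h2
    obtain ⟨a, b, hab, hne⟩ := h2
    have hab' : (σ ^ a) x = (σ ^ b) x := congrArg Subtype.val hab
    rcases lt_or_gt_of_ne hne with h3 | h3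
    · exact ⟨a, b, h3, hab'⟩
    · exact ⟨b, a, h3, hab'.symm⟩
  refine ⟨n - m, Nat.sub_pos_of_lt hmn, ?_⟩
  apply (σ ^ m).injective
  rw [← AlgEquiv.mul_apply, ← pow_add, Nat.add_sub_cancel' hmn.le, he]

theorem w_smul (h : NVal A p w) {σ : GQ} (hσ : σ ∈ A.decompositionSubgroup ℚ) (x : Qb) :
    w (σ x) = w x := by
  by_cases hx : x = 0
  · rw [hx, map_zero]
  have h1 : ∀ y : Qb, A.valuation y ≤ 1 → A.valuation (σ y) ≤ 1 := by
    intro y hy1
    rw [A.valuation_le_one_iff] at hy1 ⊢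
    have h2 : σ • A = A := hσ
    rw [← h2]
    exact ValuationSubring.smul_mem_pointwise_smul σ y A hy1
  have h3 : ∀ y z : Qb, y ≠ 0 → z ≠ 0 → w z ≤ w y → w (σ z) ≤ w (σ y) := by
    intro y z hy hz hyz
    have hyz0 : y / z ≠ 0 := div_ne_zero hy hz
    have h4 : A.valuation (y / z) ≤ 1 := by
      rw [h.log.nonneg_iff hyz0, div_eq_mul_inv, h.log.map_mul _ _ hy (inv_ne_zero hz),
        h.log.inv hz]
      linarith
    have h5 := h1 _ h4
    have hτz : σ z ≠ 0 := (map_ne_zero σ).2 hz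
    have hτy : σ y ≠ 0 := (map_ne_zero σ).2 hy
    rw [map_div₀, h.log.nonneg_iff (div_ne_zero hτy hτz), div_eq_mul_inv,
      h.log.map_mul _ _ hτy (inv_ne_zero hτz), h.log.inv hτz] at h5
    linarith
  obtain ⟨n, hn, hσn⟩ := exists_pow_fix σ x
  have hne : ∀ i : ℕ, (σ ^ i) x ≠ 0 := fun i => (map_ne_zero (σ ^ i)).2 hx
  have hsucc : ∀ i : ℕ, σ ((σ ^ i) x) = (σ ^ (i + 1)) x := fun i => by
    rw [pow_succ', AlgEquiv.mul_apply]
  have hchain : ∀ a b : ℕ → Qb, (∀ i, a i ≠ 0) → (∀ i, b i ≠ 0) → (∀ i, σ (a i) = a (i + 1)) →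
      (∀ i, σ (b i) = b (i + 1)) → w (a 0) ≤ w (b 0) → ∀ i, w (a i) ≤ w (b i) := by
    intro a b ha hb hsa hsb h0 i
    induction i with
    | zero => exact h0
    | succ i ih =>
      rw [← hsa, ← hsb]
      exact h3 _ _ (hb i) (ha i) ih
  have hx0 : (σ ^ 0) x = x := by rw [pow_zero, AlgEquiv.one_apply]
  have hx1 : (σ ^ (0 + 1)) x = σ x := by rw [zero_add, pow_one]
  rcases le_total (w x) (w (σ x)) with h4 | h4
  · -- increasing
    have h5 : ∀ i, w ((σ ^ i) x) ≤ w ((σ ^ (i + 1)) x) :=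
      hchain (fun i => (σ ^ i) x) (fun i => (σ ^ (i + 1)) x) hne (fun i => hne _) hsucc
        (fun i => hsucc _) (by rw [hx0, hx1]; exact h4)
    have h6 : Monotone (fun i => w ((σ ^ i) x)) := monotone_nat_of_le_succ h5
    have h7 := h6 (Nat.succ_le_of_lt hn)
    beta_reduce at h7
    rw [hσn, Nat.succ_eq_add_one, hx1] at h7
    exact le_antisymm h7 h4
  · have h5 : ∀ i, w ((σ ^ (i + 1)) x) ≤ w ((σ ^ i) x) :=
      hchain (fun i => (σ ^ (i + 1)) x) (fun i => (σ ^ i) x) (fun i => hne _) hne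
        (fun i => hsucc _) hsucc (by rw [hx0, hx1]; exact h4)
    have h6 : Antitone (fun i => w ((σ ^ i) x)) := antitone_nat_of_succ_le h5
    have h7 := h6 (Nat.succ_le_of_lt hn)
    beta_reduce at h7
    rw [hσn, Nat.succ_eq_add_one, hx1] at h7
    exact le_antisymm h4 h7

theorem Bl_smul (h : NVal A p w) {σ : GQ} (hσ : σ ∈ A.decompositionSubgroup ℚ) {t : ℝ} {x : Qb} :
    Bl w t (σ x) ↔ Bl w t x := by
  unfold Bl
  rw [h.w_smul hσ, map_eq_zero]

theorem w_intCast (h : NVal A p w) (hp : p.Prime) (hA : A.LiesOverPrime p) {n : ℤ}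
    (hn : ¬ (p : ℤ) ∣ n) : w (n : Qb) = 0 := by
  have h0 : (n : Qb) ≠ 0 := by
    rw [Int.cast_ne_zero]
    rintro rfl
    exact hn (dvd_zero _)
  rw [← h.log.eq_zero_iff h0]
  exact H08.val_intCast_eq_one hp hA hn

theorem w_eq_zero_of_pow (h : NVal A p w) {x : Qb} {n : ℕ} (hn : n ≠ 0) (hx : x ^ n = 1) :
    w x = 0 := by
  have hx0 : x ≠ 0 := by
    rintro rfl
    rw [zero_pow hn] at hx
    exact zero_ne_one hx
  have h1 := h.log.pow hx0 n
  rw [hx, h.log.one] at h1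
  have h2 : (n : ℝ) ≠ 0 := Nat.cast_ne_zero.2 hn
  exact (mul_eq_zero.1 h1.symm).resolve_left h2

theorem w_prod (h : NVal A p w) {ι : Type*} (s : Finset ι) (f : ι → Qb)
    (hf : ∀ i ∈ s, f i ≠ 0) : w (∏ i ∈ s, f i) = ∑ i ∈ s, w (f i) := by
  classical
  induction s using Finset.induction_on with
  | empty => rw [Finset.prod_empty, Finset.sum_empty, h.log.one]
  | insert a s ha ih =>
    rw [Finset.prod_insert ha, Finset.sum_insert ha,
      h.log.map_mul _ _ (hf a (Finset.mem_insert_self _ _))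
        (Finset.prod_ne_zero_iff.2 fun i hi => hf i (Finset.mem_insert_of_mem hi)),
      ih fun i hi => hf i (Finset.mem_insert_of_mem hi)]

/-- `w (1 - ζ) = 1 / (p - 1)` for all primitive `p`-th roots of unity. -/
theorem w_one_sub (h : NVal A p w) (hp : p.Prime) {ζ : Qb} (hζ : IsPrimitiveRoot ζ p) :
    w (1 - ζ) = 1 / ((p : ℝ) - 1) := by
  have hint : ∀ (ξ : Qb), IsPrimitiveRoot ξ p → ∀ j : ℕ, Bl w 0 (∑ i ∈ Finset.range j, ξ ^ i) := by
    intro ξ hξ j
    refine h.sum _ _ fun i _ => Or.inr ?_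
    rw [h.w_eq_zero_of_pow hp.ne_zero (x := ξ ^ i) (by
      rw [← pow_mul, mul_comm, pow_mul, hξ.pow_eq_one, one_pow])]
  have hne : ∀ ξ : Qb, IsPrimitiveRoot ξ p → 1 - ξ ≠ 0 := fun ξ hξ h0 =>
    hξ.ne_one hp.one_lt (sub_eq_zero.1 h0).symm
  have hle : ∀ (ξ : Qb), IsPrimitiveRoot ξ p → ∀ j : ℕ, IsPrimitiveRoot (ξ ^ j) p →
      w (1 - ξ) ≤ w (1 - ξ ^ j) := by
    intro ξ hξ j hj
    have h1 : 1 - ξ ^ j = (∑ i ∈ Finset.range j, ξ ^ i) * (1 - ξ) := by
      rw [← neg_sub ξ 1, mul_neg, geom_sum_mul]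
      ring
    have h2 : Bl w (w (1 - ξ)) (1 - ξ ^ j) := by
      rw [h1]
      exact h.mul_left (hint ξ hξ j) (Or.inr le_rfl)
    exact h2.resolve_left (hne _ hj)
  have heq : ∀ j : ℕ, IsPrimitiveRoot (ζ ^ j) p → w (1 - ζ ^ j) = w (1 - ζ) := by
    intro j hj
    have : NeZero p := ⟨hp.ne_zero⟩
    refine le_antisymm ?_ (hle ζ hζ j hj)
    obtain ⟨i, -, hi⟩ := hj.eq_pow_of_pow_eq_one hζ.pow_eq_one
    have h3 := hle (ζ ^ j) hj i (by rw [hi]; exact hζ)
    rwa [hi] at h3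
  obtain ⟨m, rfl⟩ : ∃ m, p = m + 1 := ⟨p - 1, (Nat.succ_pred_eq_of_pos hp.pos).symm⟩
  have h4 := hζ.prod_one_sub_pow_eq_order
  have h5 := congrArg w h4
  have hprim : ∀ k ∈ Finset.range m, IsPrimitiveRoot (ζ ^ (k + 1)) (m + 1) := by
    intro k hk
    rw [Finset.mem_range] at hk
    refine hζ.pow_of_coprime _ ?_
    rw [Nat.coprime_comm, Nat.Prime.coprime_iff_not_dvd hp]
    intro hdvd
    have := Nat.le_of_dvd (Nat.succ_pos k) hdvd
    omega
  rw [h.w_prod _ _ (fun k hk => hne _ (hprim k hk)),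
    Finset.sum_congr rfl (fun k hk => heq _ (hprim k hk)), Finset.sum_const, Finset.card_range,
    nsmul_eq_mul] at h5
  have h6 : w ((m : Qb) + 1) = 1 := by
    have := h.norm
    push_cast at this
    exact this
  rw [h6] at h5
  have hm : (m : ℝ) ≠ 0 := by
    rw [Nat.cast_ne_zero]
    rintro rfl
    exact hp.one_lt.ne rfl
  push_cast
  rw [add_sub_cancel_right, eq_div_iff hm, mul_comm]
  exact h5

/-- **p-th root lemma** -/
theorem exists_root (h : NVal A p w) (hp : p.Prime) {H : Subgroup GQ}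
    (hH : H ≤ A.decompositionSubgroup ℚ) {y : Qb} (hy : ∀ σ ∈ H, σ y = y) {t : ℝ}
    (ht : (p : ℝ) / (p - 1) < t) (hyt : Bl w t (y - 1)) :
    ∃ z : Qb, z ^ p = y ∧ (∀ σ ∈ H, σ z = z) ∧ (z = 1 ∨ 1 / ((p : ℝ) - 1) < w (z - 1)) := by
  have hp1 : (0 : ℝ) < (p : ℝ) - 1 := by
    have := hp.one_lt
    have : (1 : ℝ) < p := by exact_mod_cast this
    linarith
  have hp0 : (0 : ℝ) < p := by linarith
  rcases eq_or_ne y 1 with rfl | hy1
  · exact ⟨1, one_pow _, fun σ _ => map_one σ, Or.inl rfl⟩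
  have hw1 : t ≤ w (y - 1) := hyt.resolve_left (sub_ne_zero.2 hy1)
  have : NeZero (p : Qb) := ⟨Nat.cast_ne_zero.2 hp.ne_zero⟩
  obtain ⟨ζ, hζ⟩ := HasEnoughRootsOfUnity.exists_primitiveRoot Qb p
  obtain ⟨z0, hz0⟩ := IsAlgClosed.exists_pow_nat_eq y hp.pos
  have h1 := hζ.pow_sub_pow_eq_prod_sub_mul 1 z0 hp.pos
  rw [one_pow, hz0] at h1
  have hne : ∀ ξ ∈ Polynomial.nthRootsFinset p (1 : Qb), 1 - ξ * z0 ≠ 0 := by
    intro ξ hξ h0
    rw [Polynomial.mem_nthRootsFinset hp.pos] at hξ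
    apply hy1
    have h2 : (ξ * z0) ^ p = 1 := by rw [← sub_eq_zero.1 h0, one_pow]
    rwa [mul_pow, hξ, one_mul, hz0] at h2
  have hcard : (Polynomial.nthRootsFinset p (1 : Qb)).card = p := hζ.card_nthRootsFinset
  obtain ⟨ξ, hξ, hwξ⟩ : ∃ ξ ∈ Polynomial.nthRootsFinset p (1 : Qb),
      1 / ((p : ℝ) - 1) < w (1 - ξ * z0) := by
    by_contra hcon
    push Not at hcon
    have h2 := h.w_prod _ _ hne
    rw [← h1] at h2
    have h3 := Finset.sum_le_card_nsmul _ _ _ hcon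
    rw [← h2, hcard, nsmul_eq_mul, mul_one_div] at h3
    rw [← neg_sub, h.w_neg] at hw1
    linarith
  rw [Polynomial.mem_nthRootsFinset hp.pos] at hξ
  obtain ⟨z, hz⟩ : ∃ z, z = ξ * z0 := ⟨_, rfl⟩
  rw [← hz] at hwξ
  have hzp : z ^ p = y := by rw [hz, mul_pow, hξ, one_mul, hz0]
  have hz1 : z ≠ 1 := by
    rintro rfl
    rw [one_pow] at hzp
    exact hy1 hzp.symm
  have hpos1 : 0 < 1 / ((p : ℝ) - 1) := one_div_pos.2 hp1
  have hwz' : w (z - 1) = w (1 - z) := by rw [← neg_sub z 1, h.w_neg]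
  have hwz : w z = 0 ∧ z ≠ 0 := by
    have h2 : w (1 : Qb) < w (z - 1) := by
      rw [h.log.one, hwz']
      linarith
    have h3 := h.w_add_eq one_ne_zero (sub_ne_zero.2 hz1) h2
    rw [add_sub_cancel, h.log.one] at h3
    exact ⟨h3.2, h3.1⟩
  refine ⟨z, hzp, fun σ hσ => ?_, Or.inr (by rw [hwz']; exact hwξ)⟩
  by_contra hσz
  have h2 : (σ z / z) ^ p = 1 := by
    rw [div_pow, ← map_pow, hzp, hy σ hσ, div_self]
    rw [← hzp]
    exact pow_ne_zero _ hwz.2
  have h3 : σ z / z ≠ 1 := fun h0 => hσz ((div_eq_one_iff_eq hwz.2).1 h0)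
  have hfact : Fact p.Prime := ⟨hp⟩
  have h4 : IsPrimitiveRoot (σ z / z) p := IsPrimitiveRoot.iff_orderOf.2 (orderOf_eq_prime h2 h3)
  have h5 := h.w_one_sub hp h4
  have h6 : (1 - σ z / z) * z = (1 - σ z) - (1 - z) := by
    rw [sub_mul, div_mul_cancel₀ _ hwz.2]
    ring
  have h7 : Bl w (w (1 - z)) ((1 - σ z / z) * z) := by
    rw [h6]
    refine h.sub ?_ (Or.inr le_rfl)
    have : 1 - σ z = σ (1 - z) := by rw [map_sub, map_one]
    rw [this, Bl_smul h (hH hσ)]
    exact Or.inr le_rfl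
  have h8 : 1 - σ z / z ≠ 0 := sub_ne_zero.2 (Ne.symm h3)
  have h9 := h7.resolve_left (mul_ne_zero h8 hwz.2)
  rw [h.log.map_mul _ _ h8 hwz.2, h5, hwz.1, add_zero] at h9
  linarith

end NVal

end Fermat.Agent.TW
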