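import Fermat.Agent.TW.Unip
set_option autoImplicit false

/-!
# Vanishing of `H¹(G, ad⁰(1))` for the image of a two-dimensional representation
-/

namespace Fermat.Agent.TW

open Matrix

variable {Γ : Type*} [Group Γ] {k : Type*} [Field k]

theorem nil_add {n m : Mt k} (hn : n.trace = 0) (hm : m.trace = 0) :
    n * m + m * n = (n * m).trace • (1 : Mt k) := by
  rw [anticomm hn, hm, zero_smul, zero_add]

theorem eq_zero_of_traces {n m X : Mt k} (hn1 : n.trace = 0) (hn2 : n.det = 0)
    (hm1 : m.trace = 0) (hm2 : m.det = 0) (hs : (n * m).trace ≠ 0)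
    (h1 : X.trace = 0) (h2 : (X * n).trace = 0) (h3 : (X * m).trace = 0)
    (h4 : (X * (n * m)).trace = 0) : X = 0 := by
  set s := (n * m).trace with hs'
  have a1 : n * X * n = 0 := by rw [nil_mul_mul hn1 hn2, Matrix.trace_mul_comm, h2, zero_smul]
  have a2 : m * X * m = 0 := by rw [nil_mul_mul hm1 hm2, Matrix.trace_mul_comm, h3, zero_smul]
  have a3 : n * (m * X) * n = 0 := by
    rw [nil_mul_mul hn1 hn2, ← mul_assoc, Matrix.trace_mul_comm, h4, zero_smul]
  have a4 : m * (n * X) * m = 0 := by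
    have : (m * (n * X)).trace = 0 := by
      have e : m * (n * X) = s • X - (n * m) * X := by
        have := nil_add hn1 hm1
        rw [← hs'] at this
        rw [← mul_assoc, eq_sub_of_add_eq' this, sub_mul, smul_mul_assoc, one_mul]
      rw [e, Matrix.trace_sub, Matrix.trace_smul, h1, smul_zero, Matrix.trace_mul_comm, h4,
        sub_zero]
    rw [nil_mul_mul hm1 hm2, this, zero_smul]
  have e1 : (s * s) • X = (n * m + m * n) * X * (n * m + m * n) := by
    rw [nil_add hn1 hm1, ← hs', smul_mul_assoc, one_mul, mul_smul_comm, mul_one, smul_smul]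
  have e2 : (n * m + m * n) * X * (n * m + m * n)
      = (n * (m * X) * n) * m + n * (m * X * m) * n + m * (n * X * n) * m
        + (m * (n * X) * m) * n := by
    simp only [add_mul, mul_add, mul_assoc]
    abel
  rw [e2, a1, a2, a3, a4] at e1
  simp only [mul_zero, zero_mul, add_zero] at e1
  exact (smul_eq_zero.1 e1).resolve_left (mul_ne_zero hs hs)

theorem solve {n m C₁ C₂ : Mt k} (h2 : (2 : k) ≠ 0) (hn1 : n.trace = 0) (hn2 : n.det = 0)
    (hm1 : m.trace = 0) (hm2 : m.det = 0) (hs : (n * m).trace ≠ 0)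
    (a1 : C₁.trace = 0) (a2 : (C₁ * n).trace = 0) (b1 : C₂.trace = 0) (b2 : (C₂ * m).trace = 0)
    (ab : (C₁ * m).trace + (C₂ * n).trace = 0) :
    ∃ X : Mt k, X.trace = 0 ∧ n * X - X * n = C₁ ∧ m * X - X * m = C₂ := by
  obtain ⟨s, hs'⟩ : ∃ s, s = (n * m).trace := ⟨_, rfl⟩
  rw [← hs'] at hs
  have nn : n * n = 0 := sq_zero hn1 hn2
  have mm : m * m = 0 := sq_zero hm1 hm2
  have ac : C₁ * n = - (n * C₁) := by
    have := anticomm (C := C₁) (H := n) a1
    rw [hn1, a2, zero_smul, zero_smul, add_zero] at this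
    exact eq_neg_of_add_eq_zero_left this
  have nm := nil_add hn1 hm1
  rw [← hs'] at nm
  obtain ⟨X₁, hX₁⟩ : ∃ X₁ : Mt k, X₁ = s⁻¹ • (m * C₁) := ⟨_, rfl⟩
  have p1 : n * X₁ - X₁ * n = C₁ := by
    rw [hX₁, mul_smul_comm, smul_mul_assoc, ← smul_sub, mul_assoc m, ac, mul_neg, sub_neg_eq_add,
      ← mul_assoc, ← mul_assoc, ← add_mul, nm, smul_mul_assoc, one_mul, smul_smul,
      inv_mul_cancel₀ hs, one_smul]
  have p2 : m * X₁ - X₁ * m = - ((s⁻¹ * (C₁ * m).trace) • m) := by
    rw [hX₁, mul_smul_comm, smul_mul_assoc, ← mul_assoc, mm, zero_mul, smul_zero, zero_sub,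
      nil_mul_mul hm1 hm2, smul_smul, Matrix.trace_mul_comm]
  obtain ⟨α, hα⟩ : ∃ α, α = - (s⁻¹ * s⁻¹ * (C₂ * (n * m)).trace) := ⟨_, rfl⟩
  have tnm : (m * n).trace = s := by rw [Matrix.trace_mul_comm, hs']
  have key : C₂ = - ((s⁻¹ * (C₁ * m).trace) • m) + α • (m * n - n * m) := by
    rw [← sub_eq_zero]
    apply eq_zero_of_traces hn1 hn2 hm1 hm2 (by rw [← hs']; exact hs)
    · rw [Matrix.trace_sub, Matrix.trace_add, Matrix.trace_neg, Matrix.trace_smul,
        Matrix.trace_smul, Matrix.trace_sub, tnm, ← hs', hm1, b1]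
      simp
    · have e1 : (m * n - n * m) * n = - (n * m * n) := by
        rw [sub_mul, mul_assoc m n n, nn, mul_zero, zero_sub]
      have e2 : (n * m * n).trace = 0 := by
        rw [nil_mul_mul hn1 hn2, Matrix.trace_smul, hn1, smul_zero]
      rw [sub_mul, add_mul, neg_mul, smul_mul_assoc, smul_mul_assoc, e1, Matrix.trace_sub,
        Matrix.trace_add, Matrix.trace_neg, Matrix.trace_smul, Matrix.trace_smul,
        Matrix.trace_neg, e2, tnm]
      have : (C₂ * n).trace = - (C₁ * m).trace := by linear_combination ab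
      rw [this]
      simp only [smul_eq_mul, neg_zero, mul_zero, add_zero]
      field_simp
      ring
    · have e1 : (m * n - n * m) * m = (m * n * m) := by
        rw [sub_mul, mul_assoc n m m, mm, mul_zero, sub_zero]
      have e2 : (m * n * m).trace = 0 := by
        rw [nil_mul_mul hm1 hm2, Matrix.trace_smul, hm1, smul_zero]
      rw [sub_mul, add_mul, neg_mul, smul_mul_assoc, smul_mul_assoc, e1, Matrix.trace_sub,
        Matrix.trace_add, Matrix.trace_neg, Matrix.trace_smul, Matrix.trace_smul, e2, mm, b2]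
      simp
    · have e1 : (m * n - n * m) * (n * m) = - (s • (n * m)) := by
        rw [sub_mul, mul_assoc m n, ← mul_assoc n n m, nn, zero_mul, mul_zero, zero_sub,
          ← mul_assoc, nil_mul_mul hn1 hn2, ← hs', smul_mul_assoc]
      have e2 : m * (n * m) = s • m := by
        rw [← mul_assoc, nil_mul_mul hm1 hm2, tnm]
      rw [sub_mul, add_mul, neg_mul, smul_mul_assoc, smul_mul_assoc, e1, e2]
      simp only [Matrix.trace_sub, Matrix.trace_add, Matrix.trace_neg, Matrix.trace_smul,
        hm1, ← hs', hα, smul_eq_mul, mul_zero, neg_zero, zero_add]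
      field_simp
      ring
  obtain ⟨X, hX⟩ : ∃ X : Mt k, X = X₁ + α • n := ⟨_, rfl⟩
  have q1 : n * X - X * n = C₁ := by
    rw [hX, mul_add, add_mul, mul_smul_comm, smul_mul_assoc, nn, smul_zero, add_zero, add_zero, p1]
  have q2 : m * X - X * m = C₂ := by
    rw [hX, mul_add, add_mul, mul_smul_comm, smul_mul_assoc, add_sub_add_comm, p2, ← smul_sub,
      ← key]
  refine ⟨X - (X.trace / 2) • (1 : Mt k), ?_, ?_, ?_⟩
  · rw [Matrix.trace_sub, Matrix.trace_smul, Matrix.trace_one]
    simp only [Fintype.card_fin, smul_eq_mul, Nat.cast_ofNat]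
    field_simp
    ring
  · rw [mul_sub, sub_mul, mul_smul_comm, smul_mul_assoc, mul_one, one_mul]
    rw [← q1]; abel
  · rw [mul_sub, sub_mul, mul_smul_comm, smul_mul_assoc, mul_one, one_mul]
    rw [← q2]; abel

variable {r : Γ →* Mt k} {χ : Γ →* k} {c : Γ → Mt k}
variable {p : ℕ} [hp : Fact p.Prime] [CharP k p]

theorem Hyp.tau_zero [Finite k] (H : Hyp p r χ) (hp2 : p ≠ 2) (hc : IsCoc r χ c)
    (htr : ∀ g, (c g).trace = 0) (hker : ∀ g, r g = 1 → c g = 0)
    {g : Γ} (hg : χ g = 1) : tau r c g = 0 := by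
  have h2 : (2 : k) ≠ 0 := by simpa using cast_ne_zero (k := k) (p := p) Nat.prime_two hp2
  have hd : (r g).det = 1 := by rw [H.det, hg]
  have key : ∀ g : Γ, χ g = 1 → (r g).trace = 2 → tau r c g = 0 := by
    intro g hg ht
    by_cases h1 : r g = 1
    · rw [tau, hker g h1, zero_mul, Matrix.trace_zero]
    · exact H.tau_unip hp2 hc htr hker hg ht h1
  by_cases ht : (r g).trace ^ 2 = 4
  · have : ((r g).trace - 2) * ((r g).trace + 2) = 0 := by linear_combination ht
    rcases mul_eq_zero.1 this with h | h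
    · exact key g hg (sub_eq_zero.1 h)
    · have ht' : (r g).trace = -2 := by linear_combination h
      have hn : (r g + 1) ^ 2 = 0 := by
        rw [pow_two, mul_add, add_mul, cayley, ht', hd]
        simp only [mul_one, one_mul, one_smul, neg_smul, two_smul]
        abel
      have hnp : (r g) ^ p = -1 := by
        have h4 : (r g + 1) ^ p = 0 := by
          have : p = 2 + (p - 2) := by have := hp.out.two_le; omega
          rw [this, pow_add, hn, zero_mul]
        rw [add_pow_char_of_commute p (Commute.one_right (r g)), one_pow] at h4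
        exact eq_neg_of_add_eq_zero_left h4
      have hz : r (g ^ p) = -1 := by rw [map_pow, hnp]
      have hχz : χ (g ^ p) = 1 := by rw [map_pow, hg, one_pow]
      have hzi : r (g ^ p)⁻¹ = -1 := by
        have := r_mul_inv r (g ^ p)
        rw [hz, neg_mul, one_mul] at this
        rw [← this, neg_neg]
      have cz : c (g ^ p) = 0 := by
        have h5 := hc (g ^ p) (g ^ p)
        rw [hker (g ^ p * g ^ p) (by rw [map_mul, hz]; simp), hχz, hz, hzi, one_smul] at h5
        have h6 : (2 : k) • c (g ^ p) = 0 := by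
          rw [two_smul]
          simpa using h5.symm
        exact (smul_eq_zero.1 h6).resolve_left h2
      have c1 : c (g * g ^ p) = c g := by
        rw [hc, cz, mul_zero, zero_mul, smul_zero, add_zero]
      have r1 : r (g * g ^ p) = - r g := by rw [map_mul, hz, mul_neg, mul_one]
      have h7 := key (g * g ^ p) (by rw [map_mul, hg, hχz, mul_one])
        (by rw [r1, Matrix.trace_neg, ht', neg_neg])
      rw [tau, c1, r1, mul_neg, Matrix.trace_neg, neg_eq_zero] at h7
      exact h7
  · obtain ⟨N, hN, hN'⟩ := exists_pow_coprime p (A := r g) hd ht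
    exact hc.tau_eq_zero_of_pow hg hker hN hN'

/-- trace antisymmetry -/
theorem IsCoc.trace_mul (hc : IsCoc r χ c) {x y : Γ} (hx : χ x = 1) :
    (c x * r x * r y).trace + (c y * r y * r x).trace = tau r c (x * y) := by
  unfold tau
  rw [hc x y, hx, one_smul, map_mul, add_mul, Matrix.trace_add, ← mul_assoc]
  congr 1
  have : r x * c y * r x⁻¹ * (r x * r y) = r x * (c y * r y) := by
    calc r x * c y * r x⁻¹ * (r x * r y) = r x * c y * (r x⁻¹ * r x) * r y := by
          simp only [mul_assoc]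
      _ = _ := by rw [r_inv_mul, mul_one, mul_assoc]
  rw [this, Matrix.trace_mul_comm]

/-- A cocycle with vanishing trace function on a subgroup containing two unipotent elements
with distinct axes is a coboundary there. -/
theorem IsCoc.exists_coboundary (h2 : (2 : k) ≠ 0) (hc : IsCoc r χ c)
    (htr : ∀ g, (c g).trace = 0) (Δ : Subgroup Γ) (hΔ : ∀ x ∈ Δ, χ x = 1)
    (hτ : ∀ x ∈ Δ, tau r c x = 0) {g h : Γ} (hg : g ∈ Δ) (hh : h ∈ Δ)
    (hn1 : (r g - 1).trace = 0) (hn2 : (r g - 1).det = 0)
    (hm1 : (r h - 1).trace = 0) (hm2 : (r h - 1).det = 0)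
    (hs : ((r g - 1) * (r h - 1)).trace ≠ 0) :
    ∃ X : Mt k, X.trace = 0 ∧ ∀ x ∈ Δ, c x = r x * X * r x⁻¹ - X := by
  have tg := hτ g hg
  have th := hτ h hh
  have tgh := hτ _ (Δ.mul_mem hg hh)
  have e1 := hc.trace_mul (x := g) (y := h) (hΔ g hg)
  rw [tgh] at e1
  unfold tau at tg th
  obtain ⟨n, hn⟩ : ∃ n, n = r g - 1 := ⟨_, rfl⟩
  obtain ⟨m, hm⟩ : ∃ m, m = r h - 1 := ⟨_, rfl⟩
  rw [← hn] at hn1 hn2 hs
  rw [← hm] at hm1 hm2 hs
  have hrg : r g = 1 + n := by rw [hn]; abel
  have hrh : r h = 1 + m := by rw [hm]; abel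
  have nn : n * n = 0 := sq_zero hn1 hn2
  have mm : m * m = 0 := sq_zero hm1 hm2
  have a2 : (c g * r g * n).trace = 0 := by
    have : (c g * r g * n) = c g * r g - c g := by
      rw [hrg, mul_assoc, add_mul, one_mul, nn, add_zero, mul_add, mul_one]; abel
    rw [this, Matrix.trace_sub, tg, htr, sub_zero]
  have b2 : (c h * r h * m).trace = 0 := by
    have : (c h * r h * m) = c h * r h - c h := by
      rw [hrh, mul_assoc, add_mul, one_mul, mm, add_zero, mul_add, mul_one]; abel
    rw [this, Matrix.trace_sub, th, htr, sub_zero]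
  have ab : (c g * r g * m).trace + (c h * r h * n).trace = 0 := by
    have e2 : c g * r g * m = c g * r g * r h - c g * r g := by rw [hrh, mul_add, mul_one]; abel
    have e3 : c h * r h * n = c h * r h * r g - c h * r h := by
      rw [hrg, mul_add, mul_one]; abel
    rw [e2, e3, Matrix.trace_sub, Matrix.trace_sub, tg, th]
    linear_combination e1
  obtain ⟨X, hX0, hX1, hX2⟩ := solve h2 hn1 hn2 hm1 hm2 hs tg a2 th b2 ab
  refine ⟨X, hX0, ?_⟩
  -- the difference cocycle
  obtain ⟨c', hc'⟩ : ∃ c' : Γ → Mt k, ∀ x, c' x = c x - (χ x • (r x * X * r x⁻¹) - X) :=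
    ⟨_, fun _ => rfl⟩
  have hcoc : IsCoc r χ c' := by
    intro x y
    rw [hc', hc', hc', hc x y, map_mul, map_mul, _root_.mul_inv_rev, map_mul]
    simp only [mul_sub, sub_mul, smul_sub, mul_smul_comm, smul_mul_assoc, mul_smul, mul_assoc]
    abel
  have c'0 : ∀ x, x ∈ Δ → (r x * X - X * r x = c x * r x) → c' x = 0 := by
    intro x hx h
    rw [hc', hΔ x hx, one_smul]
    have : c x = (r x * X - X * r x) * r x⁻¹ := by
      rw [h, mul_assoc, r_mul_inv, mul_one]
    rw [this, sub_mul, mul_assoc X, r_mul_inv, mul_one, sub_self]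
  have c'g : c' g = 0 := c'0 g hg (by rw [← hX1, hrg]; simp only [add_mul, mul_add, one_mul, mul_one]; abel)
  have c'h : c' h = 0 := c'0 h hh (by rw [← hX2, hrh]; simp only [add_mul, mul_add, one_mul, mul_one]; abel)
  have c'gh : c' (g * h) = 0 := by rw [hcoc, c'g, c'h]; simp
  have τ' : ∀ x ∈ Δ, tau r c' x = 0 := by
    intro x hx
    have := hτ x hx
    unfold tau at this ⊢
    rw [hc', hΔ x hx, one_smul, sub_mul, Matrix.trace_sub, this, sub_mul, Matrix.trace_sub,
      mul_assoc, r_inv_mul, mul_one, Matrix.trace_mul_comm, sub_self, sub_self]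
  have fin : ∀ x ∈ Δ, c' x = 0 := by
    intro x hx
    have hz : ∀ y ∈ Δ, c' y = 0 → (c' x * r x * r y).trace = 0 := by
      intro y hy h0
      have := hcoc.trace_mul (x := x) (y := y) (hΔ x hx)
      rw [τ' _ (Δ.mul_mem hx hy), h0, zero_mul, zero_mul, Matrix.trace_zero, add_zero] at this
      exact this
    have z0 : (c' x * r x).trace = 0 := τ' x hx
    have z1 := hz g hg c'g
    have z2 := hz h hh c'h
    have z3 := hz _ (Δ.mul_mem hg hh) c'gh
    rw [map_mul, hrg, hrh] at z3
    rw [hrg] at z1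
    rw [hrh] at z2
    have y1 : (c' x * r x * n).trace = 0 := by
      rw [mul_add, mul_one, Matrix.trace_add, z0, zero_add] at z1; exact z1
    have y2 : (c' x * r x * m).trace = 0 := by
      rw [mul_add, mul_one, Matrix.trace_add, z0, zero_add] at z2; exact z2
    have y3 : (c' x * r x * (n * m)).trace = 0 := by
      have e : c' x * r x * ((1 + n) * (1 + m))
          = c' x * r x + c' x * r x * n + c' x * r x * m + c' x * r x * (n * m) := by
        simp only [add_mul, mul_add, one_mul, mul_one]; abel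
      rw [e, Matrix.trace_add, Matrix.trace_add, Matrix.trace_add, z0, y1, y2] at z3
      simpa using z3
    have h0 := eq_zero_of_traces hn1 hn2 hm1 hm2 hs z0 y1 y2 y3
    calc c' x = c' x * r x * r x⁻¹ := by rw [mul_assoc, r_mul_inv, mul_one]
      _ = 0 := by rw [h0, zero_mul]
  intro x hx
  have h0 := fin x hx
  rw [hc', hΔ x hx, one_smul, sub_eq_zero] at h0
  exact h0

end Fermat.Agent.TW
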