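import Fermat.Agent.TW.Vanish
set_option autoImplicit false

namespace Fermat.Agent.TW

open Matrix

variable {Γ : Type*} [Group Γ] {k : Type*} [Field k]
variable {r : Γ →* Mt k} {χ : Γ →* k} {c : Γ → Mt k}
variable {p : ℕ} [hp : Fact p.Prime] [CharP k p]

/-- subtracting a coboundary -/
theorem IsCoc.sub_coboundary (hc : IsCoc r χ c) (X : Mt k) :
    IsCoc r χ (fun x => c x - (χ x • (r x * X * r x⁻¹) - X)) := by
  intro x y
  beta_reduce
  rw [hc x y, map_mul, map_mul, _root_.mul_inv_rev, map_mul]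
  simp only [mul_sub, sub_mul, smul_sub, mul_smul_comm, smul_mul_assoc, mul_smul, mul_assoc]
  abel

theorem det_ne_zero (r : Γ →* Mt k) (g : Γ) : (r g).det ≠ 0 := by
  intro h
  have h7 : (r g * r g⁻¹).det = 1 := by rw [r_mul_inv, Matrix.det_one]
  rw [Matrix.det_mul, h, zero_mul] at h7
  exact zero_ne_one h7

theorem adj_eq_smul (r : Γ →* Mt k) (g : Γ) : (r g).adjugate = (r g).det • r g⁻¹ := by
  calc (r g).adjugate = (r g).adjugate * (r g * r g⁻¹) := by rw [r_mul_inv, mul_one]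
    _ = ((r g).adjugate * r g) * r g⁻¹ := by rw [mul_assoc]
    _ = _ := by rw [Matrix.adjugate_mul, smul_mul_assoc, one_mul]

/-- If `n` is a nonzero nilpotent matrix and no line is stable, a conjugate has a different axis -/
theorem exists_conj_trace_ne (r : Γ →* Mt k)
    (irr : ∀ v : Fin 2 → k, v ≠ 0 → ∃ γ, ∀ a : k, r γ *ᵥ v ≠ a • v)
    {n : Mt k} (hn0 : n ≠ 0) (hn1 : n.trace = 0) (hn2 : n.det = 0) :
    ∃ γ, (n * (r γ * n * r γ⁻¹)).trace ≠ 0 := by
  obtain ⟨v, hv, hline⟩ := exists_line hn0 hn1 hn2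
  obtain ⟨γ, hγ⟩ := irr v hv
  refine ⟨γ, fun h0 => ?_⟩
  obtain ⟨a, ha⟩ := hline (r γ) (by
    rw [adj_eq_smul, mul_smul_comm, Matrix.trace_smul]
    have : n * r γ * n * r γ⁻¹ = n * (r γ * n * r γ⁻¹) := by simp only [mul_assoc]
    rw [this, h0, smul_zero])
  exact hγ a ha

theorem eq_zero_of_commute {n m Y : Mt k} (h2 : (2 : k) ≠ 0) (hn0 : n ≠ 0) (hm0 : m ≠ 0)
    (hn1 : n.trace = 0) (hn2 : n.det = 0)
    (hm1 : m.trace = 0) (hm2 : m.det = 0) (hs : (n * m).trace ≠ 0)
    (hY : Y.trace = 0) (h1 : Y * n = n * Y) (h3 : Y * m = m * Y) : Y = 0 := by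
  have nn : n * n = 0 := sq_zero hn1 hn2
  have mm : m * m = 0 := sq_zero hm1 hm2
  have a1 : (Y * n).trace = 0 := by
    have e : n * Y * n = 0 := by rw [mul_assoc, h1, ← mul_assoc, nn, zero_mul]
    rw [nil_mul_mul hn1 hn2] at e
    have := (smul_eq_zero.1 e).resolve_right hn0
    rwa [Matrix.trace_mul_comm] at this
  have a2 : (Y * m).trace = 0 := by
    have e : m * Y * m = 0 := by rw [mul_assoc, h3, ← mul_assoc, mm, zero_mul]
    rw [nil_mul_mul hm1 hm2] at e
    have := (smul_eq_zero.1 e).resolve_right hm0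
    rwa [Matrix.trace_mul_comm] at this
  apply eq_zero_of_traces hn1 hn2 hm1 hm2 hs hY a1 a2
  have e1 : (Y * (n * m)).trace = (Y * (m * n)).trace := by
    calc (Y * (n * m)).trace = (n * (Y * m)).trace := by rw [← mul_assoc, h1, mul_assoc]
      _ = (Y * m * n).trace := Matrix.trace_mul_comm _ _
      _ = _ := by rw [mul_assoc]
  have e2 : (Y * (n * m)).trace + (Y * (m * n)).trace = 0 := by
    rw [← Matrix.trace_add, ← mul_add, nil_add hn1 hm1, mul_smul_comm, mul_one,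
      Matrix.trace_smul, hY, smul_zero]
  rw [← e1] at e2
  have : (2 : k) * (Y * (n * m)).trace = 0 := by linear_combination e2
  exact (mul_eq_zero.1 this).resolve_left h2

theorem averaging [Finite k] (hc : IsCoc r χ c) (hker : ∀ g, r g = 1 → c g = 0)
    (htr : ∀ g, (c g).trace = 0)
    (hp : ∀ g, r g ^ p = 1 → r g = 1) :
    ∃ X : Mt k, X.trace = 0 ∧ ∀ g, c g = χ g • (r g * X * r g⁻¹) - X := by
  classical
  have : Finite (Mt k) := inferInstanceAs (Finite (Fin 2 → Fin 2 → k))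
  let r' : Γ →* (Mt k)ˣ := r.toHomUnits
  have hr' : ∀ g, ((r' g : (Mt k)ˣ) : Mt k) = r g := fun g => rfl
  let G := r'.range
  have : Fintype G := Fintype.ofFinite G
  have hcard : ((Fintype.card G : ℕ) : k) ≠ 0 := by
    intro h0
    rw [CharP.cast_eq_zero_iff k p] at h0
    obtain ⟨⟨y, g, rfl⟩, hy⟩ := exists_prime_orderOf_dvd_card p h0
    have h1 : r' g ^ p = 1 := by
      have := pow_orderOf_eq_one (⟨r' g, g, rfl⟩ : G)
      rw [hy] at this
      exact congrArg Subtype.val this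
    have h2 : r g = 1 := hp g (by
      rw [← hr', ← Units.val_pow_eq_pow_val, h1, Units.val_one])
    have h3 : (⟨r' g, g, rfl⟩ : G) = 1 := by
      apply Subtype.ext
      apply Units.ext
      rw [hr', h2]
      rfl
    rw [h3, orderOf_one] at hy
    exact (Fact.out : p.Prime).one_lt.ne hy
  choose s hs using fun y : G => y.2
  have hdep : ∀ g h, r g = r h → c g = c h := by
    intro g h hgh
    have h1 : r (h⁻¹ * g) = 1 := by rw [map_mul, hgh, r_inv_mul]
    have h2 : g = h * (h⁻¹ * g) := by group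
    conv_lhs => rw [h2]
    rw [hc, hker _ h1, mul_zero, zero_mul, smul_zero, add_zero]
  let C : G → Mt k := fun y => c (s y)
  have hC : ∀ g (y : G), C (⟨r' g, g, rfl⟩ * y) = c g + χ g • (r g * C y * r g⁻¹) := by
    intro g y
    change c (s _) = _
    rw [← hc g (s y)]
    apply hdep
    rw [← hr', hs, map_mul, ← hr', ← hr', hs]
    rfl
  obtain ⟨S, hS⟩ : ∃ S, S = ∑ y, C y := ⟨_, rfl⟩
  have hSt : S.trace = 0 := by
    rw [hS, Matrix.trace_sum]
    exact Finset.sum_eq_zero (fun y _ => htr _)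
  have key : ∀ g, S = (Fintype.card G : k) • c g + χ g • (r g * S * r g⁻¹) := by
    intro g
    have h1 : ∑ y, C (⟨r' g, g, rfl⟩ * y) = S := by
      rw [hS]
      exact Fintype.sum_equiv (Equiv.mulLeft (⟨r' g, g, rfl⟩ : G)) _ _ (fun y => rfl)
    have h2 : ∑ y, C (⟨r' g, g, rfl⟩ * y)
        = (Fintype.card G : k) • c g + χ g • (r g * S * r g⁻¹) := by
      rw [Finset.sum_congr rfl (fun y _ => hC g y), Finset.sum_add_distrib, Finset.sum_const,
        Finset.card_univ, ← Finset.smul_sum, ← Finset.sum_mul, ← Finset.mul_sum, ← hS,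
        Nat.cast_smul_eq_nsmul]
    rw [← h2, h1]
  refine ⟨-((Fintype.card G : k)⁻¹ • S), ?_, fun g => ?_⟩
  · rw [Matrix.trace_neg, Matrix.trace_smul, hSt, smul_zero, neg_zero]
  · have h1 := key g
    have h2 : (Fintype.card G : k) • c g = S - χ g • (r g * S * r g⁻¹) := by
      rw [eq_sub_iff_add_eq]; exact h1.symm
    have h3 : c g = (Fintype.card G : k)⁻¹ • (S - χ g • (r g * S * r g⁻¹)) := by
      rw [← h2, smul_smul, inv_mul_cancel₀ hcard, one_smul]
    rw [h3]
    simp only [mul_neg, neg_mul, mul_smul_comm, smul_mul_assoc, smul_neg, smul_sub]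
    rw [smul_comm]
    abel

/-- **Vanishing theorem**: a cocycle with values in `ad⁰(1)` (twist by the determinant), trivial
on the kernel of `r`, is a coboundary. -/
theorem Hyp.exists_coboundary [Finite k] (H : Hyp p r χ) (hp2 : p ≠ 2) (hc : IsCoc r χ c)
    (htr : ∀ g, (c g).trace = 0) (hker : ∀ g, r g = 1 → c g = 0) :
    ∃ X : Mt k, X.trace = 0 ∧ ∀ g, c g = χ g • (r g * X * r g⁻¹) - X := by
  have h2 : (2 : k) ≠ 0 := by simpa using cast_ne_zero (k := k) (p := p) Nat.prime_two hp2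
  by_cases hex : ∀ g, r g ^ p = 1 → r g = 1
  · exact averaging hc hker htr hex
  push Not at hex
  obtain ⟨g, hg, hg1⟩ := hex
  obtain ⟨hn1, hn2⟩ := unip_of_pow p hg
  have hn0 : r g - 1 ≠ 0 := sub_ne_zero.2 hg1
  have hχg : χ g = 1 := by
    rw [← H.det]
    have := det_sub_one (r g)
    rw [hn2] at this
    have h3 := trace_sub_one (r g)
    rw [hn1] at h3
    linear_combination -this - h3
  obtain ⟨γ, hγ⟩ := exists_conj_trace_ne r H.irr hn0 hn1 hn2
  obtain ⟨h, hh⟩ : ∃ h, h = γ * g * γ⁻¹ := ⟨_, rfl⟩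
  have hm : r h - 1 = r γ * (r g - 1) * r γ⁻¹ := by
    rw [hh, map_mul, map_mul, mul_sub, sub_mul, mul_one, r_mul_inv]
  have hχh : χ h = 1 := by
    have : χ γ * χ γ⁻¹ = 1 := by rw [← map_mul, mul_inv_cancel, map_one]
    rw [hh, map_mul, map_mul, hχg, mul_one, this]
  have hm1 : (r h - 1).trace = 0 := by rw [hm, trace_conj, hn1]
  have hm2 : (r h - 1).det = 0 := by rw [hm, Matrix.det_mul, Matrix.det_mul, hn2]; ring
  have hs : ((r g - 1) * (r h - 1)).trace ≠ 0 := by rw [hm]; exact hγ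
  have hm0 : r h - 1 ≠ 0 := by
    intro h0
    rw [h0, mul_zero, Matrix.trace_zero] at hs
    exact hs rfl
  let Δ : Subgroup Γ := χ.ker
  have hΔ : ∀ x, x ∈ Δ ↔ χ x = 1 := fun x => MonoidHom.mem_ker
  obtain ⟨X, hX0, hX⟩ := hc.exists_coboundary h2 htr Δ (fun x hx => (hΔ x).1 hx)
    (fun x hx => H.tau_zero hp2 hc htr hker ((hΔ x).1 hx)) ((hΔ g).2 hχg) ((hΔ h).2 hχh)
    hn1 hn2 hm1 hm2 hs
  refine ⟨X, hX0, fun y => ?_⟩
  obtain ⟨c', hc'⟩ : ∃ c' : Γ → Mt k, c' = fun x => c x - (χ x • (r x * X * r x⁻¹) - X) :=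
    ⟨_, rfl⟩
  have hcoc : IsCoc r χ c' := by rw [hc']; exact hc.sub_coboundary X
  have h0 : ∀ x, χ x = 1 → c' x = 0 := by
    intro x hx
    rw [hc']
    beta_reduce
    rw [hX x ((hΔ x).2 hx), hx, one_smul, sub_self]
  have hcomm : ∀ x, χ x = 1 → c' y * r x = r x * c' y := by
    intro x hx
    have e1 : c' (x * y) = r x * c' y * r x⁻¹ := by
      rw [hcoc, h0 x hx, hx, one_smul, zero_add]
    have e2 : c' (x * y) = c' y := by
      have : x * y = y * (y⁻¹ * x * y) := by group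
      rw [this, hcoc, h0 (y⁻¹ * x * y) (by
        have : χ y⁻¹ * χ y = 1 := by rw [← map_mul, inv_mul_cancel, map_one]
        rw [map_mul, map_mul, hx, mul_one, this]), mul_zero, zero_mul, smul_zero, add_zero]
    rw [e2] at e1
    calc c' y * r x = r x * c' y * r x⁻¹ * r x := by rw [← e1]
      _ = _ := by rw [mul_assoc, r_inv_mul, mul_one]
  have hY0 : (c' y).trace = 0 := by
    rw [hc']
    beta_reduce
    rw [Matrix.trace_sub, Matrix.trace_sub, Matrix.trace_smul, trace_conj, htr, hX0]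
    simp
  have := eq_zero_of_commute h2 hn0 hm0 hn1 hn2 hm1 hm2 hs hY0
    (by rw [mul_sub, sub_mul, mul_one, one_mul, hcomm g hχg])
    (by rw [mul_sub, sub_mul, mul_one, one_mul, hcomm h hχh])
  rw [hc'] at this
  beta_reduce at this
  exact sub_eq_zero.1 this

end Fermat.Agent.TW
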